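/-
Program H (S18), chapter RED/PUR, helper8: the GAUSS RING over an arbitrary discrete valuation ring.

Generic re-run of `IG/VAL/ZlRed18` + `IG/VAL/GaussRing18` (helper18), which were hard-wired to
`(ℚ, ℤ_(ℓ), ZMod ℓ)`.  Here `K` is any field, `O : ValuationSubring K` with a uniformiser `π`
(`IsUnif O π`: the maximal ideal is `(π)`, `π ≠ 0`, and `⋂ (π^n) = 0`; true for a DVR with `π`
irreducible), `κ := IsLocalRing.ResidueField O`.

* `embK : O((q)) →+* K((q))` (injective), `redL : O((q)) →+* κ((q))` (kernel `= π·`), content extraction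
  `exists_eq_pow_mul`;
* `gaussRing O : Subring K((q))` (`f·s = a`, `a, s ∈ O((q))`, `s̃ ≠ 0`), `gaussRed : gaussRing O →+* κ((q))`,
  kernel `= π·gaussRing`, elements of nonzero residue are invertible in the Gauss ring;
* `fracField O : IntermediateField K K((q))` (`= Frac O((q))`), every nonzero element is `π^(i-j)·unit`,
  `mem_or_inv_mem`; `gaussVS O E hE : ValuationSubring E` for `E ≤ fracField O`, with residue map
  `gaussVSRed`.
-/
import Mathlib
import Fermat.Prelude.Def_ModularCurve_LaurentCoeff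

set_option autoImplicit false
set_option linter.unusedSectionVars false

noncomputable section

open HahnSeries ModularCurve

namespace Fermat.Agent.RED.PUR.GaussGen8

variable {K : Type*} [Field K] (O : ValuationSubring K)

/-- `π` is a uniformiser of the (discrete) valuation ring `O`. -/
structure IsUnif (π : ↥O) : Prop where
  max_eq : IsLocalRing.maximalIdeal ↥O = Ideal.span {π}
  ne_zero : π ≠ 0
  sep : ∀ x : ↥O, x ≠ 0 → ∃ n : ℕ, ¬ π ^ (n + 1) ∣ x

theorem isUnif_of_irreducible [IsDiscreteValuationRing ↥O] {π : ↥O} (hπ : Irreducible π) :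
    IsUnif O π where
  max_eq := hπ.maximalIdeal_eq
  ne_zero := hπ.ne_zero
  sep := by
    intro x hx
    obtain ⟨n, u, rfl⟩ := IsDiscreteValuationRing.eq_unit_mul_pow_irreducible hx hπ
    refine ⟨n, ?_⟩
    rintro ⟨c, hc⟩
    have h1 : π ^ n * (u : ↥O) = π ^ n * (π * c) := by
      rw [mul_comm, hc, pow_succ]; ring
    have h2 := mul_left_cancel₀ (pow_ne_zero n hπ.ne_zero) h1
    exact hπ.not_isUnit (isUnit_of_mul_isUnit_left (h2 ▸ u.isUnit))

/-- The residue field. -/
abbrev Res : Type _ := IsLocalRing.ResidueField ↥O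

/-- The residue map. -/
abbrev res0 : ↥O →+* Res O := IsLocalRing.residue ↥O

variable {O}

theorem res0_eq_zero_iff {π : ↥O} (hπ : IsUnif O π) (x : ↥O) :
    res0 O x = 0 ↔ ∃ x' : ↥O, x = π * x' := by
  rw [IsLocalRing.residue_eq_zero_iff, hπ.max_eq, Ideal.mem_span_singleton]
  rfl

theorem res0_unif {π : ↥O} (hπ : IsUnif O π) : res0 O π = 0 :=
  (res0_eq_zero_iff hπ π).mpr ⟨1, (mul_one π).symm⟩

variable (O)

/-! ### The coefficient maps -/

/-- `O((q)) → K((q))`. -/
def embK : LaurentSeries ↥O →+* LaurentSeries K := coeffMap O.subtype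

/-- `O((q)) → κ((q))`, coefficientwise reduction. -/
def redL : LaurentSeries ↥O →+* LaurentSeries (Res O) := coeffMap (res0 O)

@[simp] theorem embK_coeff (a : LaurentSeries ↥O) (k : ℤ) :
    (embK O a).coeff k = ((a.coeff k : ↥O) : K) := rfl

@[simp] theorem redL_coeff (a : LaurentSeries ↥O) (k : ℤ) :
    (redL O a).coeff k = res0 O (a.coeff k) := rfl

theorem embK_injective : Function.Injective (embK O) := by
  intro a b h
  ext k
  have := congrArg (fun x => HahnSeries.coeff x k) h
  simpa using this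

theorem embK_eq_zero_iff (a : LaurentSeries ↥O) : embK O a = 0 ↔ a = 0 := by
  rw [← map_zero (embK O)]; exact (embK_injective O).eq_iff

theorem coeffMap_C {R S : Type*} [CommRing R] [CommRing S] (f : R →+* S) (r : R) :
    coeffMap f (HahnSeries.C r) = HahnSeries.C (f r) := by
  rw [HahnSeries.C_apply, HahnSeries.C_apply, coeffMap_single]

theorem embK_C (r : ↥O) : embK O (HahnSeries.C r) = HahnSeries.C (r : K) := coeffMap_C _ r

theorem redL_C (r : ↥O) : redL O (HahnSeries.C r) = HahnSeries.C (res0 O r) := coeffMap_C _ r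

theorem C_mul_coeff {R : Type*} [CommRing R] (r : R) (a : LaurentSeries R) (k : ℤ) :
    (HahnSeries.C r * a).coeff k = r * a.coeff k := by
  rw [HahnSeries.C_mul_eq_smul, HahnSeries.coeff_smul, smul_eq_mul]

variable {O}

theorem redL_C_unif {π : ↥O} (hπ : IsUnif O π) : redL O (HahnSeries.C π) = 0 := by
  rw [redL_C, res0_unif hπ, map_zero]

theorem C_unif_ne_zero {π : ↥O} (hπ : IsUnif O π) : (HahnSeries.C π : LaurentSeries ↥O) ≠ 0 := by
  intro h
  have := congrArg (fun x => HahnSeries.coeff x 0) h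
  simp only [HahnSeries.C_apply, HahnSeries.coeff_single_same, HahnSeries.coeff_zero] at this
  exact hπ.ne_zero this

/-- "division by `c`" on `O` (zero on non-multiples). -/
def divBy (c : ↥O) (x : ↥O) : ↥O :=
  open Classical in if h : ∃ x' : ↥O, x = c * x' then h.choose else 0

theorem mul_divBy {c x : ↥O} (h : ∃ x' : ↥O, x = c * x') : c * divBy c x = x := by
  rw [divBy, dif_pos h]
  exact h.choose_spec.symm

theorem divBy_zero {c : ↥O} (hc : c ≠ 0) : divBy c 0 = 0 := by
  have h : ∃ x' : ↥O, (0 : ↥O) = c * x' := ⟨0, (mul_zero c).symm⟩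
  have := mul_divBy h
  exact (mul_eq_zero.mp this).resolve_left hc

/-- coefficientwise division of a series all of whose coefficients are multiples of `c`. -/
theorem exists_eq_C_mul {c : ↥O} (hc : c ≠ 0) (a : LaurentSeries ↥O)
    (h : ∀ k, ∃ x' : ↥O, a.coeff k = c * x') :
    ∃ a' : LaurentSeries ↥O, a = HahnSeries.C c * a' := by
  refine ⟨a.map (⟨divBy c, divBy_zero hc⟩ : ZeroHom ↥O ↥O), ?_⟩
  refine HahnSeries.ext (funext fun k => ?_)
  rw [C_mul_coeff, HahnSeries.map_coeff]
  exact (mul_divBy (h k)).symm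

/-- The kernel of `redL` consists of the multiples of `π`. -/
theorem redL_eq_zero_iff {π : ↥O} (hπ : IsUnif O π) (a : LaurentSeries ↥O) :
    redL O a = 0 ↔ ∃ a' : LaurentSeries ↥O, a = HahnSeries.C π * a' := by
  constructor
  · intro h
    refine exists_eq_C_mul hπ.ne_zero a fun k => ?_
    have hk : res0 O (a.coeff k) = 0 := by
      have := congrArg (fun x => HahnSeries.coeff x k) h
      simpa using this
    exact (res0_eq_zero_iff hπ _).mp hk
  · rintro ⟨a', rfl⟩
    rw [map_mul, redL_C_unif hπ, zero_mul]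

/-- Extraction of the `π`-content: a nonzero Laurent series over `O` is `π^i` times a series with
nonzero reduction. -/
theorem exists_eq_pow_mul {π : ↥O} (hπ : IsUnif O π) (a : LaurentSeries ↥O) (ha : a ≠ 0) :
    ∃ (i : ℕ) (a₀ : LaurentSeries ↥O), a = HahnSeries.C π ^ i * a₀ ∧ redL O a₀ ≠ 0 := by
  classical
  obtain ⟨k, hk⟩ : ∃ k, a.coeff k ≠ 0 := by
    by_contra hcon
    push Not at hcon
    exact ha (HahnSeries.ext (funext hcon))
  have hex : ∃ n : ℕ, ∃ k, ¬ π ^ (n + 1) ∣ a.coeff k := by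
    obtain ⟨n, hn⟩ := hπ.sep _ hk
    exact ⟨n, k, hn⟩
  set n₀ := Nat.find hex with hn₀
  obtain ⟨k₀, hk₀⟩ := Nat.find_spec hex
  have hall : ∀ k, π ^ n₀ ∣ a.coeff k := by
    intro k
    rcases Nat.eq_zero_or_pos n₀ with h0 | hpos
    · rw [h0, pow_zero]; exact one_dvd _
    · have hmin := Nat.find_min hex (m := n₀ - 1) (by omega)
      push Not at hmin
      have := hmin k
      rwa [Nat.sub_add_cancel hpos] at this
  obtain ⟨a₀, ha₀⟩ := exists_eq_C_mul (pow_ne_zero n₀ hπ.ne_zero) a hall
  refine ⟨n₀, a₀, by rw [ha₀, map_pow], ?_⟩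
  intro hred
  obtain ⟨a₁, ha₁⟩ := (redL_eq_zero_iff hπ a₀).mp hred
  apply hk₀
  have hcoef : a.coeff k₀ = π ^ n₀ * (π * a₁.coeff k₀) := by
    have := congrArg (fun x => HahnSeries.coeff x k₀) ha₀
    rw [this, C_mul_coeff, ha₁, C_mul_coeff]
  rw [hcoef]
  exact ⟨a₁.coeff k₀, by rw [pow_succ, mul_assoc]⟩

variable (O)

/-! ### The Gauss ring -/

/-- `f * s = a` with `a, s` integral and `s` of nonzero reduction. -/
def IsRep (f : LaurentSeries K) (a s : LaurentSeries ↥O) : Prop :=
  redL O s ≠ 0 ∧ f * embK O s = embK O a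

variable {O}

theorem IsRep.s_ne_zero {f : LaurentSeries K} {a s : LaurentSeries ↥O} (h : IsRep O f a s) :
    s ≠ 0 := fun h0 => h.1 (by rw [h0, map_zero])

theorem IsRep.embK_s_ne_zero {f : LaurentSeries K} {a s : LaurentSeries ↥O}
    (h : IsRep O f a s) : embK O s ≠ 0 := fun h0 => h.s_ne_zero ((embK_eq_zero_iff O s).mp h0)

theorem IsRep.eq_div {f : LaurentSeries K} {a s : LaurentSeries ↥O} (h : IsRep O f a s) :
    f = embK O a / embK O s := by
  rw [eq_div_iff h.embK_s_ne_zero]; exact h.2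

theorem IsRep.add {f g : LaurentSeries K} {a s b t : LaurentSeries ↥O}
    (h : IsRep O f a s) (h' : IsRep O g b t) : IsRep O (f + g) (a * t + b * s) (s * t) := by
  refine ⟨by rw [map_mul]; exact mul_ne_zero h.1 h'.1, ?_⟩
  rw [map_mul, map_add, map_mul, map_mul, ← h.2, ← h'.2]; ring

theorem IsRep.mul {f g : LaurentSeries K} {a s b t : LaurentSeries ↥O}
    (h : IsRep O f a s) (h' : IsRep O g b t) : IsRep O (f * g) (a * b) (s * t) := by
  refine ⟨by rw [map_mul]; exact mul_ne_zero h.1 h'.1, ?_⟩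
  rw [map_mul, map_mul, ← h.2, ← h'.2]; ring

theorem IsRep.neg {f : LaurentSeries K} {a s : LaurentSeries ↥O}
    (h : IsRep O f a s) : IsRep O (-f) (-a) s :=
  ⟨h.1, by rw [map_neg, ← h.2]; ring⟩

theorem isRep_embK (a : LaurentSeries ↥O) : IsRep O (embK O a) a 1 :=
  ⟨by rw [map_one]; exact one_ne_zero, by rw [map_one, mul_one]⟩

/-- two representations of the same element have the same reduction quotient. -/
theorem IsRep.red_div_eq {f : LaurentSeries K} {a s b t : LaurentSeries ↥O}
    (h : IsRep O f a s) (h' : IsRep O f b t) : redL O a / redL O s = redL O b / redL O t := by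
  rw [div_eq_div_iff h.1 h'.1]
  have : embK O (a * t) = embK O (b * s) := by
    rw [map_mul, map_mul, ← h.2, ← h'.2]; ring
  have := embK_injective O this
  rw [← map_mul, ← map_mul, this]

variable (O)

/-- The Gauss ring as a subring of `K((q))`. -/
def gaussRing : Subring (LaurentSeries K) where
  carrier := {f | ∃ a s, IsRep O f a s}
  mul_mem' := by
    rintro f g ⟨a, s, h⟩ ⟨b, t, h'⟩
    exact ⟨_, _, h.mul h'⟩
  one_mem' := ⟨1, 1, by simpa using isRep_embK (O := O) 1⟩
  add_mem' := by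
    rintro f g ⟨a, s, h⟩ ⟨b, t, h'⟩
    exact ⟨_, _, h.add h'⟩
  zero_mem' := ⟨0, 1, by simpa using isRep_embK (O := O) 0⟩
  neg_mem' := by
    rintro f ⟨a, s, h⟩
    exact ⟨_, _, h.neg⟩

theorem mem_gaussRing_iff (f : LaurentSeries K) : f ∈ gaussRing O ↔ ∃ a s, IsRep O f a s := Iff.rfl

theorem embK_mem (a : LaurentSeries ↥O) : embK O a ∈ gaussRing O := ⟨a, 1, isRep_embK a⟩

/-- underlying function of the residue map. -/
def gaussRedFun (f : gaussRing O) : LaurentSeries (Res O) :=
  redL O f.2.choose / redL O f.2.choose_spec.choose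

theorem gaussRedFun_eq {f : gaussRing O} {a s : LaurentSeries ↥O}
    (h : IsRep O (f : LaurentSeries K) a s) :
    gaussRedFun O f = redL O a / redL O s :=
  IsRep.red_div_eq f.2.choose_spec.choose_spec h

/-- The residue map of the Gauss ring. -/
def gaussRed : gaussRing O →+* LaurentSeries (Res O) where
  toFun := gaussRedFun O
  map_one' := by
    have h : IsRep O ((1 : gaussRing O) : LaurentSeries K) 1 1 := by
      simpa using isRep_embK (O := O) 1
    rw [gaussRedFun_eq O h, map_one, div_one]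
  map_zero' := by
    have h : IsRep O ((0 : gaussRing O) : LaurentSeries K) 0 1 := by
      simpa using isRep_embK (O := O) 0
    rw [gaussRedFun_eq O h, map_zero, zero_div]
  map_mul' f g := by
    obtain ⟨a, s, h⟩ := f.2
    obtain ⟨b, t, h'⟩ := g.2
    have hm : IsRep O ((f * g : gaussRing O) : LaurentSeries K) (a * b) (s * t) := h.mul h'
    rw [gaussRedFun_eq O hm, gaussRedFun_eq O h, gaussRedFun_eq O h', map_mul, map_mul,
      mul_div_mul_comm]
  map_add' f g := by
    obtain ⟨a, s, h⟩ := f.2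
    obtain ⟨b, t, h'⟩ := g.2
    have hm : IsRep O ((f + g : gaussRing O) : LaurentSeries K) (a * t + b * s) (s * t) := h.add h'
    rw [gaussRedFun_eq O hm, gaussRedFun_eq O h, gaussRedFun_eq O h', map_mul, map_add, map_mul,
      map_mul, div_add_div _ _ h.1 h'.1, mul_comm (redL O b) (redL O s)]

theorem gaussRed_eq {f : gaussRing O} {a s : LaurentSeries ↥O}
    (h : IsRep O (f : LaurentSeries K) a s) : gaussRed O f = redL O a / redL O s :=
  gaussRedFun_eq O h

theorem gaussRed_embK (a : LaurentSeries ↥O) :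
    gaussRed O ⟨embK O a, embK_mem O a⟩ = redL O a := by
  rw [gaussRed_eq O (f := ⟨embK O a, embK_mem O a⟩) (isRep_embK a), map_one, div_one]

theorem C_mem (c : ↥O) : (HahnSeries.C (c : K) : LaurentSeries K) ∈ gaussRing O := by
  rw [← embK_C]; exact embK_mem O _

/-- a constant of `O` as an element of the Gauss ring. -/
def constG (c : ↥O) : gaussRing O := ⟨HahnSeries.C (c : K), C_mem O c⟩

theorem gaussRed_constG (c : ↥O) : gaussRed O (constG O c) = HahnSeries.C (res0 O c) := by
  have h : IsRep O ((constG O c : gaussRing O) : LaurentSeries K) (HahnSeries.C c) 1 := by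
    have := isRep_embK (O := O) (HahnSeries.C c)
    rwa [embK_C] at this
  rw [gaussRed_eq O h, map_one, div_one, redL_C]

variable {O}

theorem gaussRed_unif {π : ↥O} (hπ : IsUnif O π) : gaussRed O (constG O π) = 0 := by
  rw [gaussRed_constG, res0_unif hπ, map_zero]

/-- The kernel of the residue map is generated by `π`. -/
theorem gaussRed_eq_zero_iff {π : ↥O} (hπ : IsUnif O π) (f : gaussRing O) :
    gaussRed O f = 0 ↔ ∃ g : gaussRing O, f = constG O π * g := by
  constructor
  · intro h0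
    obtain ⟨a, s, h⟩ := f.2
    rw [gaussRed_eq O h, div_eq_zero_iff] at h0
    have ha : redL O a = 0 := h0.resolve_right h.1
    obtain ⟨a', rfl⟩ := (redL_eq_zero_iff hπ a).mp ha
    have hg : IsRep O (embK O a' / embK O s) a' s :=
      ⟨h.1, div_mul_cancel₀ _ h.embK_s_ne_zero⟩
    refine ⟨⟨_, a', s, hg⟩, Subtype.ext ?_⟩
    show (f : LaurentSeries K) = HahnSeries.C (π : K) * (embK O a' / embK O s)
    rw [h.eq_div, map_mul, embK_C, mul_div_assoc]
  · rintro ⟨g, rfl⟩
    rw [map_mul, gaussRed_unif hπ, zero_mul]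

variable (O)

/-- Elements with nonzero residue are units of the Gauss ring. -/
theorem inv_mem_of_gaussRed_ne_zero (f : gaussRing O) (hf : gaussRed O f ≠ 0) :
    (f : LaurentSeries K)⁻¹ ∈ gaussRing O := by
  obtain ⟨a, s, h⟩ := f.2
  rw [gaussRed_eq O h] at hf
  have ha : redL O a ≠ 0 := fun h0 => hf (by rw [h0, zero_div])
  have ha0 : embK O a ≠ 0 := fun h0 => ha (by rw [(embK_eq_zero_iff O a).mp h0, map_zero])
  refine ⟨s, a, ha, ?_⟩
  rw [h.eq_div, inv_div, div_mul_cancel₀ _ ha0]

theorem gaussRed_inv (f : gaussRing O) (hf : gaussRed O f ≠ 0) :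
    gaussRed O ⟨_, inv_mem_of_gaussRed_ne_zero O f hf⟩ = (gaussRed O f)⁻¹ := by
  apply eq_inv_of_mul_eq_one_left
  rw [← map_mul]
  have : (⟨_, inv_mem_of_gaussRed_ne_zero O f hf⟩ : gaussRing O) * f = 1 := by
    apply Subtype.ext
    show (f : LaurentSeries K)⁻¹ * (f : LaurentSeries K) = 1
    have hf0 : (f : LaurentSeries K) ≠ 0 := by
      intro h0
      apply hf
      have : f = 0 := Subtype.ext h0
      rw [this, map_zero]
    exact inv_mul_cancel₀ hf0
  rw [this, map_one]

/-! ### The field of fractions of `O((q))` inside `K((q))` and the valuation property -/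

theorem algebraMap_eq_C (c : K) : algebraMap K (LaurentSeries K) c = HahnSeries.C c := by
  rw [algebraMap_laurentSeries_eq_single, HahnSeries.C_apply]

/-- `Frac (O((q)))` realised inside `K((q))`, as an intermediate field of `K((q)) / K`. -/
def fracField : IntermediateField K (LaurentSeries K) where
  carrier := {f | ∃ a b : LaurentSeries ↥O, b ≠ 0 ∧ f * embK O b = embK O a}
  mul_mem' := by
    rintro f g ⟨a, s, hs, h⟩ ⟨b, t, ht, h'⟩
    exact ⟨a * b, s * t, mul_ne_zero hs ht, by rw [map_mul, map_mul, ← h, ← h']; ring⟩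
  one_mem' := ⟨1, 1, one_ne_zero, by simp⟩
  add_mem' := by
    rintro f g ⟨a, s, hs, h⟩ ⟨b, t, ht, h'⟩
    exact ⟨a * t + b * s, s * t, mul_ne_zero hs ht,
      by rw [map_mul, map_add, map_mul, map_mul, ← h, ← h']; ring⟩
  zero_mem' := ⟨0, 1, one_ne_zero, by simp⟩
  algebraMap_mem' := by
    intro c
    rw [algebraMap_eq_C]
    rcases O.mem_or_inv_mem c with hc | hc
    · exact ⟨HahnSeries.C ⟨c, hc⟩, 1, one_ne_zero, by rw [map_one, mul_one, embK_C]⟩
    · by_cases h0 : c = 0
      · subst h0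
        exact ⟨0, 1, one_ne_zero, by simp⟩
      · refine ⟨1, HahnSeries.C ⟨c⁻¹, hc⟩, ?_, ?_⟩
        · intro h
          have := congrArg (fun x => HahnSeries.coeff x 0) h
          simp only [HahnSeries.C_apply, HahnSeries.coeff_single_same, HahnSeries.coeff_zero] at this
          exact (inv_ne_zero h0) (congrArg Subtype.val this)
        · rw [embK_C, map_one, ← map_mul, mul_inv_cancel₀ h0, map_one]
  inv_mem' := by
    rintro f ⟨a, s, hs, h⟩
    by_cases hf : f = 0
    · subst hf; exact ⟨0, 1, one_ne_zero, by simp⟩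
    · have ha : a ≠ 0 := by
        rintro rfl
        rw [map_zero] at h
        have hs' : embK O s ≠ 0 := fun h0 => hs ((embK_eq_zero_iff O s).mp h0)
        exact hf ((mul_eq_zero.mp h).resolve_right hs')
      refine ⟨s, a, ha, ?_⟩
      have hs' : embK O s ≠ 0 := fun h0 => hs ((embK_eq_zero_iff O s).mp h0)
      rw [← h, mul_comm f, mul_comm, mul_assoc, mul_inv_cancel₀ hf, mul_one]

theorem mem_fracField_iff (f : LaurentSeries K) :
    f ∈ fracField O ↔ ∃ a b : LaurentSeries ↥O, b ≠ 0 ∧ f * embK O b = embK O a := Iff.rfl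

theorem embK_mem_fracField (a : LaurentSeries ↥O) : embK O a ∈ fracField O :=
  ⟨a, 1, one_ne_zero, by simp⟩

theorem gaussRing_le_fracField : gaussRing O ≤ (fracField O).toSubring := by
  rintro f ⟨a, s, h⟩
  exact ⟨a, s, h.s_ne_zero, h.2⟩

variable {O}

/-- `π` as a Laurent series over `K`. -/
abbrev piK (π : ↥O) : LaurentSeries K := HahnSeries.C ((π : ↥O) : K)

theorem piK_ne_zero {π : ↥O} (hπ : IsUnif O π) : piK π ≠ 0 := by
  intro h
  have := congrArg (fun x => HahnSeries.coeff x 0) h
  simp only [HahnSeries.C_apply, HahnSeries.coeff_single_same, HahnSeries.coeff_zero] at this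
  exact hπ.ne_zero (Subtype.ext this)

theorem piK_mem (π : ↥O) : piK π ∈ gaussRing O := C_mem O π

/-- Valuation property: a nonzero element of `Frac O((q))` is `π^(i-j)` times a unit of the
Gauss ring. -/
theorem exists_unit_rep {π : ↥O} (hπ : IsUnif O π) {f : LaurentSeries K} (hf : f ∈ fracField O)
    (h0 : f ≠ 0) :
    ∃ (i j : ℕ) (u : gaussRing O), gaussRed O u ≠ 0 ∧
      f * piK π ^ j = piK π ^ i * (u : LaurentSeries K) := by
  obtain ⟨a, b, hb, h⟩ := hf
  have hb' : embK O b ≠ 0 := fun hh => hb ((embK_eq_zero_iff O b).mp hh)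
  have ha : a ≠ 0 := by
    rintro rfl
    rw [map_zero] at h
    exact h0 ((mul_eq_zero.mp h).resolve_right hb')
  obtain ⟨i, a₀, rfl, ha₀⟩ := exists_eq_pow_mul hπ a ha
  obtain ⟨j, b₀, rfl, hb₀⟩ := exists_eq_pow_mul hπ b hb
  have hb₀' : embK O b₀ ≠ 0 := fun hh => hb₀ (by rw [(embK_eq_zero_iff O b₀).mp hh, map_zero])
  have hu : IsRep O (embK O a₀ / embK O b₀) a₀ b₀ := ⟨hb₀, div_mul_cancel₀ _ hb₀'⟩
  refine ⟨i, j, ⟨_, a₀, b₀, hu⟩, ?_, ?_⟩
  · rw [gaussRed_eq O (f := ⟨_, a₀, b₀, hu⟩) hu]
    exact div_ne_zero ha₀ hb₀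
  · show f * piK π ^ j = piK π ^ i * (embK O a₀ / embK O b₀)
    rw [map_mul, map_mul, map_pow, map_pow, embK_C] at h
    rw [mul_div_assoc', eq_div_iff hb₀', ← h]; ring

/-- The Gauss ring is a valuation ring of `Frac O((q))`. -/
theorem mem_or_inv_mem {π : ↥O} (hπ : IsUnif O π) {f : LaurentSeries K} (hf : f ∈ fracField O) :
    f ∈ gaussRing O ∨ f⁻¹ ∈ gaussRing O := by
  by_cases h0 : f = 0
  · left; rw [h0]; exact zero_mem _
  obtain ⟨i, j, u, hu, h⟩ := exists_unit_rep hπ hf h0
  have hl := piK_ne_zero hπ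
  rcases le_total j i with hji | hij
  · left
    obtain ⟨k, rfl⟩ := Nat.exists_eq_add_of_le hji
    have : f = piK π ^ k * (u : LaurentSeries K) := by
      have hj : piK π ^ j ≠ 0 := pow_ne_zero _ hl
      apply mul_right_cancel₀ hj
      rw [h, _root_.pow_add]; ring
    rw [this]
    exact mul_mem (pow_mem (piK_mem π) k) u.2
  · right
    obtain ⟨k, rfl⟩ := Nat.exists_eq_add_of_le hij
    have hu0 : (u : LaurentSeries K) ≠ 0 := by
      intro hh
      apply hu
      have : u = 0 := Subtype.ext hh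
      rw [this, map_zero]
    have : f⁻¹ = piK π ^ k * (u : LaurentSeries K)⁻¹ := by
      have hi : piK π ^ i ≠ 0 := pow_ne_zero _ hl
      have hk : piK π ^ k ≠ 0 := pow_ne_zero _ hl
      rw [_root_.pow_add] at h
      have hf' : f * piK π ^ k = (u : LaurentSeries K) := by
        apply mul_left_cancel₀ hi
        rw [← h]; ring
      rw [← hf', mul_inv, mul_comm f⁻¹, ← mul_assoc, mul_inv_cancel₀ hk, one_mul]
    rw [this]
    exact mul_mem (pow_mem (piK_mem π) k) (inv_mem_of_gaussRed_ne_zero O u hu)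

/-- The Gauss valuation ring of an intermediate field `E ⊂ Frac O((q))`. -/
def gaussVS {π : ↥O} (hπ : IsUnif O π) (E : IntermediateField K (LaurentSeries K))
    (hE : E ≤ fracField O) : ValuationSubring E where
  carrier := {f | (f : LaurentSeries K) ∈ gaussRing O}
  mul_mem' := fun {a b} ha hb => by
    show ((a * b : E) : LaurentSeries K) ∈ gaussRing O
    exact mul_mem ha hb
  one_mem' := one_mem (gaussRing O)
  add_mem' := fun {a b} ha hb => by
    show ((a + b : E) : LaurentSeries K) ∈ gaussRing O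
    exact add_mem ha hb
  zero_mem' := zero_mem (gaussRing O)
  neg_mem' := fun {a} ha => by
    show ((-a : E) : LaurentSeries K) ∈ gaussRing O
    exact neg_mem ha
  mem_or_inv_mem' := fun f => mem_or_inv_mem hπ (hE f.2)

theorem mem_gaussVS_iff {π : ↥O} (hπ : IsUnif O π) (E : IntermediateField K (LaurentSeries K))
    (hE : E ≤ fracField O) (f : E) :
    f ∈ gaussVS hπ E hE ↔ (f : LaurentSeries K) ∈ gaussRing O := by
  show f ∈ (gaussVS hπ E hE).carrier ↔ _
  rfl

/-- The residue map on the Gauss valuation ring of `E`. -/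
def gaussVSRed {π : ↥O} (hπ : IsUnif O π) (E : IntermediateField K (LaurentSeries K))
    (hE : E ≤ fracField O) : gaussVS hπ E hE →+* LaurentSeries (Res O) :=
  (gaussRed O).comp
    { toFun := fun f => ⟨((f : E) : LaurentSeries K), (mem_gaussVS_iff hπ E hE f).mp f.2⟩
      map_one' := rfl
      map_mul' := fun _ _ => rfl
      map_zero' := rfl
      map_add' := fun _ _ => rfl }

theorem gaussVSRed_apply {π : ↥O} (hπ : IsUnif O π) (E : IntermediateField K (LaurentSeries K))
    (hE : E ≤ fracField O) (f : gaussVS hπ E hE) :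
    gaussVSRed hπ E hE f =
      gaussRed O ⟨((f : E) : LaurentSeries K), (mem_gaussVS_iff hπ E hE f).mp f.2⟩ := rfl

end Fermat.Agent.RED.PUR.GaussGen8
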