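/-
Program H (S18), MODEL assembly, generic part (helper22).

For abstract `(R, K, F, t)` as in `CoreIface24` — `R` a noetherian integrally closed domain,
`K = Frac R` of characteristic zero, `t ∈ F` transcendental over `K`, `F` finite over `K(t)` — the charts
`B₀ := chart R t` (integral closure of `R[t]` in `F`) and `B₁ := chart R t⁻¹` satisfy all fields of
`CoreIface24.TwoChartModel` which do not involve the Gauss valuation ring or smoothness:
`t_mem`, `tinv_mem`, `intcl`, `int`, `frac`, `noeth`, `fin0`, `ov0`, `ov1`.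
Mathlib + `CoreIface24` only.
-/
import Mathlib
import Fermat.Agent.RED.CORE.CoreIface24

set_option autoImplicit false

namespace Fermat.Agent.RED.PUR.ChartGeneric22

open Polynomial

section Basic

variable {R F : Type*} [CommRing R] [Field F] [Algebra R F]

/-- The chart: the integral closure of `R[t]` in `F`, as an `R`-subalgebra of `F`. -/
def chart (R : Type*) {F : Type*} [CommRing R] [Field F] [Algebra R F] (t : F) : Subalgebra R F :=
  (integralClosure (Algebra.adjoin R {t}) F).restrictScalars R

theorem mem_chart_iff {t x : F} : x ∈ chart R t ↔ IsIntegral (Algebra.adjoin R {t}) x := Iff.rfl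

theorem adjoin_le_chart (t : F) : Algebra.adjoin R {t} ≤ chart R t := by
  intro x hx
  rw [mem_chart_iff]
  exact isIntegral_algebraMap (R := Algebra.adjoin R {t}) (x := ⟨x, hx⟩)

theorem self_mem_chart (t : F) : t ∈ chart R t :=
  adjoin_le_chart t (Algebra.self_mem_adjoin_singleton R t)

/-- Integrality over a subalgebra of `F`, in terms of polynomials over `F`. -/
theorem isIntegral_subalgebra_iff (S : Subalgebra R F) (x : F) :
    IsIntegral S x ↔ ∃ P : F[X], P.Monic ∧ (∀ i, P.coeff i ∈ S) ∧ P.eval x = 0 := by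
  constructor
  · rintro ⟨p, hp, hx⟩
    refine ⟨p.map (algebraMap S F), hp.map _, fun i => ?_, ?_⟩
    · rw [coeff_map]
      exact (p.coeff i).2
    · rwa [eval_map]
  · rintro ⟨P, hP, hcoeff, hx⟩
    have hl : P ∈ lifts (algebraMap S F) := by
      rw [lifts_iff_coeff_lifts]
      intro n
      exact ⟨⟨P.coeff n, hcoeff n⟩, rfl⟩
    obtain ⟨q, hq, -, hqm⟩ := lifts_and_natDegree_eq_and_monic hl hP
    refine ⟨q, hqm, ?_⟩
    rw [← eval_map, hq, hx]

/-- The chart is integrally closed in `F`. -/
theorem chart_intcl (t : F) (x : F) (hx : IsIntegral (chart R t) x) : x ∈ chart R t := by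
  rw [mem_chart_iff]
  have hx' : IsIntegral (integralClosure (Algebra.adjoin R {t}) F) x := hx
  exact isIntegral_trans x hx'

/-- Clearing `t⁻¹`: an element of `R[t⁻¹]` times a high power of `t` lies in `R[t]`. -/
theorem exists_pow_mul_mem_adjoin {t : F} (ht : t ≠ 0) {a : F}
    (ha : a ∈ Algebra.adjoin R {t⁻¹}) :
    ∃ d : ℕ, ∀ e, d ≤ e → t ^ e * a ∈ Algebra.adjoin R {t} := by
  have htA : t ∈ Algebra.adjoin R {t} := Algebra.self_mem_adjoin_singleton R t
  induction ha using Algebra.adjoin_induction with
  | mem x hx =>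
    rw [Set.mem_singleton_iff] at hx
    subst hx
    refine ⟨1, fun e he => ?_⟩
    obtain ⟨e', rfl⟩ := Nat.exists_eq_add_of_le he
    rw [add_comm, pow_succ, mul_assoc, mul_inv_cancel₀ ht, mul_one]
    exact pow_mem htA _
  | algebraMap r =>
    exact ⟨0, fun e _ => mul_mem (pow_mem htA _) (Subalgebra.algebraMap_mem _ r)⟩
  | add x y _ _ hx hy =>
    obtain ⟨d1, h1⟩ := hx
    obtain ⟨d2, h2⟩ := hy
    refine ⟨max d1 d2, fun e he => ?_⟩
    rw [mul_add]
    exact add_mem (h1 e (le_trans (le_max_left _ _) he)) (h2 e (le_trans (le_max_right _ _) he))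
  | mul x y _ _ hx hy =>
    obtain ⟨d1, h1⟩ := hx
    obtain ⟨d2, h2⟩ := hy
    refine ⟨d1 + d2, fun e he => ?_⟩
    obtain ⟨e', rfl⟩ := Nat.exists_eq_add_of_le he
    have : t ^ (d1 + d2 + e') * (x * y) = (t ^ d1 * x) * (t ^ (d2 + e') * y) := by
      rw [add_assoc, pow_add]; ring
    rw [this]
    exact mul_mem (h1 d1 le_rfl) (h2 _ (Nat.le_add_right _ _))

/-- **Overlap**: `B₁ ⊆ B₀[1/t]`. -/
theorem exists_pow_mul_mem_chart {t : F} (ht : t ≠ 0) {x : F} (hx : x ∈ chart R t⁻¹) :
    ∃ k : ℕ, t ^ k * x ∈ chart R t := by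
  classical
  rw [mem_chart_iff, isIntegral_subalgebra_iff] at hx
  obtain ⟨P, hP, hcoeff, hPx⟩ := hx
  -- a uniform exponent for all coefficients
  choose d hd using fun i => exists_pow_mul_mem_adjoin (R := R) ht (hcoeff i)
  let D : ℕ := (Finset.range (P.natDegree + 1)).sup d
  refine ⟨D, ?_⟩
  rw [mem_chart_iff, isIntegral_subalgebra_iff]
  refine ⟨P.scaleRoots (t ^ D), (monic_scaleRoots_iff _).2 hP, fun i => ?_, ?_⟩
  · rw [coeff_scaleRoots]
    rcases lt_trichotomy i P.natDegree with hi | hi | hi
    · -- `i < n`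
      have hle : d i ≤ D * (P.natDegree - i) := by
        have h1 : d i ≤ D := Finset.le_sup (f := d) (Finset.mem_range.2 (by omega))
        have h2 : 1 ≤ P.natDegree - i := by omega
        calc d i ≤ D := h1
          _ = D * 1 := (mul_one D).symm
          _ ≤ D * (P.natDegree - i) := Nat.mul_le_mul_left D h2
      rw [← pow_mul, mul_comm]
      exact hd i _ hle
    · subst hi
      rw [Nat.sub_self, pow_zero, mul_one, hP.coeff_natDegree]
      exact one_mem _
    · rw [coeff_eq_zero_of_natDegree_lt hi, zero_mul]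
      exact zero_mem _
  · have := scaleRoots_eval₂_eq_zero (p := P) (RingHom.id F) (r := x) (s := t ^ D)
      (by rwa [eval₂_id])
    rwa [eval₂_id, RingHom.id_apply] at this

end Basic

section Finite

variable {R F : Type*} [CommRing R] [IsDomain R] [Field F] [Algebra R F]

/-- `R[t]` is noetherian. -/
instance isNoetherianRing_adjoin [IsNoetherianRing R] (t : F) :
    IsNoetherianRing (Algebra.adjoin R {t}) := by
  have hsurj : Function.Surjective
      ((aeval (R := R) t).codRestrict (Algebra.adjoin R {t}) (fun p => by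
        rw [Algebra.adjoin_singleton_eq_range_aeval]; exact ⟨p, rfl⟩)) := by
    rintro ⟨x, hx⟩
    rw [Algebra.adjoin_singleton_eq_range_aeval] at hx
    obtain ⟨p, rfl⟩ := hx
    exact ⟨p, rfl⟩
  exact isNoetherianRing_of_surjective R[X] _
    ((aeval (R := R) t).codRestrict (Algebra.adjoin R {t}) (fun p => by
        rw [Algebra.adjoin_singleton_eq_range_aeval]; exact ⟨p, rfl⟩)).toRingHom hsurj

/-- `R[t] ≃ R[X]` for `t` transcendental over `R`. -/
noncomputable def adjoinEquiv {t : F} (ht : Transcendental R t) :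
    R[X] ≃ₐ[R] Algebra.adjoin R {t} :=
  AlgEquiv.ofBijective
    ((aeval (R := R) t).codRestrict (Algebra.adjoin R {t}) (fun p => by
        rw [Algebra.adjoin_singleton_eq_range_aeval]; exact ⟨p, rfl⟩))
    ⟨by
      intro p q h
      have h' : aeval t p = aeval t q := congrArg Subtype.val h
      exact (transcendental_iff_injective.1 ht) h',
     by
      rintro ⟨x, hx⟩
      rw [Algebra.adjoin_singleton_eq_range_aeval] at hx
      obtain ⟨p, rfl⟩ := hx
      exact ⟨p, rfl⟩⟩

/-- `R[t]` is integrally closed for `R` integrally closed and `t` transcendental. -/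
theorem isIntegrallyClosed_adjoin [IsIntegrallyClosed R] {t : F} (ht : Transcendental R t) :
    IsIntegrallyClosed (Algebra.adjoin R {t}) :=
  IsIntegrallyClosed.of_equiv (adjoinEquiv ht).toRingEquiv

end Finite

section Abstract

variable {R F : Type*} [CommRing R] [IsDomain R] [Field F] [Algebra R F]
  [IsNoetherianRing R] [IsIntegrallyClosed R]
variable {t : F} (E : Type*) [Field E] [Algebra (Algebra.adjoin R {t}) E]
  [IsFractionRing (Algebra.adjoin R {t}) E] [Algebra E F] [IsScalarTower (Algebra.adjoin R {t}) E F]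
  [FiniteDimensional E F] [Algebra.IsSeparable E F]

include E in
/-- The integral closure of `R[t]` in `F` is a finite `R[t]`-module. -/
theorem finite_integralClosure (ht : Transcendental R t) :
    Module.Finite (Algebra.adjoin R {t}) (integralClosure (Algebra.adjoin R {t}) F) := by
  have : IsIntegrallyClosed (Algebra.adjoin R {t}) := isIntegrallyClosed_adjoin ht
  exact IsIntegralClosure.finite (Algebra.adjoin R {t}) E F _

include E in
/-- The chart is a noetherian ring. -/
theorem isNoetherianRing_chart (ht : Transcendental R t) : IsNoetherianRing (chart R t) := by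
  have : IsIntegrallyClosed (Algebra.adjoin R {t}) := isIntegrallyClosed_adjoin ht
  have h : IsNoetherianRing (integralClosure (Algebra.adjoin R {t}) F) :=
    integralClosure.isNoetherianRing (A := Algebra.adjoin R {t}) (K := E) F
  exact h

omit [IsDomain R] [IsNoetherianRing R] [IsIntegrallyClosed R] [FiniteDimensional E F] in
include E in
/-- `F = Frac (chart R t)`, elementwise. -/
theorem exists_chart_fraction (x : F) :
    ∃ a ∈ chart R t, ∃ b ∈ chart R t, b ≠ 0 ∧ x * b = a := by
  have halg : IsAlgebraic (Algebra.adjoin R {t}) x :=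
    (IsFractionRing.isAlgebraic_iff (Algebra.adjoin R {t}) E F).2
      (Algebra.IsAlgebraic.isAlgebraic x)
  obtain ⟨y, hy0, hy⟩ := halg.exists_integral_multiple
  refine ⟨y • x, hy, (y : F), adjoin_le_chart t y.2, ?_, ?_⟩
  · intro h
    exact hy0 (Subtype.ext h)
  · rw [mul_comm]; rfl

include E in
/-- Explicit finite generation of the chart over `R[t]`, in the shape of `TwoChartModel.fin0`. -/
theorem exists_chart_generators (ht : Transcendental R t) :
    ∃ (r : ℕ) (e : Fin r → F), (∀ i, e i ∈ chart R t) ∧
      ∀ x ∈ chart R t, ∃ P : Fin r → R[X], x = ∑ i, aeval t (P i) * e i := by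
  have hfin := finite_integralClosure (R := R) (t := t) E ht
  obtain ⟨r, g, hg⟩ := Module.Finite.exists_fin (R := Algebra.adjoin R {t})
    (M := integralClosure (Algebra.adjoin R {t}) F)
  refine ⟨r, fun i => (g i : F), fun i => (g i).2, fun x hx => ?_⟩
  have hmem : (⟨x, hx⟩ : integralClosure (Algebra.adjoin R {t}) F) ∈
      Submodule.span (Algebra.adjoin R {t}) (Set.range g) := by
    rw [hg]; exact Submodule.mem_top
  obtain ⟨c, hc⟩ := (Submodule.mem_span_range_iff_exists_fun _).1 hmem
  have hcP : ∀ i, ∃ P : R[X], aeval t P = (c i : F) := by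
    intro i
    have h1 : (c i : F) ∈ (aeval (R := R) t).range := by
      rw [← Algebra.adjoin_singleton_eq_range_aeval]
      exact (c i).2
    exact h1
  choose P hP using hcP
  refine ⟨P, ?_⟩
  have hx' : x = ((∑ i, c i • g i : integralClosure (Algebra.adjoin R {t}) F) : F) := by
    rw [hc]
  rw [hx']
  rw [AddSubmonoidClass.coe_finsetSum]
  refine Finset.sum_congr rfl fun i _ => ?_
  rw [hP i]
  rfl

end Abstract

section Concrete

variable {R K F : Type*} [CommRing R] [IsDomain R] [Field K] [Field F] [Algebra R K] [Algebra K F]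
  [Algebra R F] [IsScalarTower R K F] [IsFractionRing R K]

omit [IsDomain R] [IsFractionRing R K] in
theorem adjoin_le_intermediateField (E : IntermediateField K F) {s : F} (hs : s ∈ E) :
    Algebra.adjoin R {s} ≤ E.toSubalgebra.restrictScalars R :=
  Algebra.adjoin_le (by
    intro x hx
    rw [Set.mem_singleton_iff] at hx
    subst hx
    exact hs)

/-- The inclusion `R[s] → E` for `s ∈ E`, `E` an intermediate field of `F / K`. -/
def adjoinToField (E : IntermediateField K F) {s : F} (hs : s ∈ E) :
    Algebra.adjoin R {s} →+* E where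
  toFun a := ⟨a.1, adjoin_le_intermediateField (R := R) E hs a.2⟩
  map_one' := rfl
  map_mul' _ _ := rfl
  map_zero' := rfl
  map_add' _ _ := rfl

omit [IsDomain R] [IsFractionRing R K] in
@[simp] theorem adjoinToField_coe (E : IntermediateField K F) {s : F} (hs : s ∈ E)
    (a : Algebra.adjoin R {s}) : ((adjoinToField E hs a : E) : F) = (a : F) := rfl

/-- `K(s)` is the fraction field of `R[s]`. -/
theorem isFractionRing_adjoin (E : IntermediateField K F) {s : F} (hs : s ∈ E)
    (hE : E ≤ IntermediateField.adjoin K {s}) :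
    @IsFractionRing (Algebra.adjoin R {s}) _ E _ (adjoinToField E hs).toAlgebra := by
  let _ : Algebra (Algebra.adjoin R {s}) E := (adjoinToField E hs).toAlgebra
  have hinj : Function.Injective (algebraMap (Algebra.adjoin R {s}) E) := by
    intro a b h
    apply Subtype.ext
    exact congrArg (fun z : E => (z : F)) h
  have : FaithfulSMul (Algebra.adjoin R {s}) E := (faithfulSMul_iff_algebraMap_injective _ _).2 hinj
  have hRK : Function.Injective (algebraMap R K) := IsFractionRing.injective R K
  have hRF : Function.Injective (algebraMap R F) := by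
    rw [IsScalarTower.algebraMap_eq R K F]
    exact (algebraMap K F).injective.comp hRK
  apply IsFractionRing.of_field
  intro z
  obtain ⟨r, q, hz⟩ := (IntermediateField.mem_adjoin_simple_iff K (z : F)).1 (hE z.2)
  obtain ⟨b, hb, hbr⟩ := IsLocalization.integerNormalization_spec (nonZeroDivisors R) r
  obtain ⟨c, hc, hcq⟩ := IsLocalization.integerNormalization_spec (nonZeroDivisors R) q
  set r' := IsLocalization.integerNormalization (nonZeroDivisors R) r
  set q' := IsLocalization.integerNormalization (nonZeroDivisors R) q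
  have hb0 : algebraMap R F b ≠ 0 := by
    have : b ≠ 0 := nonZeroDivisors.ne_zero hb
    simpa using hRF.ne this
  have hc0 : algebraMap R F c ≠ 0 := by
    have : c ≠ 0 := nonZeroDivisors.ne_zero hc
    simpa using hRF.ne this
  have hr' : aeval s r' = algebraMap R F b * aeval s r := by
    have h1 : aeval s (r'.map (algebraMap R K)) = aeval s (b • r) := by rw [hbr]
    rw [aeval_map_algebraMap] at h1
    rw [h1, Algebra.smul_def, Polynomial.algebraMap_apply, map_mul, aeval_C,
      ← IsScalarTower.algebraMap_apply]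
  have hq' : aeval s q' = algebraMap R F c * aeval s q := by
    have h1 : aeval s (q'.map (algebraMap R K)) = aeval s (c • q) := by rw [hcq]
    rw [aeval_map_algebraMap] at h1
    rw [h1, Algebra.smul_def, Polynomial.algebraMap_apply, map_mul, aeval_C,
      ← IsScalarTower.algebraMap_apply]
  have hmemA : ∀ p : R[X], aeval s p ∈ Algebra.adjoin R {s} := by
    intro p
    rw [Algebra.adjoin_singleton_eq_range_aeval]
    exact ⟨p, rfl⟩
  refine ⟨⟨algebraMap R F c * aeval s r', mul_mem (Subalgebra.algebraMap_mem _ c) (hmemA r')⟩,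
    ⟨algebraMap R F b * aeval s q', mul_mem (Subalgebra.algebraMap_mem _ b) (hmemA q')⟩, ?_⟩
  apply Subtype.ext
  rw [IntermediateField.coe_div]
  show (z : F) = (algebraMap R F c * aeval s r') / (algebraMap R F b * aeval s q')
  rw [hz, hr', hq']
  by_cases hq0 : aeval s q = 0
  · rw [hq0, mul_zero, mul_zero, div_zero, div_zero]
  · field_simp

end Concrete

section Final

variable {R K F : Type*} [CommRing R] [IsDomain R] [Field K] [Field F] [Algebra R K] [Algebra K F]
  [Algebra R F] [IsScalarTower R K F] [IsFractionRing R K] [IsNoetherianRing R]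
  [IsIntegrallyClosed R] [CharZero K]

omit [IsNoetherianRing R] [IsIntegrallyClosed R] [CharZero K] [IsDomain R] in
theorem transcendental_of_field {s : F} (hs : Transcendental K s) : Transcendental R s :=
  hs.restrictScalars (IsFractionRing.injective R K)

/-- All generic facts about the chart `chart R s`, for `s` a generator of the rational function
field `E = K(s) ⊆ F` over which `F` is finite. -/
theorem chart_facts (E : IntermediateField K F) [FiniteDimensional E F] {s : F} (hs : s ∈ E)
    (hE : E ≤ IntermediateField.adjoin K {s}) (htr : Transcendental K s) :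
    IsNoetherianRing (chart R s) ∧
    (∀ x : F, ∃ a ∈ chart R s, ∃ b ∈ chart R s, b ≠ 0 ∧ x * b = a) ∧
    (∃ (r : ℕ) (e : Fin r → F), (∀ i, e i ∈ chart R s) ∧
      ∀ x ∈ chart R s, ∃ P : Fin r → R[X], x = ∑ i, aeval s (P i) * e i) := by
  let _ : Algebra (Algebra.adjoin R {s}) E := (adjoinToField E hs).toAlgebra
  have : IsFractionRing (Algebra.adjoin R {s}) E := isFractionRing_adjoin E hs hE
  have : IsScalarTower (Algebra.adjoin R {s}) E F := IsScalarTower.of_algebraMap_eq (fun _ => rfl)
  have : CharZero F := charZero_of_injective_algebraMap (algebraMap K F).injective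
  have : CharZero E := charZero_of_injective_algebraMap (R := K) (algebraMap K E).injective
  have : Algebra.IsSeparable E F := inferInstance
  have htrR : Transcendental R s := transcendental_of_field htr
  exact ⟨isNoetherianRing_chart E htrR, exists_chart_fraction E, exists_chart_generators E htrR⟩

end Final

section Model

open Fermat.Agent.RED.CORE.CoreIface24

variable {R K F : Type*} [CommRing R] [IsDomain R] [Field K] [Field F] [Algebra R K] [Algebra K F]
  [Algebra R F] [IsScalarTower R K F]

omit [IsDomain R] in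
/-- A valuation subring containing `R` and `t` contains the chart `chart R t`. -/
theorem chart_le_valuationSubring (O : ValuationSubring F) {t : F}
    (hR : ∀ r : R, algebraMap R F r ∈ O) (ht : t ∈ O) : ∀ x ∈ chart R t, x ∈ O := by
  intro x hx
  rw [mem_chart_iff, isIntegral_subalgebra_iff] at hx
  obtain ⟨P, hP, hcoeff, hPx⟩ := hx
  let OR : Subalgebra R F := { O.toSubring.toSubsemiring with algebraMap_mem' := hR }
  have hle : Algebra.adjoin R {t} ≤ OR := by
    apply Algebra.adjoin_le
    intro y hy
    rw [Set.mem_singleton_iff] at hy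
    subst hy
    exact ht
  have hl : P ∈ lifts (algebraMap O F) := by
    rw [lifts_iff_coeff_lifts]
    intro n
    exact ⟨⟨P.coeff n, hle (hcoeff n)⟩, rfl⟩
  obtain ⟨q, hq, -, hqm⟩ := lifts_and_natDegree_eq_and_monic hl hP
  have hint : IsIntegral O x := ⟨q, hqm, by rw [← eval_map, hq, hPx]⟩
  obtain ⟨y, hy⟩ := IsIntegrallyClosed.isIntegral_iff.1 hint
  rw [← hy]
  exact y.2

variable [IsFractionRing R K] [IsNoetherianRing R] [IsIntegrallyClosed R] [CharZero K]

/-- **The generic part of `TwoChartModel`**: for the charts `chart R t`, `chart R t⁻¹` all fields not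
involving the Gauss valuation ring and smoothness hold; the remaining ones are hypotheses. -/
theorem twoChartModel_of {π : R} {t : F} (Ov : ValuationSubring F)
    [FiniteDimensional (IntermediateField.adjoin K {t}) F] (htr : Transcendental K t)
    (dvrR : ∀ r : R, r ≠ 0 → ∃ (k : ℕ) (v : Rˣ), r = π ^ k * v)
    (R_le_Ov : ∀ r : R, algebraMap R F r ∈ Ov) (t_mem_Ov : t ∈ Ov) (tinv_mem_Ov : t⁻¹ ∈ Ov)
    (pi_ne : algebraMap R F π ≠ 0) (pi_nonunit : (algebraMap R F π)⁻¹ ∉ Ov)
    (unif : ∀ x ∈ Ov, x⁻¹ ∉ Ov → ∃ c ∈ Ov, x = algebraMap R F π * c)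
    (sat0 : ∀ b ∈ chart R t, ∀ c ∈ Ov, b = algebraMap R F π * c → c ∈ chart R t)
    (sat1 : ∀ b ∈ chart R t⁻¹, ∀ c ∈ Ov, b = algebraMap R F π * c → c ∈ chart R t⁻¹)
    (smooth0 : ∀ x : Ideal (chart R t), x.IsMaximal → algebraMap R (chart R t) π ∈ x →
      ∃ s ∈ x, ∀ y ∈ x, ∃ d : chart R t, d ∉ x ∧
        d * y ∈ Ideal.span {algebraMap R (chart R t) π, s})
    (smooth1 : ∀ x : Ideal (chart R t⁻¹), x.IsMaximal → algebraMap R (chart R t⁻¹) π ∈ x →
      ∃ s ∈ x, ∀ y ∈ x, ∃ d : chart R t⁻¹, d ∉ x ∧
        d * y ∈ Ideal.span {algebraMap R (chart R t⁻¹) π, s}) :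
    TwoChartModel R K F π t (chart R t) (chart R t⁻¹) Ov := by
  have ht0 : t ≠ 0 := by
    rintro rfl
    exact htr (isAlgebraic_zero)
  have hmem : t ∈ IntermediateField.adjoin K {t} := IntermediateField.mem_adjoin_simple_self K t
  have hinv_mem : t⁻¹ ∈ IntermediateField.adjoin K {t} := inv_mem hmem
  have hE' : IntermediateField.adjoin K {t} ≤ IntermediateField.adjoin K {t⁻¹} := by
    rw [IntermediateField.adjoin_le_iff, Set.singleton_subset_iff]
    have h1 : t⁻¹ ∈ IntermediateField.adjoin K {t⁻¹} :=
      IntermediateField.mem_adjoin_simple_self K t⁻¹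
    have h2 := inv_mem h1
    rwa [inv_inv] at h2
  have htr' : Transcendental K t⁻¹ := fun h => htr (IsAlgebraic.inv_iff.1 h)
  obtain ⟨hn0, hf0, hg0⟩ := chart_facts (R := R) (IntermediateField.adjoin K {t}) hmem le_rfl htr
  obtain ⟨hn1, hf1, -⟩ := chart_facts (R := R) (IntermediateField.adjoin K {t}) hinv_mem hE' htr'
  exact
    { noethR := inferInstance
      fracR := inferInstance
      dvrR := dvrR
      noeth0 := hn0
      noeth1 := hn1
      t_ne := ht0
      t_mem := self_mem_chart t
      tinv_mem := self_mem_chart t⁻¹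
      intcl0 := chart_intcl t
      intcl1 := chart_intcl t⁻¹
      int0 := fun x hx => hx
      int1 := fun x hx => hx
      frac0 := hf0
      frac1 := hf1
      fin0 := hg0
      ov0 := fun x hx => exists_pow_mul_mem_chart ht0 hx
      ov1 := fun x hx => by
        have hx' : x ∈ chart R (t⁻¹)⁻¹ := by rwa [inv_inv]
        exact exists_pow_mul_mem_chart (inv_ne_zero ht0) hx'
      le_Ov0 := chart_le_valuationSubring Ov R_le_Ov t_mem_Ov
      le_Ov1 := chart_le_valuationSubring Ov R_le_Ov tinv_mem_Ov
      tinv_mem_Ov := tinv_mem_Ov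
      pi_ne := pi_ne
      pi_nonunit := pi_nonunit
      unif := unif
      sat0 := sat0
      sat1 := sat1
      smooth0 := smooth0
      smooth1 := smooth1 }

end Model

end Fermat.Agent.RED.PUR.ChartGeneric22
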