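/-
Program H (S18), chapter RED/PUR (MODEL-GAUSS, concrete side), helper25.

**Base change of constants** for degrees of subfields of Laurent series fields, and the degree
`ψ(M)` of `κ(j(q^d) : d ∣ M)` over `κ(j)` for EVERY field `κ` in which the primes dividing `M` are
invertible (characteristic `0`, or characteristic `ℓ ∤ M`).

* `map_mem_adjoin`          : a ring hom `Φ : E → E'` over `φ : k → κ` maps `k(S)` into `κ(Φ S)`;
* `family_bound_map`        : if every `k(T)`-independent family in `k(S)` has `≤ m` members, the same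
                              holds for `κ(Φ T)` and `κ(Φ S)` (the images of a basis span a field);
* `relfinrank_fullC_le_psi_of_charP`, `relfinrank_fullC_le_psi_of_charZero` : the upper bounds
  `[κ(j(q^d) : d ∣ M) : κ(j)] ≤ ψ(M)` from the ones over `ZMod ℓ` (IG/VAL `UBFinal8.ub`) and over
  `ℚ` (IG/AN `DegLeVal23.degLe`);
* `relfinrank_fullC_eq_psi_of_charP`, `relfinrank_fullC_eq_psi_of_charZero` : equality
  (IG/PR `Main20.relfinrank_eq_psi`).
* `laurentBaseChange_full_eq` : `laurentBaseChange K (modularFunctionFieldFull M)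
                                  = modularFunctionFieldFullC K M`.
-/
import Mathlib
import Fermat.Prelude.Def_ModularCurve_ReductionModL
import Fermat.Agent.IG.VAL.UBFinal8
import Fermat.Agent.IG.PR.Main20
import Fermat.Agent.IG.AN.Main12

set_option autoImplicit false

noncomputable section

open HahnSeries IntermediateField ModularCurve

namespace Fermat.Agent.RED.PUR.DegBaseChange25

section General

variable {k κ E E' : Type*} [Field k] [Field κ] [Field E] [Field E'] [Algebra k E] [Algebra κ E']
  (φ : k →+* κ) (Φ : E →+* E')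

/-- A ring hom `Φ : E → E'` lying over `φ : k → κ` maps `k(S)` into `κ(Φ S)`. -/
theorem map_mem_adjoin (hΦ : ∀ c : k, Φ (algebraMap k E c) = algebraMap κ E' (φ c))
    (S : Set E) {x : E} (hx : x ∈ adjoin k S) : Φ x ∈ adjoin κ (Φ '' S) := by
  have h : Subfield.closure (Set.range (algebraMap k E) ∪ S) ≤
      (adjoin κ (Φ '' S)).toSubfield.comap Φ := by
    rw [Subfield.closure_le]
    rintro y (⟨c, rfl⟩ | hy)
    · show Φ _ ∈ adjoin κ (Φ '' S)
      rw [hΦ]
      exact IntermediateField.algebraMap_mem _ _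
    · exact subset_adjoin κ _ ⟨y, hy, rfl⟩
  exact h hx

/-- **Base change of constants, family form.**  If every `k(T)`-linearly independent family of
elements of `k(S)` has at most `m` members, then every `κ(Φ T)`-linearly independent family of
elements of `κ(Φ S)` has at most `m` members. -/
theorem family_bound_map (hΦ : ∀ c : k, Φ (algebraMap k E c) = algebraMap κ E' (φ c))
    (T S : Set E) (hTS : adjoin k T ≤ adjoin k S) (m : ℕ)
    (hub : ∀ (n : ℕ) (c : Fin n → E), (∀ i, c i ∈ adjoin k S) →
      LinearIndependent ↥(adjoin k T) c → n ≤ m)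
    (n : ℕ) (c : Fin n → E') (hc : ∀ i, c i ∈ adjoin κ (Φ '' S))
    (hli : LinearIndependent ↥(adjoin κ (Φ '' T)) c) : n ≤ m := by
  classical
  -- `B₁ = k(S)` as an intermediate field over `A = k(T)`; it is finite of dimension `≤ m`
  have hrank : Module.rank ↥(adjoin k T) ↥(extendScalars hTS) ≤ m := by
    apply rank_le
    intro s hs
    have h1 : LinearIndependent ↥(adjoin k T)
        (fun i : Fin s.card => (((s.equivFin.symm i : ↥s) : ↥(extendScalars hTS)) : E)) := by
      have h2 : LinearIndependent ↥(adjoin k T)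
          (fun i : Fin s.card => ((s.equivFin.symm i : ↥s) : ↥(extendScalars hTS))) :=
        hs.comp _ s.equivFin.symm.injective
      exact h2.map' (extendScalars hTS).val.toLinearMap
        (LinearMap.ker_eq_bot.mpr (extendScalars hTS).val.injective)
    exact hub s.card _ (fun i => (mem_extendScalars hTS).mp (s.equivFin.symm i : ↥s).1.2) h1
  have hfin : Module.Finite ↥(adjoin k T) ↥(extendScalars hTS) := by
    rw [← Module.rank_lt_aleph0_iff]
    exact lt_of_le_of_lt hrank Cardinal.natCast_lt_aleph0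
  have hd : Module.finrank ↥(adjoin k T) ↥(extendScalars hTS) ≤ m :=
    Module.finrank_le_of_rank_le hrank
  let bb := Module.finBasis ↥(adjoin k T) ↥(extendScalars hTS)
  -- the images of the basis
  let v : Fin (Module.finrank ↥(adjoin k T) ↥(extendScalars hTS)) → E' :=
    fun i => Φ ((bb i : ↥(extendScalars hTS)) : E)
  let W : Submodule ↥(adjoin κ (Φ '' T)) E' := Submodule.span _ (Set.range v)
  have hA_map : ∀ a ∈ adjoin k T, Φ a ∈ adjoin κ (Φ '' T) :=
    fun a ha => map_mem_adjoin φ Φ hΦ T ha
  -- `Φ (k(S)) ⊆ W`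
  have hB_W : ∀ y ∈ adjoin k S, Φ y ∈ W := by
    intro y hy
    let y' : ↥(extendScalars hTS) := ⟨y, (mem_extendScalars hTS).mpr hy⟩
    have h1 : y' = ∑ i, bb.repr y' i • bb i := (bb.sum_repr y').symm
    have h2 : y = ∑ i, ((bb.repr y' i : ↥(adjoin k T)) : E) * ((bb i : ↥(extendScalars hTS)) : E) := by
      have := congrArg (fun z : ↥(extendScalars hTS) => (z : E)) h1
      simpa [Algebra.smul_def] using this
    rw [h2, map_sum]
    refine Submodule.sum_mem _ fun i _ => ?_
    rw [map_mul]
    have h3 : Φ ((bb.repr y' i : ↥(adjoin k T)) : E) * Φ ((bb i : ↥(extendScalars hTS)) : E) =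
        (⟨Φ ((bb.repr y' i : ↥(adjoin k T)) : E), hA_map _ (bb.repr y' i).2⟩ :
          ↥(adjoin κ (Φ '' T))) • v i := by
      rw [Algebra.smul_def]
      rfl
    rw [h3]
    exact Submodule.smul_mem _ _ (Submodule.subset_span ⟨i, rfl⟩)
  have h1W : (1 : E') ∈ W := by
    have := hB_W 1 (one_mem _)
    rwa [map_one] at this
  have hW_mul : ∀ x y : E', x ∈ W → y ∈ W → x * y ∈ W := by
    have hle : W * W ≤ W := by
      show Submodule.span _ (Set.range v) * Submodule.span _ (Set.range v) ≤ W
      rw [Submodule.span_mul_span, Submodule.span_le]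
      rintro _ ⟨_, ⟨i, rfl⟩, _, ⟨j, rfl⟩, rfl⟩
      show Φ _ * Φ _ ∈ W
      rw [← map_mul]
      exact hB_W _ (mul_mem ((mem_extendScalars hTS).mp (bb i).2)
        ((mem_extendScalars hTS).mp (bb j).2))
    intro x y hx hy
    exact hle (Submodule.mul_mem_mul hx hy)
  let Wa : Subalgebra ↥(adjoin κ (Φ '' T)) E' := W.toSubalgebra h1W hW_mul
  have hfg : Wa.toSubmodule.FG := by
    have : Wa.toSubmodule = W := Submodule.toSubalgebra_toSubmodule _ _ _
    rw [this]
    exact Submodule.fg_span (Set.finite_range v)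
  have hW_inv : ∀ x : E', x ∈ W → x⁻¹ ∈ W := by
    intro x hx
    have hint : IsIntegral ↥(adjoin κ (Φ '' T)) x := IsIntegral.of_mem_of_fg Wa hfg x hx
    exact Subalgebra.inv_mem_of_algebraic (A := Wa) (x := ⟨x, hx⟩) hint.isAlgebraic
  -- `W` as a subfield
  let Wf : Subfield E' :=
    { carrier := W
      mul_mem' := fun {x y} hx hy => hW_mul x y hx hy
      one_mem' := h1W
      add_mem' := fun {x y} hx hy => W.add_mem hx hy
      zero_mem' := W.zero_mem
      neg_mem' := fun {x} hx => W.neg_mem hx
      inv_mem' := hW_inv }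
  have hB'W : ∀ y ∈ adjoin κ (Φ '' S), y ∈ W := by
    have h : Subfield.closure (Set.range (algebraMap κ E') ∪ Φ '' S) ≤ Wf := by
      rw [Subfield.closure_le]
      rintro y (⟨a, rfl⟩ | ⟨s, hs, rfl⟩)
      · show algebraMap κ E' a ∈ W
        have h4 : algebraMap κ E' a =
            (algebraMap κ ↥(adjoin κ (Φ '' T)) a) • (1 : E') := by
          rw [Algebra.smul_def, mul_one]
          rfl
        rw [h4]
        exact Submodule.smul_mem _ _ h1W
      · exact hB_W s (subset_adjoin k S hs)
    exact fun y hy => h hy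
  -- count
  have hcard := linearIndependent_le_span_aux' c hli (Set.range v)
    (by rintro _ ⟨i, rfl⟩; exact hB'W _ (hc i))
  rw [Fintype.card_fin] at hcard
  calc n ≤ Fintype.card ↥(Set.range v) := hcard
    _ ≤ Fintype.card (Fin (Module.finrank ↥(adjoin k T) ↥(extendScalars hTS))) :=
        Fintype.card_range_le v
    _ = Module.finrank ↥(adjoin k T) ↥(extendScalars hTS) := Fintype.card_fin _
    _ ≤ m := hd

end General

section Concrete

variable {k κ : Type*} [Field k] [Field κ] (φ : k →+* κ)

theorem coeffMap_algebraMap' (c : k) :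
    coeffMap φ (algebraMap k (LaurentSeries k) c) = algebraMap κ (LaurentSeries κ) (φ c) := by
  rw [algebraMap_laurentSeries_eq_single, algebraMap_laurentSeries_eq_single, coeffMap_single]

theorem image_singleton_jqModC :
    (coeffMap φ) '' ({jqModC k} : Set (LaurentSeries k)) = {jqModC κ} := by
  rw [Set.image_singleton, coeffMap_jqModC]

theorem image_divisorExpansionsC (M : ℕ) :
    (coeffMap φ) '' (divisorExpansionsC k M) = divisorExpansionsC κ M := by
  ext y
  constructor
  · rintro ⟨x, ⟨d, hd, hdM, rfl⟩, rfl⟩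
    exact ⟨d, hd, hdM, by rw [coeffMap_qExpand, coeffMap_jqModC]⟩
  · rintro ⟨d, hd, hdM, rfl⟩
    exact ⟨qExpand k d (jqModC k), ⟨d, hd, hdM, rfl⟩, by rw [coeffMap_qExpand, coeffMap_jqModC]⟩

include φ in
/-- **Base change of constants for the modular function fields, family form.** -/
theorem family_bound_fullC (M : ℕ) (m : ℕ)
    (hub : ∀ (n : ℕ) (c : Fin n → LaurentSeries k), (∀ i, c i ∈ modularFunctionFieldFullC k M) →
      LinearIndependent ↥(k⟮jqModC k⟯) c → n ≤ m)
    (n : ℕ) (c : Fin n → LaurentSeries κ) (hc : ∀ i, c i ∈ modularFunctionFieldFullC κ M)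
    (hli : LinearIndependent ↥(κ⟮jqModC κ⟯) c) : n ≤ m := by
  have hTS : adjoin k ({jqModC k} : Set (LaurentSeries k)) ≤ adjoin k (divisorExpansionsC k M) := by
    rw [adjoin_simple_le_iff]
    exact jqModC_mem_full k M
  refine family_bound_map φ (coeffMap φ) (coeffMap_algebraMap' φ) {jqModC k}
    (divisorExpansionsC k M) hTS m hub n c ?_ ?_
  · rw [image_divisorExpansionsC]
    exact hc
  · rw [image_singleton_jqModC]
    exact hli

include φ in
/-- `relfinrank` form. -/
theorem relfinrank_fullC_le_of_le (M : ℕ) (m : ℕ)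
    (hub : ∀ (n : ℕ) (c : Fin n → LaurentSeries k), (∀ i, c i ∈ modularFunctionFieldFullC k M) →
      LinearIndependent ↥(k⟮jqModC k⟯) c → n ≤ m) :
    relfinrank κ⟮jqModC κ⟯ (modularFunctionFieldFullC κ M) ≤ m := by
  have hle : κ⟮jqModC κ⟯ ≤ modularFunctionFieldFullC κ M := by
    rw [adjoin_simple_le_iff]
    exact jqModC_mem_full κ M
  exact Fermat.Agent.IG.PR.FamilyForm20.relfinrank_le_of_family_bound hle m
    (family_bound_fullC φ M m hub)

end Concrete

section Degrees

open Fermat.Agent.IG

/-- **Upper bound in characteristic `ℓ`** (any level `M`), from the one over `ZMod ℓ`. -/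
theorem relfinrank_fullC_le_psi_of_charP (ℓ : ℕ) [Fact ℓ.Prime] (κ : Type*) [Field κ] [CharP κ ℓ]
    (M : ℕ) [NeZero M] :
    relfinrank κ⟮jqModC κ⟯ (modularFunctionFieldFullC κ M) ≤ dedekindPsi M :=
  relfinrank_fullC_le_of_le (ZMod.castHom (dvd_refl ℓ) κ) M _ (VAL.UBFinal8.ub ℓ M)

/-- **Upper bound in characteristic `0`** (any level `M`), from the one over `ℚ`. -/
theorem relfinrank_fullC_le_psi_of_charZero (K : Type*) [Field K] [CharZero K]
    (M : ℕ) [NeZero M] :
    relfinrank K⟮jqModC K⟯ (modularFunctionFieldFullC K M) ≤ dedekindPsi M :=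
  relfinrank_fullC_le_of_le (algebraMap ℚ K) M _ (AN.DegLeVal23.degLe M)

/-- **`[κ(j(q^d) : d ∣ M) : κ(j)] = ψ(M)`** for every field `κ` of characteristic `ℓ ∤ M`. -/
theorem relfinrank_fullC_eq_psi_of_charP (ℓ : ℕ) [Fact ℓ.Prime] (κ : Type) [Field κ] [CharP κ ℓ]
    (M : ℕ) [NeZero M] (hℓM : ¬ ℓ ∣ M) :
    relfinrank κ⟮jqModC κ⟯ (modularFunctionFieldFullC κ M) = dedekindPsi M := by
  refine PR.Main20.relfinrank_eq_psi κ M ?_ AN.FormalJ10.p1
    (fun r hr _ hne => by have := hne; exact AN.ModPoly3.p0 r hr)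
    (fun r _ _ hne => by have := hne; exact AN.P2Final9.p2 r)
    (fun M' _ _ => relfinrank_fullC_le_psi_of_charP ℓ κ M')
  intro r hr hrM h0
  rw [CharP.cast_eq_zero_iff κ ℓ] at h0
  have : ℓ = r := (Nat.prime_dvd_prime_iff_eq (Fact.out : ℓ.Prime) hr).mp h0
  exact hℓM (this ▸ hrM)

/-- **`[K(j(q^d) : d ∣ M) : K(j)] = ψ(M)`** for every field `K` of characteristic `0`. -/
theorem relfinrank_fullC_eq_psi_of_charZero (K : Type) [Field K] [CharZero K]
    (M : ℕ) [NeZero M] :
    relfinrank K⟮jqModC K⟯ (modularFunctionFieldFullC K M) = dedekindPsi M := by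
  refine PR.Main20.relfinrank_eq_psi K M ?_ AN.FormalJ10.p1
    (fun r hr _ hne => by have := hne; exact AN.ModPoly3.p0 r hr)
    (fun r _ _ hne => by have := hne; exact AN.P2Final9.p2 r)
    (fun M' _ _ => relfinrank_fullC_le_psi_of_charZero K M')
  intro r hr _
  exact Nat.cast_ne_zero.mpr hr.ne_zero

end Degrees

section BaseChangeEq

variable (L : Type*) [Field L] [Algebra ℚ L]

/-- `L · ℚ(j(q^d) : d ∣ M) = L(j(q^d) : d ∣ M)` inside `L((q))`. -/
theorem laurentBaseChange_full_eq (M : ℕ) :
    laurentBaseChange L (modularFunctionFieldFull M) = modularFunctionFieldFullC L M := by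
  have himg : (coeffEmb L) '' (divisorExpansions M) = divisorExpansionsC L M :=
    image_divisorExpansionsC (k := ℚ) (algebraMap ℚ L) M
  apply le_antisymm
  · rw [laurentBaseChange, adjoin_le_iff]
    rintro _ ⟨x, hx, rfl⟩
    have := map_mem_adjoin (algebraMap ℚ L) (coeffEmb L)
      (coeffMap_algebraMap' (algebraMap ℚ L)) (divisorExpansions M) hx
    rw [himg] at this
    exact this
  · rw [modularFunctionFieldFullC, ← himg, laurentBaseChange]
    exact adjoin.mono L _ _ (Set.image_mono (subset_adjoin ℚ _))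

/-- `[L · F_M : L(j)] = ψ(M)` for the Prelude's base-changed function field (`L` of characteristic
`0`), e.g. `L = K` a number field inside `ℚ̄`: this is `Interface4.FK M K`. -/
theorem relfinrank_laurentBaseChange_eq_psi (L : Type) [Field L] [Algebra ℚ L] (M : ℕ) [NeZero M] :
    relfinrank L⟮jqModC L⟯ (laurentBaseChange L (modularFunctionFieldFull M)) = dedekindPsi M := by
  have : CharZero L := algebraRat.charZero L
  rw [laurentBaseChange_full_eq]
  exact relfinrank_fullC_eq_psi_of_charZero L M

theorem jqModC_mem_laurentBaseChange (M : ℕ) :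
    jqModC L ∈ laurentBaseChange L (modularFunctionFieldFull M) := by
  rw [laurentBaseChange_full_eq]
  exact jqModC_mem_full L M

end BaseChangeEq

end Fermat.Agent.RED.PUR.DegBaseChange25
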