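/-
Program H (S18), chapter RED/PUR, helper8: the GAUSS LEMMA for `K(t)` inside the generic Gauss ring.

Generic re-run of `IG/VAL/OvBasics22` (helper22).  `K` a field, `O : ValuationSubring K` a DVR with
uniformiser `π`, `κ` its residue field, `tG` an element of the Gauss ring `gaussRing O ⊂ K((q))` whose
residue `t̃ := gaussRed O tG` is transcendental over `κ`.

* `polyG O tG P` (`P ∈ O[X]`): `P(t)` as an element of the Gauss ring, `coe_polyG`, `gaussRed_polyG`
  (`gaussRed (P(t)) = P̃(t̃)`);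
* content extraction in `O[X]` and `K[X]` (`exists_content`);
* `exists_rep_of_mem_gaussRing`: an element of `K(t) ∩ gaussRing` is `f(t)/h(t)`, `f, h ∈ O[X]`, `h̃ ≠ 0`,
  with residue `f̃(t̃)/h̃(t̃)`;  `gaussRed_mem_kt` (the residue field of the Gauss valuation on `K(t)` is
  `κ(t̃)`), `mem_of_rep`, `exists_gaussRed_eq` (surjectivity onto `κ(t̃)`), `transcendental_t`.
-/
import Mathlib
import Fermat.Agent.RED.PUR.GaussGen8

set_option autoImplicit false
set_option linter.unusedSectionVars false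

noncomputable section

open HahnSeries ModularCurve Polynomial

namespace Fermat.Agent.RED.PUR.KtGauss8

open Fermat.Agent.RED.PUR.GaussGen8

variable {K : Type*} [Field K] (O : ValuationSubring K)

/-! ### Polynomials evaluated inside the Gauss ring -/

/-- constants of `O` in the Gauss ring, as a ring hom. -/
def constGHom : ↥O →+* ↥(gaussRing O) where
  toFun := constG O
  map_one' := Subtype.ext (by show HahnSeries.C ((1 : ↥O) : K) = 1; simp)
  map_mul' a b := Subtype.ext (by
    show HahnSeries.C ((a * b : ↥O) : K) = HahnSeries.C (a : K) * HahnSeries.C (b : K)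
    rw [← map_mul]; rfl)
  map_zero' := Subtype.ext (by show HahnSeries.C ((0 : ↥O) : K) = 0; simp)
  map_add' a b := Subtype.ext (by
    show HahnSeries.C ((a + b : ↥O) : K) = HahnSeries.C (a : K) + HahnSeries.C (b : K)
    rw [← map_add]; rfl)

theorem constGHom_apply (c : ↥O) : constGHom O c = constG O c := rfl

/-- `P(t)` as an element of the Gauss ring. -/
def polyG (tG : ↥(gaussRing O)) (P : (↥O)[X]) : ↥(gaussRing O) := P.eval₂ (constGHom O) tG

theorem algebraMap_eq_C' (L : Type*) [Field L] :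
    algebraMap L (LaurentSeries L) = (HahnSeries.C : L →+* LaurentSeries L) :=
  RingHom.ext fun c => GaussGen8.algebraMap_eq_C c

theorem coe_polyG (tG : ↥(gaussRing O)) (P : (↥O)[X]) :
    ((polyG O tG P : ↥(gaussRing O)) : LaurentSeries K)
      = aeval (tG : LaurentSeries K) (P.map O.subtype) := by
  have h := Polynomial.hom_eval₂ P (constGHom O) (gaussRing O).subtype tG
  have hcomp : (gaussRing O).subtype.comp (constGHom O)
      = (algebraMap K (LaurentSeries K)).comp O.subtype := by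
    rw [algebraMap_eq_C']
    exact RingHom.ext fun c => rfl
  rw [polyG]
  rw [Polynomial.aeval_def, Polynomial.eval₂_map, ← hcomp]
  exact h

theorem gaussRed_polyG (tG : ↥(gaussRing O)) (P : (↥O)[X]) :
    gaussRed O (polyG O tG P) = aeval (gaussRed O tG) (P.map (res0 O)) := by
  have h := Polynomial.hom_eval₂ P (constGHom O) (gaussRed O) tG
  have hcomp : (gaussRed O).comp (constGHom O)
      = (algebraMap (Res O) (LaurentSeries (Res O))).comp (res0 O) := by
    rw [algebraMap_eq_C']
    exact RingHom.ext fun c => gaussRed_constG O c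
  rw [polyG, Polynomial.aeval_def, Polynomial.eval₂_map, ← hcomp]
  exact h

theorem aeval_mem_gaussRing (tG : ↥(gaussRing O)) (P : (↥O)[X]) :
    aeval (tG : LaurentSeries K) (P.map O.subtype) ∈ gaussRing O := by
  rw [← coe_polyG]; exact (polyG O tG P).2

/-! ### Content extraction -/

variable [IsDiscreteValuationRing ↥O] {π : ↥O}

variable {O}

theorem prime_unif (hπ : Irreducible π) : Prime π :=
  hπ.prime

theorem prime_C_unif (hπ : Irreducible π) : Prime (Polynomial.C π) :=
  Polynomial.prime_C_iff.mpr (prime_unif hπ)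

theorem map_res0_eq_zero_iff (hπ : Irreducible π) (P : (↥O)[X]) :
    P.map (res0 O) = 0 ↔ Polynomial.C π ∣ P := by
  have hu := isUnif_of_irreducible O hπ
  rw [Polynomial.C_dvd_iff_dvd_coeff, Polynomial.ext_iff]
  refine forall_congr' fun i => ?_
  rw [Polynomial.coeff_map, Polynomial.coeff_zero, res0_eq_zero_iff hu]
  rfl

/-- `π`-content of a nonzero polynomial over `O`. -/
theorem exists_content_O (hπ : Irreducible π) (g : (↥O)[X]) (hg : g ≠ 0) :
    ∃ (i : ℕ) (g₀ : (↥O)[X]), g₀.map (res0 O) ≠ 0 ∧ g = Polynomial.C π ^ i * g₀ := by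
  obtain ⟨i, g₀, hnd, rfl⟩ := WfDvdMonoid.max_power_factor hg (prime_C_unif hπ).irreducible
  refine ⟨i, g₀, ?_, rfl⟩
  rw [Ne, map_res0_eq_zero_iff hπ]
  exact hnd

theorem exists_eq_pow_mul_unit (hπ : Irreducible π) {x : ↥O} (hx : x ≠ 0) :
    ∃ (n : ℕ) (u : (↥O)ˣ), x = π ^ n * u := by
  obtain ⟨n, u, h⟩ := IsDiscreteValuationRing.eq_unit_mul_pow_irreducible hx hπ
  exact ⟨n, u, by rw [h, mul_comm]⟩

/-- the uniformiser as an element of `K`. -/
abbrev piF (π : ↥O) : K := ((π : ↥O) : K)

theorem piF_ne_zero (hπ : Irreducible π) : piF π ≠ 0 := fun h => hπ.ne_zero (Subtype.ext h)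

/-- **`π`-content extraction in `K[X]`**: a nonzero `f ∈ K[X]` is `π^(i-j) f₀` with `f₀ ∈ O[X]`
of nonzero reduction. -/
theorem exists_content (hπ : Irreducible π) (f : K[X]) (hf : f ≠ 0) :
    ∃ (i j : ℕ) (f₀ : (↥O)[X]), f₀.map (res0 O) ≠ 0 ∧
      Polynomial.C (piF π ^ j) * f = Polynomial.C (piF π ^ i) * f₀.map O.subtype := by
  obtain ⟨b, hbM, hb⟩ := IsLocalization.integerNormalization_spec
    (nonZeroDivisors ↥O) f
  have hb0 : (b : ↥O) ≠ 0 := nonZeroDivisors.ne_zero hbM
  obtain ⟨j, u, hu⟩ := exists_eq_pow_mul_unit hπ hb0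
  set g : (↥O)[X] := Polynomial.C ((u⁻¹ : (↥O)ˣ) : ↥O) *
    IsLocalization.integerNormalization (nonZeroDivisors ↥O) f with hgdef
  have halg : algebraMap ↥O K = O.subtype := rfl
  have hgmap : g.map O.subtype = Polynomial.C (piF π ^ j) * f := by
    rw [hgdef, Polynomial.map_mul, Polynomial.map_C, ← halg, hb, Algebra.smul_def,
      Polynomial.algebraMap_apply, ← mul_assoc, ← Polynomial.C_mul, halg, ← map_mul, hu]
    congr 2
    rw [mul_left_comm, Units.inv_mul, mul_one, map_pow]
    rfl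
  have hl0 : (piF π ^ j) ≠ 0 := pow_ne_zero _ (piF_ne_zero hπ)
  have hg0 : g ≠ 0 := by
    intro h0
    rw [h0, Polynomial.map_zero] at hgmap
    exact (mul_ne_zero (Polynomial.C_ne_zero.mpr hl0) hf) hgmap.symm
  obtain ⟨i, g₀, hg₀, hgi⟩ := exists_content_O hπ g hg0
  refine ⟨i, j, g₀, hg₀, ?_⟩
  rw [← hgmap, hgi, Polynomial.map_mul, Polynomial.map_pow, Polynomial.map_C, Polynomial.C_pow]
  rfl

/-! ### Elements of `K(t)` and the Gauss ring -/

variable (O)
variable (tG : ↥(gaussRing O))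

/-- `K(t) ⊂ K((q))`. -/
abbrev Kt : IntermediateField K (LaurentSeries K) :=
  IntermediateField.adjoin K {(tG : LaurentSeries K)}

/-- `κ(t̃) ⊂ κ((q))`. -/
abbrev kt : IntermediateField (Res O) (LaurentSeries (Res O)) :=
  IntermediateField.adjoin (Res O) {gaussRed O tG}

variable {O} {tG}

theorem aeval_mem_Kt (P : K[X]) : aeval (tG : LaurentSeries K) P ∈ Kt O tG :=
  IntermediateField.algebra_adjoin_le_adjoin K _ (Polynomial.aeval_mem_adjoin_singleton K _)

theorem aeval_mem_kt (P : (Res O)[X]) : aeval (gaussRed O tG) P ∈ kt O tG :=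
  IntermediateField.algebra_adjoin_le_adjoin (Res O) _
    (Polynomial.aeval_mem_adjoin_singleton (Res O) _)

theorem gaussRed_polyG_ne_zero (htr : Transcendental (Res O) (gaussRed O tG)) {P : (↥O)[X]}
    (hP : P.map (res0 O) ≠ 0) : gaussRed O (polyG O tG P) ≠ 0 := by
  rw [gaussRed_polyG]
  exact fun h => hP ((transcendental_iff.mp htr) _ h)

theorem coe_polyG_ne_zero (htr : Transcendental (Res O) (gaussRed O tG)) {P : (↥O)[X]}
    (hP : P.map (res0 O) ≠ 0) : aeval (tG : LaurentSeries K) (P.map O.subtype) ≠ 0 := by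
  intro h0
  apply gaussRed_polyG_ne_zero htr hP
  have : polyG O tG P = 0 := Subtype.ext (by rw [coe_polyG, h0]; rfl)
  rw [this, map_zero]

theorem algebraMap_piF_pow (j : ℕ) :
    algebraMap K (LaurentSeries K) (piF π ^ j) = piK π ^ j := by
  rw [map_pow, GaussGen8.algebraMap_eq_C]

/-- `t` is transcendental over `K`. -/
theorem transcendental_t (hπ : Irreducible π) (htr : Transcendental (Res O) (gaussRed O tG)) :
    Transcendental K (tG : LaurentSeries K) := by
  rw [transcendental_iff]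
  intro s hs
  by_contra hs0
  obtain ⟨i, j, s₀, hs₀, hs1⟩ := exists_content hπ s hs0
  have hs2 := congrArg (aeval (tG : LaurentSeries K)) hs1
  rw [map_mul, map_mul, aeval_C, aeval_C, hs, mul_zero] at hs2
  have hu := isUnif_of_irreducible O hπ
  have h1 : algebraMap K (LaurentSeries K) (piF π ^ i) ≠ 0 := by
    rw [algebraMap_piF_pow]; exact pow_ne_zero _ (piK_ne_zero hu)
  exact coe_polyG_ne_zero htr hs₀ ((mul_eq_zero.mp hs2.symm).resolve_left h1)

theorem aeval_ne_zero (hπ : Irreducible π) (htr : Transcendental (Res O) (gaussRed O tG))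
    {s : K[X]} (hs : s ≠ 0) : aeval (tG : LaurentSeries K) s ≠ 0 :=
  fun h => hs ((transcendental_iff.mp (transcendental_t hπ htr)) s h)

/-- Every nonzero element of `K(t)` is `π^(i-j) f₀(t)/h₀(t)` with `f₀, h₀ ∈ O[X]` of nonzero
reduction. -/
theorem exists_rep (hπ : Irreducible π) (htr : Transcendental (Res O) (gaussRed O tG))
    {c : LaurentSeries K} (hc : c ∈ Kt O tG) (hc0 : c ≠ 0) :
    ∃ (i j : ℕ) (f₀ h₀ : (↥O)[X]), f₀.map (res0 O) ≠ 0 ∧ h₀.map (res0 O) ≠ 0 ∧
      c * (piK π ^ j * aeval (tG : LaurentSeries K) (h₀.map O.subtype))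
        = piK π ^ i * aeval (tG : LaurentSeries K) (f₀.map O.subtype) := by
  obtain ⟨r, s, rfl⟩ := (IntermediateField.mem_adjoin_simple_iff K c).mp hc
  have hs : s ≠ 0 := by
    rintro rfl
    apply hc0
    rw [map_zero, div_zero]
  have hr : r ≠ 0 := by
    rintro rfl
    apply hc0
    rw [map_zero, zero_div]
  have hsj : aeval (tG : LaurentSeries K) s ≠ 0 := aeval_ne_zero hπ htr hs
  obtain ⟨i1, j1, r₀, hr₀, hr1⟩ := exists_content hπ r hr
  obtain ⟨i2, j2, s₀, hs₀, hs1⟩ := exists_content hπ s hs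
  have hr2 := congrArg (aeval (tG : LaurentSeries K)) hr1
  have hs2 := congrArg (aeval (tG : LaurentSeries K)) hs1
  rw [map_mul, map_mul, aeval_C, aeval_C, algebraMap_piF_pow, algebraMap_piF_pow] at hr2 hs2
  refine ⟨j2 + i1, i2 + j1, r₀, s₀, hr₀, hs₀, ?_⟩
  set T : LaurentSeries K := (tG : LaurentSeries K) with hT
  set P : LaurentSeries K := piK π with hP
  rw [_root_.pow_add, _root_.pow_add]
  calc aeval T r / aeval T s * (P ^ i2 * P ^ j1 * aeval T (s₀.map O.subtype))
      = aeval T r / aeval T s * (P ^ j1 * (P ^ i2 * aeval T (s₀.map O.subtype))) := by ring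
    _ = aeval T r / aeval T s * (P ^ j1 * (P ^ j2 * aeval T s)) := by rw [hs2]
    _ = P ^ j2 * (P ^ j1 * aeval T r) := by field_simp
    _ = P ^ j2 * (P ^ i1 * aeval T (r₀.map O.subtype)) := by rw [hr2]
    _ = P ^ j2 * P ^ i1 * aeval T (r₀.map O.subtype) := by ring

/-- `π` as an element of the Gauss ring. -/
abbrev piG (π : ↥O) : ↥(gaussRing O) := constG O π

theorem coe_piG (π : ↥O) : ((piG π : ↥(gaussRing O)) : LaurentSeries K) = piK π := rfl

theorem polyG_C_pow_mul (m : ℕ) (f : (↥O)[X]) :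
    polyG O tG (Polynomial.C π ^ m * f) = piG π ^ m * polyG O tG f := by
  rw [polyG, Polynomial.eval₂_mul, Polynomial.eval₂_pow, Polynomial.eval₂_C]
  rfl

/-- integral form: an element of `K(t) ∩ gaussRing` is `f(t)/h(t)` with `f, h ∈ O[X]`, `h̃ ≠ 0`;
moreover its residue is `f̃(t̃)/h̃(t̃)`. -/
theorem exists_rep_of_mem_gaussRing (hπ : Irreducible π)
    (htr : Transcendental (Res O) (gaussRed O tG))
    {c : LaurentSeries K} (hc : c ∈ Kt O tG) (hg : c ∈ gaussRing O) :
    ∃ (f h : (↥O)[X]), h.map (res0 O) ≠ 0 ∧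
      (⟨c, hg⟩ : ↥(gaussRing O)) * polyG O tG h = polyG O tG f ∧
      gaussRed O ⟨c, hg⟩ = aeval (gaussRed O tG) (f.map (res0 O)) /
        aeval (gaussRed O tG) (h.map (res0 O)) := by
  have hu := isUnif_of_irreducible O hπ
  by_cases hc0 : c = 0
  · subst hc0
    refine ⟨0, 1, by simp, ?_, ?_⟩
    · have : (⟨0, hg⟩ : ↥(gaussRing O)) = 0 := rfl
      rw [this, zero_mul, polyG, Polynomial.eval₂_zero]
    · have : (⟨0, hg⟩ : ↥(gaussRing O)) = 0 := rfl
      rw [this, map_zero, Polynomial.map_zero, map_zero, zero_div]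
  obtain ⟨i, j, f₀, h₀, hf₀, hh₀, hrel⟩ := exists_rep hπ htr hc hc0
  have hl := piK_ne_zero hu
  have hH := gaussRed_polyG_ne_zero htr hh₀
  have hF := gaussRed_polyG_ne_zero htr hf₀
  rcases le_or_gt j i with hji | hij
  · obtain ⟨m, rfl⟩ := Nat.exists_eq_add_of_le hji
    have hrel' : c * aeval (tG : LaurentSeries K) (h₀.map O.subtype)
        = piK π ^ m * aeval (tG : LaurentSeries K) (f₀.map O.subtype) := by
      apply mul_left_cancel₀ (pow_ne_zero j hl)
      rw [_root_.pow_add] at hrel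
      rw [← mul_assoc, mul_comm _ c, mul_assoc, hrel]; ring
    have hG : (⟨c, hg⟩ : ↥(gaussRing O)) * polyG O tG h₀ = piG π ^ m * polyG O tG f₀ := by
      apply Subtype.ext
      show c * ((polyG O tG h₀ : ↥(gaussRing O)) : LaurentSeries K)
        = ((piG π ^ m * polyG O tG f₀ : ↥(gaussRing O)) : LaurentSeries K)
      rw [coe_polyG, hrel', Subring.coe_mul, Subring.coe_pow, coe_polyG]
      rfl
    refine ⟨Polynomial.C π ^ m * f₀, h₀, hh₀, ?_, ?_⟩
    · rw [hG, polyG_C_pow_mul]
    · have := congrArg (gaussRed O) hG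
      rw [map_mul, map_mul, map_pow, gaussRed_polyG, gaussRed_polyG] at this
      rw [eq_div_iff (by rw [← gaussRed_polyG]; exact hH), this, Polynomial.map_mul,
        Polynomial.map_pow, Polynomial.map_C, map_mul, map_pow, aeval_C, gaussRed_unif hu,
        res0_unif hu, map_zero]
  · exfalso
    obtain ⟨m, rfl⟩ := Nat.exists_eq_add_of_lt hij
    have hrel' : c * (piK π ^ (m + 1) * aeval (tG : LaurentSeries K) (h₀.map O.subtype))
        = aeval (tG : LaurentSeries K) (f₀.map O.subtype) := by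
      apply mul_left_cancel₀ (pow_ne_zero i hl)
      rw [← hrel]; ring
    have hG : (⟨c, hg⟩ : ↥(gaussRing O)) * (piG π ^ (m + 1) * polyG O tG h₀) = polyG O tG f₀ := by
      apply Subtype.ext
      show c * ((piG π ^ (m + 1) * polyG O tG h₀ : ↥(gaussRing O)) : LaurentSeries K)
        = ((polyG O tG f₀ : ↥(gaussRing O)) : LaurentSeries K)
      rw [Subring.coe_mul, Subring.coe_pow, coe_polyG, coe_polyG]
      exact hrel'
    have := congrArg (gaussRed O) hG
    rw [map_mul, map_mul, map_pow, gaussRed_unif hu, zero_pow (Nat.succ_ne_zero m), zero_mul,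
      mul_zero] at this
    exact hF this.symm

/-- the residue field of the Gauss valuation on `K(t)` is `κ(t̃)`: residues of elements of
`K(t) ∩ gaussRing` lie in `κ(t̃)`. -/
theorem gaussRed_mem_kt (hπ : Irreducible π) (htr : Transcendental (Res O) (gaussRed O tG))
    {c : LaurentSeries K} (hc : c ∈ Kt O tG) (hg : c ∈ gaussRing O) :
    gaussRed O ⟨c, hg⟩ ∈ kt O tG := by
  obtain ⟨f, h, -, -, hred⟩ := exists_rep_of_mem_gaussRing hπ htr hc hg
  rw [hred]
  exact div_mem (aeval_mem_kt _) (aeval_mem_kt _)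

/-- Conversely `f(t)/h(t)`, `h̃ ≠ 0`, lies in `K(t) ∩ gaussRing`. -/
theorem mem_of_rep (htr : Transcendental (Res O) (gaussRed O tG))
    {c : LaurentSeries K} (f h : (↥O)[X]) (hh : h.map (res0 O) ≠ 0)
    (hrel : c * aeval (tG : LaurentSeries K) (h.map O.subtype)
      = aeval (tG : LaurentSeries K) (f.map O.subtype)) :
    c ∈ Kt O tG ∧ c ∈ gaussRing O := by
  have hH := gaussRed_polyG_ne_zero htr hh
  have hH0 := coe_polyG_ne_zero htr hh
  have hc : c = aeval (tG : LaurentSeries K) (f.map O.subtype) *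
      (aeval (tG : LaurentSeries K) (h.map O.subtype))⁻¹ := by
    rw [← hrel, mul_assoc, mul_inv_cancel₀ hH0, mul_one]
  constructor
  · rw [hc]
    exact mul_mem (aeval_mem_Kt _) (inv_mem (aeval_mem_Kt _))
  · rw [hc]
    refine mul_mem (aeval_mem_gaussRing O tG f) ?_
    have := inv_mem_of_gaussRed_ne_zero O (polyG O tG h) hH
    rwa [coe_polyG] at this

/-- surjectivity of the residue map `K(t) ∩ gaussRing → κ(t̃)`. -/
theorem exists_gaussRed_eq (htr : Transcendental (Res O) (gaussRed O tG))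
    {y : LaurentSeries (Res O)} (hy : y ∈ kt O tG) :
    ∃ (c : LaurentSeries K) (_ : c ∈ Kt O tG) (hg : c ∈ gaussRing O),
      gaussRed O ⟨c, hg⟩ = y := by
  obtain ⟨r, s, rfl⟩ := (IntermediateField.mem_adjoin_simple_iff (Res O) y).mp hy
  by_cases hs : s = 0
  · subst hs
    refine ⟨0, zero_mem _, zero_mem _, ?_⟩
    have : (⟨0, zero_mem _⟩ : ↥(gaussRing O)) = 0 := rfl
    rw [this, map_zero, map_zero, div_zero]
  obtain ⟨f, rfl⟩ := Polynomial.map_surjective (res0 O) IsLocalRing.residue_surjective r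
  obtain ⟨h, rfl⟩ := Polynomial.map_surjective (res0 O) IsLocalRing.residue_surjective s
  have hH := gaussRed_polyG_ne_zero htr hs
  have hH0 := coe_polyG_ne_zero htr hs
  have hrel : aeval (tG : LaurentSeries K) (f.map O.subtype) /
      aeval (tG : LaurentSeries K) (h.map O.subtype)
      * aeval (tG : LaurentSeries K) (h.map O.subtype)
        = aeval (tG : LaurentSeries K) (f.map O.subtype) :=
    div_mul_cancel₀ _ hH0
  obtain ⟨h1, h2⟩ := mem_of_rep htr f h hs hrel
  refine ⟨_, h1, h2, ?_⟩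
  have hG : (⟨_, h2⟩ : ↥(gaussRing O)) * polyG O tG h = polyG O tG f := by
    apply Subtype.ext
    show _ * ((polyG O tG h : ↥(gaussRing O)) : LaurentSeries K)
      = ((polyG O tG f : ↥(gaussRing O)) : LaurentSeries K)
    rw [coe_polyG, coe_polyG]
    exact hrel
  have := congrArg (gaussRed O) hG
  rw [map_mul, gaussRed_polyG, gaussRed_polyG] at this
  rw [eq_div_iff (by rw [← gaussRed_polyG]; exact hH), this]

end Fermat.Agent.RED.PUR.KtGauss8
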