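/-
Program H (S18), chapter RED/PUR, helper8: the abstract (G1) PACKAGE — the Gauss valuation of a finite
extension `E ⊂ K((q))` of `K(t)` versus the integral closures of `O[t]`, `O[t⁻¹]` in `E`.

Generic re-run of Program G's `IG/VAL` (SpanFinal8, C0Package18, ChartBaseRing21) over a DVR
`O : ValuationSubring K` (uniformiser `π`, residue field `κ`) and a parameter `t ∈ E ∩ gaussRing O`
with `t̃` transcendental over `κ`, instead of `(ℤ_(ℓ), j)`.

Hypotheses (to be fed from IG/PR `relfinrank_eq_psi` over `κ` and char-0 degree bounds):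
* `DegLe O E tG n`  : every `K(t)`-linearly independent family in `E` has at most `n` members;
* `Irr O E tG n`    : there are `n` elements of `E ∩ gaussRing O` with `κ(t̃)`-independent residues.

Conclusions, for `Ov := gaussVS E` (the Gauss valuation ring of `E`):
* `span`      : every element of `Ov` is integral over `Ov0 = K(t) ∩ gaussRing ∩ E`;
* `isIntegral_of_mul` (saturation `B ∩ π·Ov = π·B`): `x ∈ Ov`, `π·x` integral over `O[t]` ⇒ `x` integral
  over `O[t]`;  `mem_Ov_of_isIntegral` (`B ⊂ Ov`);  same for `t⁻¹` (`…_inv`);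
* `exists_eq_pi_mul` (`unif`), `pi_inv_not_mem` (`pi_nonunit`), `algebraMap_pi_ne_zero` (`pi_ne`),
  `t_inv_mem` (`tinv_mem_Ov`), `t_mem`.
-/
import Mathlib
import Fermat.Agent.RED.PUR.KtGauss8
import Fermat.Agent.IG.VAL.BasisRep18
import Fermat.Agent.IG.VAL.IntegralDescentFrac21

set_option autoImplicit false
set_option linter.unusedSectionVars false

noncomputable section

open HahnSeries ModularCurve Polynomial

namespace Fermat.Agent.RED.PUR.G1Package8

open Fermat.Agent.RED.PUR.GaussGen8 Fermat.Agent.RED.PUR.KtGauss8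
open Fermat.Agent.IG.VAL

variable {K : Type*} [Field K] (O : ValuationSubring K) [IsDiscreteValuationRing ↥O]
  {π : ↥O} (hπ : Irreducible π)
  (E : IntermediateField K (LaurentSeries K)) (hE : E ≤ fracField O)
  (tG : ↥(gaussRing O))

/-- **(DEG)**: `[E : K(t)] ≤ n`, family form. -/
def DegLe (n : ℕ) : Prop :=
  ∀ (m : ℕ) (c : Fin m → LaurentSeries K), (∀ i, c i ∈ E) →
    LinearIndependent ↥(Kt O tG) c → m ≤ n

/-- **(IRR)**: the residue field of `E` has degree `≥ n` over `κ(t̃)`, family form. -/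
def Irr (n : ℕ) : Prop :=
  ∃ e : Fin n → ↥(gaussRing O), (∀ i, (e i : LaurentSeries K) ∈ E) ∧
    LinearIndependent ↥(kt O tG) (fun i => gaussRed O (e i))

/-- The Gauss valuation ring of `E`. -/
abbrev OvE : ValuationSubring ↥E := gaussVS (isUnif_of_irreducible O hπ) E hE

theorem mem_OvE_iff (x : ↥E) : x ∈ OvE O hπ E hE ↔ (x : LaurentSeries K) ∈ gaussRing O :=
  mem_gaussVS_iff _ E hE x

/-- `Ov → gaussRing`. -/
def toGauss : ↥(OvE O hπ E hE) →+* ↥(gaussRing O) where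
  toFun x := ⟨((x : ↥E) : LaurentSeries K), (mem_OvE_iff O hπ E hE x).mp x.2⟩
  map_one' := rfl
  map_mul' _ _ := rfl
  map_zero' := rfl
  map_add' _ _ := rfl

/-- `Ov0 = K(t) ∩ gaussRing`, as a subring of `E`. -/
def Ov0 : Subring ↥E where
  carrier := {x | (x : LaurentSeries K) ∈ Kt O tG ∧ (x : LaurentSeries K) ∈ gaussRing O}
  mul_mem' := fun ha hb => ⟨mul_mem ha.1 hb.1, mul_mem ha.2 hb.2⟩
  one_mem' := ⟨one_mem _, one_mem _⟩
  add_mem' := fun ha hb => ⟨add_mem ha.1 hb.1, add_mem ha.2 hb.2⟩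
  zero_mem' := ⟨zero_mem _, zero_mem _⟩
  neg_mem' := fun ha => ⟨neg_mem ha.1, neg_mem ha.2⟩

theorem mem_Ov0_iff (x : ↥E) : x ∈ Ov0 O E tG ↔
    (x : LaurentSeries K) ∈ Kt O tG ∧ (x : LaurentSeries K) ∈ gaussRing O := Iff.rfl

theorem Ov0_le_OvE : Ov0 O E tG ≤ (OvE O hπ E hE).toSubring :=
  fun x hx => (mem_OvE_iff O hπ E hE x).mpr hx.2

variable {O E tG}

theorem Kt_le_fracField : Kt O tG ≤ fracField O := by
  rw [IntermediateField.adjoin_le_iff]
  rintro x hx
  rw [Set.mem_singleton_iff] at hx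
  subst hx
  exact gaussRing_le_fracField O tG.2

theorem Kt_le (htE : (tG : LaurentSeries K) ∈ E) : Kt O tG ≤ E := by
  rw [IntermediateField.adjoin_le_iff]
  rintro x hx
  rw [Set.mem_singleton_iff] at hx
  subst hx
  exact htE

include hπ

theorem hval_Kt (c : ↥(Kt O tG)) :
    algebraMap ↥(Kt O tG) (LaurentSeries K) c ∈ gaussRing O ∨
      (algebraMap ↥(Kt O tG) (LaurentSeries K) c)⁻¹ ∈ gaussRing O :=
  mem_or_inv_mem (isUnif_of_irreducible O hπ) (Kt_le_fracField c.2)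

theorem hκ_Kt (htr : Transcendental (Res O) (gaussRed O tG)) (c : ↥(Kt O tG))
    (hc : algebraMap ↥(Kt O tG) (LaurentSeries K) c ∈ gaussRing O) :
    gaussRed O ⟨_, hc⟩ ∈ (algebraMap ↥(kt O tG) (LaurentSeries (Res O))).range :=
  ⟨⟨_, gaussRed_mem_kt hπ htr c.2 hc⟩, rfl⟩

/-- every `b ∈ Ov` is an `Ov0`-combination of lifts of an independent family of residues. -/
theorem exists_rep_span (htr : Transcendental (Res O) (gaussRed O tG))
    (htE : (tG : LaurentSeries K) ∈ E) {n : ℕ} (hdeg : DegLe O E tG n)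
    (e : Fin n → ↥(gaussRing O)) (heE : ∀ i, (e i : LaurentSeries K) ∈ E)
    (hind : LinearIndependent ↥(kt O tG) (fun i => gaussRed O (e i)))
    (b : ↥(OvE O hπ E hE)) :
    ∃ g : Fin n → ↥(Ov0 O E tG),
      (b : ↥E) = ∑ i, g i • (⟨(e i : LaurentSeries K), heE i⟩ : ↥E) := by
  obtain ⟨g, hgG, hb⟩ := BasisRep18.exists_coeffs (K := ↥(Kt O tG)) (Ω := LaurentSeries K)
    (G := gaussRing O) (ρ := gaussRed O) (κ := ↥(kt O tG))
    (fun f hf => inv_mem_of_gaussRed_ne_zero O f hf) (hval_Kt hπ)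
    (hκ_Kt hπ htr)
    ((E : Set (LaurentSeries K))) n
    (fun m c hc hli => hdeg m c hc hli) e heE hind
    (toGauss O hπ E hE b) ((b : ↥E).2)
  have hgE : ∀ i, ((g i : ↥(Kt O tG)) : LaurentSeries K) ∈ E := fun i => Kt_le htE (g i).2
  refine ⟨fun i => ⟨⟨(g i : LaurentSeries K), hgE i⟩, (g i).2, hgG i⟩, ?_⟩
  apply Subtype.ext
  rw [AddSubmonoidClass.coe_finsetSum]
  refine hb.trans (Finset.sum_congr rfl fun i _ => ?_)
  rfl

/-- `Ov` as a subalgebra of `E` over `Ov0`. -/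
def OvAlg : Subalgebra ↥(Ov0 O E tG) ↥E :=
  { (OvE O hπ E hE).toSubring.toSubsemiring with
    algebraMap_mem' := fun r => Ov0_le_OvE O hπ E hE tG r.2 }

theorem mem_OvAlg_iff (x : ↥E) : x ∈ OvAlg hπ hE (tG := tG) ↔ x ∈ OvE O hπ E hE := Iff.rfl

theorem OvAlg_fg (htr : Transcendental (Res O) (gaussRed O tG))
    (htE : (tG : LaurentSeries K) ∈ E) {n : ℕ} (hdeg : DegLe O E tG n) (hirr : Irr O E tG n) :
    (OvAlg hπ hE (tG := tG)).toSubmodule.FG := by
  classical
  obtain ⟨e, heE, hind⟩ := hirr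
  refine ⟨Finset.univ.image fun i => (⟨(e i : LaurentSeries K), heE i⟩ : ↥E),
    le_antisymm ?_ ?_⟩
  · rw [Submodule.span_le]
    intro x hx
    rw [Finset.coe_image] at hx
    obtain ⟨i, -, rfl⟩ := hx
    exact (mem_OvE_iff O hπ E hE _).mpr (e i).2
  · intro b hb
    obtain ⟨g, hg⟩ := exists_rep_span hπ hE htr htE hdeg e heE hind ⟨b, hb⟩
    rw [show b = ∑ i, g i • (⟨(e i : LaurentSeries K), heE i⟩ : ↥E) from hg]
    refine Submodule.sum_mem _ fun i _ => Submodule.smul_mem _ _ (Submodule.subset_span ?_)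
    rw [Finset.coe_image]
    exact ⟨i, Finset.mem_coe.mpr (Finset.mem_univ i), rfl⟩

/-- **(SPAN)**: `Ov` is integral over `Ov0`. -/
theorem span (htr : Transcendental (Res O) (gaussRed O tG))
    (htE : (tG : LaurentSeries K) ∈ E) {n : ℕ} (hdeg : DegLe O E tG n) (hirr : Irr O E tG n)
    (x : ↥E) (hx : x ∈ OvE O hπ E hE) : IsIntegral ↥(Ov0 O E tG) x :=
  IsIntegral.of_mem_of_fg (OvAlg hπ hE (tG := tG)) (OvAlg_fg hπ hE htr htE hdeg hirr) x hx


/-! ### Part B: the charts `O[t]`, `O[t⁻¹]` -/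

omit hπ

variable (t : ↥E)

/-- coercion of a polynomial expression in `t`. -/
theorem coe_aeval (P : (↥O)[X]) :
    ((aeval t P : ↥E) : LaurentSeries K) = aeval (t : LaurentSeries K) (P.map O.subtype) := by
  have h := Polynomial.hom_eval₂ P (algebraMap ↥O ↥E) E.val.toRingHom t
  have hcomp : E.val.toRingHom.comp (algebraMap ↥O ↥E)
      = (algebraMap K (LaurentSeries K)).comp O.subtype := RingHom.ext fun c => rfl
  rw [Polynomial.aeval_def, Polynomial.aeval_def, Polynomial.eval₂_map, ← hcomp]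
  exact h

variable (ht : (t : LaurentSeries K) ∈ gaussRing O)

include hπ

/-- `t` is transcendental over `O`. -/
theorem transcendental_O (htr : Transcendental (Res O) (gaussRed O ⟨(t : LaurentSeries K), ht⟩)) :
    Transcendental ↥O t := by
  rw [transcendental_iff]
  intro P hP
  have h1 : aeval (t : LaurentSeries K) (P.map O.subtype) = 0 := by
    rw [← coe_aeval, hP]; rfl
  have h2 := (transcendental_iff.mp
    (transcendental_t (tG := ⟨(t : LaurentSeries K), ht⟩) hπ htr)) _ h1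
  exact Polynomial.map_injective _ Subtype.val_injective (by rw [h2, Polynomial.map_zero])

/-- the elements of `Ov0` are fractions `f(t)/h(t)`, `h̃ ≠ 0`. -/
theorem Ov0_rep (htr : Transcendental (Res O) (gaussRed O ⟨(t : LaurentSeries K), ht⟩))
    (x : ↥E) (hx : x ∈ Ov0 O E ⟨(t : LaurentSeries K), ht⟩) :
    ∃ f h : (↥O)[X], h.map (res0 O) ≠ 0 ∧ x * aeval t h = aeval t f := by
  obtain ⟨f, h, hh, hrel, -⟩ := exists_rep_of_mem_gaussRing hπ htr hx.1 hx.2
  refine ⟨f, h, hh, Subtype.ext ?_⟩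
  have := congrArg (fun y : ↥(gaussRing O) => (y : LaurentSeries K)) hrel
  simp only [Subring.coe_mul, coe_polyG] at this
  rw [MulMemClass.coe_mul, coe_aeval, coe_aeval]
  exact this

/-- `π` is a prime element of `O[t]`. -/
theorem prime_pi_adjoin {t : ↥E} (htO : Transcendental ↥O t) :
    Prime (algebraMap ↥O ↥(Algebra.adjoin ↥O {t}) π) := by
  have h := (MulEquiv.prime_iff
    (Polynomial.algEquivOfTranscendental ↥O t htO)).mpr (prime_C_unif hπ)
  have e : (Polynomial.algEquivOfTranscendental ↥O t htO) (Polynomial.C π) =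
      algebraMap ↥O ↥(Algebra.adjoin ↥O {t}) π := by
    rw [← Polynomial.algebraMap_eq, AlgEquiv.commutes]
  rwa [e] at h

/-- If `π ∣ g(t)` in `O[t]` (`t` transcendental) then `g̃ = 0`. -/
theorem map_res_eq_zero_of_pi_dvd {t : ↥E} (htO : Transcendental ↥O t) (g : (↥O)[X])
    (s : ↥(Algebra.adjoin ↥O {t})) (hs : (s : ↥E) = aeval t g)
    (h : algebraMap ↥O ↥(Algebra.adjoin ↥O {t}) π ∣ s) : g.map (res0 O) = 0 := by
  rw [map_res0_eq_zero_iff hπ]
  obtain ⟨u, hu⟩ := h
  set e := Polynomial.algEquivOfTranscendental ↥O t htO with he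
  have hsg : s = e g := by
    apply Subtype.ext
    rw [hs, he, Polynomial.algEquivOfTranscendental_apply, ← Subalgebra.aeval_coe]
  refine ⟨e.symm u, ?_⟩
  apply e.injective
  rw [map_mul, AlgEquiv.apply_symm_apply, ← hsg, hu, ← Polynomial.algebraMap_eq, AlgEquiv.commutes]

/-- **Saturation** (`B ∩ π·Ov = π·B`): if every element of the subring `O'` is a fraction
`f(t)/h(t)`, `h̃ ≠ 0`, then `b` integral over `O'` and `π b` integral over `O[t]` imply `b` integral
over `O[t]`. -/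
theorem isIntegral_adjoin_of_mul {t : ↥E} (htO : Transcendental ↥O t) (O' : Subring ↥E)
    (hO' : ∀ x ∈ O', ∃ f h : (↥O)[X], h.map (res0 O) ≠ 0 ∧ x * aeval t h = aeval t f)
    {b : ↥E} (hb : IsIntegral O' b)
    (hπb : IsIntegral ↥(Algebra.adjoin ↥O {t}) (algebraMap ↥O ↥E π * b)) :
    IsIntegral ↥(Algebra.adjoin ↥O {t}) b := by
  have hufm := htO.uniqueFactorizationMonoid_adjoin
  have hic : IsIntegrallyClosed ↥(Algebra.adjoin ↥O {t}) := inferInstance
  refine IntegralDescentFrac21.isIntegral_of_isIntegral_fractions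
    (R := ↥(Algebra.adjoin ↥O {t})) (prime_pi_adjoin hπ htO) O' ?_ hb ?_
  · intro x hx
    obtain ⟨f, h, hh, hxe⟩ := hO' x hx
    refine ⟨⟨aeval t f, Polynomial.aeval_mem_adjoin_singleton _ _⟩,
      ⟨aeval t h, Polynomial.aeval_mem_adjoin_singleton _ _⟩, ?_, hxe⟩
    intro hdvd
    exact hh (map_res_eq_zero_of_pi_dvd hπ htO h _ rfl hdvd)
  · have e : (algebraMap ↥O ↥(Algebra.adjoin ↥O {t}) π) • b = algebraMap ↥O ↥E π * b := by
      rw [Algebra.smul_def]
      rfl
    rwa [e]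


/-! ### Part C: the contract fields -/

/-- **`sat`** for the chart `O[t]`: `x ∈ Ov`, `π x` integral over `O[t]` ⇒ `x` integral over `O[t]`. -/
theorem isIntegral_of_mul (htr : Transcendental (Res O) (gaussRed O ⟨(t : LaurentSeries K), ht⟩))
    {n : ℕ} (hdeg : DegLe O E ⟨(t : LaurentSeries K), ht⟩ n)
    (hirr : Irr O E ⟨(t : LaurentSeries K), ht⟩ n)
    {x : ↥E} (hx : x ∈ OvE O hπ E hE)
    (hπx : IsIntegral ↥(Algebra.adjoin ↥O {t}) (algebraMap ↥O ↥E π * x)) :
    IsIntegral ↥(Algebra.adjoin ↥O {t}) x :=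
  isIntegral_adjoin_of_mul hπ (transcendental_O hπ t ht htr)
    (Ov0 O E ⟨(t : LaurentSeries K), ht⟩) (Ov0_rep hπ t ht htr)
    (span hπ hE htr t.2 hdeg hirr x hx) hπx

omit hπ in
theorem algebraMap_O_mem (c : ↥O) : ((algebraMap ↥O ↥E c : ↥E) : LaurentSeries K) ∈ gaussRing O := by
  have : ((algebraMap ↥O ↥E c : ↥E) : LaurentSeries K) = HahnSeries.C ((c : ↥O) : K) := by
    show algebraMap K (LaurentSeries K) (c : K) = _
    rw [GaussGen8.algebraMap_eq_C]
  rw [this]
  exact C_mem O c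

include ht in
/-- `O[t] ⊂ Ov`. -/
theorem adjoin_le_OvE (y : ↥(Algebra.adjoin ↥O {t})) : (y : ↥E) ∈ OvE O hπ E hE := by
  obtain ⟨y, hy⟩ := y
  show y ∈ OvE O hπ E hE
  induction hy using Algebra.adjoin_induction with
  | mem x hx =>
    rw [Set.mem_singleton_iff] at hx
    subst hx
    exact (mem_OvE_iff O hπ E hE _).mpr ht
  | algebraMap c => exact (mem_OvE_iff O hπ E hE _).mpr (algebraMap_O_mem c)
  | add x y _ _ hx hy => exact add_mem hx hy
  | mul x y _ _ hx hy => exact mul_mem hx hy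

include ht in
/-- **`le_Ov`**: the integral closure of `O[t]` in `E` lies in `Ov`. -/
theorem mem_OvE_of_isIntegral {x : ↥E} (hx : IsIntegral ↥(Algebra.adjoin ↥O {t}) x) :
    x ∈ OvE O hπ E hE := by
  let φ : ↥(Algebra.adjoin ↥O {t}) →+* ↥(OvE O hπ E hE) :=
    { toFun := fun y => ⟨(y : ↥E), adjoin_le_OvE hπ hE t ht y⟩
      map_one' := rfl
      map_mul' := fun _ _ => rfl
      map_zero' := rfl
      map_add' := fun _ _ => rfl }
  have h2 : IsIntegral ↥(OvE O hπ E hE) x := by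
    have := hx.map_of_comp_eq φ (RingHom.id ↥E) (by ext; rfl)
    simpa using this
  obtain ⟨y, hy⟩ := (IsIntegrallyClosed.isIntegral_iff (R := ↥(OvE O hπ E hE)) (K := ↥E)).mp h2
  rw [← hy]
  exact y.2

/-! #### the chart at infinity -/

omit hπ in
theorem gaussRed_ne_zero_of_transcendental
    (htr : Transcendental (Res O) (gaussRed O ⟨(t : LaurentSeries K), ht⟩)) :
    gaussRed O ⟨(t : LaurentSeries K), ht⟩ ≠ 0 := by
  intro h0
  apply htr
  rw [h0]
  exact isAlgebraic_zero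

omit hπ in
theorem tinv_mem_gaussRing (htr : Transcendental (Res O) (gaussRed O ⟨(t : LaurentSeries K), ht⟩)) :
    ((t⁻¹ : ↥E) : LaurentSeries K) ∈ gaussRing O := by
  have := inv_mem_of_gaussRed_ne_zero O ⟨(t : LaurentSeries K), ht⟩
    (gaussRed_ne_zero_of_transcendental t ht htr)
  exact this

omit hπ in
theorem gaussRed_inv' (htr : Transcendental (Res O) (gaussRed O ⟨(t : LaurentSeries K), ht⟩)) :
    gaussRed O ⟨((t⁻¹ : ↥E) : LaurentSeries K), tinv_mem_gaussRing t ht htr⟩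
      = (gaussRed O ⟨(t : LaurentSeries K), ht⟩)⁻¹ :=
  gaussRed_inv O ⟨(t : LaurentSeries K), ht⟩ (gaussRed_ne_zero_of_transcendental t ht htr)

omit hπ in
theorem transcendental_inv (htr : Transcendental (Res O) (gaussRed O ⟨(t : LaurentSeries K), ht⟩)) :
    Transcendental (Res O) (gaussRed O ⟨((t⁻¹ : ↥E) : LaurentSeries K), tinv_mem_gaussRing t ht htr⟩) := by
  rw [gaussRed_inv' t ht htr]
  intro halg
  apply htr
  have := halg.inv
  rwa [inv_inv] at this

omit hπ in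
theorem Kt_inv (htr : Transcendental (Res O) (gaussRed O ⟨(t : LaurentSeries K), ht⟩)) :
    Kt O ⟨((t⁻¹ : ↥E) : LaurentSeries K), tinv_mem_gaussRing t ht htr⟩ = Kt O ⟨(t : LaurentSeries K), ht⟩ := by
  apply le_antisymm
  · rw [IntermediateField.adjoin_le_iff]
    rintro x hx
    rw [Set.mem_singleton_iff] at hx
    subst hx
    show ((t⁻¹ : ↥E) : LaurentSeries K) ∈ _
    rw [show ((t⁻¹ : ↥E) : LaurentSeries K) = ((t : ↥E) : LaurentSeries K)⁻¹ from rfl]
    exact IntermediateField.inv_mem _ (IntermediateField.mem_adjoin_simple_self K _)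
  · rw [IntermediateField.adjoin_le_iff]
    rintro x hx
    rw [Set.mem_singleton_iff] at hx
    subst hx
    have h := IntermediateField.inv_mem _ (IntermediateField.mem_adjoin_simple_self K
      (((t⁻¹ : ↥E) : LaurentSeries K)))
    rw [show ((t⁻¹ : ↥E) : LaurentSeries K) = ((t : ↥E) : LaurentSeries K)⁻¹ from rfl, inv_inv] at h
    exact h

omit hπ in
theorem kt_inv (htr : Transcendental (Res O) (gaussRed O ⟨(t : LaurentSeries K), ht⟩)) :
    kt O ⟨((t⁻¹ : ↥E) : LaurentSeries K), tinv_mem_gaussRing t ht htr⟩ = kt O ⟨(t : LaurentSeries K), ht⟩ := by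
  show IntermediateField.adjoin (Res O) {gaussRed O ⟨((t⁻¹ : ↥E) : LaurentSeries K), _⟩}
    = IntermediateField.adjoin (Res O) {gaussRed O ⟨(t : LaurentSeries K), ht⟩}
  rw [gaussRed_inv' t ht htr]
  apply le_antisymm
  · rw [IntermediateField.adjoin_le_iff]
    rintro x hx
    rw [Set.mem_singleton_iff] at hx
    subst hx
    exact IntermediateField.inv_mem _ (IntermediateField.mem_adjoin_simple_self (Res O) _)
  · rw [IntermediateField.adjoin_le_iff]
    rintro x hx
    rw [Set.mem_singleton_iff] at hx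
    subst hx
    have h := IntermediateField.inv_mem _ (IntermediateField.mem_adjoin_simple_self (Res O)
      ((gaussRed O ⟨(t : LaurentSeries K), ht⟩)⁻¹))
    rwa [inv_inv] at h

omit hπ in
theorem degLe_inv (htr : Transcendental (Res O) (gaussRed O ⟨(t : LaurentSeries K), ht⟩))
    {n : ℕ} (hdeg : DegLe O E ⟨(t : LaurentSeries K), ht⟩ n) :
    DegLe O E ⟨((t⁻¹ : ↥E) : LaurentSeries K), tinv_mem_gaussRing t ht htr⟩ n := by
  unfold DegLe
  rw [Kt_inv t ht htr]
  exact hdeg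

omit hπ in
theorem irr_inv (htr : Transcendental (Res O) (gaussRed O ⟨(t : LaurentSeries K), ht⟩))
    {n : ℕ} (hirr : Irr O E ⟨(t : LaurentSeries K), ht⟩ n) :
    Irr O E ⟨((t⁻¹ : ↥E) : LaurentSeries K), tinv_mem_gaussRing t ht htr⟩ n := by
  unfold Irr
  rw [kt_inv t ht htr]
  exact hirr

/-- **`sat`** for the chart `O[t⁻¹]`. -/
theorem isIntegral_of_mul_inv
    (htr : Transcendental (Res O) (gaussRed O ⟨(t : LaurentSeries K), ht⟩))
    {n : ℕ} (hdeg : DegLe O E ⟨(t : LaurentSeries K), ht⟩ n)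
    (hirr : Irr O E ⟨(t : LaurentSeries K), ht⟩ n)
    {x : ↥E} (hx : x ∈ OvE O hπ E hE)
    (hπx : IsIntegral ↥(Algebra.adjoin ↥O {t⁻¹}) (algebraMap ↥O ↥E π * x)) :
    IsIntegral ↥(Algebra.adjoin ↥O {t⁻¹}) x :=
  isIntegral_of_mul hπ hE t⁻¹ (tinv_mem_gaussRing t ht htr) (transcendental_inv t ht htr)
    (degLe_inv t ht htr hdeg) (irr_inv t ht htr hirr) hx hπx

/-- **`le_Ov`** for the chart `O[t⁻¹]`. -/
theorem mem_OvE_of_isIntegral_inv
    (htr : Transcendental (Res O) (gaussRed O ⟨(t : LaurentSeries K), ht⟩))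
    {x : ↥E} (hx : IsIntegral ↥(Algebra.adjoin ↥O {t⁻¹}) x) : x ∈ OvE O hπ E hE :=
  mem_OvE_of_isIntegral hπ hE t⁻¹ (tinv_mem_gaussRing t ht htr) hx

/-! #### the valuation ring `Ov` -/

/-- **`tinv_mem_Ov`**. -/
theorem t_inv_mem (htr : Transcendental (Res O) (gaussRed O ⟨(t : LaurentSeries K), ht⟩)) :
    t⁻¹ ∈ OvE O hπ E hE :=
  (mem_OvE_iff O hπ E hE _).mpr (tinv_mem_gaussRing t ht htr)

include ht in
theorem t_mem : t ∈ OvE O hπ E hE := (mem_OvE_iff O hπ E hE _).mpr ht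

omit hπ in
theorem coe_algebraMap_pi (π : ↥O) :
    ((algebraMap ↥O ↥E π : ↥E) : LaurentSeries K) = piK π := by
  show algebraMap K (LaurentSeries K) (π : K) = _
  rw [GaussGen8.algebraMap_eq_C]

/-- **`pi_ne`**. -/
theorem algebraMap_pi_ne_zero : algebraMap ↥O ↥E π ≠ 0 := by
  intro h
  have := congrArg (fun y : ↥E => (y : LaurentSeries K)) h
  simp only [coe_algebraMap_pi] at this
  exact piK_ne_zero (isUnif_of_irreducible O hπ) this

/-- **`pi_nonunit`**. -/
theorem pi_inv_not_mem : (algebraMap ↥O ↥E π)⁻¹ ∉ OvE O hπ E hE := by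
  intro h
  have hu := isUnif_of_irreducible O hπ
  have h' : (piK π)⁻¹ ∈ gaussRing O := by
    have := (mem_OvE_iff O hπ E hE _).mp h
    rwa [show (((algebraMap ↥O ↥E π)⁻¹ : ↥E) : LaurentSeries K)
      = ((algebraMap ↥O ↥E π : ↥E) : LaurentSeries K)⁻¹ from rfl, coe_algebraMap_pi] at this
  have h1 : constG O π * (⟨(piK π)⁻¹, h'⟩ : ↥(gaussRing O)) = 1 :=
    Subtype.ext (mul_inv_cancel₀ (piK_ne_zero hu))
  have := congrArg (gaussRed O) h1
  rw [map_mul, gaussRed_unif hu, zero_mul, map_one] at this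
  exact zero_ne_one this

/-- **`unif`**: a non-unit of `Ov` is a multiple of `π`. -/
theorem exists_eq_pi_mul {x : ↥E} (hx : x ∈ OvE O hπ E hE) (hxi : x⁻¹ ∉ OvE O hπ E hE) :
    ∃ c ∈ OvE O hπ E hE, x = algebraMap ↥O ↥E π * c := by
  have hu := isUnif_of_irreducible O hπ
  have hxG := (mem_OvE_iff O hπ E hE x).mp hx
  have h0 : gaussRed O ⟨(x : LaurentSeries K), hxG⟩ = 0 := by
    by_contra hne
    apply hxi
    exact (mem_OvE_iff O hπ E hE _).mpr (inv_mem_of_gaussRed_ne_zero O ⟨_, hxG⟩ hne)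
  obtain ⟨g, hg⟩ := (gaussRed_eq_zero_iff hu ⟨(x : LaurentSeries K), hxG⟩).mp h0
  have hg' : (x : LaurentSeries K) = piK π * (g : LaurentSeries K) :=
    congrArg (fun y : ↥(gaussRing O) => (y : LaurentSeries K)) hg
  have hpi := algebraMap_pi_ne_zero hπ (E := E)
  refine ⟨(algebraMap ↥O ↥E π)⁻¹ * x, ?_, ?_⟩
  · rw [mem_OvE_iff]
    have : (((algebraMap ↥O ↥E π)⁻¹ * x : ↥E) : LaurentSeries K) = (g : LaurentSeries K) := by
      show ((algebraMap ↥O ↥E π : ↥E) : LaurentSeries K)⁻¹ * (x : LaurentSeries K) = _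
      rw [coe_algebraMap_pi, hg', ← mul_assoc, inv_mul_cancel₀ (piK_ne_zero hu), one_mul]
    rw [this]
    exact g.2
  · rw [← mul_assoc, mul_inv_cancel₀ hpi, one_mul]

end Fermat.Agent.RED.PUR.G1Package8
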