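/-
Program H (S18), chapter RED/PUR (MODEL-GAUSS), helper10: the CONCRETE bridge between helper8's generic
Gauss ring (`RED/PUR/GaussGen8`) and the contract objects `AK A K`, `FK M K` of `RED/Interface4`.

* (GB3) `eq_C_of_isAlgebraic` : an element of `K((q))` algebraic over `K` is a constant (any field `K`);
  `exists_algebraMap_eq_of_isAlgebraic E` : `K` is algebraically closed in every intermediate field `E`
  of `K((q)) / K`; `FK_const_of_isAlgebraic` for `E = FK M K`.
* (GB2) `jdO O d = j(q^d) ∈ O((q))`, `embK_jdO`, `redL_jdO`, `jqd_mem_gaussRing`, `gaussRed_jqd`: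
  the generators lie in the Gauss ring and reduce to `j̃(q^d)`.
* (GB1) `fullC_le_fracField`, `laurentBaseChange_le_fracField`, `FK_le_fracField` :
  `K(j(q^d) : d ∣ M) = K·F_M ⊂ Frac O((q))`, so `gaussVS` applies: `OvK A K M hπ : ValuationSubring (FK M K)`.
* (RES) `resField O E : IntermediateField κ κ((q))` = residues of `gaussRing O ∩ E`;
  `fullC_le_resField`, `fullC_le_resField_laurentBaseChange`, `fullC_le_resField_FK` :
  `κ(j̃(q^d) : d ∣ M) ⊂ resField O (K·F_M)`.
-/
import Mathlib
import Fermat.Agent.RED.Interface4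
import Fermat.Agent.RED.PUR.GaussGen8

set_option autoImplicit false
set_option linter.unusedSectionVars false

noncomputable section

open HahnSeries ModularCurve

namespace Fermat.Agent.RED.PUR.GaussBridge10

open Fermat.Agent.RED.PUR.GaussGen8

section Constants

variable {K : Type*} [Field K]

/-- an element of `K((q))` integral over `K` is a power series. -/
theorem exists_ofPowerSeries_of_isIntegral {x : LaurentSeries K} (hx : IsIntegral K x) :
    ∃ p : PowerSeries K, HahnSeries.ofPowerSeries ℤ K p = x := by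
  obtain ⟨p, hpm, hp⟩ := hx
  have hcomp : (algebraMap (PowerSeries K) (LaurentSeries K)).comp (PowerSeries.C) =
      algebraMap K (LaurentSeries K) := by
    refine RingHom.ext fun c => ?_
    rw [algebraMap_eq_C (K := K)]
    show HahnSeries.ofPowerSeries ℤ K (PowerSeries.C c) = _
    rw [HahnSeries.ofPowerSeries_C]
  have h2 : IsIntegral (PowerSeries K) x :=
    ⟨p.map PowerSeries.C, hpm.map _, by rw [Polynomial.eval₂_map, hcomp]; exact hp⟩
  exact (IsIntegrallyClosed.isIntegral_iff (R := PowerSeries K) (K := LaurentSeries K)).1 h2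

/-- **`K` is algebraically closed in `K((q))`.** -/
theorem eq_C_of_isAlgebraic {x : LaurentSeries K} (hx : IsAlgebraic K x) :
    x = HahnSeries.C (x.coeff 0) := by
  by_contra hne
  set y : LaurentSeries K := x - HahnSeries.C (x.coeff 0) with hy
  have hy0 : y ≠ 0 := sub_ne_zero.mpr hne
  have hyalg : IsAlgebraic K y := by
    refine hx.sub ?_
    rw [← algebraMap_eq_C (K := K)]
    exact isAlgebraic_algebraMap _
  have hyint : IsIntegral K y := hyalg.isIntegral
  have hyinv : IsIntegral K y⁻¹ := hyalg.inv.isIntegral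
  obtain ⟨p, hp⟩ := exists_ofPowerSeries_of_isIntegral hyint
  obtain ⟨r, hr⟩ := exists_ofPowerSeries_of_isIntegral hyinv
  have hpr : p * r = 1 := by
    apply HahnSeries.ofPowerSeries_injective (Γ := ℤ) (R := K)
    rw [map_mul, hp, hr, mul_inv_cancel₀ hy0, map_one]
  have hc0 : PowerSeries.constantCoeff p = 0 := by
    have h1 : (HahnSeries.ofPowerSeries ℤ K p).coeff ((0 : ℕ) : ℤ) = PowerSeries.coeff 0 p :=
      HahnSeries.ofPowerSeries_apply_coeff p 0
    rw [hp, hy] at h1
    simp only [Nat.cast_zero, HahnSeries.coeff_sub, HahnSeries.C_apply,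
      HahnSeries.coeff_single_same, sub_self] at h1
    rw [← PowerSeries.coeff_zero_eq_constantCoeff_apply, ← h1]
  have := congrArg PowerSeries.constantCoeff hpr
  rw [map_mul, hc0, zero_mul, map_one] at this
  exact zero_ne_one this

theorem exists_C_of_isAlgebraic {x : LaurentSeries K} (hx : IsAlgebraic K x) :
    ∃ c : K, x = algebraMap K (LaurentSeries K) c :=
  ⟨x.coeff 0, by rw [algebraMap_eq_C (K := K)]; exact eq_C_of_isAlgebraic hx⟩

/-- **(GB3)** `K` is algebraically closed in every intermediate field of `K((q)) / K`. -/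
theorem exists_algebraMap_eq_of_isAlgebraic (E : IntermediateField K (LaurentSeries K)) {y : E}
    (hy : IsAlgebraic K y) : ∃ c : K, y = algebraMap K E c := by
  have h1 : IsAlgebraic K (E.val y) := hy.algHom E.val
  obtain ⟨c, hc⟩ := exists_C_of_isAlgebraic h1
  exact ⟨c, Subtype.ext hc⟩

end Constants

section Generators

variable {K : Type*} [Field K] (O : ValuationSubring K)

/-- The integral generator `j(q^d)` over `O`. -/
def jdO (d : ℕ) [NeZero d] : LaurentSeries ↥O := qExpand ↥O d (jqModC ↥O)

theorem embK_jdO (d : ℕ) [NeZero d] : embK O (jdO O d) = qExpand K d (jqModC K) := by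
  unfold jdO embK
  rw [coeffMap_qExpand, coeffMap_jqModC]

theorem redL_jdO (d : ℕ) [NeZero d] :
    redL O (jdO O d) = qExpand (Res O) d (jqModC (Res O)) := by
  unfold jdO redL
  rw [coeffMap_qExpand, coeffMap_jqModC]

/-- the generators lie in the Gauss ring. -/
theorem jqd_mem_gaussRing (d : ℕ) [NeZero d] : qExpand K d (jqModC K) ∈ gaussRing O := by
  rw [← embK_jdO O d]; exact embK_mem O _

theorem gaussRed_jqd (d : ℕ) [NeZero d] :
    gaussRed O ⟨qExpand K d (jqModC K), jqd_mem_gaussRing O d⟩ =
      qExpand (Res O) d (jqModC (Res O)) := by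
  have h : (⟨qExpand K d (jqModC K), jqd_mem_gaussRing O d⟩ : gaussRing O) =
      ⟨embK O (jdO O d), embK_mem O _⟩ := Subtype.ext (embK_jdO O d).symm
  rw [h, gaussRed_embK, redL_jdO]

theorem fullC_le_fracField (M : ℕ) [NeZero M] :
    modularFunctionFieldFullC K M ≤ fracField O := by
  unfold modularFunctionFieldFullC
  rw [IntermediateField.adjoin_le_iff]
  rintro _ ⟨d, hne, hd, rfl⟩
  rw [← embK_jdO O d]
  exact embK_mem_fracField O _

/-! ### The residue field of `gaussRing ∩ E` -/

/-- `y` is the residue of an element of `gaussRing O ∩ E`. -/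
def IsRes (E : IntermediateField K (LaurentSeries K)) (y : LaurentSeries (Res O)) : Prop :=
  ∃ f, ∃ hf : f ∈ gaussRing O, f ∈ E ∧ gaussRed O ⟨f, hf⟩ = y

variable {O} in
theorem IsRes.mul {E : IntermediateField K (LaurentSeries K)} {y z : LaurentSeries (Res O)}
    (hy : IsRes O E y) (hz : IsRes O E z) : IsRes O E (y * z) := by
  obtain ⟨f, hf, hfE, rfl⟩ := hy
  obtain ⟨g, hg, hgE, rfl⟩ := hz
  refine ⟨f * g, mul_mem hf hg, mul_mem hfE hgE, ?_⟩
  have : (⟨f * g, mul_mem hf hg⟩ : gaussRing O) = ⟨f, hf⟩ * ⟨g, hg⟩ := rfl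
  rw [this, map_mul]

variable {O} in
theorem IsRes.add {E : IntermediateField K (LaurentSeries K)} {y z : LaurentSeries (Res O)}
    (hy : IsRes O E y) (hz : IsRes O E z) : IsRes O E (y + z) := by
  obtain ⟨f, hf, hfE, rfl⟩ := hy
  obtain ⟨g, hg, hgE, rfl⟩ := hz
  refine ⟨f + g, add_mem hf hg, add_mem hfE hgE, ?_⟩
  have : (⟨f + g, add_mem hf hg⟩ : gaussRing O) = ⟨f, hf⟩ + ⟨g, hg⟩ := rfl
  rw [this, map_add]

theorem isRes_zero (E : IntermediateField K (LaurentSeries K)) : IsRes O E 0 := by
  refine ⟨0, zero_mem _, zero_mem _, ?_⟩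
  have : (⟨0, zero_mem _⟩ : gaussRing O) = 0 := rfl
  rw [this, map_zero]

theorem isRes_one (E : IntermediateField K (LaurentSeries K)) : IsRes O E 1 := by
  refine ⟨1, one_mem _, one_mem _, ?_⟩
  have : (⟨1, one_mem _⟩ : gaussRing O) = 1 := rfl
  rw [this, map_one]

theorem isRes_algebraMap (E : IntermediateField K (LaurentSeries K)) (c : Res O) :
    IsRes O E (algebraMap (Res O) (LaurentSeries (Res O)) c) := by
  obtain ⟨c', rfl⟩ := IsLocalRing.residue_surjective c
  refine ⟨HahnSeries.C (c' : K), C_mem O c', ?_, ?_⟩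
  · rw [← algebraMap_eq_C (K := K)]
    exact E.algebraMap_mem _
  · rw [algebraMap_eq_C (K := Res O)]
    exact gaussRed_constG O c'

variable {O} in
theorem IsRes.inv {E : IntermediateField K (LaurentSeries K)} {y : LaurentSeries (Res O)}
    (hy : IsRes O E y) : IsRes O E y⁻¹ := by
  obtain ⟨f, hf, hfE, rfl⟩ := hy
  by_cases h0 : gaussRed O ⟨f, hf⟩ = 0
  · rw [h0, inv_zero]
    exact isRes_zero O E
  · exact ⟨f⁻¹, inv_mem_of_gaussRed_ne_zero O ⟨f, hf⟩ h0, inv_mem hfE,
      gaussRed_inv O ⟨f, hf⟩ h0⟩

/-- The set of residues of the elements of `gaussRing O ∩ E`, as an intermediate field of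
`κ((q)) / κ`. -/
def resField (E : IntermediateField K (LaurentSeries K)) :
    IntermediateField (Res O) (LaurentSeries (Res O)) where
  carrier := {y | IsRes O E y}
  mul_mem' := fun hy hz => IsRes.mul hy hz
  one_mem' := isRes_one O E
  add_mem' := fun hy hz => IsRes.add hy hz
  zero_mem' := isRes_zero O E
  algebraMap_mem' := isRes_algebraMap O E
  inv_mem' := fun _ hy => IsRes.inv hy

theorem mem_resField_iff (E : IntermediateField K (LaurentSeries K))
    (y : LaurentSeries (Res O)) :
    y ∈ resField O E ↔ ∃ f, ∃ hf : f ∈ gaussRing O, f ∈ E ∧ gaussRed O ⟨f, hf⟩ = y := Iff.rfl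

theorem resField_mono {E E' : IntermediateField K (LaurentSeries K)} (h : E ≤ E') :
    resField O E ≤ resField O E' := by
  rintro y ⟨f, hf, hfE, rfl⟩
  exact ⟨f, hf, h hfE, rfl⟩

/-- **(RES)** every element of `κ(j̃(q^d) : d ∣ M)` is the residue of an element of
`gaussRing O ∩ K(j(q^d) : d ∣ M)`. -/
theorem fullC_le_resField (M : ℕ) [NeZero M] :
    modularFunctionFieldFullC (Res O) M ≤ resField O (modularFunctionFieldFullC K M) := by
  unfold modularFunctionFieldFullC
  rw [IntermediateField.adjoin_le_iff]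
  rintro _ ⟨d, hne, hd, rfl⟩
  exact ⟨qExpand K d (jqModC K), jqd_mem_gaussRing O d,
    IntermediateField.subset_adjoin K _ (mem_divisorExpansionsC K M hd), gaussRed_jqd O d⟩

end Generators

section BaseChange

variable {K : Type*} [Field K] [Algebra ℚ K] (O : ValuationSubring K)

theorem coeffEmb_jqd (d : ℕ) [NeZero d] :
    coeffEmb K (qExpand ℚ d jq) = qExpand K d (jqModC K) := by
  unfold coeffEmb
  rw [coeffMap_qExpand, ← jqModC_rat, coeffMap_jqModC]

theorem coeffEmb_algebraMap (r : ℚ) :
    coeffEmb K (algebraMap ℚ (LaurentSeries ℚ) r) =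
      algebraMap K (LaurentSeries K) (algebraMap ℚ K r) := by
  rw [coeffEmb, algebraMap_laurentSeries_eq_single, algebraMap_laurentSeries_eq_single,
    coeffMap_single]

/-- **(GB1)** `K·F_M ⊂ Frac O((q))`. -/
theorem coeffEmb_mem_fracField (M : ℕ) [NeZero M] {x : LaurentSeries ℚ}
    (hx : x ∈ modularFunctionFieldFull M) : coeffEmb K x ∈ fracField O := by
  unfold modularFunctionFieldFull at hx
  induction hx using IntermediateField.adjoin_induction with
  | mem y hy =>
      obtain ⟨d, hne, hd, rfl⟩ := hy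
      rw [coeffEmb_jqd, ← embK_jdO O d]
      exact embK_mem_fracField O _
  | algebraMap r =>
      rw [coeffEmb_algebraMap]
      exact (fracField O).algebraMap_mem _
  | add x y _ _ hx hy => rw [map_add]; exact add_mem hx hy
  | inv x _ hx => rw [map_inv₀]; exact inv_mem hx
  | mul x y _ _ hx hy => rw [map_mul]; exact mul_mem hx hy

theorem laurentBaseChange_le_fracField (M : ℕ) [NeZero M] :
    laurentBaseChange K (modularFunctionFieldFull M) ≤ fracField O := by
  unfold laurentBaseChange
  rw [IntermediateField.adjoin_le_iff]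
  rintro _ ⟨x, hx, rfl⟩
  exact coeffEmb_mem_fracField O M hx

/-- `K(j(q^d) : d ∣ M) ⊂ K·F_M` (the easy inclusion). -/
theorem fullC_le_laurentBaseChange (M : ℕ) [NeZero M] :
    modularFunctionFieldFullC K M ≤ laurentBaseChange K (modularFunctionFieldFull M) := by
  unfold modularFunctionFieldFullC
  rw [IntermediateField.adjoin_le_iff]
  rintro _ ⟨d, hne, hd, rfl⟩
  rw [← coeffEmb_jqd]
  exact coeffEmb_mem_laurentBaseChange K (jqd_mem_full M hd)

/-- **(RES)** for `K·F_M`. -/
theorem fullC_le_resField_laurentBaseChange (M : ℕ) [NeZero M] :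
    modularFunctionFieldFullC (Res O) M ≤
      resField O (laurentBaseChange K (modularFunctionFieldFull M)) :=
  (fullC_le_resField O M).trans (resField_mono O (fullC_le_laurentBaseChange M))

end BaseChange

section Concrete

open Fermat.Agent.RED.Interface4

variable (A : ValuationSubring Qbar) (K : IntermediateField ℚ Qbar) (M : ℕ) [NeZero M]

/-- **(GB1)** for the contract objects: `K·F_M ⊂ Frac A_K((q))`. -/
theorem FK_le_fracField : FK M K ≤ fracField (AK A K) :=
  laurentBaseChange_le_fracField (AK A K) M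

/-- The generators `j(q^d)`, `d ∣ M`, lie in `K·F_M`. -/
theorem jqd_mem_FK {d : ℕ} [NeZero d] (hd : d ∣ M) : qExpand K d (jqModC K) ∈ FK M K :=
  fullC_le_laurentBaseChange M
    (IntermediateField.subset_adjoin K _ (mem_divisorExpansionsC K M hd))

/-- **(RES)** for the contract objects. -/
theorem fullC_le_resField_FK :
    modularFunctionFieldFullC (Res (AK A K)) M ≤ resField (AK A K) (FK M K) :=
  fullC_le_resField_laurentBaseChange (AK A K) M

set_option synthInstance.maxHeartbeats 400000 in
/-- **(GB3)** for the contract objects: `K` is algebraically closed in `K·F_M`. -/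
theorem FK_const_of_isAlgebraic {y : FK M K} (hy : IsAlgebraic K y) :
    ∃ c : K, (y : LaurentSeries K) = HahnSeries.C c := by
  have h1 : IsAlgebraic K ((FK M K).val y) := hy.algHom (FK M K).val
  exact ⟨_, eq_C_of_isAlgebraic h1⟩

set_option synthInstance.maxHeartbeats 400000 in
/-- **(GB3)**, `algebraMap` form. -/
theorem FK_const_of_isAlgebraic' {y : FK M K} (hy : IsAlgebraic K y) :
    ∃ c : K, y = algebraMap K (FK M K) c :=
  exists_algebraMap_eq_of_isAlgebraic (FK M K) hy

/-- The Gauss valuation ring of `K·F_M` over `A_K`. -/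
def OvK {π : ↥(AK A K)} (hπ : IsUnif (AK A K) π) : ValuationSubring (FK M K) :=
  gaussVS hπ (FK M K) (FK_le_fracField A K M)

theorem mem_OvK_iff {π : ↥(AK A K)} (hπ : IsUnif (AK A K) π) (f : FK M K) :
    f ∈ OvK A K M hπ ↔ (f : LaurentSeries K) ∈ gaussRing (AK A K) :=
  mem_gaussVS_iff hπ (FK M K) (FK_le_fracField A K M) f

end Concrete

end Fermat.Agent.RED.PUR.GaussBridge10
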