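/-
Program H (S18), chapter RED/PUR (MODEL-GAUSS, concrete side), helper25.

**Degree bookkeeping for (V2)** — pure field theory, Mathlib only (+ `FamilyForm20`, `IrredP25`).

`κ ⊂ L` fields, `j t : L`, `F' ⊂ L` an intermediate field containing `j` with
`[F' : κ(j)] ≥ n·d` (finite), and `1, t, …, t^d` linearly DEPENDENT over `κ(j)`.  Then there are `n`
elements of `F'` which are linearly independent over `κ(t)`.

Use: `L = κ((q))`, `j = j̃`, `t = t̃` the reduction of the Hauptmodul, `F' = κ(j̃(q^d) : d ∣ M)`,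
`ψ(M) = n·d` with `d = [K(t):K(j)]`, `n = [F_{M,K} : K(t)]` in characteristic `0`.
-/
import Mathlib
import Fermat.Agent.IG.PR.FamilyForm20
import Fermat.Agent.IG.PR.IrredP25

set_option autoImplicit false

noncomputable section

open IntermediateField Polynomial

namespace Fermat.Agent.RED.PUR.DegBook25

open Fermat.Agent.IG.PR

variable {κ L : Type*} [Field κ] [Field L] [Algebra κ L]

/-- Integrality goes up along `A ≤ B`. -/
theorem isIntegral_of_le {A B : IntermediateField κ L} (h : A ≤ B) {x : L}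
    (hx : IsIntegral A x) : IsIntegral B x := by
  obtain ⟨p, hpm, hp⟩ := hx
  refine ⟨p.map (inclusion h).toRingHom, hpm.map _, ?_⟩
  rw [eval₂_map]
  exact hp

/-- A linear dependency between `1, x, …, x^d` over a field `A` makes `x` integral of degree `≤ d`. -/
theorem isIntegral_of_dependent {A E : Type*} [Field A] [Field E] [Algebra A E] (x : E) (d : ℕ)
    (hdep : ¬ LinearIndependent A (fun i : Fin (d + 1) => x ^ (i : ℕ))) :
    IsIntegral A x ∧ (minpoly A x).natDegree ≤ d := by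
  rw [Fintype.linearIndependent_iff] at hdep
  push Not at hdep
  obtain ⟨g, hg, i0, hi0⟩ := hdep
  let p : A[X] := ∑ i : Fin (d + 1), C (g i) * X ^ (i : ℕ)
  have hp_eval : aeval x p = 0 := by
    simp only [p, map_sum, map_mul, aeval_C, map_pow, aeval_X]
    simpa [Algebra.smul_def] using hg
  have hp_coeff : p.coeff (i0 : ℕ) = g i0 := by
    simp only [p, finsetSum_coeff, coeff_C_mul, coeff_X_pow]
    rw [Finset.sum_eq_single i0]
    · simp
    · intro b _ hb
      have : ((i0 : ℕ) = (b : ℕ)) ↔ False := by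
        simp only [iff_false]
        exact fun h => hb (Fin.ext h.symm)
      simp [this]
    · intro h; exact absurd (Finset.mem_univ _) h
  have hp0 : p ≠ 0 := by
    intro h
    rw [h, coeff_zero] at hp_coeff
    exact hi0 hp_coeff.symm
  have hp_deg : p.degree < (d + 1 : ℕ) := degree_sum_fin_lt _
  have hint : IsIntegral A x := (isAlgebraic_iff_isIntegral).mp ⟨p, hp0, hp_eval⟩
  refine ⟨hint, ?_⟩
  have h1 : (minpoly A x).degree ≤ p.degree := minpoly.degree_le_of_ne_zero A x hp0 hp_eval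
  have h2 : (minpoly A x).degree < (d + 1 : ℕ) := lt_of_le_of_lt h1 hp_deg
  rw [degree_eq_natDegree (minpoly.ne_zero hint)] at h2
  have : (minpoly A x).natDegree < d + 1 := by exact_mod_cast h2
  omega

/-- Linear independence over a bigger intermediate field implies linear independence over a
smaller one. -/
theorem linearIndependent_of_le {A B : IntermediateField κ L} (h : A ≤ B) {ι : Type*} [Fintype ι]
    {c : ι → L} (hc : LinearIndependent ↥B c) : LinearIndependent ↥A c := by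
  rw [Fintype.linearIndependent_iff] at hc ⊢
  intro g hg i
  have := hc (fun i => ⟨(g i : L), h (g i).2⟩) (by simpa [Algebra.smul_def] using hg) i
  exact Subtype.ext (by simpa using congrArg Subtype.val this)

/-- If `t` is integral over `F'`, every element of `F' ⊔ κ(t)` is a `κ(t)`-linear combination of
elements of `F'`. -/
theorem sup_le_span (F' : IntermediateField κ L) (t : L) (ht : IsIntegral F' t) {w : L}
    (hw : w ∈ F' ⊔ κ⟮t⟯) : w ∈ Submodule.span ↥(κ⟮t⟯) (F' : Set L) := by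
  rw [← restrictScalars_adjoin_eq_sup, mem_restrictScalars] at hw
  have hw' : w ∈ (F'⟮t⟯).toSubalgebra := hw
  rw [adjoin_simple_toSubalgebra_of_isAlgebraic ht.isAlgebraic,
    Algebra.adjoin_singleton_eq_range_aeval] at hw'
  obtain ⟨p, rfl⟩ := hw'
  show aeval t p ∈ _
  rw [aeval_eq_sum_range]
  refine Submodule.sum_mem _ fun i _ => ?_
  have h1 : p.coeff i • t ^ i =
      (⟨t ^ i, pow_mem (mem_adjoin_simple_self κ t) i⟩ : ↥(κ⟮t⟯)) • ((p.coeff i : ↥F') : L) := by
    rw [Algebra.smul_def, Algebra.smul_def]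
    exact mul_comm _ _
  rw [h1]
  exact Submodule.smul_mem _ _ (Submodule.subset_span (p.coeff i).2)

/-- From `n` independent vectors inside the span of a set `S`, get `n` independent vectors IN `S`. -/
theorem exists_indep_in_set {T V : Type*} [Field T] [AddCommGroup V] [Module T V] (S : Set V)
    (n : ℕ) (c : Fin n → V) (hc : ∀ i, c i ∈ Submodule.span T S) (hli : LinearIndependent T c) :
    ∃ c' : Fin n → V, (∀ i, c' i ∈ S) ∧ LinearIndependent T c' := by
  classical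
  obtain ⟨b, hbS, hspan, hbli⟩ := exists_linearIndependent T S
  have hemb : Nonempty (Fin n ↪ ↥b) := by
    by_cases hfin : b.Finite
    · have := hfin.fintype
      have hle : Fintype.card (Fin n) ≤ Fintype.card ↥b :=
        linearIndependent_le_span_aux' c hli b (by
          rintro _ ⟨i, rfl⟩
          rw [hspan]
          exact hc i)
      exact Function.Embedding.nonempty_of_card_le hle
    · have : Infinite ↥b := Set.infinite_coe_iff.mpr hfin
      exact ⟨(Fin.valEmbedding).trans (Infinite.natEmbedding ↥b)⟩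
  obtain ⟨f⟩ := hemb
  exact ⟨fun i => ((f i : ↥b) : V), fun i => hbS (f i).2, hbli.comp f f.injective⟩

/-- **Degree bookkeeping (V2).** -/
theorem exists_indep_family (j t : L) (F' : IntermediateField κ L) (hj : j ∈ F') (n d : ℕ)
    (hd : 0 < d) (hψ : n * d ≤ relfinrank κ⟮j⟯ F')
    (hdep : ¬ LinearIndependent ↥(κ⟮j⟯) (fun i : Fin (d + 1) => t ^ (i : ℕ))) :
    ∃ c : Fin n → L, (∀ i, c i ∈ F') ∧ LinearIndependent ↥(κ⟮t⟯) c := by
  obtain ⟨hint, hdeg⟩ := isIntegral_of_dependent t d hdep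
  have hAF : κ⟮j⟯ ≤ F' := by
    rw [adjoin_simple_le_iff]; exact hj
  have hintF : IsIntegral ↥F' t := isIntegral_of_le hAF hint
  -- the degrees
  have h1 : relfinrank κ⟮j⟯ (κ⟮j⟯ ⊔ κ⟮t⟯) ≤ d := by
    rw [IrredP25.relfinrank_sup_adjoin_simple _ t hint]; exact hdeg
  have h2 : 1 ≤ relfinrank F' (F' ⊔ κ⟮t⟯) := by
    rw [IrredP25.relfinrank_sup_adjoin_simple _ t hintF]
    exact minpoly.natDegree_pos hintF
  have hFW : F' ≤ F' ⊔ κ⟮t⟯ := le_sup_left
  have hATW : κ⟮j⟯ ⊔ κ⟮t⟯ ≤ F' ⊔ κ⟮t⟯ := sup_le_sup_right hAF _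
  have hAAT : κ⟮j⟯ ≤ κ⟮j⟯ ⊔ κ⟮t⟯ := le_sup_left
  have h3 : relfinrank κ⟮j⟯ F' * relfinrank F' (F' ⊔ κ⟮t⟯) =
      relfinrank κ⟮j⟯ (κ⟮j⟯ ⊔ κ⟮t⟯) * relfinrank (κ⟮j⟯ ⊔ κ⟮t⟯) (F' ⊔ κ⟮t⟯) := by
    rw [relfinrank_mul_relfinrank hAF hFW, relfinrank_mul_relfinrank hAAT hATW]
  have h4 : n ≤ relfinrank (κ⟮j⟯ ⊔ κ⟮t⟯) (F' ⊔ κ⟮t⟯) := by
    have h5 : n * d ≤ d * relfinrank (κ⟮j⟯ ⊔ κ⟮t⟯) (F' ⊔ κ⟮t⟯) :=
      calc n * d ≤ relfinrank κ⟮j⟯ F' := hψ
        _ ≤ relfinrank κ⟮j⟯ F' * relfinrank F' (F' ⊔ κ⟮t⟯) := Nat.le_mul_of_pos_right _ h2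
        _ = relfinrank κ⟮j⟯ (κ⟮j⟯ ⊔ κ⟮t⟯) * relfinrank (κ⟮j⟯ ⊔ κ⟮t⟯) (F' ⊔ κ⟮t⟯) := h3
        _ ≤ d * relfinrank (κ⟮j⟯ ⊔ κ⟮t⟯) (F' ⊔ κ⟮t⟯) := Nat.mul_le_mul_right _ h1
    rw [mul_comm n d] at h5
    exact Nat.le_of_mul_le_mul_left h5 hd
  obtain ⟨c, hcW, hcli⟩ := FamilyForm20.exists_family_of_le_relfinrank hATW n h4
  have hcli' : LinearIndependent ↥(κ⟮t⟯) c :=
    linearIndependent_of_le (le_sup_right : κ⟮t⟯ ≤ κ⟮j⟯ ⊔ κ⟮t⟯) hcli
  exact exists_indep_in_set (F' : Set L) n c (fun i => sup_le_span F' t hintF (hcW i)) hcli'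

end Fermat.Agent.RED.PUR.DegBook25
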