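/-
Program H (S18), chapter RED/PUR, helper20: (UNIQ-abstract), Mathlib only.

`F / E` an algebraic field extension, `O₁, O₂` valuation subrings of `F` with the same restriction
`O_E` to `E`.
* `le_of_le_of_comap_eq` / `eq_of_le_of_comap_eq`: if `O₂ ≤ O₁` then `O₁ = O₂` (valuation rings over
  the same valuation ring of `E` are incomparable) — general valuation rings, no rank assumption.
* `exists_approx`: for incomparable `O₁, O₂` there is `x ≡ 1 mod 𝔪₁`, `x ∈ 𝔪₂`.
* `eq_of_residually_independent`: if `[F : E] ≤ n` and `O₁` contains `n` elements whose residues are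
  linearly independent over the residue field of `O_E` (elementwise form), then `O₂ = O₁`:
  the valuation ring `O_E` has exactly ONE extension to `F`.  (No completion, no fundamental
  inequality.)  This is (V3): the Gauss valuation of `K(t)` has one extension to `K·F_M`.
-/
import Mathlib

set_option autoImplicit false

namespace Fermat.Agent.RED.PUR.UniqueExt20

open scoped Classical

variable {E F : Type*} [Field E] [Field F] [Algebra E F]

/-! ### Valuation bookkeeping -/

section Basic

variable (A : ValuationSubring F)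

theorem val_lt_one_iff {x : F} : A.valuation x < 1 ↔ x = 0 ∨ x⁻¹ ∉ A := by
  rw [← ValuationSubring.mem_nonunits_iff, ValuationSubring.mem_nonunits_iff_or]

theorem val_eq_one_iff {x : F} : A.valuation x = 1 ↔ x ≠ 0 ∧ x ∈ A ∧ x⁻¹ ∈ A := by
  constructor
  · intro h
    refine ⟨?_, (A.valuation_le_one_iff x).mp h.le, (A.valuation_le_one_iff _).mp ?_⟩
    · rintro rfl
      rw [map_zero] at h
      exact zero_ne_one h
    · rw [map_inv₀, h, inv_one]
  · rintro ⟨hx, h1, h2⟩
    have h1' := (A.valuation_le_one_iff x).mpr h1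
    have h2' := (A.valuation_le_one_iff _).mpr h2
    rw [map_inv₀] at h2'
    have hpos : 0 < A.valuation x := zero_lt_iff.mpr ((Valuation.ne_zero_iff _).mpr hx)
    exact le_antisymm h1' ((inv_le_one₀ hpos).mp h2')

theorem val_pos {x : F} (hx : x ≠ 0) : 0 < A.valuation x :=
  zero_lt_iff.mpr ((Valuation.ne_zero_iff _).mpr hx)

variable {A}

theorem val_lt_one_of_le {B : ValuationSubring F} (h : B ≤ A) {x : F}
    (hx : A.valuation x < 1) : B.valuation x < 1 := by
  rw [val_lt_one_iff] at hx ⊢
  rcases hx with h0 | h1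
  · exact Or.inl h0
  · exact Or.inr fun hB => h1 (h hB)

end Basic

section Comap

variable (A : ValuationSubring F)

theorem comap_val_le_one_iff (c : E) :
    (A.comap (algebraMap E F)).valuation c ≤ 1 ↔ A.valuation (algebraMap E F c) ≤ 1 := by
  rw [ValuationSubring.valuation_le_one_iff, ValuationSubring.valuation_le_one_iff,
    ValuationSubring.mem_comap]

theorem comap_val_lt_one_iff (c : E) :
    (A.comap (algebraMap E F)).valuation c < 1 ↔ A.valuation (algebraMap E F c) < 1 := by
  rw [val_lt_one_iff, val_lt_one_iff, ValuationSubring.mem_comap, map_inv₀,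
    map_eq_zero_iff _ (algebraMap E F).injective]

theorem comap_val_eq_one_iff (c : E) :
    (A.comap (algebraMap E F)).valuation c = 1 ↔ A.valuation (algebraMap E F c) = 1 := by
  rw [val_eq_one_iff, val_eq_one_iff, ValuationSubring.mem_comap, ValuationSubring.mem_comap,
    map_inv₀, Ne, Ne, map_eq_zero_iff _ (algebraMap E F).injective]

end Comap

/-! ### Scaling a finite family into the valuation ring -/

theorem exists_scale {ι : Type*} [Fintype ι] (OE : ValuationSubring E) (g : ι → E)
    (hg : ∃ i, g i ≠ 0) : ∃ j, g j ≠ 0 ∧ ∀ i, OE.valuation (g i / g j) ≤ 1 := by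
  obtain ⟨i₀, hi₀⟩ := hg
  obtain ⟨j, -, hj⟩ := Finset.exists_max_image Finset.univ (fun i => OE.valuation (g i))
    ⟨i₀, Finset.mem_univ _⟩
  have hj0 : g j ≠ 0 := by
    intro h0
    have h1 := hj i₀ (Finset.mem_univ _)
    rw [h0, map_zero] at h1
    exact hi₀ ((Valuation.zero_iff _).mp (le_antisymm h1 zero_le))
  refine ⟨j, hj0, fun i => ?_⟩
  rw [map_div₀]
  exact (div_le_one₀ (val_pos OE hj0)).mpr (hj i (Finset.mem_univ _))

/-! ### Incomparability -/

theorem le_of_le_of_comap_eq [Algebra.IsAlgebraic E F] {A B : ValuationSubring F} (hBA : B ≤ A)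
    (hcomap : A.comap (algebraMap E F) = B.comap (algebraMap E F)) : A ≤ B := by
  intro a haA
  by_contra haB
  have ha0 : a ≠ 0 := fun h0 => haB (h0 ▸ B.zero_mem)
  -- `y = a⁻¹`
  have hyBmem : a⁻¹ ∈ B := (B.mem_or_inv_mem a).resolve_left haB
  have hyB : B.valuation a⁻¹ < 1 := by
    rw [val_lt_one_iff]; right; rwa [inv_inv]
  have hyA : A.valuation a⁻¹ = 1 := by
    rw [val_eq_one_iff]; exact ⟨inv_ne_zero ha0, hBA hyBmem, by rwa [inv_inv]⟩
  have hy0 : a⁻¹ ≠ 0 := inv_ne_zero ha0
  set y := a⁻¹ with hy
  -- an algebraic relation for `y`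
  obtain ⟨p, hp0, hpy⟩ := Algebra.IsAlgebraic.isAlgebraic (R := E) y
  set d := p.natDegree with hd
  have hlead : p.coeff d ≠ 0 := by
    rw [hd]; exact Polynomial.leadingCoeff_ne_zero.mpr hp0
  obtain ⟨j, hj0, hj⟩ := exists_scale (A.comap (algebraMap E F))
    (fun i : Fin (d + 1) => p.coeff i) ⟨Fin.last d, by simpa using hlead⟩
  -- scaled coefficients
  set c : ℕ → E := fun i => p.coeff i / p.coeff j with hc
  have hcE : ∀ i, i < d + 1 → (A.comap (algebraMap E F)).valuation (c i) ≤ 1 := by
    intro i hi
    exact hj ⟨i, hi⟩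
  have hrel : ∑ i ∈ Finset.range (d + 1), algebraMap E F (c i) * y ^ i = 0 := by
    have h1 : ∑ i ∈ Finset.range (d + 1), algebraMap E F (p.coeff i) * y ^ i = 0 := by
      rw [← hpy, Polynomial.aeval_eq_sum_range]
      refine Finset.sum_congr rfl fun i _ => ?_
      rw [Algebra.smul_def]
    have h2 : ∑ i ∈ Finset.range (d + 1), algebraMap E F (c i) * y ^ i =
        (algebraMap E F (p.coeff j))⁻¹ *
          ∑ i ∈ Finset.range (d + 1), algebraMap E F (p.coeff i) * y ^ i := by
      rw [Finset.mul_sum]
      refine Finset.sum_congr rfl fun i _ => ?_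
      rw [hc]
      simp only [map_div₀]
      field_simp
    rw [h2, h1, mul_zero]
  -- the smallest index with a unit coefficient
  have hjS : (j : ℕ) ∈ (Finset.range (d + 1)).filter
      (fun i => (A.comap (algebraMap E F)).valuation (c i) = 1) := by
    rw [Finset.mem_filter, Finset.mem_range]
    refine ⟨j.2, ?_⟩
    simp only [hc]
    rw [div_self hj0, map_one]
  obtain ⟨i₀, hi₀S, hi₀min⟩ := Finset.exists_min_image _ (fun i : ℕ => i) ⟨_, hjS⟩
  rw [Finset.mem_filter, Finset.mem_range] at hi₀S
  obtain ⟨hi₀d, hi₀u⟩ := hi₀S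
  have hsmall : ∀ i, i < i₀ → (A.comap (algebraMap E F)).valuation (c i) < 1 := by
    intro i hi
    refine lt_of_le_of_ne (hcE i (by omega)) fun h1 => ?_
    have := hi₀min i (by
      rw [Finset.mem_filter, Finset.mem_range]; exact ⟨by omega, h1⟩)
    omega
  -- valuations in `B`
  have hBy0 : B.valuation y ≠ 0 := (Valuation.ne_zero_iff _).mpr hy0
  have hBypos : 0 < B.valuation y := zero_lt_iff.mpr hBy0
  have hgpos : B.valuation y ^ i₀ ≠ 0 := pow_ne_zero _ hBy0
  have hBc : ∀ i, i < d + 1 → B.valuation (algebraMap E F (c i)) ≤ 1 := by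
    intro i hi
    rw [← comap_val_le_one_iff, ← hcomap]
    exact hcE i hi
  have hBci₀ : B.valuation (algebraMap E F (c i₀)) = 1 := by
    rw [← comap_val_eq_one_iff, ← hcomap]
    exact hi₀u
  have hterm : ∀ i ∈ (Finset.range (d + 1)).erase i₀,
      B.valuation (algebraMap E F (c i) * y ^ i) < B.valuation y ^ i₀ := by
    intro i hi
    rw [Finset.mem_erase, Finset.mem_range] at hi
    obtain ⟨hne, hid⟩ := hi
    rcases lt_or_gt_of_ne hne with hlt | hgt
    · -- `i < i₀`: use `A`
      have hA1 : A.valuation (algebraMap E F (c i) * y ^ i / y ^ i₀) < 1 := by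
        rw [map_div₀, map_mul, map_pow, map_pow, hyA, one_pow, one_pow, mul_one, div_one,
          ← comap_val_lt_one_iff]
        exact hsmall i hlt
      have hB1 := val_lt_one_of_le hBA hA1
      rw [map_div₀, map_pow (B.valuation) y i₀] at hB1
      exact (div_lt_one₀ (pow_pos hBypos i₀)).mp hB1
    · -- `i > i₀`
      rw [map_mul, map_pow]
      exact (mul_le_of_le_one_left' (hBc i hid)).trans_lt
        (pow_lt_pow_right_of_lt_one₀ hBypos hyB hgt)
  have hsum : B.valuation (∑ i ∈ (Finset.range (d + 1)).erase i₀,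
      algebraMap E F (c i) * y ^ i) < B.valuation y ^ i₀ :=
    Valuation.map_sum_lt _ hgpos hterm
  have hsplit : algebraMap E F (c i₀) * y ^ i₀ =
      -∑ i ∈ (Finset.range (d + 1)).erase i₀, algebraMap E F (c i) * y ^ i := by
    rw [eq_neg_iff_add_eq_zero,
      Finset.add_sum_erase _ (fun i => algebraMap E F (c i) * y ^ i) (Finset.mem_range.mpr hi₀d)]
    exact hrel
  have : B.valuation (algebraMap E F (c i₀) * y ^ i₀) = B.valuation y ^ i₀ := by
    rw [map_mul, hBci₀, one_mul, map_pow]
  rw [hsplit, Valuation.map_neg] at this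
  exact absurd this hsum.ne

theorem eq_of_le_of_comap_eq [Algebra.IsAlgebraic E F] {A B : ValuationSubring F} (hBA : B ≤ A)
    (hcomap : A.comap (algebraMap E F) = B.comap (algebraMap E F)) : A = B :=
  le_antisymm (le_of_le_of_comap_eq hBA hcomap) hBA

/-! ### The approximation element -/

/-- From `a ∈ A ∖ B`: an element that is a unit of `A` and lies in the maximal ideal of `B`. -/
theorem exists_unit_nonunit {A B : ValuationSubring F} (h : ¬ A ≤ B) :
    ∃ y : F, A.valuation y = 1 ∧ B.valuation y < 1 := by
  obtain ⟨a, haA, haB⟩ := SetLike.not_le_iff_exists.mp h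
  have ha0 : a ≠ 0 := fun h0 => haB (h0 ▸ B.zero_mem)
  rcases (A.valuation_lt_one_or_eq_one ⟨a, haA⟩) with hlt | heq
  · -- `a ∈ 𝔪_A`: use `(1 + a)⁻¹`
    have hlt' : A.valuation a < 1 := hlt
    have h1 : A.valuation (1 + a) = 1 := Valuation.map_one_add_of_lt _ hlt'
    have h2 : (1 + a) ∉ B := fun hB => haB (by
      have := B.sub_mem hB B.one_mem
      simpa using this)
    have h10 : (1 + a) ≠ 0 := fun h0 => h2 (h0 ▸ B.zero_mem)
    refine ⟨(1 + a)⁻¹, by rw [map_inv₀, h1, inv_one], ?_⟩
    rw [val_lt_one_iff]; right; rwa [inv_inv]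
  · have heq' : A.valuation a = 1 := heq
    refine ⟨a⁻¹, by rw [map_inv₀, heq', inv_one], ?_⟩
    rw [val_lt_one_iff]; right; rwa [inv_inv]

/-- **Approximation**: for incomparable `A`, `B` there is `x` with `x ≡ 1 mod 𝔪_A`, `x ∈ 𝔪_B`. -/
theorem exists_approx {A B : ValuationSubring F} (hAB : ¬ A ≤ B) (hBA : ¬ B ≤ A) :
    ∃ x : F, A.valuation (1 - x) < 1 ∧ B.valuation x < 1 := by
  obtain ⟨y, hyA, hyB⟩ := exists_unit_nonunit hAB
  obtain ⟨z, hzB, hzA⟩ := exists_unit_nonunit hBA
  have hA : A.valuation (y + z) = 1 := by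
    rw [Valuation.map_add_eq_of_lt_left _ (by rw [hyA]; exact hzA), hyA]
  have hB : B.valuation (y + z) = 1 := by
    rw [Valuation.map_add_eq_of_lt_right _ (by rw [hzB]; exact hyB), hzB]
  have hyz0 : y + z ≠ 0 := by
    intro h0; rw [h0, map_zero] at hA; exact zero_ne_one hA
  refine ⟨y / (y + z), ?_, ?_⟩
  · have : 1 - y / (y + z) = z / (y + z) := by field_simp; ring
    rw [this, map_div₀, hA, div_one]; exact hzA
  · rw [map_div₀, hB, div_one]; exact hyB

/-- Adjusting an element of `A` into the maximal ideal of `B` without changing its residue in `A`. -/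
theorem exists_adjust {A B : ValuationSubring F} {x : F} (hxA : A.valuation (1 - x) < 1)
    (hxB : B.valuation x < 1) {b : F} (hb : A.valuation b ≤ 1) :
    ∃ c : F, A.valuation (c - b) < 1 ∧ B.valuation c < 1 := by
  have hxA1 : A.valuation x = 1 := by
    have : x = 1 - (1 - x) := by ring
    rw [this]; exact Valuation.map_one_sub_of_lt _ hxA
  have hxB1 : B.valuation (1 - x) = 1 := Valuation.map_one_sub_of_lt _ hxB
  by_cases hbB : B.valuation b ≤ 1
  · refine ⟨b * x, ?_, ?_⟩
    · have : b * x - b = -(b * (1 - x)) := by ring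
      rw [this, Valuation.map_neg, map_mul]
      exact (mul_le_of_le_one_left' hb).trans_lt hxA
    · rw [map_mul]
      exact (mul_le_of_le_one_left' hbB).trans_lt hxB
  · rw [not_le] at hbB
    have hb0 : b ≠ 0 := by
      rintro rfl; rw [map_zero] at hbB; exact not_lt_of_ge zero_le hbB
    -- `δ = x + b (1 - x)`
    have hδA : A.valuation (x + b * (1 - x)) = 1 := by
      have hlt : A.valuation (b * (1 - x)) < A.valuation x := by
        rw [hxA1, map_mul]
        exact (mul_le_of_le_one_left' hb).trans_lt hxA
      rw [Valuation.map_add_eq_of_lt_left _ hlt, hxA1]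
    have hδB : B.valuation (x + b * (1 - x)) = B.valuation b := by
      have hlt : B.valuation x < B.valuation (b * (1 - x)) := by
        rw [map_mul, hxB1, mul_one]; exact lt_trans hxB hbB
      rw [Valuation.map_add_eq_of_lt_right _ hlt, map_mul, hxB1, mul_one]
    have hδ0 : x + b * (1 - x) ≠ 0 := by
      intro h0; rw [h0, map_zero] at hδA; exact zero_ne_one hδA
    refine ⟨b * x / (x + b * (1 - x)), ?_, ?_⟩
    · have : b * x / (x + b * (1 - x)) - b = -(b * b * (1 - x)) / (x + b * (1 - x)) := by
        field_simp; ring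
      rw [this, map_div₀, hδA, div_one, Valuation.map_neg, map_mul, map_mul]
      rw [mul_assoc]
      exact (mul_le_of_le_one_left' hb).trans_lt ((mul_le_of_le_one_left' hb).trans_lt hxA)
    · rw [map_div₀, hδB, map_mul, mul_comm, mul_div_assoc,
        div_self ((Valuation.ne_zero_iff _).mpr hb0), mul_one]
      exact hxB

/-! ### Uniqueness of the extension -/

/-- **(UNIQ)**  `[F : E] ≤ n`; `O₁`, `O₂` valuation subrings of `F` with the same restriction to `E`;
`O₁` contains `n` elements that are residually independent over the residue field of the restriction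
(elementwise form: a combination with coefficients in `O_E` lying in `𝔪₁` has all coefficients in
`𝔪_E`).  Then `O₂ = O₁`. -/
theorem eq_of_residually_independent [FiniteDimensional E F] {n : ℕ}
    (hn : Module.finrank E F ≤ n) (O₁ O₂ : ValuationSubring F)
    (hcomap : O₁.comap (algebraMap E F) = O₂.comap (algebraMap E F))
    (b : Fin n → F) (hbO : ∀ i, b i ∈ O₁)
    (hb : ∀ a : Fin n → E, (∀ i, (O₁.comap (algebraMap E F)).valuation (a i) ≤ 1) →
      O₁.valuation (∑ i, algebraMap E F (a i) * b i) < 1 →
      ∀ i, (O₁.comap (algebraMap E F)).valuation (a i) < 1) :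
    O₂ = O₁ := by
  have : Algebra.IsAlgebraic E F := Algebra.IsAlgebraic.of_finite E F
  by_contra hne
  have h12 : ¬ O₁ ≤ O₂ := fun h => hne (eq_of_le_of_comap_eq h hcomap.symm)
  have h21 : ¬ O₂ ≤ O₁ := fun h => hne (eq_of_le_of_comap_eq h hcomap).symm
  obtain ⟨x, hx1, hx2⟩ := exists_approx h12 h21
  have hz2 : O₂.valuation (1 - x) = 1 := Valuation.map_one_sub_of_lt _ hx2
  choose c hc1 hc2 using fun i =>
    exists_adjust hx1 hx2 ((O₁.valuation_le_one_iff (b i)).mpr (hbO i))
  -- the `n + 1` elements `1 - x, c 0, …, c (n-1)` are linearly independent over `E`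
  have hli : LinearIndependent E (fun o : Option (Fin n) => o.elim (1 - x) c) := by
    rw [Fintype.linearIndependent_iff]
    intro g hg
    by_contra hex
    push Not at hex
    obtain ⟨j, hj0, hj⟩ := exists_scale (O₁.comap (algebraMap E F)) g hex
    -- scaled relation
    set g' : Option (Fin n) → E := fun o => g o / g j with hg'
    have hg'j : g' j = 1 := by simp only [hg']; exact div_self hj0
    have hrel : algebraMap E F (g' none) * (1 - x) +
        ∑ i, algebraMap E F (g' (some i)) * c i = 0 := by
      have h1 : algebraMap E F (g none) * (1 - x) +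
          ∑ i, algebraMap E F (g (some i)) * c i = 0 := by
        rw [Fintype.sum_option] at hg
        simpa [Algebra.smul_def] using hg
      have h2 : algebraMap E F (g' none) * (1 - x) +
          ∑ i, algebraMap E F (g' (some i)) * c i =
          (algebraMap E F (g j))⁻¹ * (algebraMap E F (g none) * (1 - x) +
            ∑ i, algebraMap E F (g (some i)) * c i) := by
        rw [mul_add, Finset.mul_sum]
        congr 1
        · simp only [hg', map_div₀]; field_simp
        · refine Finset.sum_congr rfl fun i _ => ?_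
          simp only [hg', map_div₀]; field_simp
      rw [h2, h1, mul_zero]
    have hg'1 : ∀ o, O₁.valuation (algebraMap E F (g' o)) ≤ 1 := fun o =>
      (comap_val_le_one_iff O₁ _).mp (hj o)
    have hg'2 : ∀ o, O₂.valuation (algebraMap E F (g' o)) ≤ 1 := fun o => by
      rw [← comap_val_le_one_iff, ← hcomap]; exact hj o
    -- step 1: reduce modulo `𝔪₁`
    have hsum1 : O₁.valuation (∑ i, algebraMap E F (g' (some i)) * b i) < 1 := by
      have h3 : ∑ i, algebraMap E F (g' (some i)) * b i =
          -(algebraMap E F (g' none) * (1 - x)) -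
            ∑ i, algebraMap E F (g' (some i)) * (c i - b i) := by
        have : ∑ i, algebraMap E F (g' (some i)) * (c i - b i) =
            ∑ i, algebraMap E F (g' (some i)) * c i -
              ∑ i, algebraMap E F (g' (some i)) * b i := by
          rw [← Finset.sum_sub_distrib]
          exact Finset.sum_congr rfl fun i _ => by ring
        rw [this]
        linear_combination hrel
      rw [h3]
      refine Valuation.map_sub_lt _ ?_ ?_
      · rw [Valuation.map_neg, map_mul]
        exact (mul_le_of_le_one_left' (hg'1 none)).trans_lt hx1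
      · refine Valuation.map_sum_lt _ one_ne_zero fun i _ => ?_
        rw [map_mul]
        exact (mul_le_of_le_one_left' (hg'1 (some i))).trans_lt (hc1 i)
    have hsmall := hb (fun i => g' (some i)) (fun i => hj (some i)) hsum1
    -- so `j = none`
    have hjnone : j = none := by
      rcases j with _ | i
      · rfl
      · exfalso
        have := hsmall i
        rw [hg'j, map_one] at this
        exact lt_irrefl _ this
    -- step 2: reduce modulo `𝔪₂`
    rw [hjnone] at hg'j
    have h4 : (1 - x) = -∑ i, algebraMap E F (g' (some i)) * c i := by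
      rw [hg'j, map_one, one_mul] at hrel
      exact eq_neg_of_add_eq_zero_left hrel
    have h5 : O₂.valuation (1 - x) < 1 := by
      rw [h4, Valuation.map_neg]
      refine Valuation.map_sum_lt _ one_ne_zero fun i _ => ?_
      rw [map_mul]
      exact (mul_le_of_le_one_left' (hg'2 (some i))).trans_lt (hc2 i)
    rw [hz2] at h5
    exact lt_irrefl _ h5
  have hcard := hli.fintype_card_le_finrank
  rw [Fintype.card_option, Fintype.card_fin] at hcard
  omega

/-- **(UNIQ), residue-map form.**  `red : O₁ →+* κ` a ring homomorphism into a field with kernel the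
maximal ideal, `κE ⊆ κ` a subfield containing the residues of `O₁ ∩ E`, and `n ≥ [F : E]` elements of
`O₁` whose residues are linearly independent over `κE`.  Then every valuation subring of `F` with
the same restriction to `E` equals `O₁`. -/
theorem eq_of_residue_independent [FiniteDimensional E F] {n : ℕ}
    (hn : Module.finrank E F ≤ n) (O₁ O₂ : ValuationSubring F)
    (hcomap : O₁.comap (algebraMap E F) = O₂.comap (algebraMap E F))
    {κ : Type*} [Field κ] (red : O₁ →+* κ)
    (hker : ∀ x : O₁, red x = 0 ↔ O₁.valuation (x : F) < 1)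
    (κE : Subfield κ)
    (hκE : ∀ (a : E) (ha : algebraMap E F a ∈ O₁), red ⟨_, ha⟩ ∈ κE)
    (b : Fin n → O₁) (hli : LinearIndependent κE (fun i => red (b i))) :
    O₂ = O₁ := by
  refine eq_of_residually_independent hn O₁ O₂ hcomap (fun i => (b i : F)) (fun i => (b i).2) ?_
  intro a ha hsum
  have hmem : ∀ i, algebraMap E F (a i) ∈ O₁ := fun i =>
    (O₁.valuation_le_one_iff _).mp ((comap_val_le_one_iff O₁ _).mp (ha i))
  have hsum' : red (∑ i, (⟨_, hmem i⟩ : O₁) * b i) = 0 := by
    rw [hker]
    have : ((∑ i, (⟨_, hmem i⟩ : O₁) * b i : O₁) : F) =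
        ∑ i, algebraMap E F (a i) * (b i : F) := by
      push_cast
      rfl
    rw [this]
    exact hsum
  rw [map_sum] at hsum'
  have hzero : ∀ i, (⟨red ⟨_, hmem i⟩, hκE (a i) (hmem i)⟩ : κE) = 0 := by
    have h2 := Fintype.linearIndependent_iff.mp hli
      (fun i => (⟨red ⟨_, hmem i⟩, hκE (a i) (hmem i)⟩ : κE)) (by
        rw [← hsum']
        refine Finset.sum_congr rfl fun i _ => ?_
        rw [map_mul]
        rfl)
    exact h2
  intro i
  rw [comap_val_lt_one_iff]
  have h3 : red ⟨_, hmem i⟩ = 0 := congrArg Subtype.val (hzero i)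
  exact (hker _).mp h3

end Fermat.Agent.RED.PUR.UniqueExt20
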