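/-
Program H (S18), chapter RED/PUR (MODEL-GAUSS, concrete side), helper25.

In helper8's generic Gauss ring (`GaussGen8`, `KtGauss8`) over a DVR `O ⊂ K` with residue field `κ`:

* `linearIndependent_of_gaussRed` **(LI)**: elements of the Gauss ring whose residues are linearly
  independent over `κ(t̃)` are linearly independent over `K(t)` (`t` any element of the Gauss ring with
  transcendental residue);
* `exists_residually_independent` **(V2) = (DEG)+(IRR)**: `j, t` in the Gauss ring with transcendental
  residues, `j ∈ K(t)`, `F ⊂ K((q))` a field containing `t` with `[F : K(j)] = ψ ≠ 0`, `F' ⊂ κ((q))` a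
  field containing `j̃` with `[F' : κ(j̃)] ≥ ψ` all of whose elements are residues of elements of
  `gaussRing ∩ F`.  Then for `n := [F : K(t)]` there are `n` elements of `gaussRing ∩ F` whose residues
  are linearly independent over `κ(t̃)` (and `n ≠ 0`, and every `K(t)`-independent family in `F` has
  at most `n` members).
-/
import Mathlib
import Fermat.Agent.RED.PUR.KtGauss8
import Fermat.Agent.RED.PUR.UniqueExt20
import Fermat.Agent.RED.PUR.DegBook25
import Fermat.Agent.IG.PR.FamilyForm20

set_option autoImplicit false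

noncomputable section

open HahnSeries ModularCurve IntermediateField

namespace Fermat.Agent.RED.PUR.GaussDeg25

open Fermat.Agent.RED.PUR.GaussGen8 Fermat.Agent.RED.PUR.KtGauss8 Fermat.Agent.IG.PR

variable {K : Type*} [Field K] {O : ValuationSubring K} [IsDiscreteValuationRing ↥O] {π : ↥O}

omit [IsDiscreteValuationRing ↥O] in
theorem Kt_le_fracField (tG : ↥(gaussRing O)) : Kt O tG ≤ fracField O := by
  rw [adjoin_simple_le_iff]
  exact gaussRing_le_fracField O tG.2

/-- **(LI)** Residually independent elements of the Gauss ring are independent over `K(t)`. -/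
theorem linearIndependent_of_gaussRed (hπ : Irreducible π) {tG : ↥(gaussRing O)}
    (htr : Transcendental (Res O) (gaussRed O tG)) {n : ℕ} (x : Fin n → ↥(gaussRing O))
    (hli : LinearIndependent ↥(kt O tG) (fun i => gaussRed O (x i))) :
    LinearIndependent ↥(Kt O tG) (fun i => ((x i : ↥(gaussRing O)) : LaurentSeries K)) := by
  classical
  have hu := isUnif_of_irreducible O hπ
  rw [Fintype.linearIndependent_iff]
  intro g hg
  by_contra hne
  push Not at hne
  -- scale the relation into the Gauss valuation ring of `K(t)`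
  let V : ValuationSubring ↥(Kt O tG) := gaussVS hu (Kt O tG) (Kt_le_fracField tG)
  obtain ⟨j, hj0, hj⟩ := UniqueExt20.exists_scale V g hne
  have hmem : ∀ i, ((g i / g j : ↥(Kt O tG)) : LaurentSeries K) ∈ gaussRing O := fun i =>
    (mem_gaussVS_iff hu (Kt O tG) (Kt_le_fracField tG) _).mp
      ((V.valuation_le_one_iff _).mp (hj i))
  let a : Fin n → ↥(gaussRing O) := fun i => ⟨_, hmem i⟩
  -- the scaled relation inside the Gauss ring
  have hrel : ∑ i, a i * x i = 0 := by
    apply Subtype.ext
    have h1 : ((∑ i, a i * x i : ↥(gaussRing O)) : LaurentSeries K) =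
        ∑ i, ((g i / g j : ↥(Kt O tG)) : LaurentSeries K) * ((x i : ↥(gaussRing O)) : LaurentSeries K) := by
      push_cast
      rfl
    rw [h1]
    have h2 : ∑ i, ((g i / g j : ↥(Kt O tG)) : LaurentSeries K) *
        ((x i : ↥(gaussRing O)) : LaurentSeries K) =
        (((g j)⁻¹ : ↥(Kt O tG)) : LaurentSeries K) *
          ∑ i, g i • ((x i : ↥(gaussRing O)) : LaurentSeries K) := by
      rw [Finset.mul_sum]
      refine Finset.sum_congr rfl fun i _ => ?_
      rw [Algebra.smul_def, div_eq_mul_inv]
      push_cast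
      rw [IntermediateField.algebraMap_apply]
      ring
    rw [h2, hg, mul_zero]
    rfl
  have hred := congrArg (gaussRed O) hrel
  rw [map_sum, map_zero] at hred
  -- coefficients of the reduced relation lie in `κ(t̃)`
  have hκ : ∀ i, gaussRed O (a i) ∈ kt O tG := fun i =>
    gaussRed_mem_kt hπ htr (g i / g j : ↥(Kt O tG)).2 (hmem i)
  have hred' : ∑ i, (⟨gaussRed O (a i), hκ i⟩ : ↥(kt O tG)) • gaussRed O (x i) = 0 := by
    rw [← hred]
    refine Finset.sum_congr rfl fun i _ => ?_
    rw [map_mul, Algebra.smul_def]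
    rfl
  have hzero := Fintype.linearIndependent_iff.mp hli _ hred' j
  have hone : a j = 1 := by
    apply Subtype.ext
    show ((g j / g j : ↥(Kt O tG)) : LaurentSeries K) = 1
    rw [div_self hj0]
    rfl
  have : gaussRed O (a j) = 0 := congrArg Subtype.val hzero
  rw [hone, map_one] at this
  exact one_ne_zero this

/-- **(V2) = (DEG) + (IRR)** for `n := [F : K(t)]`. -/
theorem exists_residually_independent (hπ : Irreducible π) {jG tG : ↥(gaussRing O)}
    (hjtr : Transcendental (Res O) (gaussRed O jG))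
    (hjt : (jG : LaurentSeries K) ∈ Kt O tG)
    (F : IntermediateField K (LaurentSeries K)) (htF : (tG : LaurentSeries K) ∈ F)
    (F' : IntermediateField (Res O) (LaurentSeries (Res O))) (hjF' : gaussRed O jG ∈ F')
    (ψ : ℕ) (hψ0 : ψ ≠ 0) (hψ : relfinrank (Kt O jG) F = ψ) (hψ' : ψ ≤ relfinrank (kt O jG) F')
    (hres : ∀ y ∈ F', ∃ b : ↥(gaussRing O), (b : LaurentSeries K) ∈ F ∧ gaussRed O b = y) :
    relfinrank (Kt O tG) F ≠ 0 ∧
    (∀ (m : ℕ) (c : Fin m → LaurentSeries K), (∀ i, c i ∈ F) → LinearIndependent ↥(Kt O tG) c →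
      m ≤ relfinrank (Kt O tG) F) ∧
    ∃ b : Fin (relfinrank (Kt O tG) F) → ↥(gaussRing O),
      (∀ i, ((b i : ↥(gaussRing O)) : LaurentSeries K) ∈ F) ∧
      LinearIndependent ↥(kt O tG) (fun i => gaussRed O (b i)) := by
  have hAT : Kt O jG ≤ Kt O tG := adjoin_simple_le_iff.mpr hjt
  have hTF : Kt O tG ≤ F := adjoin_simple_le_iff.mpr htF
  have hmul : relfinrank (Kt O jG) (Kt O tG) * relfinrank (Kt O tG) F = ψ := by
    rw [relfinrank_mul_relfinrank hAT hTF, hψ]
  have hd0 : relfinrank (Kt O jG) (Kt O tG) ≠ 0 := fun h => hψ0 (by rw [← hmul, h, zero_mul])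
  have hn0 : relfinrank (Kt O tG) F ≠ 0 := fun h => hψ0 (by rw [← hmul, h, mul_zero])
  refine ⟨hn0, fun m c hc hli => FamilyForm20.le_relfinrank_of_family hTF m hn0 c hc hli, ?_⟩
  -- `1, t, …, t^d` are dependent over `K(j)`
  have hdepK : ¬ LinearIndependent ↥(Kt O jG)
      (fun i : Fin (relfinrank (Kt O jG) (Kt O tG) + 1) => (tG : LaurentSeries K) ^ (i : ℕ)) := by
    intro hli
    have := FamilyForm20.le_relfinrank_of_family hAT _ hd0 _
      (fun i => pow_mem (mem_adjoin_simple_self K _) _) hli
    omega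
  -- hence their residues are dependent over `κ(j̃)`
  have hdepκ : ¬ LinearIndependent ↥(kt O jG)
      (fun i : Fin (relfinrank (Kt O jG) (Kt O tG) + 1) => (gaussRed O tG) ^ (i : ℕ)) := by
    intro hli
    apply hdepK
    have h1 := linearIndependent_of_gaussRed hπ hjtr
      (fun i : Fin (relfinrank (Kt O jG) (Kt O tG) + 1) => tG ^ (i : ℕ))
      (by simpa only [map_pow] using hli)
    simpa only [SubmonoidClass.coe_pow] using h1
  obtain ⟨c, hcF', hcli⟩ := DegBook25.exists_indep_family (gaussRed O jG) (gaussRed O tG) F' hjF'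
    (relfinrank (Kt O tG) F) (relfinrank (Kt O jG) (Kt O tG)) (Nat.pos_of_ne_zero hd0)
    (by rw [mul_comm, hmul]; exact hψ') hdepκ
  choose b hbF hb using fun i => hres (c i) (hcF' i)
  refine ⟨b, hbF, ?_⟩
  have : (fun i => gaussRed O (b i)) = c := funext hb
  rw [this]
  exact hcli

end Fermat.Agent.RED.PUR.GaussDeg25
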