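/-
Program H (S18), chapter RED/PUR (MODEL-GAUSS, concrete side), helper25.

**(DEG) + (IRR) of helper8's `G1Package8` for the modular function fields.**

`K` a field of characteristic `0`, `O ⊂ K` a discrete valuation ring whose residue field `κ` has
characteristic `ℓ ∤ M`, `E := K(j(q^d) : d ∣ M) ⊂ K((q))` (`= Interface4.FK M K`).  For every element
`t` of `gaussRing O ∩ E` with `j ∈ K(t)` (e.g. the Hauptmodul of `X₀(4)`, `X₀(9)`), there is `n ≠ 0`
(namely `n = [E : K(t)]`) with `G1Package8.DegLe O E t n` and `G1Package8.Irr O E t n`.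

Inputs: `DegBaseChange25` (`[E : K(j)] = ψ(M) = [κ(j̃(q^d)) : κ(j̃)]`), `GaussDeg25` ((LI) + degree
bookkeeping), `GaussBridge10` (helper10: generators in the Gauss ring, (RES)).
-/
import Mathlib
import Fermat.Agent.RED.PUR.G1Package8
import Fermat.Agent.RED.PUR.GaussBridge10
import Fermat.Agent.RED.PUR.GaussDeg25
import Fermat.Agent.RED.PUR.DegBaseChange25
import Fermat.Agent.X0.GNPsi

set_option autoImplicit false

noncomputable section

open HahnSeries ModularCurve IntermediateField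

namespace Fermat.Agent.RED.PUR.GaussInst25

open Fermat.Agent.RED.PUR.GaussGen8 Fermat.Agent.RED.PUR.KtGauss8 Fermat.Agent.RED.PUR.G1Package8
open Fermat.Agent.RED.PUR.GaussBridge10

variable {K : Type} [Field K] (O : ValuationSubring K)

/-- `j` as an element of the Gauss ring. -/
def jG : ↥(gaussRing O) := ⟨jqModC K, by
  have := jqd_mem_gaussRing O 1
  rwa [qExpand_one_apply] at this⟩

theorem coe_jG : ((jG O : ↥(gaussRing O)) : LaurentSeries K) = jqModC K := rfl

theorem gaussRed_jG : gaussRed O (jG O) = jqModC (Res O) := by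
  have h := gaussRed_jqd O 1
  have h2 : (jG O) = ⟨qExpand K 1 (jqModC K), jqd_mem_gaussRing O 1⟩ :=
    Subtype.ext (by rw [coe_jG]; exact (qExpand_one_apply (jqModC K)).symm)
  rw [h2, h, qExpand_one_apply]

variable [CharZero K] [IsDiscreteValuationRing ↥O] {π : ↥O}

/-- **(DEG) + (IRR)** for `E = K(j(q^d) : d ∣ M)` and any `t ∈ gaussRing ∩ E` with `j ∈ K(t)`. -/
theorem exists_degLe_irr_fullC (hπ : Irreducible π) (ℓ : ℕ) [Fact ℓ.Prime] [CharP (Res O) ℓ]
    (M : ℕ) [NeZero M] (hℓM : ¬ ℓ ∣ M) (tG : ↥(gaussRing O))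
    (htE : (tG : LaurentSeries K) ∈ modularFunctionFieldFullC K M)
    (hjt : jqModC K ∈ Kt O tG) :
    ∃ n : ℕ, n ≠ 0 ∧ DegLe O (modularFunctionFieldFullC K M) tG n ∧
      Irr O (modularFunctionFieldFullC K M) tG n := by
  have hjtr : Transcendental (Res O) (gaussRed O (jG O)) := by
    rw [gaussRed_jG]
    exact Fermat.Agent.IG.VAL.OvBasics22.transcendental_jqModC (Res O)
  have hψ0 : dedekindPsi M ≠ 0 :=
    (Fermat.Agent.X0.GNPsi.gnp_dedekindPsi_pos (NeZero.ne M)).ne'
  have hψ : relfinrank (Kt O (jG O)) (modularFunctionFieldFullC K M) = dedekindPsi M :=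
    DegBaseChange25.relfinrank_fullC_eq_psi_of_charZero K M
  have hψ' : dedekindPsi M ≤
      relfinrank (kt O (jG O)) (modularFunctionFieldFullC (Res O) M) := by
    have h1 := DegBaseChange25.relfinrank_fullC_eq_psi_of_charP ℓ (Res O) M hℓM
    have h2 : kt O (jG O) = (Res O)⟮jqModC (Res O)⟯ := by
      show (Res O)⟮gaussRed O (jG O)⟯ = _
      rw [gaussRed_jG]
    rw [h2, h1]
  have hjF' : gaussRed O (jG O) ∈ modularFunctionFieldFullC (Res O) M := by
    rw [gaussRed_jG]
    exact jqModC_mem_full (Res O) M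
  have hres : ∀ y ∈ modularFunctionFieldFullC (Res O) M, ∃ b : ↥(gaussRing O),
      (b : LaurentSeries K) ∈ modularFunctionFieldFullC K M ∧ gaussRed O b = y := by
    intro y hy
    obtain ⟨f, hf, hfE, hfy⟩ := fullC_le_resField O M hy
    exact ⟨⟨f, hf⟩, hfE, hfy⟩
  obtain ⟨hn0, hdeg, b, hbE, hbli⟩ := GaussDeg25.exists_residually_independent hπ hjtr
    (show ((jG O : ↥(gaussRing O)) : LaurentSeries K) ∈ Kt O tG from hjt)
    (modularFunctionFieldFullC K M) htE (modularFunctionFieldFullC (Res O) M) hjF'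
    (dedekindPsi M) hψ0 hψ hψ' hres
  exact ⟨_, hn0, hdeg, b, hbE, hbli⟩

section BaseChange

variable {L : Type} [Field L] [Algebra ℚ L] (O : ValuationSubring L) [IsDiscreteValuationRing ↥O]
  {π : ↥O}

/-- The same for the Prelude's `laurentBaseChange L (modularFunctionFieldFull M)`
(`= Interface4.FK M K` for `L = ↥K`). -/
theorem exists_degLe_irr_laurentBaseChange (hπ : Irreducible π) (ℓ : ℕ) [Fact ℓ.Prime]
    [CharP (Res O) ℓ] (M : ℕ) [NeZero M] (hℓM : ¬ ℓ ∣ M) (tG : ↥(gaussRing O))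
    (htE : (tG : LaurentSeries L) ∈ laurentBaseChange L (modularFunctionFieldFull M))
    (hjt : jqModC L ∈ Kt O tG) :
    ∃ n : ℕ, n ≠ 0 ∧ DegLe O (laurentBaseChange L (modularFunctionFieldFull M)) tG n ∧
      Irr O (laurentBaseChange L (modularFunctionFieldFull M)) tG n := by
  have : CharZero L := algebraRat.charZero L
  rw [DegBaseChange25.laurentBaseChange_full_eq] at htE ⊢
  exact exists_degLe_irr_fullC O hπ ℓ M hℓM tG htE hjt

end BaseChange

section Contract

open Fermat.Agent.RED.Interface4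

/-- The contract objects: `O = AK A K`, `E = FK M K`. -/
theorem exists_degLe_irr_FK (A : ValuationSubring Qbar) (K : IntermediateField ℚ Qbar)
    [IsDiscreteValuationRing ↥(AK A K)] {π : ↥(AK A K)} (hπ : Irreducible π)
    (ℓ : ℕ) [Fact ℓ.Prime] [CharP (Res (AK A K)) ℓ] (M : ℕ) [NeZero M] (hℓM : ¬ ℓ ∣ M)
    (tG : ↥(gaussRing (AK A K))) (htE : (tG : LaurentSeries K) ∈ FK M K)
    (hjt : jqModC K ∈ Kt (AK A K) tG) :
    ∃ n : ℕ, n ≠ 0 ∧ DegLe (AK A K) (FK M K) tG n ∧ Irr (AK A K) (FK M K) tG n :=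
  exists_degLe_irr_laurentBaseChange (AK A K) hπ ℓ M hℓM tG htE hjt

end Contract

end Fermat.Agent.RED.PUR.GaussInst25
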