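/-
Program H (S18), chapter RED/PUR (MODEL-GAUSS, concrete side), helper25.

`GaussInst25` with the degree `n = [E : K(t)]` made EXPLICIT (`relfinrank (Kt O tG) E`), which is the
form consumed by `ModelAsm4.hasModel_of_g1` (hypotheses `hn`, `hdeg`, `hirr`), plus the fully
concrete per-field statement for the Hauptmodul `t = tq K n e` (inputs: `TBridge15` (T1)-(T3),
`JInKt25` (T5)).
-/
import Mathlib
import Fermat.Agent.RED.PUR.GaussInst25
import Fermat.Agent.RED.BASE.TBridge15
import Fermat.Agent.RED.BASE.JInKt25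

set_option autoImplicit false

noncomputable section

open HahnSeries ModularCurve IntermediateField

namespace Fermat.Agent.RED.PUR.GaussInstN25

open Fermat.Agent.RED.PUR.GaussGen8 Fermat.Agent.RED.PUR.KtGauss8 Fermat.Agent.RED.PUR.G1Package8
open Fermat.Agent.RED.PUR.GaussBridge10 Fermat.Agent.RED.PUR.GaussInst25

section Generic

variable {K : Type} [Field K] [CharZero K] (O : ValuationSubring K) [IsDiscreteValuationRing ↥O]
  {π : ↥O}

/-- **(DEG) + (IRR)** with `n = [E : K(t)]` explicit, `E = K(j(q^d) : d ∣ M)`. -/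
theorem degLe_irr_fullC (hπ : Irreducible π) (ℓ : ℕ) [Fact ℓ.Prime] [CharP (Res O) ℓ]
    (M : ℕ) [NeZero M] (hℓM : ¬ ℓ ∣ M) (tG : ↥(gaussRing O))
    (htE : (tG : LaurentSeries K) ∈ modularFunctionFieldFullC K M)
    (hjt : jqModC K ∈ Kt O tG) :
    relfinrank (Kt O tG) (modularFunctionFieldFullC K M) ≠ 0 ∧
      DegLe O (modularFunctionFieldFullC K M) tG
        (relfinrank (Kt O tG) (modularFunctionFieldFullC K M)) ∧
      Irr O (modularFunctionFieldFullC K M) tG
        (relfinrank (Kt O tG) (modularFunctionFieldFullC K M)) := by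
  have hjtr : Transcendental (Res O) (gaussRed O (jG O)) := by
    rw [gaussRed_jG]
    exact Fermat.Agent.IG.VAL.OvBasics22.transcendental_jqModC (Res O)
  have hψ0 : dedekindPsi M ≠ 0 :=
    (Fermat.Agent.X0.GNPsi.gnp_dedekindPsi_pos (NeZero.ne M)).ne'
  have hψ : relfinrank (Kt O (jG O)) (modularFunctionFieldFullC K M) = dedekindPsi M :=
    DegBaseChange25.relfinrank_fullC_eq_psi_of_charZero K M
  have hψ' : dedekindPsi M ≤
      relfinrank (kt O (jG O)) (modularFunctionFieldFullC (Res O) M) := by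
    have h1 := DegBaseChange25.relfinrank_fullC_eq_psi_of_charP ℓ (Res O) M hℓM
    have h2 : kt O (jG O) = (Res O)⟮jqModC (Res O)⟯ := by
      show (Res O)⟮gaussRed O (jG O)⟯ = _
      rw [gaussRed_jG]
    rw [h2, h1]
  have hjF' : gaussRed O (jG O) ∈ modularFunctionFieldFullC (Res O) M := by
    rw [gaussRed_jG]
    exact jqModC_mem_full (Res O) M
  have hres : ∀ y ∈ modularFunctionFieldFullC (Res O) M, ∃ b : ↥(gaussRing O),
      (b : LaurentSeries K) ∈ modularFunctionFieldFullC K M ∧ gaussRed O b = y := by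
    intro y hy
    obtain ⟨f, hf, hfE, hfy⟩ := fullC_le_resField O M hy
    exact ⟨⟨f, hf⟩, hfE, hfy⟩
  obtain ⟨hn0, hdeg, b, hbE, hbli⟩ := GaussDeg25.exists_residually_independent hπ hjtr
    (show ((jG O : ↥(gaussRing O)) : LaurentSeries K) ∈ Kt O tG from hjt)
    (modularFunctionFieldFullC K M) htE (modularFunctionFieldFullC (Res O) M) hjF'
    (dedekindPsi M) hψ0 hψ hψ' hres
  exact ⟨hn0, hdeg, b, hbE, hbli⟩

end Generic

section BaseChange

variable {L : Type} [Field L] [Algebra ℚ L] (O : ValuationSubring L) [IsDiscreteValuationRing ↥O]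
  {π : ↥O}

/-- The same for `E = laurentBaseChange L (modularFunctionFieldFull M)` (`= Interface4.FK M K`). -/
theorem degLe_irr_laurentBaseChange (hπ : Irreducible π) (ℓ : ℕ) [Fact ℓ.Prime]
    [CharP (Res O) ℓ] (M : ℕ) [NeZero M] (hℓM : ¬ ℓ ∣ M) (tG : ↥(gaussRing O))
    (htE : (tG : LaurentSeries L) ∈ laurentBaseChange L (modularFunctionFieldFull M))
    (hjt : jqModC L ∈ Kt O tG) :
    relfinrank (Kt O tG) (laurentBaseChange L (modularFunctionFieldFull M)) ≠ 0 ∧
      DegLe O (laurentBaseChange L (modularFunctionFieldFull M)) tG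
        (relfinrank (Kt O tG) (laurentBaseChange L (modularFunctionFieldFull M))) ∧
      Irr O (laurentBaseChange L (modularFunctionFieldFull M)) tG
        (relfinrank (Kt O tG) (laurentBaseChange L (modularFunctionFieldFull M))) := by
  have : CharZero L := algebraRat.charZero L
  rw [DegBaseChange25.laurentBaseChange_full_eq] at htE ⊢
  exact degLe_irr_fullC O hπ ℓ M hℓM tG htE hjt

/-- **The Hauptmodul case**, generic field: `t = tq L n e` (in the Gauss ring by `TBridge15`), given
`t ∈ E` and `j ∈ L(t)`. -/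
theorem degLe_irr_tq (hπ : Irreducible π) (ℓ : ℕ) [Fact ℓ.Prime]
    [CharP (Res O) ℓ] (M : ℕ) [NeZero M] (hℓM : ¬ ℓ ∣ M) (n e : ℕ) [NeZero n]
    (htE : Fermat.Agent.RED.BASE.EtaQuot12.tq L n e ∈
      laurentBaseChange L (modularFunctionFieldFull M))
    (hjt : jqModC L ∈ L⟮Fermat.Agent.RED.BASE.EtaQuot12.tq L n e⟯) :
    relfinrank (Kt O (Fermat.Agent.RED.BASE.TBridge15.tG O n e))
        (laurentBaseChange L (modularFunctionFieldFull M)) ≠ 0 ∧
      DegLe O (laurentBaseChange L (modularFunctionFieldFull M))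
        (Fermat.Agent.RED.BASE.TBridge15.tG O n e)
        (relfinrank (Kt O (Fermat.Agent.RED.BASE.TBridge15.tG O n e))
          (laurentBaseChange L (modularFunctionFieldFull M))) ∧
      Irr O (laurentBaseChange L (modularFunctionFieldFull M))
        (Fermat.Agent.RED.BASE.TBridge15.tG O n e)
        (relfinrank (Kt O (Fermat.Agent.RED.BASE.TBridge15.tG O n e))
          (laurentBaseChange L (modularFunctionFieldFull M))) :=
  degLe_irr_laurentBaseChange O hπ ℓ M hℓM (Fermat.Agent.RED.BASE.TBridge15.tG O n e) htE hjt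

end BaseChange

section NumberFields

open Fermat.Agent.RED.Interface4 Fermat.Agent.RED.BASE.EtaQuot12 Fermat.Agent.RED.BASE

/-- **(G1) inputs over all sufficiently large number fields.**  From BASE's `TMem n e M` and
`TGenBase n e`: there is a number field `K₁` such that for every `K ⊇ K₁`, every `A` with `A ∩ K` a
DVR of residue characteristic `ℓ ∤ M`: `t := tq K n e ∈ FK M K`, `[FK M K : K(t)] ≠ 0`, and `(DEG)`,
`(IRR)` hold for `n' = [FK M K : K(t)]` — literally the hypotheses `hn hdeg hirr` of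
`ModelAsm4.hasModel_of_g1` with `t := ⟨tq K n e, _⟩`, `ht := TBridge15.tq_mem_gaussRing _ n e`. -/
theorem exists_g1_FK (n e M : ℕ) [NeZero n] [NeZero M] (ℓ : ℕ) [Fact ℓ.Prime] (hℓM : ¬ ℓ ∣ M)
    (hmem : Interface12.TMem n e M) (hgen : Interface12.TGenBase n e) :
    ∃ K₁ : IntermediateField ℚ Qbar, FiniteDimensional ℚ K₁ ∧
      ∀ K : IntermediateField ℚ Qbar, K₁ ≤ K →
        tq ↥K n e ∈ FK M K ∧
        ∀ (A : ValuationSubring Qbar) [IsDiscreteValuationRing ↥(AK A K)]
          [CharP (Res (AK A K)) ℓ] {π : ↥(AK A K)}, Irreducible π →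
          relfinrank (Kt (AK A K) (TBridge15.tG (AK A K) n e)) (FK M K) ≠ 0 ∧
          DegLe (AK A K) (FK M K) (TBridge15.tG (AK A K) n e)
            (relfinrank (Kt (AK A K) (TBridge15.tG (AK A K) n e)) (FK M K)) ∧
          Irr (AK A K) (FK M K) (TBridge15.tG (AK A K) n e)
            (relfinrank (Kt (AK A K) (TBridge15.tG (AK A K) n e)) (FK M K)) := by
  obtain ⟨K₁, hfin₁, h₁⟩ := TBridge15.exists_tq_mem n e M hmem
  obtain ⟨K₂, hfin₂, h₂⟩ := JInKt25.exists_j_mem_adjoin n e hgen
  refine ⟨K₁ ⊔ K₂, inferInstance, fun K hK => ⟨h₁ K (le_sup_left.trans hK), ?_⟩⟩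
  intro A _ _ π hπ
  exact degLe_irr_tq (AK A K) hπ ℓ M hℓM n e (h₁ K (le_sup_left.trans hK))
    (h₂ K (le_sup_right.trans hK))

end NumberFields

end Fermat.Agent.RED.PUR.GaussInstN25
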