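/-
Program H (S18), chapter PUR: the abstract "algebraic Hartogs" lemma (HART).

`R` a noetherian integrally closed domain, `K` its fraction field.
* a prime colon ideal `(b : c)` (`b ≠ 0`, `b ∤ c`) is minimal over a principal ideal and has height one;
* `R = ⋂ R_𝔮` over the height-one primes `𝔮` (divisibility form, elementwise form, unit form);
* `R_𝔮` is a discrete valuation ring for a height-one prime `𝔮`;
* a nonzero non-unit lies in a height-one prime.
Mathlib only.
-/
import Mathlib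

namespace Fermat.Agent.RED.PUR.Hartogs22

section Colon

variable {R : Type*} [CommRing R] [IsDomain R] [IsIntegrallyClosed R]

/-- The colon trick.  `P = (b : c)` a finitely generated prime with `b ≠ 0`, `b ∤ c`, in an integrally
closed domain: there are `y ∈ P` and `d ∉ P` with `d • P ⊆ (y)`; moreover `y * c = b * d`. -/
theorem exists_gen_of_colon {b c : R} (hb : b ≠ 0) (hc : ¬ b ∣ c) (P : Ideal R) [P.IsPrime]
    (hfg : P.FG) (hP : ∀ r, r ∈ P ↔ b ∣ r * c) :
    ∃ y ∈ P, ∃ d, d ∉ P ∧ y * c = b * d ∧ ∀ z ∈ P, ∃ e, d * z = y * e := by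
  classical
  by_contra hcon
  -- every `e` with `z * c = b * e`, `z ∈ P`, lies in `P`
  have hstab : ∀ z ∈ P, ∀ e, z * c = b * e → e ∈ P := by
    intro z hz e he
    by_contra heP
    apply hcon
    refine ⟨z, hz, e, heP, he, fun z' hz' => ?_⟩
    obtain ⟨e', he'⟩ := (hP z').1 hz'
    refine ⟨e', ?_⟩
    apply mul_left_cancel₀ hb
    calc b * (e * z') = (b * e) * z' := by ring
      _ = (z * c) * z' := by rw [he]
      _ = z * (z' * c) := by ring
      _ = z * (b * e') := by rw [he']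
      _ = b * (z * e') := by ring
  let K := FractionRing R
  have hbK : algebraMap R K b ≠ 0 := by
    simpa using (IsFractionRing.injective R K).ne hb
  let x : K := algebraMap R K c / algebraMap R K b
  let N : Submodule R K := Submodule.map (Algebra.linearMap R K) P
  have hbP : b ∈ P := (hP b).2 (Dvd.intro c rfl)
  have hN : N ≠ ⊥ := by
    intro h
    have : algebraMap R K b ∈ N := ⟨b, hbP, rfl⟩
    rw [h, Submodule.mem_bot] at this
    exact hbK this
  have hN' : N.FG := Submodule.FG.map _ hfg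
  have hx : ∀ n ∈ N, x • n ∈ N := by
    rintro _ ⟨z, hz, rfl⟩
    obtain ⟨e, he⟩ := (hP z).1 hz
    refine ⟨e, hstab z hz e he, ?_⟩
    simp only [Algebra.linearMap_apply, smul_eq_mul, x]
    rw [div_mul_eq_mul_div, eq_div_iff hbK, ← map_mul, ← map_mul, mul_comm c z, he, mul_comm]
  have hint : IsIntegral R x := isIntegral_of_smul_mem_submodule N hN hN' x hx
  obtain ⟨r, hr⟩ := IsIntegrallyClosed.isIntegral_iff.1 hint
  apply hc
  refine ⟨r, ?_⟩
  apply IsFractionRing.injective R K
  rw [map_mul, hr]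
  simp only [x]
  rw [mul_div_cancel₀ _ hbK]

/-- A prime colon ideal `(b : c)` is minimal over a principal ideal. -/
theorem exists_mem_minimalPrimes_of_colon {b c : R} (hb : b ≠ 0) (hc : ¬ b ∣ c) (P : Ideal R)
    [P.IsPrime] (hfg : P.FG) (hP : ∀ r, r ∈ P ↔ b ∣ r * c) :
    ∃ y, P ∈ (Ideal.span {y}).minimalPrimes := by
  obtain ⟨y, hy, d, hd, -, h⟩ := exists_gen_of_colon hb hc P hfg hP
  refine ⟨y, ⟨inferInstance, (Ideal.span_singleton_le_iff_mem P).2 hy⟩, ?_⟩
  rintro q ⟨hq, hyq⟩ hqP z hz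
  obtain ⟨e, he⟩ := h z hz
  have h1 : d * z ∈ q := by
    rw [he]
    exact q.mul_mem_right e ((Ideal.span_singleton_le_iff_mem q).1 hyq)
  rcases hq.mem_or_mem h1 with h2 | h2
  · exact absurd (hqP h2) hd
  · exact h2

/-- **An associated prime of a nonzero principal ideal has height one**
(noetherian integrally closed domain). -/
theorem height_eq_one_of_colon [IsNoetherianRing R] {b c : R} (hb : b ≠ 0) (hc : ¬ b ∣ c)
    (P : Ideal R) [P.IsPrime] (hP : ∀ r, r ∈ P ↔ b ∣ r * c) : P.height = 1 := by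
  obtain ⟨y, hy⟩ := exists_mem_minimalPrimes_of_colon hb hc P (IsNoetherian.noetherian P) hP
  have h1 : P.height ≤ 1 :=
    Ideal.height_le_one_of_isPrincipal_of_mem_minimalPrimes (Ideal.span {y}) P hy
  have hbP : b ∈ P := (hP b).2 (Dvd.intro c rfl)
  have h0 : P.height ≠ 0 := by
    rw [Ne, Ideal.height_eq_zero_iff_eq_bot]
    rintro rfl
    exact hb (by simpa using hbP)
  exact le_antisymm h1 (Order.one_le_iff_ne_zero.2 h0)

end Colon

section Hart

variable {R : Type*} [CommRing R] [IsDomain R] [IsIntegrallyClosed R] [IsNoetherianRing R]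

omit [IsDomain R] [IsIntegrallyClosed R] [IsNoetherianRing R] in
theorem mem_colon_mk_iff (b c r : R) :
    r ∈ (⊥ : Submodule R (R ⧸ Ideal.span {b})).colon {Ideal.Quotient.mk (Ideal.span {b}) c} ↔
      b ∣ r * c := by
  rw [Submodule.mem_colon_singleton, Submodule.mem_bot]
  have : r • (Ideal.Quotient.mk (Ideal.span {b}) c) = Ideal.Quotient.mk (Ideal.span {b}) (r * c) := by
    rw [map_mul]; rfl
  rw [this, Ideal.Quotient.eq_zero_iff_mem, Ideal.mem_span_singleton]

omit [IsDomain R] [IsIntegrallyClosed R] in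
/-- For `b ∤ a` there is a prime colon ideal `P = (b : c)` (of height one if `b ≠ 0`) containing
`(b : a)`. -/
theorem exists_colon_prime {a b : R} (hab : ¬ b ∣ a) :
    ∃ (c : R) (P : Ideal R), P.IsPrime ∧ ¬ b ∣ c ∧ (∀ r, r ∈ P ↔ b ∣ r * c) ∧
      ∀ s, b ∣ s * a → s ∈ P := by
  classical
  have hx : (Ideal.Quotient.mk (Ideal.span {b}) a) ≠ 0 := by
    rw [Ne, Ideal.Quotient.eq_zero_iff_mem, Ideal.mem_span_singleton]
    exact hab
  obtain ⟨P, hP, hle⟩ := exists_le_isAssociatedPrime_of_isNoetherianRing R _ hx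
  rw [isAssociatedPrime_iff] at hP
  obtain ⟨hprime, m, hm⟩ := hP
  obtain ⟨c, rfl⟩ := Ideal.Quotient.mk_surjective m
  have hmem : ∀ r, r ∈ P ↔ b ∣ r * c := by
    intro r
    rw [hm, mem_colon_mk_iff]
  refine ⟨c, P, hprime, ?_, hmem, fun s hs => hle ((mem_colon_mk_iff b a s).2 hs)⟩
  intro hbc
  apply hprime.ne_top
  rw [Ideal.eq_top_iff_one, hmem, one_mul]
  exact hbc

/-- **(HART), divisibility form.** `R` a noetherian integrally closed domain, `b ≠ 0`.  If for every
height-one prime `𝔮` there is `s ∉ 𝔮` with `b ∣ s * a`, then `b ∣ a`. -/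
theorem dvd_of_forall_height_one {a b : R} (hb : b ≠ 0)
    (h : ∀ 𝔮 : Ideal R, 𝔮.IsPrime → 𝔮.height = 1 → ∃ s, s ∉ 𝔮 ∧ b ∣ s * a) : b ∣ a := by
  by_contra hab
  obtain ⟨c, P, hprime, hbc, hmem, hle⟩ := exists_colon_prime hab
  obtain ⟨s, hs, hdvd⟩ := h P hprime (height_eq_one_of_colon hb hbc P hmem)
  exact hs (hle s hdvd)

variable {K : Type*} [Field K] [Algebra R K] [IsFractionRing R K]

/-- **(HART), elementwise form.**  An element of the fraction field lying in the localisation `R_𝔮`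
for every height-one prime `𝔮` lies in `R`. -/
theorem mem_range_of_forall_height_one (x : K)
    (h : ∀ 𝔮 : Ideal R, 𝔮.IsPrime → 𝔮.height = 1 →
      ∃ a s : R, s ∉ 𝔮 ∧ x * algebraMap R K s = algebraMap R K a) :
    x ∈ (algebraMap R K).range := by
  obtain ⟨a, b, hb, rfl⟩ := IsFractionRing.div_surjective (A := R) x
  have hb0 : b ≠ 0 := nonZeroDivisors.ne_zero hb
  have hbK : algebraMap R K b ≠ 0 := by
    simpa using (IsFractionRing.injective R K).ne hb0
  have hdvd : b ∣ a := by
    apply dvd_of_forall_height_one hb0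
    intro 𝔮 h𝔮 hht
    obtain ⟨r, s, hs, hrs⟩ := h 𝔮 h𝔮 hht
    refine ⟨s, hs, r, ?_⟩
    apply IsFractionRing.injective R K
    rw [map_mul, map_mul, ← hrs]
    field_simp
  obtain ⟨r, rfl⟩ := hdvd
  exact ⟨r, by rw [map_mul]; field_simp⟩

/-- **(HART), unit form.**  `u ≠ 0` in the fraction field which is a unit of `R_𝔮` for every
height-one prime `𝔮` is (the image of) a unit of `R`. -/
theorem exists_unit_of_forall_height_one (u : K) (hu0 : u ≠ 0)
    (h : ∀ 𝔮 : Ideal R, 𝔮.IsPrime → 𝔮.height = 1 →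
      ∃ a s : R, a ∉ 𝔮 ∧ s ∉ 𝔮 ∧ u * algebraMap R K s = algebraMap R K a) :
    ∃ r : Rˣ, algebraMap R K (r : R) = u := by
  have hinj := IsFractionRing.injective R K
  obtain ⟨r, hr⟩ := mem_range_of_forall_height_one u (fun 𝔮 h𝔮 hht => by
    obtain ⟨a, s, -, hs, e⟩ := h 𝔮 h𝔮 hht
    exact ⟨a, s, hs, e⟩)
  obtain ⟨r', hr'⟩ := mem_range_of_forall_height_one u⁻¹ (fun 𝔮 h𝔮 hht => by
    obtain ⟨a, s, ha, hs, e⟩ := h 𝔮 h𝔮 hht
    have ha0 : algebraMap R K a ≠ 0 := by
      have : a ≠ 0 := fun h0 => ha (h0 ▸ 𝔮.zero_mem)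
      simpa using hinj.ne this
    refine ⟨s, a, ha, ?_⟩
    rw [← e]
    field_simp)
  have h1 : r * r' = 1 := by
    apply hinj
    rw [map_mul, hr, hr', map_one, mul_inv_cancel₀ hu0]
  exact ⟨⟨r, r', h1, by rw [mul_comm]; exact h1⟩, hr⟩

omit [IsIntegrallyClosed R] in
/-- A nonzero non-unit of a noetherian domain lies in a prime of height one (Krull). -/
theorem exists_height_one_of_not_isUnit {a : R} (ha : a ≠ 0) (hu : ¬ IsUnit a) :
    ∃ 𝔮 : Ideal R, 𝔮.IsPrime ∧ 𝔮.height = 1 ∧ a ∈ 𝔮 := by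
  have hne : Ideal.span {a} ≠ ⊤ := by
    rwa [Ne, Ideal.span_singleton_eq_top]
  obtain ⟨⟨P, hP⟩⟩ := Ideal.nonempty_minimalPrimes hne
  have haP : a ∈ P := (Ideal.span_singleton_le_iff_mem P).1 hP.1.2
  refine ⟨P, hP.1.1, ?_, haP⟩
  have h1 : P.height ≤ 1 :=
    Ideal.height_le_one_of_isPrincipal_of_mem_minimalPrimes (Ideal.span {a}) P hP
  have h0 : P.height ≠ 0 := by
    rw [Ne, Ideal.height_eq_zero_iff_eq_bot]
    rintro rfl
    exact ha (by simpa using haP)
  exact le_antisymm h1 (Order.one_le_iff_ne_zero.2 h0)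

omit [IsIntegrallyClosed R] in
/-- An element of `R` which lies in no height-one prime is a unit. -/
theorem isUnit_of_forall_height_one_notMem {a : R} (ha : a ≠ 0)
    (h : ∀ 𝔮 : Ideal R, 𝔮.IsPrime → 𝔮.height = 1 → a ∉ 𝔮) : IsUnit a := by
  by_contra hu
  obtain ⟨𝔮, h𝔮, hht, ha𝔮⟩ := exists_height_one_of_not_isUnit ha hu
  exact h 𝔮 h𝔮 hht ha𝔮

end Hart

section DVR

variable {R : Type*} [CommRing R] [IsDomain R] [IsIntegrallyClosed R] [IsNoetherianRing R]

/-- The localisation of a noetherian integrally closed domain at a height-one prime is a discrete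
valuation ring. -/
theorem isDiscreteValuationRing_of_height_eq_one (𝔮 : Ideal R) [𝔮.IsPrime] (h : 𝔮.height = 1)
    (S : Type*) [CommRing S] [IsDomain S] [Algebra R S] [IsLocalization.AtPrime S 𝔮] :
    IsDiscreteValuationRing S := by
  have : IsLocalRing S := IsLocalization.AtPrime.isLocalRing S 𝔮
  have : IsNoetherianRing S := IsLocalization.isNoetherianRing 𝔮.primeCompl S inferInstance
  have : IsIntegrallyClosed S :=
    isIntegrallyClosed_of_isLocalization S 𝔮.primeCompl 𝔮.primeCompl_le_nonZeroDivisors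
  have hdim : (IsLocalRing.maximalIdeal S).height = 1 := by
    have h1 := IsLocalization.AtPrime.ringKrullDim_eq_height 𝔮 S
    rw [← IsLocalRing.maximalIdeal_height_eq_ringKrullDim, h] at h1
    exact_mod_cast h1
  have hmax : IsLocalRing.maximalIdeal S ≠ ⊥ := Ideal.ne_bot_of_height_eq_one hdim
  have hfield : ¬ IsField S := by
    rw [IsLocalRing.isField_iff_maximalIdeal_eq]
    exact hmax
  have key : IsIntegrallyClosed S ∧ ∃! P : Ideal S, P ≠ ⊥ ∧ P.IsPrime := by
    refine ⟨inferInstance, IsLocalRing.maximalIdeal S, ⟨hmax, inferInstance⟩, ?_⟩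
    rintro P ⟨hP0, hP⟩
    by_contra hne
    have hlt : P < IsLocalRing.maximalIdeal S :=
      lt_of_le_of_ne (IsLocalRing.le_maximalIdeal hP.ne_top) hne
    have h2 := Ideal.height_add_one_le_of_lt_of_isPrime hlt
    rw [hdim] at h2
    have h3 : P.height = 0 := by
      by_contra h0
      have : 1 ≤ P.height := Order.one_le_iff_ne_zero.2 h0
      have h4 : (1 : ℕ∞) + 1 ≤ 1 := le_trans (add_le_add_left this 1) h2
      exact absurd h4 (by decide)
    exact hP0 (Ideal.height_eq_zero_iff_eq_bot.1 h3)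
  exact ((IsDiscreteValuationRing.TFAE S hfield).out 0 3).2 key

end DVR

section VS

variable {R : Type*} [CommRing R] [IsDomain R]
variable (K : Type*) [Field K] [Algebra R K] [IsFractionRing R K]

/-- The localisation `R_𝔮` as a subalgebra of the fraction field `K`. -/
noncomputable def locAt (𝔮 : Ideal R) [𝔮.IsPrime] : Subalgebra R K :=
  Localization.subalgebra.ofField K 𝔮.primeCompl 𝔮.primeCompl_le_nonZeroDivisors

instance isLocalization_locAt (𝔮 : Ideal R) [𝔮.IsPrime] : IsLocalization.AtPrime (locAt K 𝔮) 𝔮 :=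
  Localization.subalgebra.isLocalization_ofField K 𝔮.primeCompl 𝔮.primeCompl_le_nonZeroDivisors

instance isFractionRing_locAt (𝔮 : Ideal R) [𝔮.IsPrime] : IsFractionRing (locAt K 𝔮) K :=
  Localization.subalgebra.isFractionRing_ofField K 𝔮.primeCompl 𝔮.primeCompl_le_nonZeroDivisors

variable {K}

theorem mem_locAt_iff {𝔮 : Ideal R} [𝔮.IsPrime] {x : K} :
    x ∈ locAt K 𝔮 ↔ ∃ a s : R, s ∉ 𝔮 ∧ x * algebraMap R K s = algebraMap R K a := by
  have hinj := IsFractionRing.injective R K
  constructor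
  · rintro ⟨a, s, hs, rfl⟩
    have hs0 : algebraMap R K s ≠ 0 := by
      have : s ≠ 0 := fun h0 => hs (h0 ▸ 𝔮.zero_mem)
      simpa using hinj.ne this
    exact ⟨a, s, hs, by field_simp⟩
  · rintro ⟨a, s, hs, e⟩
    have hs0 : algebraMap R K s ≠ 0 := by
      have : s ≠ 0 := fun h0 => hs (h0 ▸ 𝔮.zero_mem)
      simpa using hinj.ne this
    exact ⟨a, s, hs, by rw [← e]; field_simp⟩

theorem algebraMap_mem_locAt (𝔮 : Ideal R) [𝔮.IsPrime] (r : R) : algebraMap R K r ∈ locAt K 𝔮 :=
  (locAt K 𝔮).algebraMap_mem r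

end VS

section VS2

variable {R : Type*} [CommRing R] [IsDomain R] [IsIntegrallyClosed R] [IsNoetherianRing R]
variable {K : Type*} [Field K] [Algebra R K] [IsFractionRing R K]

theorem isDiscreteValuationRing_locAt (𝔮 : Ideal R) [𝔮.IsPrime] (h : 𝔮.height = 1) :
    IsDiscreteValuationRing (locAt K 𝔮) :=
  isDiscreteValuationRing_of_height_eq_one 𝔮 h _

/-- For a height-one prime `𝔮` of a noetherian integrally closed domain, `R_𝔮` as a valuation
subring of the fraction field. -/
noncomputable def valuationSubringAt (𝔮 : Ideal R) [𝔮.IsPrime] (h : 𝔮.height = 1) :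
    ValuationSubring K :=
  { (locAt K 𝔮).toSubring with
    mem_or_inv_mem' := fun x => by
      have : IsDiscreteValuationRing (locAt K 𝔮) := isDiscreteValuationRing_locAt 𝔮 h
      rcases ValuationRing.isInteger_or_isInteger (locAt K 𝔮) x with ⟨y, hy⟩ | ⟨y, hy⟩
      · left
        rw [← hy]
        exact y.2
      · right
        rw [← hy]
        exact y.2 }

theorem valuationSubringAt_toSubring (𝔮 : Ideal R) [𝔮.IsPrime] (h : 𝔮.height = 1) :
    (valuationSubringAt (K := K) 𝔮 h).toSubring = (locAt K 𝔮).toSubring := rfl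

theorem mem_valuationSubringAt_iff {𝔮 : Ideal R} [𝔮.IsPrime] {h : 𝔮.height = 1} {x : K} :
    x ∈ valuationSubringAt (K := K) 𝔮 h ↔
      ∃ a s : R, s ∉ 𝔮 ∧ x * algebraMap R K s = algebraMap R K a :=
  mem_locAt_iff

theorem algebraMap_mem_valuationSubringAt (𝔮 : Ideal R) [𝔮.IsPrime] (h : 𝔮.height = 1) (r : R) :
    algebraMap R K r ∈ valuationSubringAt (K := K) 𝔮 h :=
  algebraMap_mem_locAt 𝔮 r

instance isDiscreteValuationRing_valuationSubringAt (𝔮 : Ideal R) [𝔮.IsPrime]
    (h : 𝔮.height = 1) : IsDiscreteValuationRing (valuationSubringAt (K := K) 𝔮 h) := by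
  have : IsDiscreteValuationRing (locAt K 𝔮).toSubring := isDiscreteValuationRing_locAt 𝔮 h
  exact IsDiscreteValuationRing.RingEquivClass.isDiscreteValuationRing
    (RingEquiv.subringCongr (valuationSubringAt_toSubring (K := K) 𝔮 h).symm)

/-- **(HART), valuation-subring form**: `R = ⋂ R_𝔮` over the height-one primes. -/
theorem mem_range_iff_forall_mem_valuationSubringAt (x : K) :
    x ∈ (algebraMap R K).range ↔
      ∀ (𝔮 : Ideal R) [𝔮.IsPrime] (h : 𝔮.height = 1), x ∈ valuationSubringAt (K := K) 𝔮 h := by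
  constructor
  · rintro ⟨r, rfl⟩ 𝔮 _ h
    exact algebraMap_mem_valuationSubringAt 𝔮 h r
  · intro hx
    apply mem_range_of_forall_height_one
    intro 𝔮 h𝔮 h
    exact mem_valuationSubringAt_iff.1 (hx 𝔮 h)

/-- The centre of `R_𝔮` on `R` is `𝔮`. -/
theorem valuation_algebraMap_lt_one_iff (𝔮 : Ideal R) [𝔮.IsPrime] (h : 𝔮.height = 1) (r : R) :
    (valuationSubringAt (K := K) 𝔮 h).valuation (algebraMap R K r) < 1 ↔ r ∈ 𝔮 := by
  have hinj := IsFractionRing.injective R K
  set O := valuationSubringAt (K := K) 𝔮 h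
  have hle : O.valuation (algebraMap R K r) ≤ 1 :=
    (O.valuation_le_one_iff _).2 (algebraMap_mem_valuationSubringAt 𝔮 h r)
  constructor
  · intro hlt
    by_contra hr
    have hr0 : algebraMap R K r ≠ 0 := by
      have : r ≠ 0 := fun h0 => hr (h0 ▸ 𝔮.zero_mem)
      simpa using hinj.ne this
    have hinv : (algebraMap R K r)⁻¹ ∈ O :=
      mem_valuationSubringAt_iff.2 ⟨1, r, hr, by rw [map_one, inv_mul_cancel₀ hr0]⟩
    have h1 : O.valuation (algebraMap R K r)⁻¹ ≤ 1 := (O.valuation_le_one_iff _).2 hinv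
    rw [map_inv₀] at h1
    have h2 : (1 : ValuationSubring.ValueGroup O) ≤ O.valuation (algebraMap R K r) := by
      have hv0 : O.valuation (algebraMap R K r) ≠ 0 := (Valuation.ne_zero_iff _).2 hr0
      exact (inv_le_one₀ (zero_lt_iff.2 hv0)).1 h1
    exact absurd hlt (not_lt.2 h2)
  · intro hr
    refine lt_of_le_of_ne hle ?_
    intro h1
    by_cases hr0 : r = 0
    · rw [hr0, map_zero, map_zero] at h1
      exact zero_ne_one h1
    have hrK : algebraMap R K r ≠ 0 := by simpa using hinj.ne hr0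
    have hinv : (algebraMap R K r)⁻¹ ∈ O := by
      rw [← O.valuation_le_one_iff, map_inv₀, h1, inv_one]
    obtain ⟨a, s, hs, e⟩ := mem_valuationSubringAt_iff.1 hinv
    apply hs
    have : s = a * r := by
      apply hinj
      rw [map_mul, ← e]
      field_simp
    rw [this]
    exact 𝔮.mul_mem_left a hr

theorem valuationSubringAt_ne_top (𝔮 : Ideal R) [𝔮.IsPrime] (h : 𝔮.height = 1) :
    valuationSubringAt (K := K) 𝔮 h ≠ ⊤ := by
  intro htop
  have hne : 𝔮 ≠ ⊥ := Ideal.ne_bot_of_height_eq_one h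
  obtain ⟨a, ha, ha0⟩ := Submodule.exists_mem_ne_zero_of_ne_bot hne
  have hlt := (valuation_algebraMap_lt_one_iff (K := K) 𝔮 h a).2 ha
  have haK : algebraMap R K a ≠ 0 := by
    simpa using (IsFractionRing.injective R K).ne ha0
  have hinv : (algebraMap R K a)⁻¹ ∈ valuationSubringAt (K := K) 𝔮 h := by
    rw [htop]; exact ValuationSubring.mem_top _
  rw [← ValuationSubring.valuation_le_one_iff, map_inv₀] at hinv
  have hv0 : (valuationSubringAt (K := K) 𝔮 h).valuation (algebraMap R K a) ≠ 0 :=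
    (Valuation.ne_zero_iff _).2 haK
  have := (inv_le_one₀ (zero_lt_iff.2 hv0)).1 hinv
  exact absurd hlt (not_lt.2 this)

/-- **Uniqueness**: a valuation subring of `K` containing `R` whose centre on `R` is a height-one
prime `𝔮` is `R_𝔮`. -/
theorem eq_valuationSubringAt_of_center (O : ValuationSubring K) (𝔮 : Ideal R) [𝔮.IsPrime]
    (h : 𝔮.height = 1) (hR : ∀ r : R, algebraMap R K r ∈ O)
    (hcen : ∀ r : R, O.valuation (algebraMap R K r) < 1 ↔ r ∈ 𝔮) :
    O = valuationSubringAt 𝔮 h := by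
  have hinj := IsFractionRing.injective R K
  -- elements outside `𝔮` are units of `O`
  have hunit : ∀ s : R, s ∉ 𝔮 → O.valuation (algebraMap R K s) = 1 := by
    intro s hs
    have hle : O.valuation (algebraMap R K s) ≤ 1 := (O.valuation_le_one_iff _).2 (hR s)
    exact le_antisymm hle (not_lt.1 (fun hlt => hs ((hcen s).1 hlt)))
  have hsub : ∀ x : K, x ∈ valuationSubringAt (K := K) 𝔮 h → x ∈ O := by
    intro x hx
    obtain ⟨a, s, hs, e⟩ := mem_valuationSubringAt_iff.1 hx
    rw [← O.valuation_le_one_iff]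
    have h1 : O.valuation (x * algebraMap R K s) ≤ 1 := by
      rw [e]; exact (O.valuation_le_one_iff _).2 (hR a)
    rwa [map_mul, hunit s hs, mul_one] at h1
  apply ValuationSubring.ext
  intro x
  refine ⟨fun hxO => ?_, hsub x⟩
  rcases (valuationSubringAt (K := K) 𝔮 h).mem_or_inv_mem x with hx | hx
  · exact hx
  · -- `x⁻¹ ∈ R_𝔮`; write `x⁻¹ = a / s`; then `a ∉ 𝔮` since `x ∈ O`
    obtain ⟨a, s, hs, e⟩ := mem_valuationSubringAt_iff.1 hx
    by_cases hx0 : x = 0
    · rw [hx0]; exact (valuationSubringAt (K := K) 𝔮 h).zero_mem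
    have hsK : algebraMap R K s ≠ 0 := by
      have : s ≠ 0 := fun h0 => hs (h0 ▸ 𝔮.zero_mem)
      simpa using hinj.ne this
    have ha : a ∉ 𝔮 := by
      intro ha
      have hlt := (hcen a).2 ha
      rw [← e, map_mul, hunit s hs, mul_one, map_inv₀] at hlt
      have hxle : O.valuation x ≤ 1 := (O.valuation_le_one_iff _).2 hxO
      have hv0 : O.valuation x ≠ 0 := (Valuation.ne_zero_iff _).2 hx0
      have := (one_le_inv₀ (zero_lt_iff.2 hv0)).2 hxle
      exact absurd hlt (not_lt.2 this)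
    refine mem_valuationSubringAt_iff.2 ⟨s, a, ha, ?_⟩
    rw [← e]
    field_simp

end VS2

end Fermat.Agent.RED.PUR.Hartogs22
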