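/-
Program H (S18), chapter RED/PUR (MODEL-GAUSS), helper10: the (GAUSS) input of `RED/NumInst4`:
`AlgClosedIn E` for EVERY intermediate field `E` of `Kt((q)) / Kt` (any field `Kt`), in particular
`AlgClosedIn (FK M K)`.  (An element of `Kt((q))` integral over `Kt` is a constant: `GaussBridge10`.)
-/
import Mathlib
import Fermat.Agent.RED.NumInst4
import Fermat.Agent.RED.PUR.GaussBridge10

set_option autoImplicit false

noncomputable section

open HahnSeries ModularCurve

namespace Fermat.Agent.RED.PUR.AlgClosedIn10

open Fermat.Agent.RED.NumInst4 Fermat.Agent.RED.Interface4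

/-- `Kt` is algebraically closed in every intermediate field of `Kt((q)) / Kt`. -/
theorem algClosedIn {Kt : Type*} [Field Kt] (E : IntermediateField Kt (LaurentSeries Kt)) :
    AlgClosedIn E := by
  intro x hx
  obtain ⟨c, hc⟩ := GaussBridge10.exists_algebraMap_eq_of_isAlgebraic E hx.isAlgebraic
  exact ⟨c, hc.symm⟩

/-- The (GAUSS) input of `NumInst4.numStep_of_models`. -/
theorem algClosedIn_FK (M : ℕ) (K : IntermediateField ℚ Qbar) : AlgClosedIn (FK M K) :=
  algClosedIn (FK M K)

end Fermat.Agent.RED.PUR.AlgClosedIn10
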