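/-
Program H (S18) / chapter RED/PUR / helper25.

Separability inside Laurent series.  `k` a perfect field of characteristic `ℓ`, `x ∈ k((q))`
nonzero with `q`-order prime to `ℓ` (e.g. order `-1`: `j~`, or a Hauptmodul `t~`).  Then every
element of `k((q))` which is algebraic over `k(x)` is SEPARABLE over `k(x)`.

Proof.  (1) `k(x) = ⊕_{j<ℓ} k(x)^ℓ x^j` (`exists_pow_decomp`).  (2) If `E'/k(x)` is finite separable
then the `ℓ`-th powers of a basis still span, so every element of `E'` is `∑_{j<ℓ} a_j^ℓ x^j`,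
`a_j ∈ E'`.  (3) The orders of `a_j^ℓ x^j` are pairwise distinct mod `ℓ`
(`RamDeg25.sum_ne_zero_of_order_injOn`), so `w^ℓ ∈ E'` forces `w = a_0 ∈ E'`.
(4) Some `z^(ℓ^n)` is separable (separable contraction); descend with (3).
-/
import Mathlib
import Fermat.Agent.IG.PR.RamDeg25

set_option autoImplicit false
set_option linter.unusedSectionVars false

noncomputable section

namespace Fermat.Agent.RED.PUR.SepLaurent25

open HahnSeries Polynomial IntermediateField Fermat.Agent.IG.PR.RamDeg25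

variable {k : Type*} [Field k]

local notation "𝕂" => LaurentSeries k

section Order

/-- Generalised lemma (C): if `ℓ ∣ ord (c j)` for all `j`, `ord y` is prime to `ℓ`, and
`∑_{j<ℓ} c_j y^j = 0`, then all `c_j` (`j < ℓ`) vanish. -/
theorem eq_zero_of_sum_mul_pow_eq_zero {p : ℕ} {y : 𝕂} (hy0 : y ≠ 0)
    (hy : IsCoprime y.order (p : ℤ)) (c : ℕ → 𝕂) (hc : ∀ j, (p : ℤ) ∣ (c j).order)
    (h : ∑ j ∈ Finset.range p, c j * y ^ j = 0) : ∀ j < p, c j = 0 := by
  classical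
  by_contra hcon
  push Not at hcon
  obtain ⟨j0, hj0, hcj0⟩ := hcon
  refine sum_ne_zero_of_order_injOn (Finset.range p) (fun j => c j * y ^ j) ?_ ?_ h
  · intro i hi j hj hti htj hord
    rw [Finset.mem_range] at hi hj
    have hci : c i ≠ 0 := left_ne_zero_of_mul hti
    have hcj : c j ≠ 0 := left_ne_zero_of_mul htj
    rw [order_mul hci (pow_ne_zero _ hy0), order_mul hcj (pow_ne_zero _ hy0), order_pow,
      order_pow] at hord
    obtain ⟨a, ha⟩ := hc i
    obtain ⟨b, hb⟩ := hc j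
    rw [ha, hb] at hord
    simp only [nsmul_eq_mul] at hord
    have hdvd : (p : ℤ) ∣ ((i : ℤ) - j) * y.order := ⟨b - a, by linear_combination hord⟩
    have hdvd2 : (p : ℤ) ∣ (i : ℤ) - j := hy.symm.dvd_of_dvd_mul_right hdvd
    have hi' : (i : ℤ) < p := by exact_mod_cast hi
    have hj' : (j : ℤ) < p := by exact_mod_cast hj
    have h0 : (i : ℤ) - j = 0 := by
      apply Int.eq_zero_of_abs_lt_dvd hdvd2
      rw [abs_lt]
      constructor <;> omega
    omega
  · exact ⟨j0, Finset.mem_range.2 hj0, mul_ne_zero hcj0 (pow_ne_zero _ hy0)⟩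

end Order

section Decomp

variable (ℓ : ℕ) [Fact ℓ.Prime] [CharP k ℓ] (x : LaurentSeries k)

/-- `f = ∑_{j<ℓ} g_j^ℓ x^j` with all `g_j ∈ k(x)`. -/
def IsDecomp (f : 𝕂) : Prop :=
  ∃ g : ℕ → 𝕂, (∀ j, g j ∈ k⟮x⟯) ∧ f = ∑ j ∈ Finset.range ℓ, g j ^ ℓ * x ^ j

instance charP_laurent : CharP 𝕂 ℓ :=
  charP_of_injective_algebraMap (algebraMap k 𝕂).injective ℓ

variable {ℓ x}

theorem IsDecomp.add {f f' : 𝕂} (h : IsDecomp ℓ x f) (h' : IsDecomp ℓ x f') :
    IsDecomp ℓ x (f + f') := by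
  obtain ⟨g, hg, rfl⟩ := h
  obtain ⟨g', hg', rfl⟩ := h'
  refine ⟨fun j => g j + g' j, fun j => add_mem (hg j) (hg' j), ?_⟩
  rw [← Finset.sum_add_distrib]
  refine Finset.sum_congr rfl fun j _ => ?_
  rw [add_pow_char, add_mul]

theorem IsDecomp.zero : IsDecomp ℓ x (0 : 𝕂) :=
  ⟨fun _ => 0, fun _ => zero_mem _, by
    simp [zero_pow (Fact.out : ℓ.Prime).ne_zero]⟩

theorem IsDecomp.sum {ι : Type*} (s : Finset ι) (f : ι → 𝕂) (h : ∀ i ∈ s, IsDecomp ℓ x (f i)) :
    IsDecomp ℓ x (∑ i ∈ s, f i) := by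
  classical
  induction s using Finset.induction_on with
  | empty => simpa using IsDecomp.zero
  | insert a s ha ih =>
    rw [Finset.sum_insert ha]
    exact (h a (Finset.mem_insert_self _ _)).add
      (ih fun i hi => h i (Finset.mem_insert_of_mem hi))

/-- Multiplication by an `ℓ`-th power of an element of `k(x)`. -/
theorem IsDecomp.pow_mul {f : 𝕂} (h : IsDecomp ℓ x f) {a : 𝕂} (ha : a ∈ k⟮x⟯) :
    IsDecomp ℓ x (a ^ ℓ * f) := by
  obtain ⟨g, hg, rfl⟩ := h
  refine ⟨fun j => a * g j, fun j => mul_mem ha (hg j), ?_⟩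
  rw [Finset.mul_sum]
  refine Finset.sum_congr rfl fun j _ => ?_
  rw [mul_pow, mul_assoc]

/-- Multiplication by `x` (shift with wrap-around `x^ℓ = (x)^ℓ`). -/
theorem IsDecomp.x_mul {f : 𝕂} (h : IsDecomp ℓ x f) : IsDecomp ℓ x (x * f) := by
  obtain ⟨g, hg, rfl⟩ := h
  obtain ⟨m, hm⟩ : ∃ m, ℓ = m + 1 :=
    ⟨ℓ - 1, (Nat.succ_pred_eq_of_pos (Fact.out : ℓ.Prime).pos).symm⟩
  refine ⟨fun j => if j = 0 then g m * x else g (j - 1), fun j => ?_, ?_⟩
  · by_cases hj : j = 0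
    · simp only [hj, if_true]
      exact mul_mem (hg m) (mem_adjoin_simple_self k x)
    · simp only [hj, if_false]
      exact hg _
  · have e1 : ∑ j ∈ Finset.range ℓ, g j ^ ℓ * x ^ j =
        ∑ j ∈ Finset.range m, g j ^ ℓ * x ^ j + g m ^ ℓ * x ^ m := by
      rw [hm, Finset.sum_range_succ]
    have e2 : ∑ j ∈ Finset.range ℓ,
        (if j = 0 then g m * x else g (j - 1)) ^ ℓ * x ^ j =
        ∑ j ∈ Finset.range m, g j ^ ℓ * x ^ (j + 1) + (g m * x) ^ ℓ := by
      rw [hm, Finset.sum_range_succ']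
      simp
    rw [e1, e2, mul_add, Finset.mul_sum, mul_pow]
    congr 1
    · refine Finset.sum_congr rfl fun j _ => ?_
      rw [pow_succ]; ring
    · rw [hm, pow_succ x m]; ring

theorem IsDecomp.x_pow_mul {f : 𝕂} (h : IsDecomp ℓ x f) (n : ℕ) : IsDecomp ℓ x (x ^ n * f) := by
  induction n with
  | zero => simpa using h
  | succ n ih =>
    rw [pow_succ', mul_assoc]
    exact ih.x_mul

theorem IsDecomp.mul {f f' : 𝕂} (h : IsDecomp ℓ x f) (h' : IsDecomp ℓ x f') :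
    IsDecomp ℓ x (f * f') := by
  obtain ⟨g, hg, rfl⟩ := h
  rw [Finset.sum_mul]
  refine IsDecomp.sum _ _ fun j _ => ?_
  rw [mul_assoc]
  exact (h'.x_pow_mul j).pow_mul (hg j)

theorem IsDecomp.one : IsDecomp ℓ x (1 : 𝕂) := by
  refine ⟨fun j => if j = 0 then 1 else 0, fun j => ?_, ?_⟩
  · by_cases hj : j = 0 <;> simp [hj, one_mem, zero_mem]
  · rw [Finset.sum_eq_single 0]
    · simp
    · intro j _ hj
      simp [hj, zero_pow (Fact.out : ℓ.Prime).ne_zero]
    · intro h0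
      exact absurd (Finset.mem_range.2 (Fact.out : ℓ.Prime).pos) h0

theorem IsDecomp.pow {f : 𝕂} (h : IsDecomp ℓ x f) (n : ℕ) : IsDecomp ℓ x (f ^ n) := by
  induction n with
  | zero => simpa using IsDecomp.one
  | succ n ih => rw [pow_succ]; exact ih.mul h

theorem IsDecomp.of_pow {a : 𝕂} (ha : a ∈ k⟮x⟯) : IsDecomp ℓ x (a ^ ℓ) := by
  simpa using (IsDecomp.one (ℓ := ℓ) (x := x)).pow_mul ha

theorem isDecomp_algebraMap [PerfectField k] (c : k) : IsDecomp ℓ x (algebraMap k 𝕂 c) := by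
  have : PerfectRing k ℓ := PerfectField.toPerfectRing ℓ
  obtain ⟨d, hd⟩ := surjective_frobenius k ℓ c
  have : algebraMap k 𝕂 c = (algebraMap k 𝕂 d) ^ ℓ := by
    rw [← map_pow, ← hd]; rfl
  rw [this]
  exact IsDecomp.of_pow (IntermediateField.algebraMap_mem _ d)

theorem IsDecomp.self : IsDecomp ℓ x x := by
  simpa using (IsDecomp.one (ℓ := ℓ) (x := x)).x_mul

/-- Inverses: `f⁻¹ = (f⁻¹)^ℓ f^(ℓ-1)`. -/
theorem IsDecomp.inv {f : 𝕂} (h : IsDecomp ℓ x f) (hf : f ∈ k⟮x⟯) : IsDecomp ℓ x f⁻¹ := by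
  rcases eq_or_ne f 0 with rfl | hf0
  · simpa using IsDecomp.zero
  have e : f⁻¹ = (f⁻¹) ^ ℓ * f ^ (ℓ - 1) := by
    have hℓ : ℓ = (ℓ - 1) + 1 := (Nat.succ_pred_eq_of_pos (Fact.out : ℓ.Prime).pos).symm
    conv_rhs => rw [hℓ, pow_succ, Nat.add_sub_cancel]
    rw [mul_assoc, mul_comm f⁻¹, ← mul_assoc, ← mul_pow, inv_mul_cancel₀ hf0, one_pow, one_mul]
  rw [e]
  exact (h.pow _).pow_mul (inv_mem hf)

/-- **(A2)** every element of `k(x)` is `∑_{j<ℓ} g_j^ℓ x^j` with `g_j ∈ k(x)`. -/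
theorem exists_pow_decomp [PerfectField k] {f : 𝕂} (hf : f ∈ k⟮x⟯) : IsDecomp ℓ x f := by
  have key : ∀ f (hf : f ∈ k⟮x⟯), f ∈ k⟮x⟯ ∧ IsDecomp ℓ x f := by
    intro f hf
    induction hf using IntermediateField.adjoin_induction with
    | mem y hy =>
      rw [Set.mem_singleton_iff] at hy
      subst hy
      exact ⟨mem_adjoin_simple_self k _, IsDecomp.self⟩
    | algebraMap c => exact ⟨IntermediateField.algebraMap_mem _ c, isDecomp_algebraMap c⟩
    | add a b _ _ ha hb => exact ⟨add_mem ha.1 hb.1, ha.2.add hb.2⟩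
    | inv a _ ha => exact ⟨inv_mem ha.1, ha.2.inv ha.1⟩
    | mul a b _ _ ha hb => exact ⟨mul_mem ha.1 hb.1, ha.2.mul hb.2⟩
  exact (key f hf).2

end Decomp

section Main

variable (ℓ : ℕ) [Fact ℓ.Prime] [CharP k ℓ] [PerfectField k] {x : LaurentSeries k}

instance charP_adjoin : CharP k⟮x⟯ ℓ :=
  charP_of_injective_algebraMap (algebraMap k k⟮x⟯).injective ℓ

/-- **Key lemma.**  A finite separable extension `E'` of `k(x)` inside `k((q))` is closed under
extraction of `ℓ`-th roots in `k((q))`. -/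
theorem mem_of_pow_mem (hx0 : x ≠ 0) (hx : IsCoprime x.order (ℓ : ℤ))
    (E' : IntermediateField k⟮x⟯ (LaurentSeries k)) [FiniteDimensional k⟮x⟯ E']
    [Algebra.IsSeparable k⟮x⟯ E'] {w : LaurentSeries k} (hw : w ^ ℓ ∈ E') : w ∈ E' := by
  classical
  have hexp : ExpChar k⟮x⟯ ℓ := ExpChar.prime (Fact.out : ℓ.Prime)
  set b := Module.finBasis k⟮x⟯ E' with hb
  have hspan' := Field.span_map_pow_expChar_pow_eq_top_of_isSeparable (F := k⟮x⟯) (E := E')
    ℓ 1 b.span_eq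
  have hmem : (⟨w ^ ℓ, hw⟩ : E') ∈ Submodule.span k⟮x⟯ (Set.range fun i => b i ^ ℓ ^ 1) := by
    rw [hspan']; trivial
  obtain ⟨c, hc⟩ := (Submodule.mem_span_range_iff_exists_fun _).1 hmem
  -- pass to Laurent series
  have hc' : w ^ ℓ = ∑ i, ((c i : k⟮x⟯) : LaurentSeries k) * ((b i : E') : LaurentSeries k) ^ ℓ := by
    have := congrArg (fun e : E' => (e : LaurentSeries k)) hc
    simp only [pow_one] at this
    rw [← this]
    push_cast
    refine Finset.sum_congr rfl fun i _ => ?_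
    rw [Algebra.smul_def]
    rfl
  -- decompose the coefficients
  have hdec : ∀ i, IsDecomp ℓ x ((c i : k⟮x⟯) : LaurentSeries k) := fun i =>
    exists_pow_decomp (c i).2
  choose g hg hgc using hdec
  set a : ℕ → LaurentSeries k := fun j => ∑ i, g i j * ((b i : E') : LaurentSeries k) with ha
  have haE : ∀ j, a j ∈ E' := fun j =>
    sum_mem fun i _ => mul_mem (E'.algebraMap_mem ⟨g i j, hg i j⟩) (b i).2
  have hsum : w ^ ℓ = ∑ j ∈ Finset.range ℓ, a j ^ ℓ * x ^ j := by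
    rw [hc']
    calc ∑ i, ((c i : k⟮x⟯) : LaurentSeries k) * ((b i : E') : LaurentSeries k) ^ ℓ
        = ∑ i, ∑ j ∈ Finset.range ℓ, (g i j * ((b i : E') : LaurentSeries k)) ^ ℓ * x ^ j := by
          refine Finset.sum_congr rfl fun i _ => ?_
          rw [hgc i, Finset.sum_mul]
          refine Finset.sum_congr rfl fun j _ => ?_
          rw [mul_pow]; ring
      _ = ∑ j ∈ Finset.range ℓ, ∑ i, (g i j * ((b i : E') : LaurentSeries k)) ^ ℓ * x ^ j :=
          Finset.sum_comm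
      _ = ∑ j ∈ Finset.range ℓ, a j ^ ℓ * x ^ j := by
          refine Finset.sum_congr rfl fun j _ => ?_
          rw [ha, sum_pow_char, Finset.sum_mul]
  -- the order argument
  set c' : ℕ → LaurentSeries k := fun j => (a j - if j = 0 then w else 0) ^ ℓ with hc'def
  have hdiv : ∀ j, (ℓ : ℤ) ∣ (c' j).order := fun j => by
    rw [hc'def, order_pow, nsmul_eq_mul]
    exact dvd_mul_right _ _
  have hzero : ∑ j ∈ Finset.range ℓ, c' j * x ^ j = 0 := by
    have h1 : ∀ j ∈ Finset.range ℓ, c' j * x ^ j =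
        a j ^ ℓ * x ^ j - (if j = 0 then w else 0) ^ ℓ * x ^ j := fun j _ => by
      show (a j - if j = 0 then w else 0) ^ ℓ * x ^ j = _
      rw [sub_pow_char, sub_mul]
    rw [Finset.sum_congr rfl h1, Finset.sum_sub_distrib, ← hsum, sub_eq_zero]
    rw [Finset.sum_eq_single 0]
    · simp
    · intro j _ hj
      simp [hj, zero_pow (Fact.out : ℓ.Prime).ne_zero]
    · intro h0
      exact absurd (Finset.mem_range.2 (Fact.out : ℓ.Prime).pos) h0
  have h0 := eq_zero_of_sum_mul_pow_eq_zero hx0 hx c' hdiv hzero 0 (Fact.out : ℓ.Prime).pos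
  have h0' : a 0 - w = 0 := by
    have : (a 0 - w) ^ ℓ = 0 := by simpa [hc'def] using h0
    exact pow_eq_zero_iff (Fact.out : ℓ.Prime).ne_zero |>.1 this
  rw [← sub_eq_zero.1 h0']
  exact haE 0

/-- One descent step: `w^ℓ` separable over `k(x)` implies `w` separable over `k(x)`. -/
theorem isSeparable_of_pow (hx0 : x ≠ 0) (hx : IsCoprime x.order (ℓ : ℤ))
    {w : LaurentSeries k} (h : IsSeparable k⟮x⟯ (w ^ ℓ)) : IsSeparable k⟮x⟯ w := by
  have : FiniteDimensional k⟮x⟯ (k⟮x⟯⟮w ^ ℓ⟯) := adjoin.finiteDimensional h.isIntegral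
  have : Algebra.IsSeparable k⟮x⟯ (k⟮x⟯⟮w ^ ℓ⟯) :=
    (isSeparable_adjoin_simple_iff_isSeparable _ _).2 h
  have hw : w ∈ k⟮x⟯⟮w ^ ℓ⟯ :=
    mem_of_pow_mem ℓ hx0 hx _ (mem_adjoin_simple_self _ _)
  have := Algebra.IsSeparable.isSeparable k⟮x⟯ (⟨w, hw⟩ : k⟮x⟯⟮w ^ ℓ⟯)
  rwa [IsSeparable, IntermediateField.minpoly_eq] at this

theorem isSeparable_of_pow_pow (hx0 : x ≠ 0) (hx : IsCoprime x.order (ℓ : ℤ)) :
    ∀ (n : ℕ) {w : LaurentSeries k}, IsSeparable k⟮x⟯ (w ^ ℓ ^ n) → IsSeparable k⟮x⟯ w := by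
  intro n
  induction n with
  | zero => intro w h; simpa using h
  | succ n ih =>
    intro w h
    rw [pow_succ', pow_mul] at h
    exact isSeparable_of_pow ℓ hx0 hx (ih h)

/-- **Separability.**  Every element of `k((q))` algebraic over `k(x)` is separable over `k(x)`
(`k` perfect of characteristic `ℓ`, `ord x` prime to `ℓ`). -/
theorem isSeparable_of_isAlgebraic (hx0 : x ≠ 0) (hx : IsCoprime x.order (ℓ : ℤ))
    {z : LaurentSeries k} (hz : IsAlgebraic k⟮x⟯ z) : IsSeparable k⟮x⟯ z := by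
  have hexp : ExpChar k⟮x⟯ ℓ := ExpChar.prime (Fact.out : ℓ.Prime)
  have hint : IsIntegral k⟮x⟯ z := hz.isIntegral
  obtain ⟨g, hgsep, n, hgexp⟩ := (minpoly.irreducible hint).hasSeparableContraction ℓ
  refine isSeparable_of_pow_pow ℓ hx0 hx n ?_
  have hroot : aeval (z ^ ℓ ^ n) g = 0 := by
    rw [← expand_aeval, hgexp, minpoly.aeval]
  exact hgsep.of_dvd (minpoly.dvd _ _ hroot)

include ℓ in
/-- Special case: `x` of order `-1`. -/
theorem isSeparable_of_isAlgebraic_of_order (hx : x.order = -1)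
    {z : LaurentSeries k} (hz : IsAlgebraic k⟮x⟯ z) : IsSeparable k⟮x⟯ z := by
  refine isSeparable_of_isAlgebraic ℓ ?_ ?_ hz
  · rintro rfl
    rw [order_zero] at hx
    omega
  · rw [hx]
    exact (isCoprime_one_left (x := (ℓ : ℤ))).neg_left

/-- Every intermediate field of `k((q)) / k(x)` which is algebraic over `k(x)` is separable. -/
theorem isSeparable_intermediateField (hx0 : x ≠ 0) (hx : IsCoprime x.order (ℓ : ℤ))
    (E : IntermediateField k⟮x⟯ (LaurentSeries k)) [Algebra.IsAlgebraic k⟮x⟯ E] :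
    Algebra.IsSeparable k⟮x⟯ E := by
  refine ⟨fun e => ?_⟩
  have halg : IsAlgebraic k⟮x⟯ (e : LaurentSeries k) :=
    (Algebra.IsAlgebraic.isAlgebraic e).algebraMap (A := LaurentSeries k)
  have := isSeparable_of_isAlgebraic ℓ hx0 hx halg
  rwa [IsSeparable, ← IntermediateField.minpoly_eq] at this

end Main

end Fermat.Agent.RED.PUR.SepLaurent25
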