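/-
Program H (S18), chapter RED/PUR — helper26.  **The order of the Hauptmodul series.**

`tq κ n e = q⁻¹ (1 + …)` has order `-1` over every nontrivial ring, its inverse has order `1`
over a field; hence the hypothesis `hord` of `VertSmooth22.smooth_of_hUNR` /
`VertPurity22.isSeparable_psi_of_order` (`IsCoprime (gaussRed O ⟨t, ht⟩).order ℓ`) holds at the
concrete `t` with `(t : K((q))) = tq K n e`, and at `t⁻¹`.
-/
import Mathlib
import Fermat.Agent.RED.BASE.TBridge15

set_option autoImplicit false
set_option linter.unusedSectionVars false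

noncomputable section

namespace Fermat.Agent.RED.PUR.TqOrder26

open HahnSeries ModularCurve
open Fermat.Agent.RED.BASE.EtaQuot12 Fermat.Agent.RED.PUR.GaussGen8
open Fermat.Agent.RED.BASE.TBridge15

section Order

variable (R : Type*) [CommRing R] [Nontrivial R] (n e : ℕ) [NeZero n]

/-- `tq R n e = q⁻¹ + …` has order `-1`. -/
theorem order_tq : (tq R n e).order = -1 := by
  have hne : tq R n e ≠ 0 := by
    intro h
    have := coeff_tq_neg_one R n e
    rw [h, HahnSeries.coeff_zero] at this
    exact zero_ne_one this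
  apply le_antisymm
  · exact HahnSeries.order_le_of_coeff_ne_zero (by rw [coeff_tq_neg_one]; exact one_ne_zero)
  · by_contra hlt
    push Not at hlt
    exact (HahnSeries.coeff_order_eq_zero.not.mpr hne) (coeff_tq_of_lt R n e hlt)

end Order

section Field

variable (κ : Type*) [Field κ] (n e : ℕ) [NeZero n]

/-- `(tq κ n e)⁻¹ = q + …` has order `1`. -/
theorem order_tq_inv : ((tq κ n e)⁻¹).order = 1 := by
  have hne : tq κ n e ≠ 0 := tq_ne_zero κ n e
  have hinv : (tq κ n e)⁻¹ ≠ 0 := inv_ne_zero hne
  have h := HahnSeries.order_mul hne hinv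
  rw [mul_inv_cancel₀ hne, HahnSeries.order_one, order_tq] at h
  omega

/-- the order of `tq` is prime to everything. -/
theorem isCoprime_order_tq (ℓ : ℤ) : IsCoprime (tq κ n e).order ℓ := by
  rw [order_tq]
  exact (isCoprime_one_left (x := ℓ)).neg_left

theorem isCoprime_order_tq_inv (ℓ : ℤ) : IsCoprime ((tq κ n e)⁻¹).order ℓ := by
  rw [order_tq_inv]
  exact isCoprime_one_left

end Field

section Gauss

variable {K : Type*} [Field K] (O : ValuationSubring K) (n e : ℕ) [NeZero n]

/-- the residue of a Gauss-ring element equal to `tq K n e` (any membership proof). -/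
theorem gaussRed_of_eq_tq (f : ↥(gaussRing O)) (hf : (f : LaurentSeries K) = tq K n e) :
    gaussRed O f = tq (Res O) n e := by
  rw [← gaussRed_tG O n e]
  congr 1
  exact Subtype.ext hf

/-- the residue of a Gauss-ring element equal to `(tq K n e)⁻¹`. -/
theorem gaussRed_of_eq_tq_inv (f : ↥(gaussRing O)) (hf : (f : LaurentSeries K) = (tq K n e)⁻¹) :
    gaussRed O f = (tq (Res O) n e)⁻¹ := by
  have h : gaussRed O (tG O n e) ≠ 0 := by
    rw [gaussRed_tG]
    exact tq_ne_zero (Res O) n e
  rw [← gaussRed_tG O n e, ← gaussRed_inv O (tG O n e) h]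
  congr 1
  exact Subtype.ext hf

/-- **`hord` at the concrete `t`.** -/
theorem order_gaussRed (f : ↥(gaussRing O)) (hf : (f : LaurentSeries K) = tq K n e) :
    (gaussRed O f).order = -1 := by
  rw [gaussRed_of_eq_tq O n e f hf, order_tq]

theorem order_gaussRed_inv (f : ↥(gaussRing O)) (hf : (f : LaurentSeries K) = (tq K n e)⁻¹) :
    (gaussRed O f).order = 1 := by
  rw [gaussRed_of_eq_tq_inv O n e f hf, order_tq_inv]

/-- **`hord` of `VertSmooth22.smooth_of_hUNR` at the concrete `t`** (`E`-element form: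
`(t : K((q))) = tq K n e`). -/
theorem isCoprime_order_gaussRed {E : Type*} [SetLike E (LaurentSeries K)] {E₀ : E} (t : ↥E₀)
    (ht : (t : LaurentSeries K) ∈ gaussRing O) (htq : (t : LaurentSeries K) = tq K n e) (ℓ : ℤ) :
    IsCoprime (gaussRed O ⟨(t : LaurentSeries K), ht⟩).order ℓ := by
  rw [order_gaussRed O n e ⟨_, ht⟩ htq]
  exact (isCoprime_one_left (x := ℓ)).neg_left

/-- the same at `t⁻¹` (series form: `s = (tq K n e)⁻¹`). -/
theorem isCoprime_order_gaussRed_inv {E : Type*} [SetLike E (LaurentSeries K)] {E₀ : E} (s : ↥E₀)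
    (hs : (s : LaurentSeries K) ∈ gaussRing O) (hsq : (s : LaurentSeries K) = (tq K n e)⁻¹)
    (ℓ : ℤ) : IsCoprime (gaussRed O ⟨(s : LaurentSeries K), hs⟩).order ℓ := by
  rw [order_gaussRed_inv O n e ⟨_, hs⟩ hsq]
  exact isCoprime_one_left

end Gauss

end Fermat.Agent.RED.PUR.TqOrder26
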