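/-
Program H (S18), chapter RED/PUR — helper13.  **The generic half of `TwoChartModel`** (Mathlib +
the contract file `CoreIface24`).

`R` a noetherian integrally closed domain with fraction field `K` of characteristic zero, `F ⊇ K`
a field, `t ∈ F` transcendental over `K` with `F` finite over `K(t)`.  The charts are
`chart R t`, `chart R t⁻¹ : Subalgebra R F`, the integral closures of `R[t]`, `R[t⁻¹]` in `F`.

* `mem_chart`, `t_mem_chart`, `chart_int`, `chart_intcl`            (contract fields `t_mem`, `int`, `intcl`);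
* `isFractionRing_simple` : `K(t)` is the fraction field of `R[t]` (local algebra instance `algSimple`);
* `finite_integralClosure`, `chart_noeth`, `chart_fin`, `chart_frac` (contract fields `noeth`, `fin0`, `frac`);
* `exists_pow_mul_isIntegral`, `chart_ov`, `chart_ov'`             (contract fields `ov0`, `ov1`);
* `chart_le_valuationSubring` : a valuation subring containing `R` and `t` contains `chart R t`;
* `simple_inv`, `transcendental_inv`, `finiteDimensional_simple_inv` : passage from `t` to `t⁻¹`;
* `twoChartModel_of` : `TwoChartModel R K F π t (chart R t) (chart R t⁻¹) Ov` from the fields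
  that mention `Ov` or `smooth` only.
-/
import Mathlib
import Fermat.Agent.RED.CORE.CoreIface24

set_option autoImplicit false
set_option linter.unusedSectionVars false
set_option linter.style.haveILetI false

namespace Fermat.Agent.RED.PUR.ChartsGeneric13

open Polynomial IntermediateField

section Defs

variable (R : Type*) {F : Type*} [CommRing R] [Field F] [Algebra R F]

/-- The chart `B_t`: the integral closure of `R[t]` in `F`, as an `R`-subalgebra of `F`. -/
def chart (t : F) : Subalgebra R F :=
  (integralClosure (Algebra.adjoin R {t}) F).restrictScalars R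

theorem mem_chart {t x : F} : x ∈ chart R t ↔ IsIntegral (Algebra.adjoin R {t}) x := Iff.rfl

theorem algebraMap_adjoin_mem_chart (t : F) (a : Algebra.adjoin R {t}) : (a : F) ∈ chart R t :=
  (mem_chart R).mpr (isIntegral_algebraMap (x := a))

theorem adjoin_le_chart (t : F) : Algebra.adjoin R {t} ≤ chart R t := fun x hx =>
  algebraMap_adjoin_mem_chart R t ⟨x, hx⟩

theorem t_mem_chart (t : F) : t ∈ chart R t :=
  adjoin_le_chart R t (Algebra.self_mem_adjoin_singleton R t)

/-- the contract field `int0`. -/
theorem chart_int (t : F) : ∀ x ∈ chart R t, IsIntegral (Algebra.adjoin R {t}) x := fun _ hx => hx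

/-- the contract field `intcl0`. -/
theorem chart_intcl (t : F) : ∀ x : F, IsIntegral (chart R t) x → x ∈ chart R t := by
  intro x hx
  rw [mem_chart]
  have h : IsIntegral (integralClosure (Algebra.adjoin R {t}) F) x := hx
  exact isIntegral_trans (R := Algebra.adjoin R {t})
    (A := integralClosure (Algebra.adjoin R {t}) F) x h

end Defs

section Frac

variable {R K F : Type*} [CommRing R] [IsDomain R] [Field K] [Field F] [Algebra R K]
  [IsFractionRing R K] [Algebra K F] [Algebra R F] [IsScalarTower R K F]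

theorem algebraMap_injective_RF (K : Type*) [Field K] [Algebra R K]
    [IsFractionRing R K] [Algebra K F] [IsScalarTower R K F] :
    Function.Injective (algebraMap R F) := by
  rw [IsScalarTower.algebraMap_eq R K F]
  exact (algebraMap K F).injective.comp (IsFractionRing.injective R K)

theorem transcendental_base {t : F} (ht : Transcendental K t) : Transcendental R t :=
  ht.restrictScalars (IsFractionRing.injective R K)

theorem isIntegrallyClosed_adjoin [IsIntegrallyClosed R] {t : F} (ht : Transcendental K t) :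
    IsIntegrallyClosed ↥(Algebra.adjoin R {t}) :=
  IsIntegrallyClosed.of_equiv
    (Polynomial.algEquivOfTranscendental R t (transcendental_base ht)).toRingEquiv

theorem isNoetherianRing_adjoin [IsNoetherianRing R] {t : F} (ht : Transcendental K t) :
    IsNoetherianRing ↥(Algebra.adjoin R {t}) :=
  isNoetherianRing_of_ringEquiv R[X]
    (Polynomial.algEquivOfTranscendental R t (transcendental_base ht)).toRingEquiv

theorem adjoin_le_simple (t : F) :
    ∀ x ∈ Algebra.adjoin R {t}, x ∈ K⟮t⟯ := by
  intro x hx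
  induction hx using Algebra.adjoin_induction with
  | mem x hx =>
    rw [Set.mem_singleton_iff] at hx
    rw [hx]
    exact mem_adjoin_simple_self K t
  | algebraMap r =>
    rw [IsScalarTower.algebraMap_apply R K F]
    exact K⟮t⟯.algebraMap_mem _
  | add x y _ _ hx hy => exact K⟮t⟯.add_mem hx hy
  | mul x y _ _ hx hy => exact K⟮t⟯.mul_mem hx hy

/-- the inclusion `R[t] → K(t)`. -/
def toSimple (t : F) : ↥(Algebra.adjoin R {t}) →+* ↥K⟮t⟯ where
  toFun a := ⟨a.1, adjoin_le_simple t a.1 a.2⟩
  map_one' := rfl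
  map_mul' _ _ := rfl
  map_zero' := rfl
  map_add' _ _ := rfl

theorem toSimple_injective (t : F) : Function.Injective (toSimple (R := R) (K := K) t) := by
  intro a b h
  apply Subtype.ext
  exact congrArg (fun z : ↥K⟮t⟯ => (z : F)) h

/-- `R[t] → K(t)` as an algebra (local use only). -/
@[reducible] def algSimple (t : F) : Algebra ↥(Algebra.adjoin R {t}) ↥K⟮t⟯ :=
  (toSimple (R := R) (K := K) t).toAlgebra

attribute [local instance] algSimple

theorem isScalarTower_simple (t : F) : IsScalarTower ↥(Algebra.adjoin R {t}) ↥K⟮t⟯ F :=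
  IsScalarTower.of_algebraMap_eq (fun _ => rfl)

theorem faithfulSMul_simple (t : F) : FaithfulSMul ↥(Algebra.adjoin R {t}) ↥K⟮t⟯ :=
  (faithfulSMul_iff_algebraMap_injective _ _).mpr (toSimple_injective t)

theorem aeval_integerNormalization (t : F) (r : K[X]) :
    ∃ b : R, b ≠ 0 ∧ ∃ r' : R[X], aeval t r' = algebraMap R F b * aeval t r := by
  obtain ⟨b, hbM, hb⟩ := IsLocalization.integerNormalization_spec (nonZeroDivisors R) r
  refine ⟨b, nonZeroDivisors.ne_zero hbM,
    IsLocalization.integerNormalization (nonZeroDivisors R) r, ?_⟩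
  have h1 : aeval t (IsLocalization.integerNormalization (nonZeroDivisors R) r) =
      aeval t ((IsLocalization.integerNormalization (nonZeroDivisors R) r).map (algebraMap R K)) := by
    rw [aeval_map_algebraMap]
  rw [h1, hb, ← algebraMap_smul K b r, map_smul, Algebra.smul_def,
    ← IsScalarTower.algebraMap_apply R K F]

theorem aeval_mem_adjoin (t : F) (p : R[X]) : aeval t p ∈ Algebra.adjoin R {t} := by
  rw [Algebra.adjoin_singleton_eq_range_aeval]
  exact ⟨p, rfl⟩

theorem isFractionRing_simple (t : F) : IsFractionRing ↥(Algebra.adjoin R {t}) ↥K⟮t⟯ := by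
  have := faithfulSMul_simple (R := R) (K := K) t
  apply IsFractionRing.of_field
  intro z
  obtain ⟨r, s, hz⟩ := (mem_adjoin_simple_iff K (z : F)).mp z.2
  obtain ⟨b, hb, r', hr'⟩ := aeval_integerNormalization (R := R) t r
  obtain ⟨c, hc, s', hs'⟩ := aeval_integerNormalization (R := R) t s
  refine ⟨⟨algebraMap R F c * aeval t r', ?_⟩, ⟨algebraMap R F b * aeval t s', ?_⟩, ?_⟩
  · exact Subalgebra.mul_mem _ (Subalgebra.algebraMap_mem _ c) (aeval_mem_adjoin t r')
  · exact Subalgebra.mul_mem _ (Subalgebra.algebraMap_mem _ b) (aeval_mem_adjoin t s')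
  · apply Subtype.ext
    have hbF : algebraMap R F b ≠ 0 :=
      (map_ne_zero_iff _ (algebraMap_injective_RF K)).mpr hb
    have hcF : algebraMap R F c ≠ 0 :=
      (map_ne_zero_iff _ (algebraMap_injective_RF K)).mpr hc
    show (z : F) = (algebraMap R F c * aeval t r') / (algebraMap R F b * aeval t s')
    rw [hz, hr', hs']
    by_cases hs0 : aeval t s = 0
    · simp [hs0]
    · field_simp

end Frac

section Main

variable {R K F : Type*} [CommRing R] [IsDomain R] [IsNoetherianRing R] [IsIntegrallyClosed R]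
  [Field K] [Field F] [Algebra R K] [IsFractionRing R K] [Algebra K F] [Algebra R F]
  [IsScalarTower R K F] [CharZero K]

attribute [local instance] algSimple

/-- The integral closure of `R[t]` in `F` is a finite `R[t]`-module. -/
theorem finite_integralClosure {t : F} (ht : Transcendental K t) [FiniteDimensional K⟮t⟯ F] :
    Module.Finite ↥(Algebra.adjoin R {t}) ↥(integralClosure (Algebra.adjoin R {t}) F) := by
  have := isIntegrallyClosed_adjoin (R := R) ht
  have := isNoetherianRing_adjoin (R := R) ht
  have := isFractionRing_simple (R := R) (K := K) t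
  have := isScalarTower_simple (R := R) (K := K) t
  have : CharZero ↥K⟮t⟯ := charZero_of_injective_algebraMap (algebraMap K ↥K⟮t⟯).injective
  exact IsIntegralClosure.finite (Algebra.adjoin R {t}) ↥K⟮t⟯ F
    (integralClosure (Algebra.adjoin R {t}) F)

/-- contract field `noeth0`. -/
theorem chart_noeth {t : F} (ht : Transcendental K t) [FiniteDimensional K⟮t⟯ F] :
    IsNoetherianRing ↥(chart R t) := by
  have := isIntegrallyClosed_adjoin (R := R) ht
  have := isNoetherianRing_adjoin (R := R) ht
  have := isFractionRing_simple (R := R) (K := K) t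
  have := isScalarTower_simple (R := R) (K := K) t
  have : CharZero ↥K⟮t⟯ := charZero_of_injective_algebraMap (algebraMap K ↥K⟮t⟯).injective
  exact IsIntegralClosure.isNoetherianRing (Algebra.adjoin R {t}) ↥K⟮t⟯ F
    (integralClosure (Algebra.adjoin R {t}) F)

/-- contract field `fin0`: explicit generators of the chart over `R[t]`. -/
theorem chart_fin {t : F} (ht : Transcendental K t) [FiniteDimensional K⟮t⟯ F] :
    ∃ (r : ℕ) (e : Fin r → F), (∀ i, e i ∈ chart R t) ∧
      ∀ x ∈ chart R t, ∃ P : Fin r → R[X], x = ∑ i, aeval t (P i) * e i := by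
  have hfin := finite_integralClosure (R := R) ht
  obtain ⟨n, s, hs⟩ := Module.Finite.exists_fin (R := ↥(Algebra.adjoin R {t}))
    (M := ↥(integralClosure (Algebra.adjoin R {t}) F))
  refine ⟨n, fun i => (s i : F), fun i => (s i).2, ?_⟩
  intro x hx
  have hmem : (⟨x, hx⟩ : ↥(integralClosure (Algebra.adjoin R {t}) F)) ∈
      Submodule.span ↥(Algebra.adjoin R {t}) (Set.range s) := by
    rw [hs]; exact Submodule.mem_top
  obtain ⟨c, hc⟩ := (Submodule.mem_span_range_iff_exists_fun _).mp hmem
  have hP : ∀ i, ∃ P : R[X], aeval t P = (c i : F) := by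
    intro i
    exact Algebra.adjoin_mem_exists_aeval R t (c i).2
  choose P hP using hP
  refine ⟨P, ?_⟩
  have h1 := congrArg (fun z : ↥(integralClosure (Algebra.adjoin R {t}) F) => (z : F)) hc
  simp only at h1
  rw [← h1]
  rw [AddSubmonoidClass.coe_finsetSum]
  refine Finset.sum_congr rfl fun i _ => ?_
  rw [hP i]
  rfl

/-- contract field `frac0`: `F` is the fraction field of the chart. -/
theorem chart_frac (K : Type*) [Field K] [Algebra R K] [IsFractionRing R K] [Algebra K F]
    [IsScalarTower R K F] (t : F) [FiniteDimensional K⟮t⟯ F] :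
    ∀ x : F, ∃ a ∈ chart R t, ∃ b ∈ chart R t, b ≠ 0 ∧ x * b = a := by
  intro x
  have h1 := isFractionRing_simple (R := R) (K := K) t
  have h2 := isScalarTower_simple (R := R) (K := K) t
  have halg : IsAlgebraic ↥(Algebra.adjoin R {t}) x := by
    have : IsAlgebraic ↥K⟮t⟯ x := Algebra.IsAlgebraic.isAlgebraic x
    exact (IsFractionRing.isAlgebraic_iff (Algebra.adjoin R {t}) ↥K⟮t⟯ F).mpr this
  obtain ⟨d, hd, hint⟩ := halg.exists_integral_multiple
  refine ⟨d • x, (mem_chart R).mpr hint, (d : F), algebraMap_adjoin_mem_chart R t d, ?_, ?_⟩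
  · intro h0
    exact hd (Subtype.ext h0)
  · rw [Algebra.smul_def, mul_comm]
    rfl

end Main

section Overlap

variable {R F : Type*} [CommRing R] [Field F] [Algebra R F]

theorem pow_mul_aeval_inv_mem {t : F} (ht : t ≠ 0) (Q : R[X]) (d : ℕ) (hd : Q.natDegree ≤ d) :
    t ^ d * aeval t⁻¹ Q ∈ Algebra.adjoin R {t} := by
  rw [aeval_eq_sum_range' (Nat.lt_succ_of_le hd), Finset.mul_sum]
  refine Subalgebra.sum_mem _ fun i hi => ?_
  have hi' : i ≤ d := Nat.lt_succ_iff.mp (Finset.mem_range.mp hi)
  have h : t ^ d * (Q.coeff i • t⁻¹ ^ i) = Q.coeff i • t ^ (d - i) := by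
    rw [mul_smul_comm]
    congr 1
    rw [inv_pow, ← div_eq_mul_inv, pow_sub₀ _ ht hi', div_eq_mul_inv]
  rw [h]
  exact Subalgebra.smul_mem _ (Subalgebra.pow_mem _ (Algebra.self_mem_adjoin_singleton R t) _) _

/-- a monic polynomial over `F` with coefficients in a subalgebra and a root `y` witnesses the
integrality of `y` over the subalgebra. -/
theorem isIntegral_of_monic_coeff_mem (A : Subalgebra R F) (q : F[X]) (hq : q.Monic)
    (hcoeff : ∀ i, q.coeff i ∈ A) (y : F) (hy : eval y q = 0) : IsIntegral A y := by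
  have hl : q ∈ lifts (algebraMap A F) := by
    rw [lifts_iff_coeff_lifts]
    intro i
    exact ⟨⟨q.coeff i, hcoeff i⟩, rfl⟩
  obtain ⟨q', hq'map, -, hq'monic⟩ := lifts_and_natDegree_eq_and_monic hl hq
  refine ⟨q', hq'monic, ?_⟩
  rw [← eval_map, hq'map]
  exact hy

theorem exists_pow_mul_isIntegral {t : F} (ht : t ≠ 0) (x : F)
    (hx : IsIntegral (Algebra.adjoin R {t⁻¹}) x) :
    ∃ k : ℕ, IsIntegral (Algebra.adjoin R {t}) (t ^ k * x) := by
  classical
  obtain ⟨p, hmonic, hp⟩ := hx
  set pF : F[X] := p.map (algebraMap ↥(Algebra.adjoin R {t⁻¹}) F) with hpF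
  have hpFmonic : pF.Monic := hmonic.map _
  have hpFeval : eval x pF = 0 := by rw [hpF, eval_map]; exact hp
  have hQ : ∀ i : ℕ, ∃ Q : R[X], aeval t⁻¹ Q = pF.coeff i := by
    intro i
    rw [hpF, coeff_map]
    exact Algebra.adjoin_mem_exists_aeval R t⁻¹ (p.coeff i).2
  choose Q hQ using hQ
  set n := pF.natDegree with hn
  set k : ℕ := ∑ i ∈ Finset.range n, (Q i).natDegree with hk
  refine ⟨k, ?_⟩
  refine isIntegral_of_monic_coeff_mem (Algebra.adjoin R {t}) (scaleRoots pF (t ^ k))
    ((monic_scaleRoots_iff _).mpr hpFmonic) ?_ _ ?_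
  · intro i
    rw [coeff_scaleRoots]
    rcases lt_trichotomy i n with hi | hi | hi
    · -- i < n
      have hle : (Q i).natDegree ≤ k * (n - i) := by
        have h1 : (Q i).natDegree ≤ k :=
          Finset.single_le_sum (f := fun j => (Q j).natDegree) (fun _ _ => Nat.zero_le _)
            (Finset.mem_range.mpr hi)
        have h2 : 1 ≤ n - i := by omega
        calc (Q i).natDegree ≤ k := h1
          _ = k * 1 := (mul_one k).symm
          _ ≤ k * (n - i) := Nat.mul_le_mul_left k h2
      rw [← hQ i, ← pow_mul, mul_comm]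
      exact pow_mul_aeval_inv_mem ht (Q i) _ hle
    · -- i = n
      rw [hi, ← hn, Nat.sub_self, pow_zero, mul_one]
      have : pF.coeff n = 1 := hpFmonic.coeff_natDegree
      rw [this]
      exact Subalgebra.one_mem _
    · -- i > n
      rw [coeff_eq_zero_of_natDegree_lt hi, zero_mul]
      exact Subalgebra.zero_mem _
  · rw [scaleRoots_eval_mul, hpFeval, mul_zero]

end Overlap

section Overlap2

variable {R F : Type*} [CommRing R] [Field F] [Algebra R F]

/-- contract field `ov0`: `B₁ ⊆ B₀[1/t]`. -/
theorem chart_ov {t : F} (ht : t ≠ 0) : ∀ x ∈ chart R t⁻¹, ∃ k : ℕ, t ^ k * x ∈ chart R t :=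
  fun x hx => exists_pow_mul_isIntegral ht x hx

/-- contract field `ov1`: `B₀ ⊆ B₁[t]`. -/
theorem chart_ov' {t : F} (ht : t ≠ 0) : ∀ x ∈ chart R t, ∃ k : ℕ, t⁻¹ ^ k * x ∈ chart R t⁻¹ := by
  intro x hx
  have hx' : IsIntegral (Algebra.adjoin R {t⁻¹⁻¹}) x := by
    rw [inv_inv]; exact hx
  exact exists_pow_mul_isIntegral (inv_ne_zero ht) x hx'

/-- a monic polynomial over `F` with coefficients in a subring and a root `y` witnesses the
integrality of `y` over the subring. -/
theorem isIntegral_subring_of_monic_coeff_mem (S : Subring F) (q : F[X]) (hq : q.Monic)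
    (hcoeff : ∀ i, q.coeff i ∈ S) (y : F) (hy : eval y q = 0) : IsIntegral S y := by
  have hl : q ∈ lifts (algebraMap S F) := by
    rw [lifts_iff_coeff_lifts]
    intro i
    exact ⟨⟨q.coeff i, hcoeff i⟩, rfl⟩
  obtain ⟨q', hq'map, -, hq'monic⟩ := lifts_and_natDegree_eq_and_monic hl hq
  refine ⟨q', hq'monic, ?_⟩
  rw [← eval_map, hq'map]
  exact hy

/-- A valuation subring containing a subalgebra contains everything integral over it. -/
theorem mem_valuationSubring_of_isIntegral (Ov : ValuationSubring F) (A : Subalgebra R F)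
    (hA : ∀ a ∈ A, a ∈ Ov) (x : F) (hx : IsIntegral A x) : x ∈ Ov := by
  obtain ⟨p, hmonic, hp⟩ := hx
  have hint : IsIntegral Ov.toSubring x := by
    refine isIntegral_subring_of_monic_coeff_mem Ov.toSubring (p.map (algebraMap A F))
      (hmonic.map _) ?_ x ?_
    · intro i
      rw [coeff_map]
      exact hA _ (p.coeff i).2
    · rw [eval_map]; exact hp
  have hint' : IsIntegral ↥Ov x := hint
  obtain ⟨y, hy⟩ := (IsIntegrallyClosed.isIntegral_iff (R := ↥Ov) (K := F)).mp hint'
  rw [← hy]
  exact y.2

/-- contract fields `le_Ov0`, `le_Ov1`: a valuation subring containing `R` and `t` contains the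
chart `chart R t`. -/
theorem chart_le_valuationSubring (Ov : ValuationSubring F) (hR : ∀ r : R, algebraMap R F r ∈ Ov)
    {t : F} (ht : t ∈ Ov) : ∀ x ∈ chart R t, x ∈ Ov := by
  intro x hx
  refine mem_valuationSubring_of_isIntegral Ov (Algebra.adjoin R {t}) ?_ x hx
  intro a ha
  induction ha using Algebra.adjoin_induction with
  | mem y hy =>
    rw [Set.mem_singleton_iff] at hy
    rw [hy]; exact ht
  | algebraMap r => exact hR r
  | add y z _ _ hy hz => exact Ov.add_mem _ _ hy hz
  | mul y z _ _ hy hz => exact Ov.mul_mem _ _ hy hz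

end Overlap2

section Inv

variable {K F : Type*} [Field K] [Field F] [Algebra K F]

theorem simple_inv (t : F) : K⟮t⁻¹⟯ = K⟮t⟯ := by
  apply le_antisymm
  · rw [adjoin_simple_le_iff]
    exact K⟮t⟯.inv_mem (mem_adjoin_simple_self K t)
  · rw [adjoin_simple_le_iff]
    have h := K⟮t⁻¹⟯.inv_mem (mem_adjoin_simple_self K t⁻¹)
    rwa [inv_inv] at h

theorem transcendental_inv {t : F} (ht : Transcendental K t) : Transcendental K t⁻¹ :=
  fun h => ht (IsAlgebraic.inv_iff.mp h)

theorem finiteDimensional_simple_inv (t : F) [h : FiniteDimensional K⟮t⟯ F] :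
    FiniteDimensional K⟮t⁻¹⟯ F := by
  rw [simple_inv]; exact h

end Inv

section Model

open Fermat.Agent.RED.CORE.CoreIface24

variable {R K F : Type*} [CommRing R] [IsDomain R] [IsNoetherianRing R] [IsIntegrallyClosed R]
  [Field K] [Field F] [Algebra R K] [IsFractionRing R K] [Algebra K F] [Algebra R F]
  [IsScalarTower R K F] [CharZero K]

/-- **The generic half of the contract.**  For the charts `chart R t`, `chart R t⁻¹` every field of
`TwoChartModel` that mentions neither `Ov` nor `smooth` holds; the remaining fields are taken as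
hypotheses (`le_Ov0`, `le_Ov1` follow from `hR`, `t_mem_Ov`, `tinv_mem_Ov`). -/
theorem twoChartModel_of (π : R) {t : F} (ht : Transcendental K t) [FiniteDimensional K⟮t⟯ F]
    (Ov : ValuationSubring F)
    (dvrR : ∀ r : R, r ≠ 0 → ∃ (k : ℕ) (v : Rˣ), r = π ^ k * v)
    (hR : ∀ r : R, algebraMap R F r ∈ Ov) (t_mem_Ov : t ∈ Ov) (tinv_mem_Ov : t⁻¹ ∈ Ov)
    (pi_ne : algebraMap R F π ≠ 0) (pi_nonunit : (algebraMap R F π)⁻¹ ∉ Ov)
    (unif : ∀ x ∈ Ov, x⁻¹ ∉ Ov → ∃ c ∈ Ov, x = algebraMap R F π * c)
    (sat0 : ∀ b ∈ chart R t, ∀ c ∈ Ov, b = algebraMap R F π * c → c ∈ chart R t)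
    (sat1 : ∀ b ∈ chart R t⁻¹, ∀ c ∈ Ov, b = algebraMap R F π * c → c ∈ chart R t⁻¹)
    (smooth0 : ∀ x : Ideal (chart R t), x.IsMaximal → algebraMap R (chart R t) π ∈ x →
      ∃ s ∈ x, ∀ y ∈ x, ∃ d : chart R t, d ∉ x ∧
        d * y ∈ Ideal.span {algebraMap R (chart R t) π, s})
    (smooth1 : ∀ x : Ideal (chart R t⁻¹), x.IsMaximal → algebraMap R (chart R t⁻¹) π ∈ x →
      ∃ s ∈ x, ∀ y ∈ x, ∃ d : chart R t⁻¹, d ∉ x ∧
        d * y ∈ Ideal.span {algebraMap R (chart R t⁻¹) π, s}) :
    TwoChartModel R K F π t (chart R t) (chart R t⁻¹) Ov := by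
  have ht0 : t ≠ 0 := fun h => ht (h ▸ isAlgebraic_zero)
  have hti := transcendental_inv ht
  have hfi := finiteDimensional_simple_inv (K := K) t
  exact
    { noethR := inferInstance
      fracR := inferInstance
      dvrR := dvrR
      noeth0 := chart_noeth ht
      noeth1 := chart_noeth hti
      t_ne := ht0
      t_mem := t_mem_chart R t
      tinv_mem := t_mem_chart R t⁻¹
      intcl0 := chart_intcl R t
      intcl1 := chart_intcl R t⁻¹
      int0 := chart_int R t
      int1 := chart_int R t⁻¹
      frac0 := chart_frac K t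
      frac1 := chart_frac K t⁻¹
      fin0 := chart_fin ht
      ov0 := chart_ov ht0
      ov1 := chart_ov' ht0
      le_Ov0 := chart_le_valuationSubring Ov hR t_mem_Ov
      le_Ov1 := chart_le_valuationSubring Ov hR tinv_mem_Ov
      tinv_mem_Ov := tinv_mem_Ov
      pi_ne := pi_ne
      pi_nonunit := pi_nonunit
      unif := unif
      sat0 := sat0
      sat1 := sat1
      smooth0 := smooth0
      smooth1 := smooth1 }

end Model

end Fermat.Agent.RED.PUR.ChartsGeneric13
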