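/-
Program H, chapter MODEL-PUR (helper26, chapter lead): contract file.

* `LocPrin π x` : common OUTPUT format of MODEL-PUR (non-cusp closed points) and MODEL-CUSP
  (cusp points): the maximal ideal `x ∋ π` of `B` is, locally at `x`, generated by `π` and one
  more element.
* `isDedekindDomain_quotient_of_locPrin` : (G2) from the output format:
  `B` noetherian, `(π)` prime, every maximal `x ∋ π` satisfies `LocPrin π x`
  ⟹ `B ⧸ (π)` is a Dedekind domain.
* `TraceNondeg R0 B 𝔭` : INPUT format of the abstract purity theorem: the trace form of the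
  fibre `B_𝔭 / 𝔭 B_𝔭` over `κ(𝔭)` is nondegenerate, written elementwise with `Algebra.intTrace`.
-/
import Mathlib

set_option autoImplicit false

open IsLocalRing

namespace Fermat.Agent.RED.PUR.Interface26

/-- **Input format of the abstract purity theorem.**  `R0 ⊂ B` finite extension of integrally
closed domains, `𝔭` a (height one) prime of `R0`.  "The trace form of the `κ(𝔭)`-algebra
`B_𝔭 / 𝔭 B_𝔭` is nondegenerate", elementwise: if `Tr(z y) ∈ 𝔭` for all `y ∈ B` then `z` lies in
`𝔭 B_𝔭`, i.e. `s • z ∈ 𝔭 B` for some `s ∉ 𝔭`. -/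
def TraceNondeg (R0 B : Type*) [CommRing R0] [IsDomain R0] [IsIntegrallyClosed R0]
    [CommRing B] [IsDomain B] [IsIntegrallyClosed B] [Algebra R0 B] [Module.Finite R0 B]
    [Module.IsTorsionFree R0 B] (𝔭 : Ideal R0) : Prop :=
  ∀ z : B, (∀ y : B, Algebra.intTrace R0 B (z * y) ∈ 𝔭) →
    ∃ s : R0, s ∉ 𝔭 ∧ s • z ∈ 𝔭.map (algebraMap R0 B)

/-- The maximal ideal `x` of `B` is, locally at `x`, generated by `π` and one more element `τ`:
`x B_x = (π, τ) B_x`, written elementwise. -/
def LocPrin {B : Type*} [CommRing B] (π : B) (x : Ideal B) : Prop :=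
  ∃ τ ∈ x, ∀ y ∈ x, ∃ s, s ∉ x ∧ s * y ∈ Ideal.span {π, τ}

/-- A noetherian domain all of whose maximal ideals are locally principal (elementwise form)
is a Dedekind domain. -/
theorem isDedekindDomain_of_locally_principal {D : Type*} [CommRing D] [IsDomain D]
    [IsNoetherianRing D]
    (h : ∀ x : Ideal D, x.IsMaximal → ∃ τ ∈ x, ∀ y ∈ x, ∃ s, s ∉ x ∧ s * y ∈ Ideal.span {τ}) :
    IsDedekindDomain D := by
  have : IsDedekindDomainDvr D := by
    refine ⟨?_⟩
    intro P hP0 hPprime
    obtain ⟨x, hxmax, hPx⟩ := P.exists_le_maximal hPprime.ne_top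
    have := hxmax.isPrime
    obtain ⟨τ, hτx, hτ⟩ := h x hxmax
    -- the localisation at `x` is a DVR
    have hinj : Function.Injective (algebraMap D (Localization.AtPrime x)) :=
      IsLocalization.injective (Localization.AtPrime x) x.primeCompl_le_nonZeroDivisors
    have hmax : maximalIdeal (Localization.AtPrime x) =
        Ideal.span {algebraMap D (Localization.AtPrime x) τ} := by
      rw [← Localization.AtPrime.map_eq_maximalIdeal]
      apply le_antisymm
      · rw [Ideal.map_le_iff_le_comap]
        intro y hy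
        obtain ⟨s, hs, hsy⟩ := hτ y hy
        rw [Ideal.mem_comap]
        obtain ⟨c, hc⟩ := Ideal.mem_span_singleton'.mp hsy
        have hsu : IsUnit (algebraMap D (Localization.AtPrime x) s) :=
          IsLocalization.map_units (Localization.AtPrime x) (⟨s, hs⟩ : x.primeCompl)
        obtain ⟨u, hu⟩ := hsu
        rw [Ideal.mem_span_singleton']
        refine ⟨(↑u⁻¹ : Localization.AtPrime x) * algebraMap D _ c, ?_⟩
        rw [mul_assoc, ← map_mul, hc, map_mul, ← hu, ← mul_assoc, Units.inv_mul, one_mul]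
      · rw [Ideal.span_singleton_le_iff_mem]
        exact Ideal.mem_map_of_mem _ hτx
    have hx0 : x ≠ ⊥ := fun hx => hP0 (le_bot_iff.mp (hx ▸ hPx))
    have hnf : ¬ IsField (Localization.AtPrime x) := by
      rw [isField_iff_maximalIdeal_eq, ← Localization.AtPrime.map_eq_maximalIdeal,
        Ideal.map_eq_bot_iff_of_injective hinj]
      exact hx0
    have hprin : (maximalIdeal (Localization.AtPrime x)).IsPrincipal := ⟨⟨_, hmax⟩⟩
    have hdvr : IsDiscreteValuationRing (Localization.AtPrime x) :=
      ((IsDiscreteValuationRing.TFAE (Localization.AtPrime x) hnf).out 4 0).mp hprin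
    -- hence `P = x`
    have hPx' : P = x := by
      let f := (IsLocalization.orderIsoOfPrime x.primeCompl (Localization.AtPrime x)).symm
      let P' := f ⟨P, hPprime, hPx.disjoint_compl_left⟩
      let Q' := f ⟨x, hxmax.isPrime, Set.disjoint_left.mpr fun _ a => a⟩
      have hp1 : P'.1 ≠ ⊥ := fun e => hP0 ((P.map_eq_bot_iff_of_injective hinj).mp e)
      have hq1 : Q'.1 ≠ ⊥ := fun e => hx0 ((x.map_eq_bot_iff_of_injective hinj).mp e)
      rcases (IsDiscreteValuationRing.iff_pid_with_one_nonzero_prime
        (Localization.AtPrime x)).mp hdvr with ⟨_, huq⟩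
      exact Subtype.val_inj.mpr <| f.injective <|
        Subtype.val_inj.mp (huq.unique ⟨hp1, P'.2⟩ ⟨hq1, Q'.2⟩)
    subst hPx'
    exact hdvr
  exact IsDedekindDomainDvr.isDedekindDomain D

/-- **Output format of MODEL-PUR and MODEL-CUSP → (G2).**  If `π` is a prime element of the
noetherian ring `B` and every maximal ideal containing `π` is locally generated by `π` and one
more element, then `B ⧸ (π)` is a Dedekind domain. -/
theorem isDedekindDomain_quotient_of_locPrin {B : Type*} [CommRing B] [IsNoetherianRing B]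
    (π : B) [hprime : (Ideal.span {π}).IsPrime]
    (h : ∀ x : Ideal B, x.IsMaximal → π ∈ x → LocPrin π x) :
    IsDedekindDomain (B ⧸ Ideal.span {π}) := by
  apply isDedekindDomain_of_locally_principal
  intro xb hxb
  set mk := Ideal.Quotient.mk (Ideal.span {π}) with hmk
  have hsurj : Function.Surjective mk := Ideal.Quotient.mk_surjective
  have hxmax : (xb.comap mk).IsMaximal := Ideal.comap_isMaximal_of_surjective mk hsurj
  have hπx : π ∈ xb.comap mk := by
    rw [Ideal.mem_comap]
    have : mk π = 0 := Ideal.Quotient.eq_zero_iff_mem.mpr (Ideal.mem_span_singleton_self π)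
    rw [this]; exact xb.zero_mem
  obtain ⟨τ, hτx, hτ⟩ := h _ hxmax hπx
  refine ⟨mk τ, hτx, ?_⟩
  intro yb hyb
  obtain ⟨y, rfl⟩ := hsurj yb
  obtain ⟨s, hs, hsy⟩ := hτ y hyb
  refine ⟨mk s, hs, ?_⟩
  rw [Ideal.mem_span_pair] at hsy
  obtain ⟨a, b, hab⟩ := hsy
  rw [← map_mul, ← hab, map_add, map_mul, map_mul]
  have : mk π = 0 := Ideal.Quotient.eq_zero_iff_mem.mpr (Ideal.mem_span_singleton_self π)
  rw [this, mul_zero, zero_add]
  exact Ideal.mem_span_singleton'.mpr ⟨mk b, rfl⟩

end Fermat.Agent.RED.PUR.Interface26
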