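/-
Program H (S18), chapter RED/PUR — helper13.  **(PL-E): the concrete base `R0 = A[X]`, `A` a DVR,
and `B = integralClosure A[X] F`** (Mathlib + `ChartsGeneric13` + `Interface26`).

* (E1) `prime_C`, `isPrincipalIdealRing_quot`, `isPrime_span_C` : `C ϖ` is prime in `A[X]` and
  `A[X] / (C ϖ) ≅ (A/ϖ)[X]` is a PID;
* (E2) `C_notMem`, `natCast_notMem` (residue characteristic zero at a prime `𝔭 ∌ C ϖ`),
  `eq_bot_of_lt_of_C_notMem`, `eq_bot_of_lt` (no nonzero prime strictly below such a `𝔭`);
* (E3) for ANY `[Algebra A[X] F] [IsScalarTower A A[X] F]` with `algebraMap A[X] F X = t`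
  (e.g. `polyAlgebra t = (aeval t).toAlgebra`): `algebraMap_eq_aeval`, `algebraMap_injective`,
  `faithfulSMul`, `isIntegral_iff`, `finite_integralClosure`, `isNoetherianRing_integralClosure`,
  `isIntegrallyClosed_integralClosure`, `isFractionRing_integralClosure`,
  `faithfulSMul_integralClosure`;
* bridge to the contract charts: `mem_integralClosure_iff_mem_chart`, `chartEquiv`,
  `smooth_of_locPrin` (`LocPrin` at the maximal ideals of `integralClosure A[X] F` gives the
  contract field `smooth0` for `chart A t`).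
-/
import Mathlib
import Fermat.Agent.RED.PUR.ChartsGeneric13
import Fermat.Agent.RED.PUR.Interface26

set_option autoImplicit false
set_option linter.unusedSectionVars false
set_option linter.style.haveILetI false

namespace Fermat.Agent.RED.PUR.IntClosBase13

open Polynomial IntermediateField
open Fermat.Agent.RED.PUR.ChartsGeneric13

section E1

variable {A : Type*} [CommRing A] [IsDomain A] [IsDiscreteValuationRing A]

/-- (E1) `C ϖ` is a prime element of `A[X]`. -/
theorem prime_C {ϖ : A} (hϖ : Irreducible ϖ) : Prime (C ϖ : A[X]) :=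
  Polynomial.prime_C_iff.mpr hϖ.prime

theorem isMaximal_span {ϖ : A} (hϖ : Irreducible ϖ) : (Ideal.span {ϖ}).IsMaximal := by
  rw [← hϖ.maximalIdeal_eq]
  exact IsLocalRing.maximalIdeal.isMaximal A

theorem map_C_span (ϖ : A) : (Ideal.span {ϖ}).map (C : A →+* A[X]) = Ideal.span {C ϖ} := by
  rw [Ideal.map_span, Set.image_singleton]

/-- (E1) `A[X] / (C ϖ) ≅ (A/ϖ)[X]` is a principal ideal ring. -/
theorem isPrincipalIdealRing_quot {ϖ : A} (hϖ : Irreducible ϖ) :
    IsPrincipalIdealRing (A[X] ⧸ Ideal.span {C ϖ}) := by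
  haveI := isMaximal_span hϖ
  letI : Field (A ⧸ Ideal.span {ϖ}) := Ideal.Quotient.field _
  have e := Ideal.polynomialQuotientEquivQuotientPolynomial (Ideal.span {ϖ})
  rw [map_C_span] at e
  exact IsPrincipalIdealRing.of_surjective e.toRingHom e.surjective

theorem isPrime_span_C {ϖ : A} (hϖ : Irreducible ϖ) : (Ideal.span {C ϖ} : Ideal A[X]).IsPrime :=
  (Ideal.span_singleton_prime (prime_C hϖ).ne_zero).mpr (prime_C hϖ)

end E1

section E2

variable {A : Type*} [CommRing A] [IsDomain A] [IsDiscreteValuationRing A]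

/-- a prime of `A[X]` not containing `C ϖ` contains no nonzero constant. -/
theorem C_notMem {ϖ : A} (hϖ : Irreducible ϖ) (𝔭 : Ideal A[X]) [h𝔭 : 𝔭.IsPrime]
    (h : C ϖ ∉ 𝔭) (a : A) (ha : a ≠ 0) : C a ∉ 𝔭 := by
  intro hmem
  obtain ⟨n, hn⟩ := IsDiscreteValuationRing.associated_pow_irreducible ha hϖ
  obtain ⟨u, hu⟩ := hn.symm
  -- a = ϖ^n * u
  have h1 : C a = C ϖ ^ n * C (u : A) := by rw [← hu, C_mul, C_pow]
  rw [h1] at hmem
  rcases h𝔭.mem_or_mem hmem with h2 | h2
  · exact h (h𝔭.mem_of_pow_mem n h2)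
  · apply h𝔭.ne_top
    apply Ideal.eq_top_of_isUnit_mem _ h2
    exact (Polynomial.isUnit_C).mpr u.isUnit

/-- (E2) a prime of `A[X]` not containing `C ϖ` contains no nonzero integer
(residue characteristic zero), when `A` has characteristic zero. -/
theorem natCast_notMem [CharZero A] {ϖ : A} (hϖ : Irreducible ϖ) (𝔭 : Ideal A[X]) [𝔭.IsPrime]
    (h : C ϖ ∉ 𝔭) (n : ℕ) (hn : n ≠ 0) : (n : A[X]) ∉ 𝔭 := by
  have h1 : (n : A[X]) = C (n : A) := (map_natCast C n).symm
  rw [h1]
  exact C_notMem hϖ 𝔭 h _ (Nat.cast_ne_zero.mpr hn)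

end E2

section E2b

variable {A : Type*} [CommRing A] [IsDomain A]

/-- If a prime `𝔭` of `A[X]` contains no nonzero constant, then no nonzero prime lies strictly
below it (`𝔭` extends to a nonzero prime of the PID `K[X]`). -/
theorem eq_bot_of_lt_of_C_notMem (𝔭 : Ideal A[X]) [h𝔭 : 𝔭.IsPrime]
    (hC : ∀ a : A, a ≠ 0 → C a ∉ 𝔭) (𝔮 : Ideal A[X]) [h𝔮 : 𝔮.IsPrime] (hlt : 𝔮 < 𝔭) : 𝔮 = ⊥ := by
  classical
  let K := FractionRing A
  letI : Algebra A[X] K[X] := Polynomial.algebra A K
  haveI : IsLocalization ((nonZeroDivisors A).map (C : A →+* A[X])) K[X] :=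
    Polynomial.isLocalization (nonZeroDivisors A) K
  set M : Submonoid A[X] := (nonZeroDivisors A).map (C : A →+* A[X]) with hM
  have hdisj𝔭 : Disjoint (M : Set A[X]) (𝔭 : Set A[X]) := by
    rw [Set.disjoint_left]
    rintro x ⟨a, ha, rfl⟩ hx
    exact hC a (nonZeroDivisors.ne_zero ha) hx
  have hdisj𝔮 : Disjoint (M : Set A[X]) (𝔮 : Set A[X]) :=
    hdisj𝔭.mono_right (fun x hx => hlt.le hx)
  have hP : (𝔭.map (algebraMap A[X] K[X])).IsPrime :=
    IsLocalization.isPrime_of_isPrime_disjoint M K[X] 𝔭 h𝔭 hdisj𝔭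
  have hQ : (𝔮.map (algebraMap A[X] K[X])).IsPrime :=
    IsLocalization.isPrime_of_isPrime_disjoint M K[X] 𝔮 h𝔮 hdisj𝔮
  have hc𝔭 : (𝔭.map (algebraMap A[X] K[X])).comap (algebraMap A[X] K[X]) = 𝔭 :=
    IsLocalization.under_map_of_isPrime_disjoint M K[X] h𝔭 hdisj𝔭
  have hc𝔮 : (𝔮.map (algebraMap A[X] K[X])).comap (algebraMap A[X] K[X]) = 𝔮 :=
    IsLocalization.under_map_of_isPrime_disjoint M K[X] h𝔮 hdisj𝔮
  have hle : 𝔮.map (algebraMap A[X] K[X]) ≤ 𝔭.map (algebraMap A[X] K[X]) := Ideal.map_mono hlt.le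
  by_contra hne
  have hQne : 𝔮.map (algebraMap A[X] K[X]) ≠ ⊥ := by
    intro h0
    apply hne
    rw [← hc𝔮, h0]
    rw [eq_bot_iff]
    intro x hx
    rw [Ideal.mem_comap, Ideal.mem_bot] at hx
    rw [Ideal.mem_bot]
    have hinj : Function.Injective (algebraMap A[X] K[X]) :=
      Polynomial.map_injective _ (IsFractionRing.injective A K)
    exact hinj (by rw [hx, map_zero])
  have hQmax : (𝔮.map (algebraMap A[X] K[X])).IsMaximal := hQ.isMaximal hQne
  have heq : 𝔮.map (algebraMap A[X] K[X]) = 𝔭.map (algebraMap A[X] K[X]) :=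
    hQmax.eq_of_le hP.ne_top hle
  have : 𝔮 = 𝔭 := by rw [← hc𝔮, ← hc𝔭, heq]
  exact hlt.ne this

end E2b

section E2c

variable {A : Type*} [CommRing A] [IsDomain A] [IsDiscreteValuationRing A]

/-- (E2) no nonzero prime lies strictly below a prime of `A[X]` not containing `C ϖ`. -/
theorem eq_bot_of_lt {ϖ : A} (hϖ : Irreducible ϖ) (𝔭 : Ideal A[X]) [𝔭.IsPrime]
    (h : C ϖ ∉ 𝔭) (𝔮 : Ideal A[X]) [𝔮.IsPrime] (hlt : 𝔮 < 𝔭) : 𝔮 = ⊥ :=
  eq_bot_of_lt_of_C_notMem 𝔭 (C_notMem hϖ 𝔭 h) 𝔮 hlt

end E2c

section General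

variable {R F : Type*} [CommRing R] [Field F] [Algebra R F]

/-- integrality in terms of monic polynomials over `F` with coefficients in the image. -/
theorem isIntegral_iff_exists_monic (x : F) :
    IsIntegral R x ↔ ∃ P : F[X], P.Monic ∧ (∀ i, P.coeff i ∈ Set.range (algebraMap R F)) ∧
      P.eval x = 0 := by
  constructor
  · rintro ⟨p, hmonic, hp⟩
    refine ⟨p.map (algebraMap R F), hmonic.map _, fun i => ?_, ?_⟩
    · rw [coeff_map]; exact ⟨_, rfl⟩
    · rw [eval_map]; exact hp
  · rintro ⟨P, hmonic, hcoeff, hP⟩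
    have hl : P ∈ lifts (algebraMap R F) := (lifts_iff_coeff_lifts P).mpr hcoeff
    obtain ⟨q, hqmap, -, hqmonic⟩ := lifts_and_natDegree_eq_and_monic hl hmonic
    refine ⟨q, hqmonic, ?_⟩
    rw [← eval_map, hqmap]
    exact hP

end General

section E3

variable {A K F : Type*} [CommRing A] [IsDomain A]
  [Field K] [Field F] [Algebra A K] [IsFractionRing A K] [Algebra K F] [Algebra A F]
  [IsScalarTower A K F]

/-- The `A[X]`-algebra structure on `F` with `X ↦ t`. -/
@[reducible] noncomputable def polyAlgebra (t : F) : Algebra A[X] F :=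
  (Polynomial.aeval t : A[X] →ₐ[A] F).toRingHom.toAlgebra

theorem polyAlgebra_isScalarTower (t : F) :
    letI := polyAlgebra (A := A) t
    IsScalarTower A A[X] F := by
  letI := polyAlgebra (A := A) t
  refine IsScalarTower.of_algebraMap_eq fun a => ?_
  show algebraMap A F a = aeval t (C a)
  rw [aeval_C]

theorem polyAlgebra_algebraMap_X (t : F) :
    letI := polyAlgebra (A := A) t
    algebraMap A[X] F X = t := by
  letI := polyAlgebra (A := A) t
  show aeval t (X : A[X]) = t
  rw [aeval_X]

variable [Algebra A[X] F] [IsScalarTower A A[X] F] {t : F}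

/-- any `A[X]`-algebra structure on `F` compatible with `A → F` and sending `X ↦ t` is `aeval t`. -/
theorem algebraMap_eq_aeval (hX : algebraMap A[X] F X = t) (p : A[X]) :
    algebraMap A[X] F p = aeval t p := by
  have h : (IsScalarTower.toAlgHom A A[X] F) = aeval t := by
    apply Polynomial.algHom_ext
    rw [aeval_X]
    exact hX
  exact congrArg (fun f : A[X] →ₐ[A] F => f p) h

theorem algebraMap_injective (hX : algebraMap A[X] F X = t) (ht : Transcendental K t) :
    Function.Injective (algebraMap A[X] F) := by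
  have h1 : Function.Injective (aeval t : A[X] →ₐ[A] F) :=
    transcendental_iff_injective.mp (transcendental_base ht)
  intro p q hpq
  apply h1
  rw [← algebraMap_eq_aeval hX, ← algebraMap_eq_aeval hX, hpq]

theorem faithfulSMul (hX : algebraMap A[X] F X = t) (ht : Transcendental K t) :
    FaithfulSMul A[X] F :=
  (faithfulSMul_iff_algebraMap_injective _ _).mpr (algebraMap_injective hX ht)

/-- integrality over `A[X]` (acting through `X ↦ t`) is integrality over `A[t]`. -/
theorem isIntegral_iff (hX : algebraMap A[X] F X = t) (x : F) :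
    IsIntegral A[X] x ↔ IsIntegral (Algebra.adjoin A {t}) x := by
  rw [isIntegral_iff_exists_monic, isIntegral_iff_exists_monic]
  have hrange : Set.range (algebraMap A[X] F) =
      Set.range (algebraMap ↥(Algebra.adjoin A {t}) F) := by
    ext y
    constructor
    · rintro ⟨p, rfl⟩
      rw [algebraMap_eq_aeval hX]
      exact ⟨⟨aeval t p, aeval_mem_adjoin t p⟩, rfl⟩
    · rintro ⟨a, rfl⟩
      obtain ⟨p, hp⟩ := Algebra.adjoin_mem_exists_aeval A t a.2
      exact ⟨p, by rw [algebraMap_eq_aeval hX, hp]; rfl⟩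
  rw [hrange]


/-- the map `A[X] → K(t)`. -/
noncomputable def toSimplePoly (hX : algebraMap A[X] F X = t) : A[X] →+* ↥K⟮t⟯ where
  toFun p := ⟨algebraMap A[X] F p, by
    rw [algebraMap_eq_aeval hX]
    exact adjoin_le_simple t _ (aeval_mem_adjoin t p)⟩
  map_one' := Subtype.ext (map_one _)
  map_mul' _ _ := Subtype.ext (map_mul _ _ _)
  map_zero' := Subtype.ext (map_zero _)
  map_add' _ _ := Subtype.ext (map_add _ _ _)

/-- `A[X] → K(t)` as an algebra (local use only). -/
@[reducible] noncomputable def algSimplePoly (hX : algebraMap A[X] F X = t) :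
    Algebra A[X] ↥K⟮t⟯ :=
  (toSimplePoly (K := K) hX).toAlgebra

theorem isScalarTower_simplePoly (hX : algebraMap A[X] F X = t) :
    letI := algSimplePoly (K := K) hX
    IsScalarTower A[X] ↥K⟮t⟯ F := by
  letI := algSimplePoly (K := K) hX
  exact IsScalarTower.of_algebraMap_eq (fun _ => rfl)

attribute [local instance] algSimple in
theorem isFractionRing_simplePoly (hX : algebraMap A[X] F X = t) (ht : Transcendental K t) :
    letI := algSimplePoly (K := K) hX
    IsFractionRing A[X] ↥K⟮t⟯ := by
  letI := algSimplePoly (K := K) hX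
  haveI := isFractionRing_simple (R := A) (K := K) t
  refine IsFractionRing.of_ringEquiv_left
    (Polynomial.algEquivOfTranscendental A t (transcendental_base ht)).toRingEquiv ?_
  intro p
  apply Subtype.ext
  show algebraMap A[X] F p = _
  rw [algebraMap_eq_aeval hX]
  show aeval t p = ((Polynomial.algEquivOfTranscendental A t (transcendental_base ht) p :
    ↥(Algebra.adjoin A {t})) : F)
  rw [Polynomial.algEquivOfTranscendental_apply, Polynomial.aeval_subalgebra_coe]


section Fin

variable [IsNoetherianRing A] [IsIntegrallyClosed A] [CharZero K]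

/-- (E3) the integral closure of `A[X]` in `F` is a finite `A[X]`-module. -/
theorem finite_integralClosure (hX : algebraMap A[X] F X = t) (ht : Transcendental K t)
    [FiniteDimensional K⟮t⟯ F] : Module.Finite A[X] ↥(integralClosure A[X] F) := by
  letI := algSimplePoly (K := K) hX
  have := isScalarTower_simplePoly (K := K) hX
  have := isFractionRing_simplePoly (K := K) hX ht
  have : CharZero ↥K⟮t⟯ := charZero_of_injective_algebraMap (algebraMap K ↥K⟮t⟯).injective
  exact IsIntegralClosure.finite A[X] ↥K⟮t⟯ F (integralClosure A[X] F)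

/-- (E3) the integral closure of `A[X]` in `F` is noetherian. -/
theorem isNoetherianRing_integralClosure (hX : algebraMap A[X] F X = t)
    (ht : Transcendental K t) [FiniteDimensional K⟮t⟯ F] :
    IsNoetherianRing ↥(integralClosure A[X] F) := by
  letI := algSimplePoly (K := K) hX
  have := isScalarTower_simplePoly (K := K) hX
  have := isFractionRing_simplePoly (K := K) hX ht
  have : CharZero ↥K⟮t⟯ := charZero_of_injective_algebraMap (algebraMap K ↥K⟮t⟯).injective
  exact IsIntegralClosure.isNoetherianRing A[X] ↥K⟮t⟯ F (integralClosure A[X] F)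

end Fin

/-- (E3) the integral closure of `A[X]` in `F` is integrally closed. -/
theorem isIntegrallyClosed_integralClosure (hX : algebraMap A[X] F X = t)
    (ht : Transcendental K t) [FiniteDimensional K⟮t⟯ F] :
    IsIntegrallyClosed ↥(integralClosure A[X] F) := by
  letI := algSimplePoly (K := K) hX
  have := isScalarTower_simplePoly (K := K) hX
  have := isFractionRing_simplePoly (K := K) hX ht
  exact integralClosure.isIntegrallyClosedOfFiniteExtension ↥K⟮t⟯

/-- (E3) `F` is the fraction field of the integral closure of `A[X]` in `F`. -/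
theorem isFractionRing_integralClosure (hX : algebraMap A[X] F X = t)
    (ht : Transcendental K t) [FiniteDimensional K⟮t⟯ F] :
    IsFractionRing ↥(integralClosure A[X] F) F := by
  letI := algSimplePoly (K := K) hX
  have := isScalarTower_simplePoly (K := K) hX
  have := isFractionRing_simplePoly (K := K) hX ht
  exact integralClosure.isFractionRing_of_finite_extension ↥K⟮t⟯ F

/-- (E3) `A[X]` acts faithfully on the integral closure. -/
theorem faithfulSMul_integralClosure (hX : algebraMap A[X] F X = t) (ht : Transcendental K t) :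
    FaithfulSMul A[X] ↥(integralClosure A[X] F) := by
  rw [faithfulSMul_iff_algebraMap_injective]
  intro p q hpq
  apply algebraMap_injective hX ht
  exact congrArg (fun z : ↥(integralClosure A[X] F) => (z : F)) hpq

/-- bridge to the contract charts: same carrier. -/
theorem mem_integralClosure_iff_mem_chart (hX : algebraMap A[X] F X = t) (x : F) :
    x ∈ integralClosure A[X] F ↔ x ∈ chart A t :=
  isIntegral_iff hX x

/-- bridge to the contract charts: the identity as a ring isomorphism. -/
noncomputable def chartEquiv (hX : algebraMap A[X] F X = t) :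
    ↥(integralClosure A[X] F) ≃+* ↥(chart A t) where
  toFun b := ⟨b.1, (mem_integralClosure_iff_mem_chart hX b.1).mp b.2⟩
  invFun b := ⟨b.1, (mem_integralClosure_iff_mem_chart hX b.1).mpr b.2⟩
  left_inv _ := rfl
  right_inv _ := rfl
  map_mul' _ _ := rfl
  map_add' _ _ := rfl

@[simp] theorem coe_chartEquiv (hX : algebraMap A[X] F X = t) (b : ↥(integralClosure A[X] F)) :
    ((chartEquiv hX b : ↥(chart A t)) : F) = (b : F) := rfl

@[simp] theorem coe_chartEquiv_symm (hX : algebraMap A[X] F X = t) (b : ↥(chart A t)) :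
    (((chartEquiv hX).symm b : ↥(integralClosure A[X] F)) : F) = (b : F) := rfl

theorem chartEquiv_algebraMap (hX : algebraMap A[X] F X = t) (a : A) :
    chartEquiv hX (algebraMap A[X] ↥(integralClosure A[X] F) (C a)) =
      algebraMap A ↥(chart A t) a := by
  apply Subtype.ext
  show algebraMap A[X] F (C a) = algebraMap A F a
  rw [algebraMap_eq_aeval hX, aeval_C]

end E3

section Transport

open Fermat.Agent.RED.PUR.Interface26

variable {A K F : Type*} [CommRing A] [IsDomain A]
  [Field K] [Field F] [Algebra A K] [IsFractionRing A K] [Algebra K F] [Algebra A F]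
  [IsScalarTower A K F] [Algebra A[X] F] [IsScalarTower A A[X] F] {t : F}

/-- **Transport to the contract.**  `LocPrin` at every maximal ideal `∋ C π` of
`integralClosure A[X] F` gives the contract field `smooth0` of `TwoChartModel` for `chart A t`. -/
theorem smooth_of_locPrin (hX : algebraMap A[X] F X = t) (π : A)
    (h : ∀ x : Ideal ↥(integralClosure A[X] F), x.IsMaximal →
      algebraMap A[X] ↥(integralClosure A[X] F) (C π) ∈ x →
      LocPrin (algebraMap A[X] ↥(integralClosure A[X] F) (C π)) x) :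
    ∀ x : Ideal ↥(chart A t), x.IsMaximal → algebraMap A ↥(chart A t) π ∈ x →
      ∃ s ∈ x, ∀ y ∈ x, ∃ d : ↥(chart A t), d ∉ x ∧
        d * y ∈ Ideal.span {algebraMap A ↥(chart A t) π, s} := by
  intro x hx hπx
  set e := chartEquiv (A := A) hX with he
  have hemax : (x.comap (e : ↥(integralClosure A[X] F) →+* ↥(chart A t))).IsMaximal :=
    Ideal.comap_isMaximal_of_surjective _ e.surjective
  have hπ' : algebraMap A[X] ↥(integralClosure A[X] F) (C π) ∈
      x.comap (e : ↥(integralClosure A[X] F) →+* ↥(chart A t)) := by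
    rw [Ideal.mem_comap]
    show e _ ∈ x
    rw [he, chartEquiv_algebraMap]
    exact hπx
  obtain ⟨τ, hτ, hloc⟩ := h _ hemax hπ'
  refine ⟨e τ, hτ, ?_⟩
  intro y hy
  have hy' : e.symm y ∈ x.comap (e : ↥(integralClosure A[X] F) →+* ↥(chart A t)) := by
    rw [Ideal.mem_comap]
    show e (e.symm y) ∈ x
    rw [e.apply_symm_apply]; exact hy
  obtain ⟨s, hs, hsy⟩ := hloc _ hy'
  refine ⟨e s, hs, ?_⟩
  have h1 : e (s * e.symm y) ∈ Ideal.map (e : ↥(integralClosure A[X] F) →+* ↥(chart A t))
      (Ideal.span {algebraMap A[X] ↥(integralClosure A[X] F) (C π), τ}) :=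
    Ideal.mem_map_of_mem _ hsy
  rw [Ideal.map_span, Set.image_pair] at h1
  rw [map_mul, e.apply_symm_apply] at h1
  have h2 : (e : ↥(integralClosure A[X] F) →+* ↥(chart A t))
      (algebraMap A[X] ↥(integralClosure A[X] F) (C π)) = algebraMap A ↥(chart A t) π := by
    show e _ = _
    rw [he, chartEquiv_algebraMap]
  rw [h2] at h1
  exact h1

end Transport

end Fermat.Agent.RED.PUR.IntClosBase13
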