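/-
Program H (S18), chapter RED/PUR — helper26.  **Purity by hand: the commutative-algebra core**
(Mathlib only).

* `colon_principal`   : `B` noetherian integrally closed domain, `π ≠ 0`, `b₁ ∉ πB`,
  `𝔮 = (πB : b₁)`  ⟹  `∃ x ∈ 𝔮, ∃ u ∉ 𝔮, ∀ y ∈ 𝔮, x ∣ u * y`  (`𝔮 B_𝔮` is principal);
* `eq_bot_of_lt_colon`: hence no nonzero prime lies strictly below the prime `𝔮`;
* `dvd_of_dvd_mul`    : `R ⊆ B` integral, both integrally closed domains, `B` noetherian,
  `πR` a nonzero prime, `s ∉ πR`  ⟹  `π ∣ s * b → π ∣ b` in `B`  (going down);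
* `free_of_finite`    : `R` noetherian integrally closed local domain, `πR` a nonzero prime inside
  the maximal ideal, `R / πR` a PID, `B` an integrally closed domain finite over `R`
  ⟹  `Module.Free R B`.
-/
import Mathlib

set_option autoImplicit false
set_option linter.style.haveILetI false
set_option linter.unusedSectionVars false

namespace Fermat.Agent.RED.PUR.PurityCore26

open Ideal

section Colon

variable {B : Type*} [CommRing B] [IsDomain B] [IsNoetherianRing B] [IsIntegrallyClosed B]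

/-- **Colon trick.** `B` a noetherian integrally closed domain, `π ≠ 0`, `b₁ ∉ πB` and
`𝔮 = (πB : b₁)`.  Then `𝔮` is "locally principal at `𝔮`": there are `x ∈ 𝔮` and `u ∉ 𝔮` with
`u * y ∈ x B` for all `y ∈ 𝔮`. -/
theorem colon_principal (π b₁ : B) (hπ : π ≠ 0) (hb₁ : ¬ π ∣ b₁) (𝔮 : Ideal B)
    (h𝔮 : ∀ x, x ∈ 𝔮 ↔ π ∣ x * b₁) :
    ∃ x ∈ 𝔮, ∃ u, u ∉ 𝔮 ∧ ∀ y ∈ 𝔮, x ∣ u * y := by
  classical
  by_contra hcon
  push Not at hcon
  -- every "quotient" `x * b₁ / π`, `x ∈ 𝔮`, lies in `𝔮` again
  have key : ∀ x ∈ 𝔮, ∀ c, x * b₁ = π * c → c ∈ 𝔮 := by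
    intro x hx c hc
    by_contra hcq
    obtain ⟨y, hy, hnd⟩ := hcon x hx c hcq
    apply hnd
    obtain ⟨c', hc'⟩ := (h𝔮 y).mp hy
    refine ⟨c', ?_⟩
    apply mul_left_cancel₀ hπ
    calc π * (c * y) = (π * c) * y := by ring
      _ = x * b₁ * y := by rw [hc]
      _ = x * (y * b₁) := by ring
      _ = x * (π * c') := by rw [hc']
      _ = π * (x * c') := by ring
  have hπ𝔮 : π ∈ 𝔮 := (h𝔮 π).mpr (Dvd.intro b₁ rfl)
  -- `w = b₁ / π` is integral over `B`
  let K := FractionRing B
  have hinj : Function.Injective (algebraMap B K) := IsFractionRing.injective B K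
  have hπK : algebraMap B K π ≠ 0 := fun h => hπ (hinj (by rw [h, map_zero]))
  set w : K := algebraMap B K b₁ / algebraMap B K π with hw
  have hint : IsIntegral B w := by
    refine isIntegral_of_smul_mem_submodule (M := K)
      (Submodule.map (Algebra.linearMap B K) 𝔮) ?_ ?_ w ?_
    · intro hbot
      have : algebraMap B K π ∈ Submodule.map (Algebra.linearMap B K) 𝔮 :=
        ⟨π, hπ𝔮, rfl⟩
      rw [hbot, Submodule.mem_bot] at this
      exact hπK this
    · exact Submodule.FG.map _ (IsNoetherian.noetherian 𝔮)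
    · rintro n ⟨x, hx, rfl⟩
      obtain ⟨c, hc⟩ := (h𝔮 x).mp hx
      refine ⟨c, key x hx c hc, ?_⟩
      show algebraMap B K c = w • algebraMap B K x
      rw [hw, smul_eq_mul, div_mul_eq_mul_div, eq_div_iff hπK, ← map_mul, ← map_mul]
      congr 1
      rw [mul_comm c π, ← hc, mul_comm]
  obtain ⟨y, hy⟩ := IsIntegrallyClosed.isIntegral_iff.mp hint
  apply hb₁
  refine ⟨y, ?_⟩
  apply hinj
  rw [map_mul, hy, hw, mul_div_cancel₀ _ hπK]

/-- Consequence: there is no nonzero prime strictly below the prime `𝔮 = (πB : b₁)`. -/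
theorem eq_bot_of_lt_colon (π b₁ : B) (hπ : π ≠ 0) (hb₁ : ¬ π ∣ b₁) (𝔮 : Ideal B) [h𝔮p : 𝔮.IsPrime]
    (h𝔮 : ∀ x, x ∈ 𝔮 ↔ π ∣ x * b₁) (𝔭 : Ideal B) [𝔭.IsPrime] (h𝔭 : 𝔭 < 𝔮) : 𝔭 = ⊥ := by
  obtain ⟨x, hx, u, hu, hxu⟩ := colon_principal π b₁ hπ hb₁ 𝔮 h𝔮
  have hu𝔭 : u ∉ 𝔭 := fun h => hu (h𝔭.le h)
  have hx𝔭 : x ∉ 𝔭 := by
    intro hx𝔭
    apply h𝔭.not_ge
    intro y hy
    obtain ⟨c, hc⟩ := hxu y hy
    have : u * y ∈ 𝔭 := by rw [hc]; exact 𝔭.mul_mem_right _ hx𝔭
    exact (Ideal.IsPrime.mem_or_mem inferInstance this).resolve_left hu𝔭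
  rw [eq_bot_iff]
  intro y hy
  rw [Ideal.mem_bot]
  -- `u ^ n * y ∈ x ^ n * 𝔭` for all `n`
  have hpow : ∀ n : ℕ, ∃ c ∈ 𝔭, u ^ n * y = x ^ n * c := by
    intro n
    induction n with
    | zero => exact ⟨y, hy, by simp⟩
    | succ n ih =>
      obtain ⟨c, hc, hcn⟩ := ih
      obtain ⟨c', hc'⟩ := hxu c (h𝔭.le hc)
      have hc'𝔭 : c' ∈ 𝔭 := by
        have : x * c' ∈ 𝔭 := by rw [← hc']; exact 𝔭.mul_mem_left _ hc
        exact (Ideal.IsPrime.mem_or_mem inferInstance this).resolve_left hx𝔭
      refine ⟨c', hc'𝔭, ?_⟩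
      calc u ^ (n + 1) * y = u * (u ^ n * y) := by ring
        _ = u * (x ^ n * c) := by rw [hcn]
        _ = x ^ n * (u * c) := by ring
        _ = x ^ n * (x * c') := by rw [hc']
        _ = x ^ (n + 1) * c' := by ring
  -- Krull intersection in the localisation at `𝔮`
  let L := Localization.AtPrime 𝔮
  have hinjL : Function.Injective (algebraMap B L) :=
    IsLocalization.injective L (Ideal.primeCompl_le_nonZeroDivisors 𝔮)
  haveI : IsDomain L := IsLocalization.isDomain_localization (Ideal.primeCompl_le_nonZeroDivisors 𝔮)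
  haveI : IsNoetherianRing L := IsLocalization.isNoetherianRing 𝔮.primeCompl L inferInstance
  have hxL : Ideal.span {algebraMap B L x} ≠ ⊤ := by
    intro htop
    rw [Ideal.span_singleton_eq_top] at htop
    have := (IsLocalization.AtPrime.isUnit_to_map_iff L 𝔮 x).mp htop
    exact this hx
  have hK := Ideal.iInf_pow_eq_bot_of_isDomain (Ideal.span {algebraMap B L x}) hxL
  have hy0 : algebraMap B L y = 0 := by
    rw [← Ideal.mem_bot, ← hK, Ideal.mem_iInf]
    intro n
    obtain ⟨c, -, hcn⟩ := hpow n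
    have huL : IsUnit (algebraMap B L u) :=
      (IsLocalization.AtPrime.isUnit_to_map_iff L 𝔮 u).mpr hu
    rw [Ideal.span_singleton_pow, Ideal.mem_span_singleton]
    obtain ⟨v, hv⟩ := huL
    refine ⟨algebraMap B L c * (↑(v⁻¹) : L) ^ n, ?_⟩
    have h1 : algebraMap B L u ^ n * algebraMap B L y =
        algebraMap B L x ^ n * algebraMap B L c := by
      rw [← map_pow, ← map_pow, ← map_mul, ← map_mul, hcn]
    calc algebraMap B L y
        = (↑(v⁻¹) : L) ^ n * (algebraMap B L u ^ n * algebraMap B L y) := by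
          rw [← mul_assoc, ← mul_pow, ← hv, Units.inv_mul, one_pow, one_mul]
      _ = algebraMap B L x ^ n * (algebraMap B L c * (↑(v⁻¹) : L) ^ n) := by
          rw [h1]; ring
  exact hinjL (by rw [hy0, map_zero])

end Colon

section TorsionFree

variable {R B : Type*} [CommRing R] [IsDomain R] [IsIntegrallyClosed R]
  [CommRing B] [IsDomain B] [Algebra R B] [FaithfulSMul R B] [Algebra.IsIntegral R B]
  [IsNoetherianRing B] [IsIntegrallyClosed B]

/-- **Purity by hand, step 1.**  `R ⊆ B` integral, both integrally closed domains, `B`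
noetherian, `πR` a nonzero prime of `R`, `s ∉ πR`.  Then `s` is a nonzerodivisor on `B / πB`:
`π ∣ s * b` in `B` implies `π ∣ b`. -/
theorem dvd_of_dvd_mul (π s : R) (hπ : π ≠ 0) (hprime : (Ideal.span {π}).IsPrime)
    (hs : ¬ π ∣ s) (b : B) (h : algebraMap R B π ∣ algebraMap R B s * b) :
    algebraMap R B π ∣ b := by
  classical
  by_contra hb
  set π' : B := algebraMap R B π with hπ'
  have hinj : Function.Injective (algebraMap R B) := FaithfulSMul.algebraMap_injective R B
  have hπ'0 : π' ≠ 0 := fun h0 => hπ (hinj (by rw [← hπ', h0, map_zero]))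
  -- an associated prime of `B / π'B` containing the annihilator of `b`
  let M := B ⧸ Ideal.span {π'}
  have hmk : ∀ c : B, (Ideal.Quotient.mk (Ideal.span {π'}) c : M) = 0 ↔ π' ∣ c := by
    intro c
    rw [Ideal.Quotient.eq_zero_iff_mem, Ideal.mem_span_singleton]
  have hx : (Ideal.Quotient.mk (Ideal.span {π'}) b : M) ≠ 0 := fun h0 => hb ((hmk b).mp h0)
  obtain ⟨P, hP, hle⟩ := exists_le_isAssociatedPrime_of_isNoetherianRing B
    (Ideal.Quotient.mk (Ideal.span {π'}) b : M) hx
  rw [isAssociatedPrime_iff] at hP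
  obtain ⟨hPprime, y, hPy⟩ := hP
  obtain ⟨b₁, rfl⟩ := Ideal.Quotient.mk_surjective y
  have hmemP : ∀ c, c ∈ P ↔ π' ∣ c * b₁ := by
    intro c
    rw [hPy, Submodule.mem_colon_singleton, Submodule.mem_bot]
    show c • (Ideal.Quotient.mk (Ideal.span {π'}) b₁ : M) = 0 ↔ _
    rw [← hmk (c * b₁)]
    rfl
  have hb₁ : ¬ π' ∣ b₁ := by
    intro hdvd
    apply hPprime.ne_top
    rw [Ideal.eq_top_iff_one, hmemP, one_mul]
    exact hdvd
  have hsP : algebraMap R B s ∈ P := by
    apply hle
    rw [Submodule.mem_colon_singleton, Submodule.mem_bot]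
    show (algebraMap R B s) • (Ideal.Quotient.mk (Ideal.span {π'}) b : M) = 0
    have : (algebraMap R B s) • (Ideal.Quotient.mk (Ideal.span {π'}) b : M) =
        Ideal.Quotient.mk (Ideal.span {π'}) (algebraMap R B s * b) := rfl
    rw [this, hmk]
    exact h
  have hπP : π' ∈ P := (hmemP π').mpr (Dvd.intro b₁ rfl)
  -- going down from `P ∩ R ⊋ πR`
  haveI := hPprime
  haveI := hprime
  have hlt : Ideal.span {π} < P.under R := by
    refine lt_of_le_of_ne ?_ ?_
    · rw [Ideal.span_singleton_le_iff_mem, Ideal.under_def, Ideal.mem_comap]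
      exact hπP
    · intro heq
      have : s ∈ Ideal.span {π} := by
        rw [heq, Ideal.under_def, Ideal.mem_comap]
        exact hsP
      exact hs (Ideal.mem_span_singleton.mp this)
  obtain ⟨P', hP'le, hP'prime, hP'over⟩ :=
    Algebra.HasGoingDown.exists_ideal_le_liesOver_of_lt (R := R) (S := B) P hlt
  haveI := hP'prime
  have hP'ne : P' ≠ P := by
    intro heq
    have h1 : P'.under R = Ideal.span {π} := (hP'over.over).symm
    rw [heq] at h1
    exact hlt.ne' h1
  have hP'lt : P' < P := lt_of_le_of_ne hP'le hP'ne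
  have hbot := eq_bot_of_lt_colon π' b₁ hπ'0 hb₁ P hmemP P' hP'lt
  -- but `π' ∈ P'`
  have hπP' : π' ∈ P' := by
    have : π ∈ P'.under R := by
      rw [← hP'over.over]
      exact Ideal.mem_span_singleton_self π
    rwa [Ideal.under_def, Ideal.mem_comap] at this
  rw [hbot, Ideal.mem_bot] at hπP'
  exact hπ'0 hπP'

end TorsionFree

section Free

variable {R B : Type*} [CommRing R] [IsDomain R] [IsIntegrallyClosed R] [IsLocalRing R]
  [IsNoetherianRing R]
  [CommRing B] [IsDomain B] [Algebra R B] [FaithfulSMul R B] [Module.Finite R B]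
  [IsIntegrallyClosed B]

theorem mem_span_smul_top_iff (π : R) (b : B) :
    b ∈ (Ideal.span {π} • (⊤ : Submodule R B)) ↔ algebraMap R B π ∣ b := by
  rw [Submodule.ideal_span_singleton_smul, Submodule.mem_smul_pointwise_iff_exists]
  constructor
  · rintro ⟨c, -, rfl⟩
    exact ⟨c, by rw [Algebra.smul_def]⟩
  · rintro ⟨c, rfl⟩
    exact ⟨c, Submodule.mem_top, by rw [Algebra.smul_def]⟩

/-- **Purity by hand, step 2 (freeness).** `R` a noetherian integrally closed local domain,
`πR` a nonzero prime in the maximal ideal with `R / πR` a PID (so `R` is regular of dimension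
`≤ 2`), `B` an integrally closed domain, finite over `R`.  Then `B` is a free `R`-module. -/
theorem free_of_finite (π : R) (hπ : π ≠ 0) (hprime : (Ideal.span {π}).IsPrime)
    (hπm : π ∈ IsLocalRing.maximalIdeal R)
    [IsPrincipalIdealRing (R ⧸ Ideal.span {π})] : Module.Free R B := by
  classical
  haveI : Algebra.IsIntegral R B := Algebra.IsIntegral.of_finite R B
  haveI : IsNoetherianRing B := IsNoetherianRing.of_finite R B
  haveI := hprime
  set I : Ideal R := Ideal.span {π} with hI
  let Rb := R ⧸ I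
  let Mb := B ⧸ (I • (⊤ : Submodule R B))
  haveI : IsDomain Rb := Ideal.Quotient.isDomain I
  have hinj : Function.Injective (algebraMap R B) := FaithfulSMul.algebraMap_injective R B
  -- torsion-freeness of `B / πB` over `R / π`
  haveI : Module.IsTorsionFree Rb Mb := by
    apply Module.IsTorsionFree.of_smul_eq_zero
    intro r m hrm
    obtain ⟨r, rfl⟩ := Ideal.Quotient.mk_surjective r
    obtain ⟨b, rfl⟩ := Submodule.Quotient.mk_surjective _ m
    by_cases hr : r ∈ I
    · left
      exact Ideal.Quotient.eq_zero_iff_mem.mpr hr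
    · right
      rw [Module.Quotient.mk_smul_mk, Submodule.Quotient.mk_eq_zero, mem_span_smul_top_iff,
        Algebra.smul_def] at hrm
      rw [Submodule.Quotient.mk_eq_zero, mem_span_smul_top_iff]
      exact dvd_of_dvd_mul π r hπ hprime (fun h => hr (Ideal.mem_span_singleton.mpr h)) b hrm
  haveI : Module.Finite Rb Mb := Module.Finite.of_restrictScalars_finite R Rb Mb
  haveI : Module.Free Rb Mb := Module.free_of_finite_type_torsion_free'
  let ι := Module.Free.ChooseBasisIndex Rb Mb
  let e : Module.Basis ι Rb Mb := Module.Free.chooseBasis Rb Mb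
  have hβ : ∀ i : ι, ∃ b : B, Submodule.Quotient.mk b = e i := fun i =>
    Submodule.Quotient.mk_surjective _ (e i)
  choose β hβ using hβ
  -- the lifts span `B` (Nakayama)
  have hspan : (⊤ : Submodule R B) ≤ Submodule.span R (Set.range β) := by
    refine Submodule.le_of_le_smul_of_le_jacobson_bot (I := I) (Module.Finite.fg_top) ?_ ?_
    · show I ≤ _
      rw [IsLocalRing.jacobson_eq_maximalIdeal ⊥ bot_ne_top, hI,
        Ideal.span_singleton_le_iff_mem]
      exact hπm
    · intro b _
      have h1 := e.sum_repr (Submodule.Quotient.mk b : Mb)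
      have hc : ∀ i : ι, ∃ r : R, Ideal.Quotient.mk I r = e.repr (Submodule.Quotient.mk b) i :=
        fun i => Ideal.Quotient.mk_surjective _
      choose c hc using hc
      have h2 : (Submodule.Quotient.mk (∑ i, c i • β i) : Mb) = Submodule.Quotient.mk b := by
        rw [← h1, ← Submodule.mkQ_apply, map_sum]
        refine Finset.sum_congr rfl fun i _ => ?_
        rw [Submodule.mkQ_apply]
        rw [← hc i, ← hβ i, Module.Quotient.mk_smul_mk]
      have h3 : b - ∑ i, c i • β i ∈ (I • (⊤ : Submodule R B)) := by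
        rw [← Submodule.Quotient.mk_eq_zero, Submodule.Quotient.mk_sub, h2, sub_self]
      have h4 : b = ∑ i, c i • β i + (b - ∑ i, c i • β i) := by ring
      rw [h4]
      refine Submodule.add_mem_sup ?_ h3
      exact Submodule.sum_mem _ fun i _ =>
        Submodule.smul_mem _ _ (Submodule.subset_span ⟨i, rfl⟩)
  -- independence
  have hdiv : ∀ n : ℕ, ∀ r : ι → R, ∑ i, r i • β i = 0 → ∀ i, π ^ n ∣ r i := by
    intro n
    induction n with
    | zero => intro r _ i; simp
    | succ n ih =>
      intro r hr i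
      -- reduce mod π
      have h1 : ∑ j, Ideal.Quotient.mk I (r j) • e j = 0 := by
        have := congrArg (Submodule.mkQ (I • (⊤ : Submodule R B))) hr
        rw [map_sum, map_zero] at this
        rw [← this]
        refine Finset.sum_congr rfl fun j _ => ?_
        rw [Submodule.mkQ_apply]
        rw [← hβ j, Module.Quotient.mk_smul_mk]
      have h2 : ∀ j, Ideal.Quotient.mk I (r j) = 0 := by
        have := Fintype.linearIndependent_iff.mp e.linearIndependent _ h1
        exact this
      have h3 : ∀ j, ∃ r' : R, r j = π * r' := fun j =>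
        Ideal.mem_span_singleton.mp (Ideal.Quotient.eq_zero_iff_mem.mp (h2 j))
      choose r' hr' using h3
      have h4 : ∑ j, r' j • β j = 0 := by
        have h5 : algebraMap R B π * ∑ j, r' j • β j = 0 := by
          rw [Finset.mul_sum, ← hr]
          refine Finset.sum_congr rfl fun j _ => ?_
          rw [hr' j, Algebra.smul_def, Algebra.smul_def, map_mul, mul_assoc]
        rcases mul_eq_zero.mp h5 with h6 | h6
        · exact absurd (hinj (by rw [h6, map_zero])) hπ
        · exact h6
      obtain ⟨d, hd⟩ := ih r' h4 i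
      exact ⟨d, by rw [hr' i, hd, pow_succ]; ring⟩
  have hli : LinearIndependent R β := by
    rw [Fintype.linearIndependent_iff]
    intro r hr i
    have hItop : I ≠ ⊤ := hprime.ne_top
    have hK := Ideal.iInf_pow_eq_bot_of_isLocalRing I hItop
    rw [← Ideal.mem_bot, ← hK, Ideal.mem_iInf]
    intro n
    rw [hI, Ideal.span_singleton_pow, Ideal.mem_span_singleton]
    exact hdiv n r hr i
  exact Module.Free.of_basis (Module.Basis.mk hli hspan)

end Free

end Fermat.Agent.RED.PUR.PurityCore26
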