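/-
Program H (S18), chapter RED/PUR — helper26.  **Localisation plumbing for purity by hand.**

`R0` a noetherian integrally closed domain, `π ∈ R0` a prime element with `R0 / π` a PID
(e.g. `R0 = A[X]`, `A` a DVR with uniformiser `π`), `B` an integrally closed domain finite over
`R0`, `P` a prime of `R0` containing `π`.  With `R := R0_P` (`RP P`) and
`S := B_P = B ⊗ R` (`SP B P`):

* `isPrincipalIdealRing_quotient` : `R / π` is a PID (for any localisation `R` of `R0`);
* instances: `S` integrally closed, `R → S` injective;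
* `pi_ne_zero`, `pi_mem_maximalIdeal`, `span_pi_isPrime`, `prime_pi` : `π` is a nonzero prime
  element of `R` lying in `𝔪_R`;
* `free_localization` : `S` is a free `R`-module (via `PurityCore26.free_of_finite`);
* `uniqueFactorizationMonoid_RP` : `R` is a UFD (via `LocalPrincipal14`);
* `exists_maximalIdeal_eq` : `𝔪_R = (π, f)` for some `f ∈ P`.
-/
import Mathlib
import Fermat.Agent.RED.PUR.PurityCore26
import Fermat.Agent.RED.CORE.LocalPrincipal14

set_option autoImplicit false
set_option linter.style.haveILetI false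
set_option linter.unusedSectionVars false

namespace Fermat.Agent.RED.PUR.LocalFree26

open IsLocalRing

/-- A localisation of a ring `R0` with `R0 / π` a PID has again `R / π` a PID. -/
theorem isPrincipalIdealRing_quotient {R0 : Type*} [CommRing R0] (M : Submonoid R0) (R : Type*)
    [CommRing R] [Algebra R0 R] [IsLocalization M R]
    (π : R0) [IsPrincipalIdealRing (R0 ⧸ Ideal.span {π})] :
    IsPrincipalIdealRing (R ⧸ Ideal.span {algebraMap R0 R π}) := by
  refine ⟨fun J => ?_⟩
  have hπ'0 : Ideal.Quotient.mk (Ideal.span {algebraMap R0 R π}) (algebraMap R0 R π) = 0 :=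
    Ideal.Quotient.eq_zero_iff_mem.mpr (Ideal.mem_span_singleton_self _)
  -- the contraction of `J` to `R0`
  let φ : R0 →+* R ⧸ Ideal.span {algebraMap R0 R π} :=
    (Ideal.Quotient.mk (Ideal.span {algebraMap R0 R π})).comp (algebraMap R0 R)
  have hφπ : φ π = 0 := hπ'0
  obtain ⟨gb, hgb⟩ :=
    (IsPrincipalIdealRing.principal ((J.comap φ).map (Ideal.Quotient.mk (Ideal.span {π})))).principal
  obtain ⟨g, rfl⟩ := Ideal.Quotient.mk_surjective gb
  -- membership in `J.comap φ` modulo `π`
  have key : ∀ a : R0, a ∈ J.comap φ ↔ ∃ c d : R0, a = c * g + d * π := by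
    intro a
    constructor
    · intro ha
      have h1 : Ideal.Quotient.mk (Ideal.span {π}) a ∈
          (J.comap φ).map (Ideal.Quotient.mk (Ideal.span {π})) := Ideal.mem_map_of_mem _ ha
      rw [hgb] at h1
      obtain ⟨cb, hcb⟩ := Submodule.mem_span_singleton.mp h1
      obtain ⟨c, rfl⟩ := Ideal.Quotient.mk_surjective cb
      have h2 : a - c * g ∈ Ideal.span {π} := by
        rw [← Ideal.Quotient.eq_zero_iff_mem, map_sub, map_mul, ← hcb, smul_eq_mul, sub_self]
      obtain ⟨d, hd⟩ := Ideal.mem_span_singleton'.mp h2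
      exact ⟨c, d, by rw [hd]; ring⟩
    · rintro ⟨c, d, rfl⟩
      have hg : g ∈ J.comap φ := by
        have h1 : Ideal.Quotient.mk (Ideal.span {π}) g ∈
            (J.comap φ).map (Ideal.Quotient.mk (Ideal.span {π})) := by
          rw [hgb]; exact Submodule.mem_span_singleton_self _
        obtain ⟨a, ha, hag⟩ :=
          (Ideal.mem_map_iff_of_surjective _ Ideal.Quotient.mk_surjective).mp h1
        have h2 : g - a ∈ Ideal.span {π} := by
          rw [← Ideal.Quotient.eq_zero_iff_mem, map_sub, hag, sub_self]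
        obtain ⟨e, he⟩ := Ideal.mem_span_singleton'.mp h2
        have : g = a + e * π := by rw [he]; ring
        rw [this]
        refine (J.comap φ).add_mem ha ((J.comap φ).mul_mem_left e ?_)
        rw [Ideal.mem_comap, hφπ]; exact J.zero_mem
      refine (J.comap φ).add_mem ((J.comap φ).mul_mem_left c hg) ((J.comap φ).mul_mem_left d ?_)
      rw [Ideal.mem_comap, hφπ]; exact J.zero_mem
  refine ⟨⟨φ g, ?_⟩⟩
  apply le_antisymm
  · intro y hy
    obtain ⟨y1, rfl⟩ := Ideal.Quotient.mk_surjective y
    obtain ⟨a, m, rfl⟩ := IsLocalization.exists_mk'_eq M y1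
    have ha : a ∈ J.comap φ := by
      rw [Ideal.mem_comap]
      have : φ a = Ideal.Quotient.mk _ (IsLocalization.mk' R a m) * φ m := by
        change Ideal.Quotient.mk _ (algebraMap R0 R a) = _ * Ideal.Quotient.mk _ (algebraMap R0 R m)
        rw [← map_mul, IsLocalization.mk'_spec]
      rw [this]
      exact J.mul_mem_right _ hy
    obtain ⟨c, d, hcd⟩ := (key a).mp ha
    rw [Submodule.mem_span_singleton]
    refine ⟨Ideal.Quotient.mk _ (IsLocalization.mk' R c m), ?_⟩
    rw [smul_eq_mul]
    change _ * Ideal.Quotient.mk _ (algebraMap R0 R g) = _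
    rw [← map_mul, ← sub_eq_zero, ← map_sub, Ideal.Quotient.eq_zero_iff_mem,
      Ideal.mem_span_singleton']
    refine ⟨- IsLocalization.mk' R d m, ?_⟩
    rw [hcd]
    have hu : IsUnit (algebraMap R0 R m) := IsLocalization.map_units R m
    apply hu.mul_right_cancel
    have h1 := IsLocalization.mk'_spec R (c * g + d * π) m
    have h2 := IsLocalization.mk'_spec R c m
    have h3 := IsLocalization.mk'_spec R d m
    rw [map_add, map_mul, map_mul] at h1
    calc -IsLocalization.mk' R d m * algebraMap R0 R π * algebraMap R0 R m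
        = -(IsLocalization.mk' R d m * algebraMap R0 R m) * algebraMap R0 R π := by ring
      _ = (IsLocalization.mk' R c m * algebraMap R0 R m) * algebraMap R0 R g -
          IsLocalization.mk' R (c * g + d * π) m * algebraMap R0 R m := by rw [h1, h2, h3]; ring
      _ = _ := by ring
  · rw [Submodule.span_singleton_le_iff_mem]
    exact (key g).mpr ⟨1, 0, by ring⟩


section Loc

variable {R0 : Type*} [CommRing R0] [IsDomain R0]
  (B : Type*) [CommRing B] [IsDomain B] [Algebra R0 B] [FaithfulSMul R0 B]
  (P : Ideal R0) [P.IsPrime]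

/-- `R := R0_P`. -/
abbrev RP : Type _ := Localization.AtPrime P

/-- `S := B_P`, the localisation of `B` at the image of `R0 ∖ P`. -/
abbrev SP : Type _ := Localization (Algebra.algebraMapSubmonoid B P.primeCompl)

theorem algebraMapSubmonoid_le_nonZeroDivisors :
    Algebra.algebraMapSubmonoid B P.primeCompl ≤ nonZeroDivisors B := by
  rintro _ ⟨m, hm, rfl⟩
  rw [mem_nonZeroDivisors_iff_ne_zero]
  intro h0
  have : m = 0 := (FaithfulSMul.algebraMap_injective R0 B) (by rw [h0, map_zero])
  exact hm (this ▸ P.zero_mem)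

theorem algebraMap_R0_SP_injective :
    Function.Injective (algebraMap R0 (SP B P)) := by
  rw [IsScalarTower.algebraMap_eq R0 B (SP B P)]
  exact (IsLocalization.injective (SP B P) (algebraMapSubmonoid_le_nonZeroDivisors B P)).comp
    (FaithfulSMul.algebraMap_injective R0 B)

theorem algebraMap_RP_SP_injective :
    Function.Injective (algebraMap (RP P) (SP B P)) := by
  rw [injective_iff_map_eq_zero]
  intro r hr
  obtain ⟨a, m, rfl⟩ := IsLocalization.exists_mk'_eq P.primeCompl r
  have h1 : algebraMap (RP P) (SP B P) (algebraMap R0 (RP P) a) = 0 := by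
    rw [← IsLocalization.mk'_spec (RP P) a m, map_mul, hr, zero_mul]
  rw [← IsScalarTower.algebraMap_apply] at h1
  have ha : a = 0 := algebraMap_R0_SP_injective B P (by rw [h1, map_zero])
  rw [ha, IsLocalization.mk'_zero]

instance : FaithfulSMul (RP P) (SP B P) :=
  (faithfulSMul_iff_algebraMap_injective _ _).mpr (algebraMap_RP_SP_injective B P)

instance [IsIntegrallyClosed B] : IsIntegrallyClosed (SP B P) :=
  isIntegrallyClosed_of_isLocalization (SP B P) (Algebra.algebraMapSubmonoid B P.primeCompl)
    (algebraMapSubmonoid_le_nonZeroDivisors B P)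

end Loc

section Pi

variable {R0 : Type*} [CommRing R0]

/-- If `R0 / π` is a PID, every ideal containing `π` is generated by `π` and one more element. -/
theorem exists_eq_span_pair (π : R0) [IsPrincipalIdealRing (R0 ⧸ Ideal.span {π})]
    (P : Ideal R0) (hπP : π ∈ P) : ∃ f ∈ P, P = Ideal.span {π, f} := by
  obtain ⟨gb, hgb⟩ :=
    (IsPrincipalIdealRing.principal (P.map (Ideal.Quotient.mk (Ideal.span {π})))).principal
  have h1 : gb ∈ P.map (Ideal.Quotient.mk (Ideal.span {π})) := by
    rw [hgb]; exact Submodule.mem_span_singleton_self _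
  obtain ⟨f, hf, rfl⟩ := (Ideal.mem_map_iff_of_surjective _ Ideal.Quotient.mk_surjective).mp h1
  refine ⟨f, hf, le_antisymm ?_ ?_⟩
  · intro y hy
    have h2 : Ideal.Quotient.mk (Ideal.span {π}) y ∈
        P.map (Ideal.Quotient.mk (Ideal.span {π})) := Ideal.mem_map_of_mem _ hy
    rw [hgb] at h2
    obtain ⟨cb, hcb⟩ := Submodule.mem_span_singleton.mp h2
    obtain ⟨c, rfl⟩ := Ideal.Quotient.mk_surjective cb
    have h3 : y - c * f ∈ Ideal.span {π} := by
      rw [← Ideal.Quotient.eq_zero_iff_mem, map_sub, map_mul, ← hcb, smul_eq_mul, sub_self]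
    obtain ⟨d, hd⟩ := Ideal.mem_span_singleton'.mp h3
    rw [Ideal.mem_span_pair]
    exact ⟨d, c, by rw [hd]; ring⟩
  · rw [Ideal.span_le]
    rintro _ (rfl | rfl)
    · exact hπP
    · exact hf

variable [IsDomain R0] (P : Ideal R0) [P.IsPrime] (π : R0)

theorem pi_ne_zero (hπ0 : π ≠ 0) : algebraMap R0 (RP P) π ≠ 0 := fun h =>
  hπ0 ((IsLocalization.injective (RP P) P.primeCompl_le_nonZeroDivisors) (by rw [h, map_zero]))

theorem pi_mem_maximalIdeal (hπP : π ∈ P) :
    algebraMap R0 (RP P) π ∈ maximalIdeal (RP P) := by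
  rw [← Localization.AtPrime.map_eq_maximalIdeal]
  exact Ideal.mem_map_of_mem _ hπP

theorem span_pi_isPrime (hπ : Prime π) (hπP : π ∈ P) :
    (Ideal.span {algebraMap R0 (RP P) π}).IsPrime := by
  have h1 : (Ideal.span {π}).IsPrime := (Ideal.span_singleton_prime hπ.ne_zero).mpr hπ
  have h2 : Disjoint (P.primeCompl : Set R0) (Ideal.span {π} : Set R0) := by
    rw [Set.disjoint_left]
    intro a ha ha'
    exact ha ((Ideal.span_singleton_le_iff_mem _).mpr hπP ha')
  have := IsLocalization.isPrime_of_isPrime_disjoint P.primeCompl (RP P) _ h1 h2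
  rwa [Ideal.map_span, Set.image_singleton] at this

theorem prime_pi (hπ : Prime π) (hπP : π ∈ P) : Prime (algebraMap R0 (RP P) π) :=
  (Ideal.span_singleton_prime (pi_ne_zero P π hπ.ne_zero)).mp (span_pi_isPrime P π hπ hπP)

/-- `𝔪_R = (π, f)` for some `f ∈ P`. -/
theorem exists_maximalIdeal_eq [IsPrincipalIdealRing (R0 ⧸ Ideal.span {π})] (hπP : π ∈ P) :
    ∃ f ∈ P, maximalIdeal (RP P) =
      Ideal.span {algebraMap R0 (RP P) π, algebraMap R0 (RP P) f} := by
  obtain ⟨f, hf, hP⟩ := exists_eq_span_pair π P hπP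
  refine ⟨f, hf, ?_⟩
  rw [← Localization.AtPrime.map_eq_maximalIdeal]
  have h := congrArg (Ideal.map (algebraMap R0 (RP P))) hP
  rw [h, Ideal.map_span, Set.image_pair]

/-- `R = R0_P` is a UFD. -/
theorem uniqueFactorizationMonoid_RP [IsNoetherianRing R0]
    [IsPrincipalIdealRing (R0 ⧸ Ideal.span {π})] (hπ : Prime π) (hπP : π ∈ P) :
    UniqueFactorizationMonoid (RP P) := by
  haveI := isPrincipalIdealRing_quotient P.primeCompl (RP P) π
  refine Fermat.Agent.RED.CORE.LocalPrincipal14.uniqueFactorizationMonoid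
    (algebraMap R0 (RP P) π) ?_ (prime_pi P π hπ hπP)
  rw [IsLocalRing.jacobson_eq_maximalIdeal ⊥ bot_ne_top]
  exact pi_mem_maximalIdeal P π hπP

end Pi

section Free

variable {R0 : Type*} [CommRing R0] [IsDomain R0] [IsNoetherianRing R0] [IsIntegrallyClosed R0]
  (B : Type*) [CommRing B] [IsDomain B] [IsIntegrallyClosed B] [Algebra R0 B]
  [Module.Finite R0 B] [FaithfulSMul R0 B]
  (P : Ideal R0) [P.IsPrime]

instance : IsIntegrallyClosed (RP P) :=
  isIntegrallyClosed_of_isLocalization (RP P) P.primeCompl P.primeCompl_le_nonZeroDivisors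

/-- **Freeness of the localised extension.**  `S = B_P` is a free module over `R = R0_P`. -/
theorem free_localization (π : R0) (hπ : Prime π) [IsPrincipalIdealRing (R0 ⧸ Ideal.span {π})]
    (hπP : π ∈ P) : Module.Free (RP P) (SP B P) := by
  haveI := isPrincipalIdealRing_quotient P.primeCompl (RP P) π
  exact Fermat.Agent.RED.PUR.PurityCore26.free_of_finite (algebraMap R0 (RP P) π)
    (pi_ne_zero P π hπ.ne_zero) (span_pi_isPrime P π hπ hπP) (pi_mem_maximalIdeal P π hπP)

end Free

end Fermat.Agent.RED.PUR.LocalFree26
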