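/-
Program H (S18), chapter RED/PUR, leaf (D') (helper21): discriminants and étaleness, Mathlib only.

Part A (over a field `k`, `C` a finite-dimensional commutative `k`-algebra with a basis `b`):
  `Algebra.discr k b ≠ 0`  ⟺  trace form nondegenerate  ⟺  `C` reduced with all residue fields
  separable over `k`  (⟹ `C` is a finite product of finite separable field extensions of `k`).

Part B (`R` local with maximal ideal `p`, `S` a finite free `R`-algebra with basis `b`):
  * `discr_basisQuotient` : `discr (R/p) (basisQuotient b) = (discr R b mod p)`;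
  * `isUnit_discr_iff_reduced_and_separable` : `IsUnit (discr R b)` ⟺ `S/pS` reduced with separable
    residue fields; variants for perfect / characteristic zero residue field (`pS` radical) and for
    `pS` maximal (separable residue extension);
  * `exists_not_mem_mul_mem_of_isUnit_discr` : unit discriminant ⟹ for every maximal ideal `x` of
    `S` and `y ∈ x` there is `d ∉ x` with `d * y ∈ pS`  (`p S_x = x S_x`, unramified).
-/
import Mathlib

set_option autoImplicit false

open Module

namespace Fermat.Agent.RED.PUR.DiscrEtale21

section Field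

variable {k C : Type*} [Field k] [CommRing C] [Algebra k C]
variable {ι : Type*} [Fintype ι] [DecidableEq ι]

/-- Nonzero discriminant ⟺ nondegenerate trace form. -/
theorem traceForm_nondegenerate_iff_discr_ne_zero (b : Basis ι k C) :
    (Algebra.traceForm k C).Nondegenerate ↔ Algebra.discr k b ≠ 0 := by
  rw [Algebra.discr_def, Algebra.traceMatrix_of_basis,
    ← LinearMap.BilinForm.nondegenerate_iff_det_ne_zero]

/-- A finite-dimensional commutative algebra with nondegenerate trace form is reduced. -/
theorem isReduced_of_traceForm_nondegenerate [Module.Finite k C]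
    (h : (Algebra.traceForm k C).Nondegenerate) : IsReduced C := by
  refine ⟨fun x hx => ?_⟩
  apply h.1 x
  intro y
  have hxy : IsNilpotent (x * y) := (Commute.all x y).isNilpotent_mul_right hx
  have := Algebra.isNilpotent_trace_of_isNilpotent (R := k) hxy
  rw [Algebra.traceForm_apply]
  exact this.eq_zero

end Field

/-! ### Trace on a finite product of algebras -/

section Pi

variable {R : Type*} [CommRing R] {I : Type*} [Fintype I] [DecidableEq I]
  (A : I → Type*) [∀ i, CommRing (A i)] [∀ i, Algebra R (A i)]
  [∀ i, Module.Free R (A i)] [∀ i, Module.Finite R (A i)]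

/-- The trace of `Pi.single i a` on a product of algebras is the trace of `a` on the `i`-th factor. -/
theorem trace_pi_single (i : I) (a : A i) :
    Algebra.trace R (∀ i, A i) (Pi.single i a) = Algebra.trace R (A i) a := by
  have h1 : Algebra.lmul R (∀ i, A i) (Pi.single i a) =
      (LinearMap.single R A i) ∘ₗ ((Algebra.lmul R (A i) a) ∘ₗ (LinearMap.proj i)) := by
    ext j x l
    simp only [Algebra.coe_lmul_eq_mul, LinearMap.coe_comp, LinearMap.coe_single,
      Function.comp_apply, LinearMap.coe_proj, Function.eval, LinearMap.mul_apply', Pi.mul_apply]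
    by_cases hl : l = i
    · subst hl; simp
    · simp [Pi.single_eq_of_ne hl]
  rw [Algebra.trace_apply, h1, LinearMap.trace_comp_comm', Algebra.trace_apply]
  congr 1
  ext x
  simp

/-- The trace on a finite product of finite free algebras is the sum of the traces. -/
theorem trace_pi (x : ∀ i, A i) :
    Algebra.trace R (∀ i, A i) x = ∑ i, Algebra.trace R (A i) (x i) := by
  have hx : x = ∑ i, Pi.single i (x i) := (Finset.univ_sum_single x).symm
  conv_lhs => rw [hx]
  rw [map_sum]
  exact Finset.sum_congr rfl fun i _ => trace_pi_single A i (x i)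

end Pi

/-! ### The elementary predicate "the trace form separates points" -/

/-- `TraceSep R C`: the trace form of `C / R` has trivial kernel. -/
def TraceSep (R C : Type*) [CommRing R] [CommRing C] [Algebra R C] : Prop :=
  ∀ x : C, (∀ y : C, Algebra.trace R C (x * y) = 0) → x = 0

theorem traceSep_iff_nondegenerate (R C : Type*) [CommRing R] [CommRing C] [Algebra R C] :
    TraceSep R C ↔ (Algebra.traceForm R C).Nondegenerate := by
  constructor
  · intro h
    refine ⟨fun x hx => h x fun y => by simpa [Algebra.traceForm_apply] using hx y,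
      fun y hy => h y fun x => ?_⟩
    have := hy x
    rwa [Algebra.traceForm_apply, mul_comm] at this
  · intro h x hx
    exact h.1 x fun y => by simpa [Algebra.traceForm_apply] using hx y

theorem traceSep_iff_discr_ne_zero {k C : Type*} [Field k] [CommRing C] [Algebra k C]
    {ι : Type*} [Fintype ι] [DecidableEq ι] (b : Basis ι k C) :
    TraceSep k C ↔ Algebra.discr k b ≠ 0 := by
  rw [traceSep_iff_nondegenerate, traceForm_nondegenerate_iff_discr_ne_zero b]

theorem TraceSep.isReduced {k C : Type*} [Field k] [CommRing C] [Algebra k C] [Module.Finite k C]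
    (h : TraceSep k C) : IsReduced C :=
  isReduced_of_traceForm_nondegenerate ((traceSep_iff_nondegenerate k C).mp h)

theorem traceSep_congr {R B C : Type*} [CommRing R] [CommRing B] [CommRing C] [Algebra R B]
    [Algebra R C] (e : B ≃ₐ[R] C) : TraceSep R B ↔ TraceSep R C := by
  constructor
  · intro h x hx
    have : e.symm x = 0 := by
      apply h
      intro y
      have := hx (e y)
      rwa [← e.apply_symm_apply x, ← map_mul, Algebra.trace_eq_of_algEquiv] at this
    simpa using congrArg e this
  · intro h x hx
    have : e x = 0 := by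
      apply h
      intro y
      have := hx (e.symm y)
      rwa [← Algebra.trace_eq_of_algEquiv e, map_mul, e.apply_symm_apply] at this
    simpa using congrArg e.symm this

section PiSep

variable {R : Type*} [CommRing R] {I : Type*} [Fintype I] [DecidableEq I]
  (A : I → Type*) [∀ i, CommRing (A i)] [∀ i, Algebra R (A i)]
  [∀ i, Module.Free R (A i)] [∀ i, Module.Finite R (A i)]

theorem traceSep_pi_iff : TraceSep R (∀ i, A i) ↔ ∀ i, TraceSep R (A i) := by
  constructor
  · intro h i a ha
    have : (Pi.single i a : ∀ i, A i) = 0 := by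
      apply h
      intro y
      have e : (Pi.single i a : ∀ i, A i) * y = Pi.single i (a * y i) := by
        ext l
        by_cases hl : l = i
        · subst hl; simp
        · simp [Pi.single_eq_of_ne hl]
      rw [e, trace_pi_single]
      exact ha (y i)
    simpa using congrFun this i
  · intro h x hx
    ext i
    apply h i
    intro w
    have := hx (Pi.single i w)
    have e : x * (Pi.single i w : ∀ i, A i) = Pi.single i (x i * w) := by
      ext l
      by_cases hl : l = i
      · subst hl; simp
      · simp [Pi.single_eq_of_ne hl]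
    rwa [e, trace_pi_single] at this

end PiSep

/-- For a finite field extension, `TraceSep` is separability. -/
theorem traceSep_iff_isSeparable (k L : Type*) [Field k] [Field L] [Algebra k L]
    [FiniteDimensional k L] : TraceSep k L ↔ Algebra.IsSeparable k L := by
  rw [traceSep_iff_nondegenerate]
  exact ((traceForm_nondegenerate_tfae k L).out 0 2).symm

/-! ### Main theorem over a field -/

section MainField

variable {k C : Type*} [Field k] [CommRing C] [Algebra k C] [Module.Finite k C]

attribute [local instance] IsArtinianRing.fieldOfSubtypeIsMaximal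

/-- For a reduced finite-dimensional commutative `k`-algebra: the trace form separates points iff
all residue fields are separable over `k`. -/
theorem traceSep_iff_forall_isSeparable_of_isReduced [IsReduced C] :
    TraceSep k C ↔ ∀ 𝔪 : MaximalSpectrum C, Algebra.IsSeparable k (C ⧸ 𝔪.asIdeal) := by
  classical
  have : IsArtinianRing C := isArtinian_of_tower k inferInstance
  have : Fintype (MaximalSpectrum C) := Fintype.ofFinite _
  rw [traceSep_congr ((IsArtinianRing.equivPi C).restrictScalars k),
    traceSep_pi_iff (R := k) (fun 𝔪 : MaximalSpectrum C => C ⧸ 𝔪.asIdeal)]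
  exact forall_congr' fun 𝔪 => traceSep_iff_isSeparable k (C ⧸ 𝔪.asIdeal)

/-- **Main theorem over a field.**  The trace form of a finite-dimensional commutative `k`-algebra
separates points iff the algebra is reduced with separable residue fields. -/
theorem traceSep_iff_reduced_and_separable :
    TraceSep k C ↔
      IsReduced C ∧ ∀ 𝔪 : MaximalSpectrum C, Algebra.IsSeparable k (C ⧸ 𝔪.asIdeal) := by
  constructor
  · intro h
    have hred : IsReduced C := h.isReduced
    exact ⟨hred, traceSep_iff_forall_isSeparable_of_isReduced.mp h⟩
  · rintro ⟨hred, hsep⟩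
    exact traceSep_iff_forall_isSeparable_of_isReduced.mpr hsep

/-- Discriminant form of the main theorem. -/
theorem discr_ne_zero_iff_reduced_and_separable {ι : Type*} [Fintype ι] [DecidableEq ι]
    (b : Basis ι k C) :
    Algebra.discr k b ≠ 0 ↔
      IsReduced C ∧ ∀ 𝔪 : MaximalSpectrum C, Algebra.IsSeparable k (C ⧸ 𝔪.asIdeal) := by
  rw [← traceSep_iff_discr_ne_zero b, traceSep_iff_reduced_and_separable]

end MainField

/-! ### Reduced Artinian rings: elements of a maximal ideal are killed from outside -/

/-- In a reduced Artinian ring, every element of a maximal ideal `𝔪` is killed by an element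
outside `𝔪` (the localisation at `𝔪` is a field). -/
theorem exists_not_mem_mul_eq_zero {C : Type*} [CommRing C] [IsArtinianRing C] [IsReduced C]
    (𝔪 : Ideal C) [h𝔪 : 𝔪.IsMaximal] {y : C} (hy : y ∈ 𝔪) : ∃ e, e ∉ 𝔪 ∧ e * y = 0 := by
  classical
  let M : MaximalSpectrum C := ⟨𝔪, h𝔪⟩
  let E := IsArtinianRing.equivPi C
  refine ⟨E.symm (Pi.single M 1), ?_, ?_⟩
  · intro hmem
    have h1 : E (E.symm (Pi.single M 1)) M = 0 := by
      rw [IsArtinianRing.equivPi_apply]
      exact Ideal.Quotient.eq_zero_iff_mem.mpr hmem
    rw [E.apply_symm_apply, Pi.single_eq_same] at h1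
    exact one_ne_zero h1
  · apply E.injective
    rw [map_mul, E.apply_symm_apply, map_zero]
    ext 𝔫
    by_cases h : 𝔫 = M
    · subst h
      rw [Pi.mul_apply, IsArtinianRing.equivPi_apply]
      have : (Ideal.Quotient.mk M.asIdeal y) = 0 := Ideal.Quotient.eq_zero_iff_mem.mpr hy
      simp [this]
    · simp [Pi.single_eq_of_ne h]

/-! ### Part B: local base ring -/

section LocalBase

open IsLocalRing

variable {R S : Type*} [CommRing R] [CommRing S] [Algebra R S] [IsLocalRing R]
  [Module.Finite R S] [Module.Free R S] {ι : Type*} [Fintype ι] [DecidableEq ι]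

local notation "p" => maximalIdeal R
local notation "pS" => Ideal.map (algebraMap R S) p

attribute [local instance] Ideal.Quotient.field

/-- The discriminant of the reduced basis is the reduction of the discriminant. -/
theorem discr_basisQuotient (b : Basis ι R S) :
    Algebra.discr (R ⧸ p) (basisQuotient b) = Ideal.Quotient.mk p (Algebra.discr R b) := by
  rw [Algebra.discr_def, Algebra.discr_def, RingHom.map_det]
  congr 1
  ext i j
  simp only [Algebra.traceMatrix_apply, Algebra.traceForm_apply, basisQuotient_apply, ← map_mul,
    Algebra.trace_quotient_mk, RingHom.mapMatrix_apply, Matrix.map_apply]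

/-- The discriminant is a unit iff the discriminant of the special fibre is nonzero. -/
theorem isUnit_discr_iff_discr_basisQuotient_ne_zero (b : Basis ι R S) :
    IsUnit (Algebra.discr R b) ↔ Algebra.discr (R ⧸ p) (basisQuotient b) ≠ 0 := by
  rw [discr_basisQuotient, Ne, Ideal.Quotient.eq_zero_iff_mem, IsLocalRing.mem_maximalIdeal,
    mem_nonunits_iff, not_not]

/-- The discriminant is a unit iff the trace form of the special fibre separates points. -/
theorem isUnit_discr_iff_traceSep (b : Basis ι R S) :
    IsUnit (Algebra.discr R b) ↔ TraceSep (R ⧸ p) (S ⧸ pS) := by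
  rw [isUnit_discr_iff_discr_basisQuotient_ne_zero b, traceSep_iff_discr_ne_zero (basisQuotient b)]

/-- **Unit discriminant ⟺ the special fibre is reduced with separable residue fields.** -/
theorem isUnit_discr_iff_reduced_and_separable (b : Basis ι R S) :
    IsUnit (Algebra.discr R b) ↔
      IsReduced (S ⧸ pS) ∧ ∀ 𝔪 : MaximalSpectrum (S ⧸ pS),
        Algebra.IsSeparable (R ⧸ p) ((S ⧸ pS) ⧸ 𝔪.asIdeal) := by
  have : Module.Finite (R ⧸ p) (S ⧸ pS) := Module.Finite.of_restrictScalars_finite R _ _
  rw [isUnit_discr_iff_traceSep b, traceSep_iff_reduced_and_separable]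

/-- Perfect residue field: unit discriminant ⟺ `pS` is a radical ideal. -/
theorem isUnit_discr_iff_isRadical_of_perfectField [PerfectField (R ⧸ p)] (b : Basis ι R S) :
    IsUnit (Algebra.discr R b) ↔ (pS).IsRadical := by
  have hfin : Module.Finite (R ⧸ p) (S ⧸ pS) := Module.Finite.of_restrictScalars_finite R _ _
  rw [isUnit_discr_iff_reduced_and_separable b, Ideal.isRadical_iff_quotient_reduced]
  refine ⟨fun h => h.1, fun h => ⟨h, fun 𝔪 => ?_⟩⟩
  let _ : Field ((S ⧸ pS) ⧸ 𝔪.asIdeal) := Ideal.Quotient.field _
  have : Module.Finite (R ⧸ p) ((S ⧸ pS) ⧸ 𝔪.asIdeal) :=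
    Module.Finite.of_surjective (Ideal.Quotient.mkₐ (R ⧸ p) 𝔪.asIdeal).toLinearMap
      (Ideal.Quotient.mkₐ_surjective (R ⧸ p) 𝔪.asIdeal)
  infer_instance

/-- Residue characteristic zero: unit discriminant ⟺ `pS` is a radical ideal. -/
theorem isUnit_discr_iff_isRadical_of_charZero [CharZero (R ⧸ p)] (b : Basis ι R S) :
    IsUnit (Algebra.discr R b) ↔ (pS).IsRadical := by
  have : PerfectField (R ⧸ p) := PerfectField.ofCharZero
  exact isUnit_discr_iff_isRadical_of_perfectField b

/-- If `pS` is a maximal ideal: unit discriminant ⟺ the residue field extension is separable. -/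
theorem isUnit_discr_iff_isSeparable_of_isMaximal [hmax : (pS).IsMaximal] (b : Basis ι R S) :
    IsUnit (Algebra.discr R b) ↔ Algebra.IsSeparable (R ⧸ p) (S ⧸ pS) := by
  have hfin : Module.Finite (R ⧸ p) (S ⧸ pS) := Module.Finite.of_restrictScalars_finite R _ _
  rw [isUnit_discr_iff_traceSep b, traceSep_iff_isSeparable]

omit [Module.Free R S] in
/-- Every maximal ideal of a finite algebra over a local ring contains the extended maximal
ideal. -/
theorem map_maximalIdeal_le_of_isMaximal (x : Ideal S) [hx : x.IsMaximal] : pS ≤ x := by
  have : Algebra.IsIntegral R S := Algebra.IsIntegral.of_finite R S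
  have hmax : (x.comap (algebraMap R S)).IsMaximal :=
    Ideal.isMaximal_comap_of_isIntegral_of_isMaximal x
  rw [Ideal.map_le_iff_le_comap, IsLocalRing.eq_maximalIdeal hmax]

/-- Unit discriminant ⟹ `pS` is a radical ideal. -/
theorem isRadical_map_of_isUnit_discr (b : Basis ι R S) (h : IsUnit (Algebra.discr R b)) :
    (pS).IsRadical := by
  rw [Ideal.isRadical_iff_quotient_reduced]
  exact ((isUnit_discr_iff_reduced_and_separable b).mp h).1

/-- **Unramifiedness, elementary form**: if the discriminant is a unit, then at every maximal ideal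
`x` of `S` the extended ideal `pS` generates `x` locally: every `y ∈ x` has a multiple `d * y`,
`d ∉ x`, lying in `pS`. -/
theorem exists_not_mem_mul_mem_of_isUnit_discr (b : Basis ι R S) (h : IsUnit (Algebra.discr R b))
    (x : Ideal S) [hx : x.IsMaximal] {y : S} (hy : y ∈ x) : ∃ d, d ∉ x ∧ d * y ∈ pS := by
  have hfin : Module.Finite (R ⧸ p) (S ⧸ pS) := Module.Finite.of_restrictScalars_finite R _ _
  have hart : IsArtinianRing (S ⧸ pS) := isArtinian_of_tower (R ⧸ p) inferInstance
  have hred : IsReduced (S ⧸ pS) := ((isUnit_discr_iff_reduced_and_separable b).mp h).1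
  have hle : pS ≤ x := map_maximalIdeal_le_of_isMaximal x
  have hsurj : Function.Surjective (Ideal.Quotient.mk pS) := Ideal.Quotient.mk_surjective
  have hker : RingHom.ker (Ideal.Quotient.mk pS) ≤ x := by rwa [Ideal.mk_ker]
  have hmax : (x.map (Ideal.Quotient.mk pS)).IsMaximal :=
    Ideal.IsMaximal.map_of_surjective_of_ker_le hsurj hker
  obtain ⟨e, he, hey⟩ := exists_not_mem_mul_eq_zero (x.map (Ideal.Quotient.mk pS))
    (Ideal.mem_map_of_mem _ hy)
  obtain ⟨d, rfl⟩ := hsurj e
  refine ⟨d, fun hd => he (Ideal.mem_map_of_mem _ hd), ?_⟩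
  rw [← Ideal.Quotient.eq_zero_iff_mem, map_mul]
  exact hey

end LocalBase

end Fermat.Agent.RED.PUR.DiscrEtale21
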