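import Mathlib
import Fermat.Agent.RED.PUR.DiscrEtale21
import Fermat.Agent.RED.PUR.Hartogs22

/-!
# Program H, chapter PUR: DISC (abstract), part 1

Blueprint v2, section 4.3.  `R` a commutative ring, `S` an `R`-algebra with a basis `b`.

* `discr_notMem_iff_isUnit_localization` : (D1) `discr R b` avoids a prime `q` iff the discriminant of
  the localised basis is a unit of `R_q`.
* `discr_notMem_of_isRadical` : (beta 2, horizontal) residue characteristic zero and `q S` radical
  imply `discr R b` avoids `q`.
* `isRadical_span_of_unramified`, `isRadical_span_of_valuative` : in a noetherian integrally closed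
  domain a principal ideal `(g)` is radical as soon as `g` is a uniformiser at every height-one
  prime containing it (elementwise form and valuation-subring form).
* `discr_notMem_span_of_unramified`, `discr_notMem_span_of_valuative` : the combination.
-/

set_option autoImplicit false

open Module

namespace Fermat.Agent.RED.PUR.Disc5

open Fermat.Agent.RED.PUR

section AtPrime

variable {R S : Type*} [CommRing R] [CommRing S] [Algebra R S]
variable {ι : Type*} [Fintype ι] [DecidableEq ι]

/-- **(D1)** The discriminant of a basis avoids a prime `𝔮` iff it becomes a unit after localising at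
`𝔮`. -/
theorem discr_notMem_iff_isUnit_localization (𝔮 : Ideal R) [𝔮.IsPrime] (b : Basis ι R S) :
    Algebra.discr R b ∉ 𝔮 ↔
      IsUnit (Algebra.discr (Localization.AtPrime 𝔮)
        (b.localizationLocalization (Localization.AtPrime 𝔮) 𝔮.primeCompl
          (Localization (Algebra.algebraMapSubmonoid S 𝔮.primeCompl)))) := by
  rw [Algebra.discr_localizationLocalization, IsLocalization.AtPrime.isUnit_to_map_iff _ 𝔮]
  rfl

/-- **(β2), ideal form.** If `R ⧸ 𝔮` has characteristic zero and `𝔮 S` is a radical ideal, the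
discriminant of any basis of `S` over `R` does not lie in `𝔮`. -/
theorem discr_notMem_of_isRadical (𝔮 : Ideal R) [𝔮.IsPrime] [CharZero (R ⧸ 𝔮)] (b : Basis ι R S)
    (hrad : (𝔮.map (algebraMap R S)).IsRadical) : Algebra.discr R b ∉ 𝔮 := by
  rw [discr_notMem_iff_isUnit_localization]
  set R' := Localization.AtPrime 𝔮
  set S' := Localization (Algebra.algebraMapSubmonoid S 𝔮.primeCompl)
  set b' := b.localizationLocalization R' 𝔮.primeCompl S'
  have : Module.Finite R' S' := Module.Finite.of_basis b'
  have : Module.Free R' S' := Module.Free.of_basis b'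
  -- the residue field of `R'` has characteristic zero
  have hchar : CharZero (R' ⧸ IsLocalRing.maximalIdeal R') := by
    let f : R ⧸ 𝔮 →+* R' ⧸ IsLocalRing.maximalIdeal R' :=
      Ideal.quotientMap _ (algebraMap R R') (by
        rw [← Ideal.map_le_iff_le_comap, Localization.AtPrime.map_eq_maximalIdeal])
    refine charZero_of_injective_ringHom (f := f) (Ideal.quotientMap_injective' ?_)
    rw [show Ideal.comap (algebraMap R R') (IsLocalRing.maximalIdeal R') = 𝔮 from
      IsLocalization.AtPrime.under_maximalIdeal R' 𝔮]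
  rw [DiscrEtale21.isUnit_discr_iff_isRadical_of_charZero b']
  -- `p S' = (𝔮 S) S'`
  have h1 : (IsLocalRing.maximalIdeal R').map (algebraMap R' S') =
      (𝔮.map (algebraMap R S)).map (algebraMap S S') := by
    rw [← Localization.AtPrime.map_eq_maximalIdeal, Ideal.map_map, Ideal.map_map,
      ← IsScalarTower.algebraMap_eq, ← IsScalarTower.algebraMap_eq]
  rw [h1, Ideal.IsRadical, ← IsLocalization.map_radical (Algebra.algebraMapSubmonoid S 𝔮.primeCompl),
    hrad.radical]

end AtPrime

section Radical

variable {S : Type*} [CommRing S] [IsDomain S] [IsIntegrallyClosed S] [IsNoetherianRing S]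

/-- **(D4')** In a noetherian integrally closed domain, a principal ideal `(g)` is radical as soon as
`g` generates `𝔓 S_𝔓` at every height-one prime `𝔓 ∋ g` (elementwise form). -/
theorem isRadical_span_of_unramified (g : S) (hg : g ≠ 0)
    (hunr : ∀ 𝔓 : Ideal S, 𝔓.IsPrime → 𝔓.height = 1 → g ∈ 𝔓 →
      ∀ y ∈ 𝔓, ∃ d, d ∉ 𝔓 ∧ g ∣ d * y) :
    (Ideal.span {g}).IsRadical := by
  intro z hz
  obtain ⟨k, hk⟩ := hz
  rw [Ideal.mem_span_singleton] at hk ⊢
  refine Hartogs22.dvd_of_forall_height_one hg fun 𝔓 h𝔓 hht => ?_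
  by_cases hg𝔓 : g ∈ 𝔓
  · have hz𝔓 : z ∈ 𝔓 := by
      have : z ^ k ∈ 𝔓 := by
        obtain ⟨c, hc⟩ := hk
        rw [hc]; exact 𝔓.mul_mem_right _ hg𝔓
      exact h𝔓.mem_of_pow_mem k this
    exact hunr 𝔓 h𝔓 hht hg𝔓 z hz𝔓
  · exact ⟨g, hg𝔓, Dvd.intro _ rfl⟩

variable {F : Type*} [Field F] [Algebra S F] [IsFractionRing S F]

/-- **(D4'')** Valuative form of the hypothesis of `isRadical_span_of_unramified`: at every discrete
valuation subring `O ⊇ S` of `F = Frac S` in which `g` is a non-unit, `g` generates the maximal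
ideal of `O` ("every place over `g` is unramified"). -/
theorem isRadical_span_of_valuative (g : S) (hg : g ≠ 0)
    (hval : ∀ O : ValuationSubring F, (∀ s : S, algebraMap S F s ∈ O) →
      IsDiscreteValuationRing O → (algebraMap S F g)⁻¹ ∉ O →
      ∀ x ∈ O, x⁻¹ ∉ O → x / algebraMap S F g ∈ O) :
    (Ideal.span {g}).IsRadical := by
  refine isRadical_span_of_unramified g hg fun 𝔓 h𝔓 hht hg𝔓 y hy => ?_
  by_cases hy0 : y = 0
  · exact ⟨1, fun h1 => h𝔓.ne_top ((Ideal.eq_top_iff_one _).mpr h1), by rw [hy0, mul_zero]; exact dvd_zero g⟩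
  set O : ValuationSubring F := Hartogs22.valuationSubringAt (K := F) 𝔓 hht with hO
  have hinj : Function.Injective (algebraMap S F) := IsFractionRing.injective S F
  -- an element of `𝔓` is a non-unit of `O`
  have hnonunit : ∀ w ∈ 𝔓, w ≠ 0 → (algebraMap S F w)⁻¹ ∉ O := by
    intro w hw hw0 hmem
    obtain ⟨a, s, hs, has⟩ := Hartogs22.mem_valuationSubringAt_iff.mp hmem
    have hw0' : algebraMap S F w ≠ 0 := fun h0 => hw0 (hinj (by rw [h0, map_zero]))
    have : algebraMap S F s = algebraMap S F (a * w) := by
      rw [map_mul, ← has]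
      field_simp
    have hsaw : s = a * w := hinj this
    exact hs (hsaw ▸ 𝔓.mul_mem_left a hw)
  have hxg := hval O (Hartogs22.algebraMap_mem_valuationSubringAt 𝔓 hht) inferInstance
    (hnonunit g hg𝔓 hg) (algebraMap S F y) (Hartogs22.algebraMap_mem_valuationSubringAt 𝔓 hht y)
    (hnonunit y hy hy0)
  obtain ⟨a, s, hs, has⟩ := Hartogs22.mem_valuationSubringAt_iff.mp hxg
  refine ⟨s, hs, a, ?_⟩
  apply hinj
  have hg0' : algebraMap S F g ≠ 0 := fun h0 => hg (hinj (by rw [h0, map_zero]))
  rw [map_mul, map_mul, ← has]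
  field_simp

end Radical

section Horizontal

variable {R S : Type*} [CommRing R] [CommRing S] [Algebra R S]
  [IsDomain S] [IsIntegrallyClosed S] [IsNoetherianRing S]
variable {ι : Type*} [Fintype ι] [DecidableEq ι]

/-- **(β2), principal form.** `g ∈ R` generating a prime of residue characteristic zero; if
`g` is unramified in `S` at every height-one prime of `S` containing it, the discriminant of any
basis of `S` over `R` does not lie in `(g)`. -/
theorem discr_notMem_span_of_unramified (g : R) [hp : (Ideal.span {g}).IsPrime]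
    [CharZero (R ⧸ Ideal.span {g})] (b : Basis ι R S) (hg : algebraMap R S g ≠ 0)
    (hunr : ∀ 𝔓 : Ideal S, 𝔓.IsPrime → 𝔓.height = 1 → algebraMap R S g ∈ 𝔓 →
      ∀ y ∈ 𝔓, ∃ d, d ∉ 𝔓 ∧ algebraMap R S g ∣ d * y) :
    Algebra.discr R b ∉ Ideal.span {g} := by
  apply discr_notMem_of_isRadical (Ideal.span {g}) b
  rw [Ideal.map_span, Set.image_singleton]
  exact isRadical_span_of_unramified _ hg hunr

variable {F : Type*} [Field F] [Algebra S F] [IsFractionRing S F]

/-- **(β2), valuative form.** -/
theorem discr_notMem_span_of_valuative (g : R) [hp : (Ideal.span {g}).IsPrime]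
    [CharZero (R ⧸ Ideal.span {g})] (b : Basis ι R S) (hg : algebraMap R S g ≠ 0)
    (hval : ∀ O : ValuationSubring F, (∀ s : S, algebraMap S F s ∈ O) →
      IsDiscreteValuationRing O → (algebraMap S F (algebraMap R S g))⁻¹ ∉ O →
      ∀ x ∈ O, x⁻¹ ∉ O → x / algebraMap S F (algebraMap R S g) ∈ O) :
    Algebra.discr R b ∉ Ideal.span {g} := by
  apply discr_notMem_of_isRadical (Ideal.span {g}) b
  rw [Ideal.map_span, Set.image_singleton]
  exact isRadical_span_of_valuative _ hg hval

end Horizontal

end Fermat.Agent.RED.PUR.Disc5
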