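/-
Program H (S18), chapter RED/PUR, DISC-abstract (blueprint v2 §4.3) — helper21.

`R` a commutative ring, `S` a finite free `R`-algebra with basis `b`, `𝔮` a prime of `R`.
All statements are in terms of `(R, S, b, 𝔮)`; localisations are internal to the proofs.

* `discr_notMem_iff_isUnit_localization` : `discr R b ∉ 𝔮 ↔ IsUnit (discr R_𝔮 b_𝔮)`;
* `discr_notMem_of_isRadical_of_charZero` (HORIZONTAL, (β2)): `R ⧸ 𝔮` of characteristic zero and
  `𝔮 S` radical ⟹ `discr R b ∉ 𝔮`;
* `discr_notMem_of_separable` (VERTICAL, (β1)): a ring hom `ρ : S → L` into a field with kernel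
  `𝔮 S`, compatible with `ρ₀ : R → k₀`, `k₀` generated by `ρ₀ R`, all `ρ z` separable over `k₀`
  ⟹ `discr R b ∉ 𝔮`;
* `isUnit_discr_of_forall_height_one`, `exists_notMem_mul_mem_of_forall_height_one`: unit
  discriminant from the height-one primes, and the unramifiedness conclusion;
* `exists_notMem_mul_mem_chart` : descent to a chart `B` with `S = B ⊗ P_𝔫`.
-/
import Mathlib
import Fermat.Agent.RED.PUR.DiscrEtale21
import Fermat.Agent.RED.PUR.Hartogs22

set_option autoImplicit false

open Module IsLocalRing Polynomial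

namespace Fermat.Agent.RED.PUR.DiscAbstract21

open Fermat.Agent.RED.PUR.DiscrEtale21

/-! ### Generic localisations -/

section Generic

variable {R S : Type*} [CommRing R] [CommRing S] [Algebra R S]
  {ι : Type*} [Fintype ι] [DecidableEq ι] (b : Basis ι R S) (𝔮 : Ideal R) [h𝔮 : 𝔮.IsPrime]
  (Rq Sq : Type*) [CommRing Rq] [CommRing Sq] [Algebra R Rq] [IsLocalization.AtPrime Rq 𝔮]
  [Algebra S Sq] [Algebra Rq Sq] [Algebra R Sq] [IsScalarTower R Rq Sq] [IsScalarTower R S Sq]
  [IsLocalization (Algebra.algebraMapSubmonoid S 𝔮.primeCompl) Sq]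

/-- (DA0) The discriminant avoids `𝔮` iff the discriminant of the localised basis is a unit. -/
theorem discr_notMem_iff_isUnit_of_isLocalization :
    Algebra.discr R b ∉ 𝔮 ↔
      IsUnit (Algebra.discr Rq (b.localizationLocalization Rq 𝔮.primeCompl Sq)) := by
  rw [Algebra.discr_localizationLocalization R 𝔮.primeCompl Sq b,
    IsLocalization.AtPrime.isUnit_to_map_iff Rq 𝔮]
  rfl

omit [Fintype ι] [DecidableEq ι]
  [IsLocalization (Algebra.algebraMapSubmonoid S 𝔮.primeCompl) Sq] in
/-- The extension of the maximal ideal of `R_𝔮` to `S_𝔮` is the extension of `𝔮 S`. -/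
theorem map_maximalIdeal_eq [IsLocalRing Rq] :
    (maximalIdeal Rq).map (algebraMap Rq Sq) =
      (𝔮.map (algebraMap R S)).map (algebraMap S Sq) := by
  rw [← IsLocalization.AtPrime.map_eq_maximalIdeal 𝔮 Rq, Ideal.map_map, Ideal.map_map,
    ← IsScalarTower.algebraMap_eq, ← IsScalarTower.algebraMap_eq]

omit [Fintype ι] [DecidableEq ι] in
/-- The residue field of `R_𝔮` has characteristic zero if `R ⧸ 𝔮` has. -/
theorem charZero_residue [IsLocalRing Rq] [CharZero (R ⧸ 𝔮)] :
    CharZero (Rq ⧸ maximalIdeal Rq) := by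
  have hcomap : (maximalIdeal Rq).comap (algebraMap R Rq) = 𝔮 :=
    IsLocalization.AtPrime.under_maximalIdeal Rq 𝔮
  have hle : 𝔮 ≤ (maximalIdeal Rq).comap (algebraMap R Rq) := hcomap.ge
  have hinj : Function.Injective (Ideal.quotientMap (maximalIdeal Rq) (algebraMap R Rq) hle) :=
    Ideal.quotientMap_injective' hcomap.le
  exact charZero_of_injective_ringHom hinj

include Rq Sq in
/-- (DA1), generic form. -/
theorem discr_notMem_of_isRadical_of_charZero_aux [CharZero (R ⧸ 𝔮)]
    (hrad : (𝔮.map (algebraMap R S)).IsRadical) : Algebra.discr R b ∉ 𝔮 := by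
  have hloc : IsLocalRing Rq := IsLocalization.AtPrime.isLocalRing Rq 𝔮
  let bq := b.localizationLocalization Rq 𝔮.primeCompl Sq
  have hfree : Module.Free Rq Sq := Module.Free.of_basis bq
  have hfin : Module.Finite Rq Sq := Module.Finite.of_basis bq
  have hchar : CharZero (Rq ⧸ maximalIdeal Rq) := charZero_residue 𝔮 Rq
  rw [discr_notMem_iff_isUnit_of_isLocalization b 𝔮 Rq Sq,
    isUnit_discr_iff_isRadical_of_charZero, map_maximalIdeal_eq (S := S) 𝔮 Rq Sq]
  have := IsLocalization.map_radical (Algebra.algebraMapSubmonoid S 𝔮.primeCompl) (S := Sq)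
    (𝔮.map (algebraMap R S))
  rw [hrad.radical] at this
  rw [Ideal.IsRadical, ← this]


variable {k₀ L : Type*} [Field k₀] [Field L] [Algebra k₀ L] (ρ₀ : R →+* k₀) (ρ : S →+* L)

attribute [local instance] Ideal.Quotient.field

include Rq Sq in
/-- (DA2), generic form. -/
theorem discr_notMem_of_separable_aux
    (hcomp : ∀ r : R, ρ (algebraMap R S r) = algebraMap k₀ L (ρ₀ r))
    (hker : ∀ z : S, ρ z = 0 ↔ z ∈ 𝔮.map (algebraMap R S))
    (hgen : ∀ c : k₀, ∃ r r' : R, ρ₀ r' ≠ 0 ∧ c * ρ₀ r' = ρ₀ r)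
    (hsep : ∀ z : S, IsSeparable k₀ (ρ z)) : Algebra.discr R b ∉ 𝔮 := by
  classical
  have hloc : IsLocalRing Rq := IsLocalization.AtPrime.isLocalRing Rq 𝔮
  let bq := b.localizationLocalization Rq 𝔮.primeCompl Sq
  have hfree : Module.Free Rq Sq := Module.Free.of_basis bq
  have hfin : Module.Finite Rq Sq := Module.Finite.of_basis bq
  have hfreeS : Module.Free R S := Module.Free.of_basis b
  have hinjL : Function.Injective (algebraMap k₀ L) := (algebraMap k₀ L).injective
  have hSnt : Nontrivial S := ρ.domain_nontrivial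
  -- `ρ₀ r = 0 ↔ r ∈ 𝔮`
  have hρ₀ : ∀ r, ρ₀ r = 0 ↔ r ∈ 𝔮 := by
    intro r
    rw [← hinjL.eq_iff, ← hcomp, map_zero, hker]
    conv_rhs => rw [← Ideal.comap_map_eq_self_of_faithfullyFlat (B := S) 𝔮]
    rfl
  set M := Algebra.algebraMapSubmonoid S 𝔮.primeCompl with hM
  -- extend `ρ₀` and `ρ` to the localisations
  have hu₀ : ∀ y : 𝔮.primeCompl, IsUnit (ρ₀ y) := fun y =>
    isUnit_iff_ne_zero.mpr fun h => y.2 ((hρ₀ _).mp h)
  let ρ₀q : Rq →+* k₀ := IsLocalization.lift hu₀
  have hu : ∀ y : M, IsUnit (ρ y) := by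
    rintro ⟨_, r, hr, rfl⟩
    rw [hcomp]
    exact (isUnit_iff_ne_zero.mpr fun h => hr ((hρ₀ _).mp h)).map _
  let ρq : Sq →+* L := IsLocalization.lift hu
  have hρq : ∀ z : S, ρq (algebraMap S Sq z) = ρ z := fun z => IsLocalization.lift_eq hu z
  have hρ₀q : ∀ r : R, ρ₀q (algebraMap R Rq r) = ρ₀ r := fun r => IsLocalization.lift_eq hu₀ r
  -- compatibility
  have hcompq : ∀ a : Rq, ρq (algebraMap Rq Sq a) = algebraMap k₀ L (ρ₀q a) := by
    intro a
    have : (ρq.comp (algebraMap Rq Sq)) = (algebraMap k₀ L).comp ρ₀q := by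
      apply IsLocalization.ringHom_ext 𝔮.primeCompl
      ext r
      simp only [RingHom.comp_apply]
      rw [← IsScalarTower.algebraMap_apply, IsScalarTower.algebraMap_apply R S Sq, hρq, hρ₀q,
        hcomp]
    exact congrArg (fun f => f a) this
  set pSq := (maximalIdeal Rq).map (algebraMap Rq Sq) with hpSq
  have hpSq' : pSq = (𝔮.map (algebraMap R S)).map (algebraMap S Sq) :=
    map_maximalIdeal_eq (S := S) 𝔮 Rq Sq
  -- kernel of `ρq`
  have hkerq : ∀ z : Sq, ρq z = 0 ↔ z ∈ pSq := by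
    intro z
    obtain ⟨z₀, m, rfl⟩ := IsLocalization.exists_mk'_eq M z
    rw [hpSq', IsLocalization.mk'_mem_iff, IsLocalization.lift_mk'_spec, mul_zero]
    constructor
    · intro h
      exact Ideal.mem_map_of_mem _ ((hker _).mp h)
    · intro h
      rw [IsLocalization.algebraMap_mem_map_algebraMap_iff M] at h
      obtain ⟨m₁, hm₁, h1⟩ := h
      have h2 := (hker _).mpr h1
      rw [map_mul] at h2
      exact (mul_eq_zero.mp h2).resolve_left (hu ⟨m₁, hm₁⟩).ne_zero
  -- the quotient maps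
  let κ := Rq ⧸ maximalIdeal Rq
  let C := Sq ⧸ pSq
  let ρbar : C →+* L := Ideal.Quotient.lift pSq ρq fun z hz => (hkerq z).mpr hz
  have hρbar_mk : ∀ z : Sq, ρbar (Ideal.Quotient.mk pSq z) = ρq z := fun z =>
    Ideal.Quotient.lift_mk _ _ _
  have hρbar_inj : Function.Injective ρbar := by
    rw [injective_iff_map_eq_zero]
    intro c hc
    obtain ⟨z, rfl⟩ := Ideal.Quotient.mk_surjective c
    rw [Ideal.Quotient.eq_zero_iff_mem, ← hkerq, ← hρbar_mk]
    exact hc
  have hker₀q : ∀ a ∈ maximalIdeal Rq, ρ₀q a = 0 := by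
    intro a ha
    apply hinjL
    rw [← hcompq, map_zero, hkerq]
    exact Ideal.mem_map_of_mem _ ha
  let ρ₀bar : κ →+* k₀ := Ideal.Quotient.lift (maximalIdeal Rq) ρ₀q hker₀q
  have hρ₀bar_surj : Function.Surjective ρ₀bar := by
    intro c
    obtain ⟨r, r', hr', hc⟩ := hgen c
    have hr'q : r' ∈ 𝔮.primeCompl := fun h => hr' ((hρ₀ _).mpr h)
    refine ⟨Ideal.Quotient.mk _ (IsLocalization.mk' Rq r ⟨r', hr'q⟩), ?_⟩
    show ρ₀q (IsLocalization.mk' Rq r ⟨r', hr'q⟩) = c
    rw [IsLocalization.lift_mk'_spec]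
    simp only [hc, mul_comm]
  have hcompbar : ∀ a : κ, ρbar (algebraMap κ C a) = algebraMap k₀ L (ρ₀bar a) := by
    intro a
    obtain ⟨a, rfl⟩ := Ideal.Quotient.mk_surjective a
    show ρbar (Ideal.Quotient.mk pSq (algebraMap Rq Sq a)) = _
    rw [hρbar_mk, hcompq]
    rfl
  -- `C` is a field
  have hfinC : Module.Finite κ C := Module.Finite.of_restrictScalars_finite Rq _ _
  have hdom : IsDomain C := hρbar_inj.isDomain ρbar
  have hCfield : IsField C :=
    isField_of_isIntegral_of_isField' (R := κ) (Field.toIsField κ)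
  have hmax : pSq.IsMaximal := Ideal.Quotient.maximal_of_isField _ hCfield
  -- separability
  have hsepC : Algebra.IsSeparable κ C := by
    refine ⟨fun c => ?_⟩
    obtain ⟨z, rfl⟩ := Ideal.Quotient.mk_surjective c
    obtain ⟨z₀, m, rfl⟩ := IsLocalization.exists_mk'_eq M z
    -- the image is separable over `k₀`
    have h1 : IsSeparable k₀ (ρbar (Ideal.Quotient.mk pSq (IsLocalization.mk' Sq z₀ m))) := by
      have : ρbar (Ideal.Quotient.mk pSq (IsLocalization.mk' Sq z₀ m)) = ρ z₀ * (ρ m)⁻¹ := by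
        rw [hρbar_mk, eq_mul_inv_iff_mul_eq₀ (hu m).ne_zero, ← hρq z₀, ← hρq m, ← map_mul,
          IsLocalization.mk'_spec]
      rw [this]
      obtain ⟨_, r, hr, rfl⟩ := m
      refine Field.isSeparable_mul (hsep z₀) (Field.isSeparable_inv ?_)
      show IsSeparable k₀ (ρ (algebraMap R S r))
      rw [hcomp]
      exact isSeparable_algebraMap _
    set c := Ideal.Quotient.mk pSq (IsLocalization.mk' Sq z₀ m) with hc
    -- pull back the minimal polynomial
    obtain ⟨σ, hσ⟩ := hρ₀bar_surj.hasRightInverse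
    let e : κ ≃+* k₀ := RingEquiv.ofBijective ρ₀bar
      ⟨(injective_iff_map_eq_zero ρ₀bar).mpr fun a ha => by
        by_contra hne
        have := (isUnit_iff_ne_zero.mpr hne).map ρ₀bar
        rw [ha] at this
        exact not_isUnit_zero this, hρ₀bar_surj⟩
    let Q : κ[X] := (minpoly k₀ (ρbar c)).map e.symm.toRingHom
    have hQsep : Q.Separable := Polynomial.Separable.map (f := e.symm.toRingHom) h1
    have hQroot : aeval c Q = 0 := by
      apply hρbar_inj
      have hcompose : (ρbar.comp (algebraMap κ C)).comp e.symm.toRingHom = algebraMap k₀ L := by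
        ext a
        simp only [RingHom.comp_apply]
        rw [hcompbar]
        congr 1
        exact e.apply_symm_apply a
      rw [map_zero, aeval_def, hom_eval₂, eval₂_map, hcompose, ← aeval_def, minpoly.aeval]
    exact hQsep.of_dvd (minpoly.dvd _ _ hQroot)
  rw [discr_notMem_iff_isUnit_of_isLocalization b 𝔮 Rq Sq,
    isUnit_discr_iff_isSeparable_of_isMaximal]
  exact hsepC


end Generic

/-! ### Statements without localisation types -/

section Main

variable {R S : Type*} [CommRing R] [CommRing S] [Algebra R S]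
  {ι : Type*} [Fintype ι] [DecidableEq ι] (b : Basis ι R S) (𝔮 : Ideal R) [h𝔮 : 𝔮.IsPrime]

/-- (DA0) -/
theorem discr_notMem_iff_isUnit_localization :
    Algebra.discr R b ∉ 𝔮 ↔
      IsUnit (algebraMap R (Localization.AtPrime 𝔮) (Algebra.discr R b)) := by
  rw [IsLocalization.AtPrime.isUnit_to_map_iff (Localization.AtPrime 𝔮) 𝔮]
  rfl

/-- **(DA1) HORIZONTAL primes.**  If `R ⧸ 𝔮` has characteristic zero and `𝔮 S` is a radical ideal,
then the discriminant is not in `𝔮`. -/
theorem discr_notMem_of_isRadical_of_charZero [CharZero (R ⧸ 𝔮)]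
    (hrad : (𝔮.map (algebraMap R S)).IsRadical) : Algebra.discr R b ∉ 𝔮 := by
  let Rq := Localization.AtPrime 𝔮
  let Sq := Localization (Algebra.algebraMapSubmonoid S 𝔮.primeCompl)
  let _ : Algebra Rq Sq := localizationAlgebra 𝔮.primeCompl S
  have : IsScalarTower R Rq Sq := IsScalarTower.of_algebraMap_eq'
    (by rw [RingHom.algebraMap_toAlgebra, IsLocalization.map_comp, ← IsScalarTower.algebraMap_eq])
  exact discr_notMem_of_isRadical_of_charZero_aux b 𝔮 Rq Sq hrad

/-- **(DA2) VERTICAL prime.**  `ρ : S → L` a ring hom into a field with kernel `𝔮 S`, compatible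
with `ρ₀ : R → k₀` (`k₀` a field generated by `ρ₀ R`, `L` a `k₀`-algebra); if every `ρ z` is
separable over `k₀` then the discriminant is not in `𝔮`. -/
theorem discr_notMem_of_separable {k₀ L : Type*} [Field k₀] [Field L] [Algebra k₀ L]
    (ρ₀ : R →+* k₀) (ρ : S →+* L)
    (hcomp : ∀ r : R, ρ (algebraMap R S r) = algebraMap k₀ L (ρ₀ r))
    (hker : ∀ z : S, ρ z = 0 ↔ z ∈ 𝔮.map (algebraMap R S))
    (hgen : ∀ c : k₀, ∃ r r' : R, ρ₀ r' ≠ 0 ∧ c * ρ₀ r' = ρ₀ r)
    (hsep : ∀ z : S, IsSeparable k₀ (ρ z)) : Algebra.discr R b ∉ 𝔮 := by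
  let Rq := Localization.AtPrime 𝔮
  let Sq := Localization (Algebra.algebraMapSubmonoid S 𝔮.primeCompl)
  let _ : Algebra Rq Sq := localizationAlgebra 𝔮.primeCompl S
  have : IsScalarTower R Rq Sq := IsScalarTower.of_algebraMap_eq'
    (by rw [RingHom.algebraMap_toAlgebra, IsLocalization.map_comp, ← IsScalarTower.algebraMap_eq])
  exact discr_notMem_of_separable_aux b 𝔮 Rq Sq ρ₀ ρ hcomp hker hgen hsep

end Main

/-! ### Radical principal ideals from the height-one primes -/

section Radical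

variable {S : Type*} [CommRing S] [IsDomain S] [IsIntegrallyClosed S] [IsNoetherianRing S]

/-- If `g` generates `𝔔 S_𝔔` at every height-one prime `𝔔 ∋ g` of the noetherian integrally
closed domain `S` (`∀ z ∈ 𝔔, ∃ d ∉ 𝔔, g ∣ d * z`), then `g S` is a radical ideal. -/
theorem isRadical_span_singleton_of_forall_height_one (g : S)
    (h : ∀ 𝔔 : Ideal S, 𝔔.IsPrime → 𝔔.height = 1 → g ∈ 𝔔 → ∀ z ∈ 𝔔, ∃ d, d ∉ 𝔔 ∧ g ∣ d * z) :
    (Ideal.span {g}).IsRadical := by
  by_cases hg : g = 0
  · subst hg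
    rw [Ideal.span_singleton_zero]
    exact Ideal.isRadical_bot
  rintro z ⟨n, hn⟩
  rw [Ideal.mem_span_singleton] at hn ⊢
  refine Hartogs22.dvd_of_forall_height_one hg fun 𝔔 h𝔔 hht => ?_
  by_cases hg𝔔 : g ∈ 𝔔
  · have hz : z ∈ 𝔔 := by
      have : z ^ n ∈ 𝔔 := by
        obtain ⟨c, hc⟩ := hn
        rw [hc]
        exact 𝔔.mul_mem_right _ hg𝔔
      exact h𝔔.mem_of_pow_mem n this
    exact h 𝔔 h𝔔 hht hg𝔔 z hz
  · exact ⟨g, hg𝔔, Dvd.intro _ rfl⟩

end Radical

/-! ### Unit discriminant from the height-one primes -/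

section Unit

variable {R S : Type*} [CommRing R] [IsDomain R] [IsNoetherianRing R] [CommRing S] [Algebra R S]
  {ι : Type*} [Fintype ι] [DecidableEq ι] (b : Basis ι R S)

/-- (DA3) A discriminant which avoids all height-one primes is a unit. -/
theorem isUnit_discr_of_forall_height_one (h0 : Algebra.discr R b ≠ 0)
    (h : ∀ 𝔮 : Ideal R, 𝔮.IsPrime → 𝔮.height = 1 → Algebra.discr R b ∉ 𝔮) :
    IsUnit (Algebra.discr R b) :=
  Hartogs22.isUnit_of_forall_height_one_notMem h0 h

/-- (DA3) Consequence: every maximal ideal `x` of `S` is locally generated by `𝔪_R S`. -/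
theorem exists_notMem_mul_mem_of_forall_height_one [IsLocalRing R] [Module.Finite R S]
    [Module.Free R S] (h0 : Algebra.discr R b ≠ 0)
    (h : ∀ 𝔮 : Ideal R, 𝔮.IsPrime → 𝔮.height = 1 → Algebra.discr R b ∉ 𝔮)
    (x : Ideal S) [x.IsMaximal] {y : S} (hy : y ∈ x) :
    ∃ d, d ∉ x ∧ d * y ∈ (maximalIdeal R).map (algebraMap R S) :=
  exists_not_mem_mul_mem_of_isUnit_discr b (isUnit_discr_of_forall_height_one b h0 h) x hy

end Unit

/-! ### Descent to the chart -/

section Chart

variable {P B : Type*} [CommRing P] [CommRing B] [Algebra P B] (𝔫 : Ideal P) [h𝔫 : 𝔫.IsPrime]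
  (R S : Type*) [CommRing R] [CommRing S] [Algebra P R] [IsLocalization.AtPrime R 𝔫]
  [Algebra B S] [Algebra R S] [Algebra P S] [IsScalarTower P R S] [IsScalarTower P B S]
  [IsLocalization (Algebra.algebraMapSubmonoid B 𝔫.primeCompl) S]

include R in
/-- (DA4) **Descent to the chart.**  `S = B ⊗ P_𝔫`.  If every maximal ideal of `S` is locally
generated by `𝔪_R S`, then every maximal ideal `x` of `B` over `𝔫` is locally generated by `𝔫 B`. -/
theorem exists_notMem_mul_mem_chart_of_local [IsLocalRing R]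
    (hloc : ∀ X : Ideal S, X.IsMaximal → ∀ Y ∈ X, ∃ D, D ∉ X ∧
      D * Y ∈ (maximalIdeal R).map (algebraMap R S))
    (x : Ideal B) [hx : x.IsMaximal] (hxn : x.comap (algebraMap P B) = 𝔫) {y : B} (hy : y ∈ x) :
    ∃ d, d ∉ x ∧ d * y ∈ 𝔫.map (algebraMap P B) := by
  set M := Algebra.algebraMapSubmonoid B 𝔫.primeCompl with hM
  have hdisj : Disjoint (M : Set B) (x : Set B) := by
    rw [Set.disjoint_left]
    rintro _ ⟨p, hp, rfl⟩ hmem
    exact hp (by rw [← hxn]; exact hmem)
  have hxp : x.IsPrime := hx.isPrime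
  set X := x.map (algebraMap B S) with hX
  have hXp : X.IsPrime := IsLocalization.isPrime_of_isPrime_disjoint M S x hxp hdisj
  have hXc : X.under B = x := IsLocalization.under_map_of_isPrime_disjoint M S hxp hdisj
  have hXmax : X.IsMaximal := by
    refine Ideal.isMaximal_iff.mpr ⟨fun h1 => hXp.ne_top ((Ideal.eq_top_iff_one _).mpr h1), ?_⟩
    intro J z hXJ hzX hzJ
    by_contra h1
    have hJtop : J.under B ≠ ⊤ := by
      intro h
      apply h1
      have : (1 : B) ∈ J.under B := by rw [h]; trivial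
      simpa using this
    have hle : x ≤ J.under B := by
      rw [← hXc]
      exact Ideal.comap_mono hXJ
    have heq : x = J.under B := hx.eq_of_le hJtop hle
    have : J = X := by
      rw [hX, heq, IsLocalization.map_under M S]
    exact hzX (this ▸ hzJ)
  obtain ⟨D, hDX, hDY⟩ := hloc X hXmax (algebraMap B S y) (Ideal.mem_map_of_mem _ hy)
  obtain ⟨d₀, m₀, rfl⟩ := IsLocalization.exists_mk'_eq M D
  have hd₀ : d₀ ∉ x := by
    intro h
    apply hDX
    rw [IsLocalization.mk'_mem_iff]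
    exact Ideal.mem_map_of_mem _ h
  rw [map_maximalIdeal_eq (S := B) 𝔫 R S] at hDY
  have h2 : algebraMap B S (d₀ * y) ∈ (𝔫.map (algebraMap P B)).map (algebraMap B S) := by
    have := Ideal.mul_mem_left _ (algebraMap B S m₀) hDY
    rwa [← mul_assoc, IsLocalization.mk'_spec', ← map_mul] at this
  rw [IsLocalization.algebraMap_mem_map_algebraMap_iff M] at h2
  obtain ⟨m₁, hm₁, h3⟩ := h2
  refine ⟨m₁ * d₀, ?_, by rwa [mul_assoc]⟩
  intro h
  rcases hxp.mem_or_mem h with h | h
  · exact Set.disjoint_left.mp hdisj hm₁ h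
  · exact hd₀ h

end Chart

section ChartDiscr

variable {P B : Type*} [CommRing P] [CommRing B] [Algebra P B] (𝔫 : Ideal P) [h𝔫 : 𝔫.IsPrime]
  (R S : Type*) [CommRing R] [CommRing S] [Algebra P R] [IsLocalization.AtPrime R 𝔫]
  [Algebra B S] [Algebra R S] [Algebra P S] [IsScalarTower P R S] [IsScalarTower P B S]
  [IsLocalization (Algebra.algebraMapSubmonoid B 𝔫.primeCompl) S]
  {ι : Type*} [Fintype ι] [DecidableEq ι]

include R in
/-- (DA4) with the unit discriminant as hypothesis. -/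
theorem exists_notMem_mul_mem_chart (b : Basis ι R S) (hb : IsUnit (Algebra.discr R b))
    (x : Ideal B) [hx : x.IsMaximal] (hxn : x.comap (algebraMap P B) = 𝔫) {y : B} (hy : y ∈ x) :
    ∃ d, d ∉ x ∧ d * y ∈ 𝔫.map (algebraMap P B) := by
  have hloc : IsLocalRing R := IsLocalization.AtPrime.isLocalRing R 𝔫
  have hfree : Module.Free R S := Module.Free.of_basis b
  have hfin : Module.Finite R S := Module.Finite.of_basis b
  refine exists_notMem_mul_mem_chart_of_local 𝔫 R S (fun X hX Y hY => ?_) x hxn hy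
  exact exists_not_mem_mul_mem_of_isUnit_discr b hb X hY

end ChartDiscr

end Fermat.Agent.RED.PUR.DiscAbstract21
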