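/-
Program H (S18), chapter RED/PUR — helper26.  **Purity by hand: the glue.**

`R0` a noetherian integrally closed domain (`A_K[X]`), `π ∈ R0` a prime element with `R0 / π` a PID,
`B` an integrally closed domain finite over `R0` (a chart), `x` a maximal ideal of `B` containing
`π`, `P := x ∩ R0`, `R := R0_P`, `S := B_P` (free over `R` by `LocalFree26`).

* `smooth_of_discr` (A) : if no prime element of `R` divides the discriminant of `S / R`, then `x`
  is locally generated by `π` and one element `f ∈ R0`  (the shape of `CoreIface24.smooth0`).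
* `not_dvd_discr_of_valuative` (B, horizontal primes; reusable by CUSP with `q = τ`): a prime element
  `g` of `R`, not associated to `π`, not dividing `q`, does not divide the discriminant, provided
  every DVR `O ⊇ B` of `F = Frac B` with `π, q ∈ O^×` and centre inside `P` has a uniformiser in `R0`.
* `not_dvd_discr_of_separable` (C, the vertical prime): `π ∤ disc` from a separable reduction
  `ρ : B → L`, `ker ρ = πB`.
* `smooth_of_purity` : A + B + C.  **The concrete side only instantiates `R0 := A_K[X] → F`,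
  `B := integralClosure`, and never sees a localisation type.**
-/
import Mathlib
import Fermat.Agent.RED.PUR.LocalFree26
import Fermat.Agent.RED.PUR.DiscrEtale21
import Fermat.Agent.RED.PUR.Disc5
import Fermat.Agent.RED.PUR.DiscAbstract21

set_option autoImplicit false
set_option linter.style.haveILetI false
set_option linter.unusedSectionVars false

namespace Fermat.Agent.RED.PUR.PurityMain26

open IsLocalRing Fermat.Agent.RED.PUR.LocalFree26 Fermat.Agent.RED.PUR

section A

variable {R0 : Type*} [CommRing R0] [IsDomain R0] [IsNoetherianRing R0] [IsIntegrallyClosed R0]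
  (B : Type*) [CommRing B] [IsDomain B] [IsIntegrallyClosed B] [Algebra R0 B]
  [Module.Finite R0 B] [FaithfulSMul R0 B]

/-- In a UFD, an element not divisible by any prime element is a unit. -/
theorem isUnit_of_forall_prime_not_dvd {R : Type*} [CommRing R] [IsDomain R]
    [UniqueFactorizationMonoid R] (d : R) (h : ∀ g : R, Prime g → ¬ g ∣ d) (p : R) (hp : Prime p) :
    IsUnit d := by
  by_contra hu
  by_cases hd0 : d = 0
  · exact h p hp (hd0 ▸ dvd_zero p)
  · obtain ⟨p, hp, hpd⟩ := WfDvdMonoid.exists_irreducible_factor hu hd0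
    exact h p (UniqueFactorizationMonoid.irreducible_iff_prime.mp hp) hpd

/-- **Theorem A (unit discriminant ⟹ smooth).**  If no prime element of `R = R0_P` divides the
discriminant of a basis of `S = B_P` over `R`, then `x` is locally generated by `π` and one
element of `R0`. -/
theorem smooth_of_discr (π : R0) (hπ : Prime π) [IsPrincipalIdealRing (R0 ⧸ Ideal.span {π})]
    (x : Ideal B) [hx : x.IsMaximal] (hπx : algebraMap R0 B π ∈ x)
    {ι : Type*} [Fintype ι] [DecidableEq ι]
    (b : Module.Basis ι (RP (x.comap (algebraMap R0 B))) (SP B (x.comap (algebraMap R0 B))))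
    (hd : ∀ g : RP (x.comap (algebraMap R0 B)), Prime g →
      ¬ g ∣ Algebra.discr (RP (x.comap (algebraMap R0 B))) b) :
    ∃ f : R0, algebraMap R0 B f ∈ x ∧ ∀ y ∈ x, ∃ d, d ∉ x ∧
      d * y ∈ Ideal.span {algebraMap R0 B π, algebraMap R0 B f} := by
  classical
  set P : Ideal R0 := x.comap (algebraMap R0 B) with hP
  have hπP : π ∈ P := hπx
  haveI : Module.Free (RP P) (SP B P) := Module.Free.of_basis b
  haveI : UniqueFactorizationMonoid (RP P) := uniqueFactorizationMonoid_RP P π hπ hπP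
  have hunit : IsUnit (Algebra.discr (RP P) b) :=
    isUnit_of_forall_prime_not_dvd _ hd _ (prime_pi P π hπ hπP)
  -- the extension of `x` to `S`
  set M : Submonoid B := Algebra.algebraMapSubmonoid B P.primeCompl with hM
  have hMx : ∀ m ∈ M, m ∉ x := by
    rintro _ ⟨r, hr, rfl⟩ hmx
    exact hr hmx
  have hdisj : Disjoint (M : Set B) (x : Set B) := by
    rw [Set.disjoint_left]
    intro m hm hmx
    exact hMx m hm hmx
  set x' : Ideal (SP B P) := x.map (algebraMap B (SP B P)) with hx'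
  have hx'prime : x'.IsPrime :=
    IsLocalization.isPrime_of_isPrime_disjoint M (SP B P) x inferInstance hdisj
  have hcomap : x'.comap (algebraMap B (SP B P)) = x :=
    IsLocalization.under_map_of_isPrime_disjoint M (SP B P) inferInstance hdisj
  -- `𝔪_R S = (P B) S`
  have hmS : (maximalIdeal (RP P)).map (algebraMap (RP P) (SP B P)) =
      (P.map (algebraMap R0 B)).map (algebraMap B (SP B P)) := by
    rw [← Localization.AtPrime.map_eq_maximalIdeal, Ideal.map_map, Ideal.map_map,
      ← IsScalarTower.algebraMap_eq, ← IsScalarTower.algebraMap_eq]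
  have hPx : P.map (algebraMap R0 B) ≤ x := Ideal.map_le_iff_le_comap.mpr le_rfl
  haveI : Algebra.IsIntegral (RP P) (SP B P) := Algebra.IsIntegral.of_finite _ _
  have hx'max : x'.IsMaximal := by
    haveI := hx'prime
    apply Ideal.isMaximal_of_isIntegral_of_isMaximal_comap (R := RP P) x'
    have : x'.comap (algebraMap (RP P) (SP B P)) = maximalIdeal (RP P) := by
      apply le_antisymm
      · exact IsLocalRing.le_maximalIdeal (Ideal.comap_ne_top _ hx'prime.ne_top)
      · rw [← Ideal.map_le_iff_le_comap, hmS]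
        exact Ideal.map_mono hPx
    rw [this]
    exact maximalIdeal.isMaximal _
  obtain ⟨f, hfP, hPf⟩ := exists_eq_span_pair π P hπP
  refine ⟨f, hfP, ?_⟩
  intro y hy
  have hy' : algebraMap B (SP B P) y ∈ x' := Ideal.mem_map_of_mem _ hy
  obtain ⟨d', hd'x, hd'y⟩ :=
    Fermat.Agent.RED.PUR.DiscrEtale21.exists_not_mem_mul_mem_of_isUnit_discr b hunit x' hy'
  rw [hmS] at hd'y
  obtain ⟨e, m, rfl⟩ := IsLocalization.exists_mk'_eq M d'
  have he : e ∉ x := by
    intro hex
    apply hd'x
    rw [IsLocalization.mk'_eq_mul_mk'_one]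
    exact x'.mul_mem_right _ (Ideal.mem_map_of_mem _ hex)
  have h1 : algebraMap B (SP B P) (e * y) ∈
      (P.map (algebraMap R0 B)).map (algebraMap B (SP B P)) := by
    have : algebraMap B (SP B P) (e * y) =
        algebraMap B (SP B P) m * (IsLocalization.mk' (SP B P) e m * algebraMap B (SP B P) y) := by
      rw [← mul_assoc, mul_comm (algebraMap B (SP B P) m), IsLocalization.mk'_spec, map_mul]
    rw [this]
    exact Ideal.mul_mem_left _ _ hd'y
  rw [IsLocalization.mem_map_algebraMap_iff M] at h1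
  obtain ⟨⟨a, m'⟩, ham⟩ := h1
  have hinj : Function.Injective (algebraMap B (SP B P)) :=
    IsLocalization.injective (SP B P) (algebraMapSubmonoid_le_nonZeroDivisors B P)
  have h2 : e * y * (m' : B) = (a : B) := by
    apply hinj
    rw [map_mul]
    exact ham
  refine ⟨e * (m' : B), ?_, ?_⟩
  · intro hmem
    rcases (Ideal.IsMaximal.isPrime hx).mem_or_mem hmem with h | h
    · exact he h
    · exact hMx _ m'.2 h
  · have h3 : e * (m' : B) * y = (a : B) := by rw [← h2]; ring
    rw [h3]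
    have ha : (a : B) ∈ P.map (algebraMap R0 B) := a.2
    have hmap : P.map (algebraMap R0 B) =
        Ideal.span {algebraMap R0 B π, algebraMap R0 B f} := by
      have h := congrArg (Ideal.map (algebraMap R0 B)) hPf
      rw [h, Ideal.map_span, Set.image_pair]
    rw [← hmap]
    exact ha

end A

section Frac

variable {R0 : Type*} [CommRing R0] [IsDomain R0]
  (B : Type*) [CommRing B] [IsDomain B] [Algebra R0 B] [FaithfulSMul R0 B]
  (P : Ideal R0) [P.IsPrime] (F : Type*) [Field F] [Algebra B F] [IsFractionRing B F]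

theorem isUnit_algebraMap_of_mem (m : Algebra.algebraMapSubmonoid B P.primeCompl) :
    IsUnit (algebraMap B F (m : B)) := by
  have h := algebraMapSubmonoid_le_nonZeroDivisors B P m.2
  have h0 : (m : B) ≠ 0 := nonZeroDivisors.ne_zero h
  exact IsUnit.mk0 _ (fun e => h0 ((IsFractionRing.injective B F) (by rw [e, map_zero])))

/-- The `S`-algebra structure on the fraction field `F` of `B`. -/
@[reducible] noncomputable def algebraSPF : Algebra (SP B P) F :=
  (IsLocalization.lift (M := Algebra.algebraMapSubmonoid B P.primeCompl) (g := algebraMap B F)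
    (isUnit_algebraMap_of_mem B P F)).toAlgebra

theorem isScalarTower_SPF :
    letI := algebraSPF B P F
    IsScalarTower B (SP B P) F := by
  letI := algebraSPF B P F
  refine IsScalarTower.of_algebraMap_eq fun b => ?_
  change _ = (IsLocalization.lift (M := Algebra.algebraMapSubmonoid B P.primeCompl)
    (g := algebraMap B F) (isUnit_algebraMap_of_mem B P F)) (algebraMap B (SP B P) b)
  rw [IsLocalization.lift_eq]

theorem isFractionRing_SPF :
    letI := algebraSPF B P F
    IsFractionRing (SP B P) F := by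
  letI := algebraSPF B P F
  haveI := isScalarTower_SPF B P F
  exact IsFractionRing.isFractionRing_of_isDomain_of_isLocalization
    (Algebra.algebraMapSubmonoid B P.primeCompl) (SP B P) F

end Frac

section Height

/-- A height-one prime has no nonzero prime strictly below it. -/
theorem eq_bot_of_lt_of_height_eq_one {S : Type*} [CommRing S] [IsDomain S] {𝔓' 𝔓 : Ideal S}
    [𝔓'.IsPrime] [𝔓.IsPrime] (h : 𝔓.height = 1) (hlt : 𝔓' < 𝔓) : 𝔓' = ⊥ := by
  haveI : 𝔓.FiniteHeight := 𝔓.finiteHeight_iff.mpr (Or.inr (by rw [h]; exact ENat.one_ne_top))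
  have h1 := Ideal.height_strict_mono_of_isPrime_of_isPrime hlt
  rw [h] at h1
  have h2 : 𝔓'.height = 0 := Order.lt_one_iff.mp h1
  exact Ideal.height_eq_zero_iff_eq_bot.mp h2

end Height

section B

variable {R0 : Type*} [CommRing R0] [IsDomain R0] [IsNoetherianRing R0] [IsIntegrallyClosed R0]
  (B : Type*) [CommRing B] [IsDomain B] [IsIntegrallyClosed B] [Algebra R0 B]
  [Module.Finite R0 B] [FaithfulSMul R0 B]
  (F : Type*) [Field F] [Algebra B F] [IsFractionRing B F]

/-- `π' ∉ 𝔓` for a height-one prime `𝔓` of `S` containing a prime element `g` of `R` which is not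
associated to `π'` (going down). -/
theorem pi_notMem_of_height_one (P : Ideal R0) [P.IsPrime] (π : R0) (hπ : Prime π) (hπP : π ∈ P)
    (g : RP P) (hgπ : ¬ algebraMap R0 (RP P) π ∣ g)
    (𝔓 : Ideal (SP B P)) [𝔓.IsPrime] (hht : 𝔓.height = 1)
    (hg𝔓 : algebraMap (RP P) (SP B P) g ∈ 𝔓) :
    algebraMap (RP P) (SP B P) (algebraMap R0 (RP P) π) ∉ 𝔓 := by
  intro hπ𝔓
  haveI : Algebra.IsIntegral (RP P) (SP B P) := Algebra.IsIntegral.of_finite _ _
  haveI := span_pi_isPrime P π hπ hπP
  have hlt : Ideal.span {algebraMap R0 (RP P) π} < 𝔓.under (RP P) := by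
    refine lt_of_le_of_ne ?_ ?_
    · rw [Ideal.span_singleton_le_iff_mem, Ideal.under_def, Ideal.mem_comap]
      exact hπ𝔓
    · intro heq
      have : g ∈ Ideal.span {algebraMap R0 (RP P) π} := by
        rw [heq, Ideal.under_def, Ideal.mem_comap]
        exact hg𝔓
      exact hgπ (Ideal.mem_span_singleton.mp this)
  obtain ⟨𝔓', h𝔓'le, h𝔓'prime, h𝔓'over⟩ :=
    Algebra.HasGoingDown.exists_ideal_le_liesOver_of_lt (R := RP P) (S := SP B P) 𝔓 hlt
  haveI := h𝔓'prime
  have hne : 𝔓' ≠ 𝔓 := by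
    intro heq
    have h1 : 𝔓'.under (RP P) = Ideal.span {algebraMap R0 (RP P) π} := (h𝔓'over.over).symm
    rw [heq] at h1
    exact hlt.ne' h1
  have hbot := eq_bot_of_lt_of_height_eq_one hht (lt_of_le_of_ne h𝔓'le hne)
  have hmem : algebraMap (RP P) (SP B P) (algebraMap R0 (RP P) π) ∈ 𝔓' := by
    have : algebraMap R0 (RP P) π ∈ 𝔓'.under (RP P) := by
      rw [← h𝔓'over.over]
      exact Ideal.mem_span_singleton_self _
    rwa [Ideal.under_def, Ideal.mem_comap] at this
  rw [hbot, Ideal.mem_bot] at hmem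
  have h0 : algebraMap R0 (RP P) π = 0 :=
    algebraMap_RP_SP_injective B P (by rw [hmem, map_zero])
  exact pi_ne_zero P π hπ.ne_zero h0

end B

section B2

variable {R0 : Type*} [CommRing R0] [IsDomain R0] [IsNoetherianRing R0] [IsIntegrallyClosed R0]
  (B : Type*) [CommRing B] [IsDomain B] [IsIntegrallyClosed B] [Algebra R0 B]
  [Module.Finite R0 B] [FaithfulSMul R0 B]
  (F : Type*) [Field F] [Algebra B F] [IsFractionRing B F]

/-- **Theorem B (horizontal primes).** -/
theorem not_dvd_discr_of_valuative (P : Ideal R0) [P.IsPrime] (π : R0) (hπ : Prime π)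
    [IsPrincipalIdealRing (R0 ⧸ Ideal.span {π})] (hπP : π ∈ P)
    (hchar : ∀ n : ℕ, n ≠ 0 → ∃ k : ℕ, (n : R0) ∣ π ^ k) (q : R0)
    (hUNR : ∀ O : ValuationSubring F, (∀ s : B, algebraMap B F s ∈ O) →
      IsDiscreteValuationRing O →
      (algebraMap B F (algebraMap R0 B π))⁻¹ ∈ O →
      (algebraMap B F (algebraMap R0 B q))⁻¹ ∈ O →
      (∀ r : R0, r ∉ P → (algebraMap B F (algebraMap R0 B r))⁻¹ ∈ O) →
      ∃ g0 : R0, (algebraMap B F (algebraMap R0 B g0))⁻¹ ∉ O ∧
        ∀ y ∈ O, y⁻¹ ∉ O → y / algebraMap B F (algebraMap R0 B g0) ∈ O)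
    {ι : Type*} [Fintype ι] [DecidableEq ι] (b : Module.Basis ι (RP P) (SP B P))
    (g : RP P) (hg : Prime g) (hgπ : ¬ algebraMap R0 (RP P) π ∣ g)
    (hgq : ¬ g ∣ algebraMap R0 (RP P) q) :
    ¬ g ∣ Algebra.discr (RP P) b := by
  classical
  letI := algebraSPF B P F
  haveI := isScalarTower_SPF B P F
  haveI := isFractionRing_SPF B P F
  haveI : IsNoetherianRing B := IsNoetherianRing.of_finite R0 B
  haveI : IsNoetherianRing (SP B P) :=
    IsLocalization.isNoetherianRing (Algebra.algebraMapSubmonoid B P.primeCompl) _ inferInstance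
  haveI hgprime : (Ideal.span {g}).IsPrime := (Ideal.span_singleton_prime hg.ne_zero).mpr hg
  set π' : RP P := algebraMap R0 (RP P) π with hπ'
  have hπ'prime : Prime π' := prime_pi P π hπ hπP
  -- residue characteristic zero
  haveI : CharZero (RP P ⧸ Ideal.span {g}) := by
    apply charZero_of_inj_zero
    intro n hn
    by_contra hn0
    have h1 : ((n : ℕ) : RP P) ∈ Ideal.span {g} := by
      rw [← Ideal.Quotient.eq_zero_iff_mem, map_natCast]
      exact hn
    obtain ⟨k, hk⟩ := hchar n hn0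
    have h2 : ((n : ℕ) : RP P) ∣ π' ^ k := by
      have := map_dvd (algebraMap R0 (RP P)) hk
      rwa [map_natCast, map_pow] at this
    have h3 : g ∣ π' := hg.dvd_of_dvd_pow ((Ideal.mem_span_singleton.mp h1).trans h2)
    obtain ⟨c, hc⟩ := h3
    rcases hπ'prime.irreducible.isUnit_or_isUnit hc with hu | hu
    · exact hg.not_isUnit hu
    · obtain ⟨u, rfl⟩ := hu
      exact hgπ ⟨↑u⁻¹, by rw [hc, mul_assoc, Units.mul_inv, mul_one]⟩
  have hinjRS := algebraMap_RP_SP_injective B P
  have hinjSF : Function.Injective (algebraMap (SP B P) F) := IsFractionRing.injective _ _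
  have hg0 : algebraMap (RP P) (SP B P) g ≠ 0 := fun h =>
    hg.ne_zero (hinjRS (by rw [h, map_zero]))
  intro hdvd
  refine Disc5.discr_notMem_span_of_unramified g b hg0 ?_ (Ideal.mem_span_singleton.mpr hdvd)
  intro 𝔓 h𝔓 hht hg𝔓 y hy
  haveI := h𝔓
  by_cases hy0 : y = 0
  · exact ⟨1, fun h1 => h𝔓.ne_top ((Ideal.eq_top_iff_one _).mpr h1), by rw [hy0, mul_zero]; exact dvd_zero _⟩
  set O : ValuationSubring F := Hartogs22.valuationSubringAt (K := F) 𝔓 hht with hO
  -- elements of `S` outside `𝔓` are units of `O`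
  have hunitO : ∀ s : SP B P, s ∉ 𝔓 → (algebraMap (SP B P) F s)⁻¹ ∈ O := by
    intro s hs
    rw [hO, Hartogs22.mem_valuationSubringAt_iff]
    refine ⟨1, s, hs, ?_⟩
    have hs0 : algebraMap (SP B P) F s ≠ 0 := fun h => hs (by
      have : s = 0 := hinjSF (by rw [h, map_zero])
      rw [this]; exact 𝔓.zero_mem)
    rw [inv_mul_cancel₀ hs0, map_one]
  have hSO : ∀ s : SP B P, algebraMap (SP B P) F s ∈ O := fun s =>
    Hartogs22.algebraMap_mem_valuationSubringAt 𝔓 hht s
  -- elements of `𝔓` are non-units of `O`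
  have hnonunit : ∀ s : SP B P, s ∈ 𝔓 → s ≠ 0 → (algebraMap (SP B P) F s)⁻¹ ∉ O := by
    intro s hs hs0 hmem
    rw [hO, Hartogs22.mem_valuationSubringAt_iff] at hmem
    obtain ⟨a, s', hs', e⟩ := hmem
    have hsF : algebraMap (SP B P) F s ≠ 0 := fun h => hs0 (hinjSF (by rw [h, map_zero]))
    have : algebraMap (SP B P) F s' = algebraMap (SP B P) F (a * s) := by
      rw [map_mul, ← e]; field_simp
    have h2 : s' = a * s := hinjSF this
    exact hs' (h2 ▸ 𝔓.mul_mem_left a hs)
  have hBF : ∀ r : B, algebraMap B F r = algebraMap (SP B P) F (algebraMap B (SP B P) r) :=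
    fun r => IsScalarTower.algebraMap_apply B (SP B P) F r
  have hR0S : ∀ r : R0, algebraMap B (SP B P) (algebraMap R0 B r) =
      algebraMap (RP P) (SP B P) (algebraMap R0 (RP P) r) := by
    intro r
    rw [← IsScalarTower.algebraMap_apply, ← IsScalarTower.algebraMap_apply]
  have hπ𝔓 : algebraMap (RP P) (SP B P) π' ∉ 𝔓 :=
    pi_notMem_of_height_one B P π hπ hπP g hgπ 𝔓 hht hg𝔓
  -- `𝔓 ∩ R = (g)`
  haveI := isPrincipalIdealRing_quotient P.primeCompl (RP P) π
  have hjac : π' ∈ Ideal.jacobson (⊥ : Ideal (RP P)) := by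
    rw [IsLocalRing.jacobson_eq_maximalIdeal ⊥ bot_ne_top]
    exact pi_mem_maximalIdeal P π hπP
  have hπunder : π' ∉ 𝔓.under (RP P) := by
    rw [Ideal.under_def, Ideal.mem_comap]; exact hπ𝔓
  obtain ⟨h, hh, hunder⟩ :=
    Fermat.Agent.RED.CORE.LocalPrincipal14.isPrincipal_of_notMem π' hjac (𝔓.under (RP P)) hπunder
  have hgunder : g ∈ 𝔓.under (RP P) := by
    rw [Ideal.under_def, Ideal.mem_comap]; exact hg𝔓
  -- `q ∉ 𝔓`
  have hq𝔓 : algebraMap (RP P) (SP B P) (algebraMap R0 (RP P) q) ∉ 𝔓 := by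
    intro hmem
    have hqunder : algebraMap R0 (RP P) q ∈ 𝔓.under (RP P) := by
      rw [Ideal.under_def, Ideal.mem_comap]; exact hmem
    have hgu := hgunder
    rw [hunder, Ideal.mem_span_singleton] at hgu hqunder
    obtain ⟨c, hc⟩ := hgu
    rcases hg.irreducible.isUnit_or_isUnit hc with hu | hu
    · have : 𝔓.under (RP P) = ⊤ := by
        rw [hunder]; exact Ideal.span_singleton_eq_top.mpr hu
      exact (Ideal.IsPrime.under (RP P) 𝔓).ne_top this
    · obtain ⟨u, rfl⟩ := hu
      obtain ⟨e, he⟩ := hqunder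
      exact hgq ⟨↑u⁻¹ * e, by rw [he, hc]; simp [mul_assoc]⟩
  obtain ⟨g0, hg0O, huni⟩ := hUNR O (fun s => by rw [hBF]; exact hSO _) inferInstance
    (by rw [hBF, hR0S]; exact hunitO _ hπ𝔓)
    (by rw [hBF, hR0S]; exact hunitO _ hq𝔓)
    (by
      intro r hr
      rw [hBF, hR0S]
      apply hunitO
      intro hmem
      have hu : IsUnit (algebraMap R0 (RP P) r) :=
        IsLocalization.map_units (RP P) (⟨r, hr⟩ : P.primeCompl)
      exact h𝔓.ne_top (Ideal.eq_top_of_isUnit_mem _ hmem (hu.map _)))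
  -- `g0 ∈ 𝔓`
  have hg0𝔓 : algebraMap (RP P) (SP B P) (algebraMap R0 (RP P) g0) ∈ 𝔓 := by
    by_contra hnot
    apply hg0O
    rw [hBF, hR0S]
    exact hunitO _ hnot
  have hg0under : algebraMap R0 (RP P) g0 ∈ 𝔓.under (RP P) := by
    rw [Ideal.under_def, Ideal.mem_comap]; exact hg0𝔓
  have hgh : g ∣ algebraMap R0 (RP P) g0 := by
    rw [hunder, Ideal.mem_span_singleton] at hgunder hg0under
    obtain ⟨c, hc⟩ := hgunder
    rcases hg.irreducible.isUnit_or_isUnit hc with hu | hu
    · exfalso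
      have : 𝔓.under (RP P) = ⊤ := by
        rw [hunder]; exact Ideal.span_singleton_eq_top.mpr hu
      exact (Ideal.IsPrime.under (RP P) 𝔓).ne_top this
    · obtain ⟨u, rfl⟩ := hu
      obtain ⟨e, he⟩ := hg0under
      exact ⟨↑u⁻¹ * e, by rw [he, hc]; simp [mul_assoc]⟩
  obtain ⟨c, hc⟩ := hgh
  -- `y / g0 ∈ O`
  have hyO := huni (algebraMap (SP B P) F y) (hSO y) (hnonunit y hy hy0)
  rw [hO, Hartogs22.mem_valuationSubringAt_iff] at hyO
  obtain ⟨a, s, hs, e⟩ := hyO
  refine ⟨s, hs, ?_⟩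
  have hg0F : algebraMap B F (algebraMap R0 B g0) ≠ 0 := by
    intro h0
    apply hg0O
    rw [h0, inv_zero]; exact O.zero_mem
  have h1 : algebraMap (SP B P) F (s * y) =
      algebraMap (SP B P) F (a * algebraMap (RP P) (SP B P) (algebraMap R0 (RP P) g0)) := by
    rw [map_mul, map_mul, ← hR0S, ← hBF, ← e]
    field_simp
  have h2 := hinjSF h1
  rw [h2, hc, map_mul]
  exact ⟨a * algebraMap (RP P) (SP B P) c, by ring⟩

end B2


section C

variable {R0 : Type*} [CommRing R0] [IsDomain R0]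
  (B : Type*) [CommRing B] [IsDomain B] [Algebra R0 B] [FaithfulSMul R0 B]

/-- **Theorem C (the vertical prime).** -/
theorem not_dvd_discr_of_separable (P : Ideal R0) [P.IsPrime] (π : R0) (hπP : π ∈ P)
    {k₀ L : Type*} [Field k₀] [Field L] [Algebra k₀ L] (ρ₀ : R0 →+* k₀) (ρ : B →+* L)
    (hcomp : ∀ r : R0, ρ (algebraMap R0 B r) = algebraMap k₀ L (ρ₀ r))
    (hker₀ : ∀ r : R0, ρ₀ r = 0 ↔ π ∣ r)
    (hker : ∀ z : B, ρ z = 0 ↔ algebraMap R0 B π ∣ z)
    (hgen : ∀ c : k₀, ∃ r r' : R0, ρ₀ r' ≠ 0 ∧ c * ρ₀ r' = ρ₀ r)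
    (hsep : ∀ z : B, IsSeparable k₀ (ρ z))
    {ι : Type*} [Fintype ι] [DecidableEq ι] (b : Module.Basis ι (RP P) (SP B P))
    (hprime : (Ideal.span {algebraMap R0 (RP P) π}).IsPrime) :
    ¬ algebraMap R0 (RP P) π ∣ Algebra.discr (RP P) b := by
  classical
  have hunit₀ : ∀ m : P.primeCompl, IsUnit (ρ₀ (m : R0)) := by
    intro m
    refine IsUnit.mk0 _ fun h0 => m.2 ?_
    obtain ⟨c, hc⟩ := (hker₀ _).mp h0
    rw [hc]
    exact P.mul_mem_right c hπP
  have hunit : ∀ m : Algebra.algebraMapSubmonoid B P.primeCompl, IsUnit (ρ (m : B)) := by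
    rintro ⟨_, m0, hm0, rfl⟩
    rw [hcomp]
    exact (hunit₀ ⟨m0, hm0⟩).map _
  set ρ₀' : RP P →+* k₀ := IsLocalization.lift (M := P.primeCompl) (g := ρ₀) hunit₀ with hρ₀'
  set ρ' : SP B P →+* L :=
    IsLocalization.lift (M := Algebra.algebraMapSubmonoid B P.primeCompl) (g := ρ) hunit with hρ'
  have hρ₀'_eq : ∀ r : R0, ρ₀' (algebraMap R0 (RP P) r) = ρ₀ r := fun r => IsLocalization.lift_eq _ r
  have hρ'_eq : ∀ z : B, ρ' (algebraMap B (SP B P) z) = ρ z := fun z => IsLocalization.lift_eq _ z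
  have hcomp' : ∀ r : RP P, ρ' (algebraMap (RP P) (SP B P) r) = algebraMap k₀ L (ρ₀' r) := by
    have : ρ'.comp (algebraMap (RP P) (SP B P)) = (algebraMap k₀ L).comp ρ₀' := by
      apply IsLocalization.ringHom_ext P.primeCompl
      ext r
      simp only [RingHom.comp_apply]
      rw [← IsScalarTower.algebraMap_apply R0 (RP P) (SP B P),
        IsScalarTower.algebraMap_apply R0 B (SP B P), hρ'_eq, hρ₀'_eq, hcomp]
    intro r
    exact RingHom.congr_fun this r
  have hπS : algebraMap (RP P) (SP B P) (algebraMap R0 (RP P) π) =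
      algebraMap B (SP B P) (algebraMap R0 B π) := by
    rw [← IsScalarTower.algebraMap_apply, ← IsScalarTower.algebraMap_apply]
  have hρπ : ρ (algebraMap R0 B π) = 0 := (hker _).mpr (dvd_refl _)
  have hker' : ∀ z : SP B P, ρ' z = 0 ↔
      z ∈ (Ideal.span {algebraMap R0 (RP P) π}).map (algebraMap (RP P) (SP B P)) := by
    intro z
    rw [Ideal.map_span, Set.image_singleton, Ideal.mem_span_singleton, hπS]
    constructor
    · intro hz
      obtain ⟨e, m, rfl⟩ := IsLocalization.exists_mk'_eq (Algebra.algebraMapSubmonoid B P.primeCompl) z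
      have h1 : ρ e = 0 := by
        have h2 : ρ' (IsLocalization.mk' (SP B P) e m) * ρ' (algebraMap B (SP B P) m) =
            ρ' (algebraMap B (SP B P) e) := by
          rw [← map_mul, IsLocalization.mk'_spec]
        rw [hz, zero_mul, hρ'_eq] at h2
        exact h2.symm
      obtain ⟨c, hc⟩ := (hker e).mp h1
      refine ⟨IsLocalization.mk' (SP B P) c m, ?_⟩
      rw [hc, ← IsLocalization.mul_mk'_eq_mk'_of_mul]
    · rintro ⟨c, rfl⟩
      rw [map_mul, hρ'_eq, hρπ, zero_mul]
  have hgen' : ∀ c : k₀, ∃ r r' : RP P, ρ₀' r' ≠ 0 ∧ c * ρ₀' r' = ρ₀' r := by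
    intro c
    obtain ⟨r, r', hr', e⟩ := hgen c
    exact ⟨algebraMap R0 (RP P) r, algebraMap R0 (RP P) r', by rwa [hρ₀'_eq], by
      rw [hρ₀'_eq, hρ₀'_eq, e]⟩
  have hsep' : ∀ z : SP B P, IsSeparable k₀ (ρ' z) := by
    intro z
    obtain ⟨e, m, rfl⟩ :=
      IsLocalization.exists_mk'_eq (Algebra.algebraMapSubmonoid B P.primeCompl) z
    obtain ⟨m0, hm0, hm⟩ : ∃ m0 ∈ P.primeCompl, algebraMap R0 B m0 = (m : B) := m.2
    have h2 : ρ' (IsLocalization.mk' (SP B P) e m) = ρ e * algebraMap k₀ L ((ρ₀ m0)⁻¹) := by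
      have hne : algebraMap k₀ L (ρ₀ m0) ≠ 0 := by
        rw [← hcomp, hm]
        exact (hunit m).ne_zero
      have h3 : ρ' (IsLocalization.mk' (SP B P) e m) * algebraMap k₀ L (ρ₀ m0) = ρ e := by
        rw [← hcomp, hm, ← hρ'_eq (m : B), ← map_mul, IsLocalization.mk'_spec, hρ'_eq]
      rw [map_inv₀, ← h3, mul_assoc, mul_inv_cancel₀ hne, mul_one]
    rw [h2]
    exact Field.isSeparable_mul (hsep e) (isSeparable_algebraMap _)
  haveI := hprime
  have := DiscAbstract21.discr_notMem_of_separable b (Ideal.span {algebraMap R0 (RP P) π})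
    ρ₀' ρ' hcomp' hker' hgen' hsep'
  intro hdvd
  exact this (Ideal.mem_span_singleton.mpr hdvd)

end C


section Main

variable {R0 : Type*} [CommRing R0] [IsDomain R0] [IsNoetherianRing R0] [IsIntegrallyClosed R0]
  (B : Type*) [CommRing B] [IsDomain B] [IsIntegrallyClosed B] [Algebra R0 B]
  [Module.Finite R0 B] [FaithfulSMul R0 B]
  (F : Type*) [Field F] [Algebra B F] [IsFractionRing B F]

/-- **Purity by hand, global form (non-cusp closed points).**
`R0` noetherian integrally closed domain, `π` prime, `R0 / π` a PID, `B` an integrally closed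
domain finite over `R0`, `F = Frac B`, `x` a maximal ideal of `B` containing `π`.  Assume

* (vertical) a reduction `ρ : B → L` with kernel `πB` over `ρ₀ : R0 → k₀` with kernel `πR0`, `k₀` the
  fraction field of the image, every `ρ z` separable over `k₀`;
* (horizontal) every discrete valuation ring `O ⊇ B` of `F` in which `π` is a unit and whose centre
  on `R0` is contained in `x ∩ R0` has a uniformiser in `R0`;
* every nonzero integer divides a power of `π` in `R0`.

Then `x` is locally generated by `π` and one element `f` of `R0`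
(the shape of `CoreIface24.TwoChartModel.smooth0`, `Interface26.LocPrin`). -/
theorem smooth_of_purity (π : R0) (hπ : Prime π) [IsPrincipalIdealRing (R0 ⧸ Ideal.span {π})]
    (x : Ideal B) [hx : x.IsMaximal] (hπx : algebraMap R0 B π ∈ x)
    (hchar : ∀ n : ℕ, n ≠ 0 → ∃ k : ℕ, (n : R0) ∣ π ^ k)
    {k₀ L : Type*} [Field k₀] [Field L] [Algebra k₀ L] (ρ₀ : R0 →+* k₀) (ρ : B →+* L)
    (hcomp : ∀ r : R0, ρ (algebraMap R0 B r) = algebraMap k₀ L (ρ₀ r))
    (hker₀ : ∀ r : R0, ρ₀ r = 0 ↔ π ∣ r)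
    (hker : ∀ z : B, ρ z = 0 ↔ algebraMap R0 B π ∣ z)
    (hgen : ∀ c : k₀, ∃ r r' : R0, ρ₀ r' ≠ 0 ∧ c * ρ₀ r' = ρ₀ r)
    (hsep : ∀ z : B, IsSeparable k₀ (ρ z))
    (hUNR : ∀ O : ValuationSubring F, (∀ s : B, algebraMap B F s ∈ O) →
      IsDiscreteValuationRing O →
      (algebraMap B F (algebraMap R0 B π))⁻¹ ∈ O →
      (∀ r : R0, algebraMap R0 B r ∉ x → (algebraMap B F (algebraMap R0 B r))⁻¹ ∈ O) →
      ∃ g0 : R0, (algebraMap B F (algebraMap R0 B g0))⁻¹ ∉ O ∧
        ∀ y ∈ O, y⁻¹ ∉ O → y / algebraMap B F (algebraMap R0 B g0) ∈ O) :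
    ∃ f : R0, algebraMap R0 B f ∈ x ∧ ∀ y ∈ x, ∃ d, d ∉ x ∧
      d * y ∈ Ideal.span {algebraMap R0 B π, algebraMap R0 B f} := by
  classical
  set P : Ideal R0 := x.comap (algebraMap R0 B) with hP
  have hπP : π ∈ P := hπx
  haveI : Module.Free (RP P) (SP B P) := free_localization B P π hπ hπP
  let b := Module.Free.chooseBasis (RP P) (SP B P)
  refine smooth_of_discr B π hπ x hπx b ?_
  intro g hg
  have hπ'prime : Prime (algebraMap R0 (RP P) π) := prime_pi P π hπ hπP
  by_cases hgπ : algebraMap R0 (RP P) π ∣ g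
  · -- `g` is associated to `π`
    intro hdvd
    exact not_dvd_discr_of_separable B P π hπP ρ₀ ρ hcomp hker₀ hker hgen hsep b
      (span_pi_isPrime P π hπ hπP) (hgπ.trans hdvd)
  · refine not_dvd_discr_of_valuative B F P π hπ hπP hchar 1 ?_ b g hg hgπ ?_
    · intro O h1 h2 h3 _ h4
      exact hUNR O h1 h2 h3 h4
    · rw [map_one]
      exact fun h => hg.not_isUnit (isUnit_of_dvd_one h)

end Main

end Fermat.Agent.RED.PUR.PurityMain26
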