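/-
Program H (S18), chapter PUR (helper22): the VERTICAL BRIDGE, abstract part.

Produces the two hypotheses `hB` (`π B` is prime) and `hsep` (every element of `B` is, modulo `π`, a
simple root of a polynomial over `R0`) of `FibreTrace17.traceNondeg_of_separable` from a residue map
`ψ : B → L` into a field with kernel `π B`, compatible with `φ : R0 → κ0 ⊆ L` (`κ0` generated as a
field by `φ R0`), such that every residue `ψ z` is separable over `κ0`.
In the application `κ0 = κ(t̃)`, `L = κ((q))`, `ψ` = the Gauss reduction.  Mathlib only.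
-/
import Mathlib

set_option autoImplicit false

namespace Fermat.Agent.RED.PUR.VertBridge22

open Polynomial

variable {R0 B : Type*} [CommRing R0] [CommRing B] [Algebra R0 B] (π : R0)
  {κ0 L : Type*} [Field κ0] [Field L] [Algebra κ0 L]
  (φ : R0 →+* κ0) (ψ : B →+* L)

/-- `π B = ker ψ` is prime. -/
theorem isPrime_span_of_residue
    (hcomp : ∀ r, ψ (algebraMap R0 B r) = algebraMap κ0 L (φ r)) (hφπ : φ π = 0)
    (hker : ∀ b : B, ψ b = 0 → algebraMap R0 B π ∣ b) :
    (Ideal.span {algebraMap R0 B π}).IsPrime := by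
  have hEq : Ideal.span {algebraMap R0 B π} = RingHom.ker ψ := by
    ext b
    rw [Ideal.mem_span_singleton, RingHom.mem_ker]
    constructor
    · rintro ⟨c, rfl⟩
      rw [map_mul, hcomp, hφπ, map_zero, zero_mul]
    · exact hker b
  rw [hEq]
  exact RingHom.ker_isPrime ψ

variable {φ} in
/-- Clearing denominators through `φ`. -/
theorem exists_lift_mul (hfrac : ∀ c : κ0, ∃ a b : R0, φ b ≠ 0 ∧ c * φ b = φ a) (m : κ0[X]) :
    ∃ (c : R0) (p : R0[X]), φ c ≠ 0 ∧ p.map φ = C (φ c) * m := by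
  induction m using Polynomial.induction_on' with
  | add m1 m2 h1 h2 =>
    obtain ⟨c1, p1, hc1, hp1⟩ := h1
    obtain ⟨c2, p2, hc2, hp2⟩ := h2
    refine ⟨c1 * c2, C c2 * p1 + C c1 * p2, ?_, ?_⟩
    · rw [map_mul]; exact mul_ne_zero hc1 hc2
    · rw [Polynomial.map_add, Polynomial.map_mul, Polynomial.map_mul, map_C, map_C, hp1, hp2,
        map_mul, C_mul]
      ring
  | monomial n a =>
    obtain ⟨a', b', hb', hab⟩ := hfrac a
    refine ⟨b', monomial n a', hb', ?_⟩
    rw [map_monomial, ← hab, C_mul_monomial, mul_comm]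

variable {π φ ψ}

/-- `ψ (p(z)) = (φ p)(ψ z)`. -/
theorem map_aeval (hcomp : ∀ r, ψ (algebraMap R0 B r) = algebraMap κ0 L (φ r)) (z : B)
    (p : R0[X]) : ψ (aeval z p) = aeval (ψ z) (p.map φ) := by
  have h1 : ψ.comp (algebraMap R0 B) = (algebraMap κ0 L).comp φ := RingHom.ext hcomp
  rw [aeval_def, hom_eval₂, h1, aeval_def, eval₂_map]

/-- **`hsep`**: every element of `B` is, modulo `π`, a simple root of a polynomial over `R0`. -/
theorem hsep_of_residue
    (hcomp : ∀ r, ψ (algebraMap R0 B r) = algebraMap κ0 L (φ r)) (hφπ : φ π = 0)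
    (hfrac : ∀ c : κ0, ∃ a b : R0, φ b ≠ 0 ∧ c * φ b = φ a)
    (hker : ∀ b : B, ψ b = 0 → algebraMap R0 B π ∣ b)
    (hsepL : ∀ z : B, IsSeparable κ0 (ψ z)) :
    ∀ z : B, ∃ p : Polynomial R0, algebraMap R0 B π ∣ aeval z p ∧
      ¬ algebraMap R0 B π ∣ aeval z (derivative p) := by
  intro z
  have hs : (minpoly κ0 (ψ z)).Separable := hsepL z
  obtain ⟨c, p, hc, hp⟩ := exists_lift_mul hfrac (minpoly κ0 (ψ z))
  have hcL : algebraMap κ0 L (φ c) ≠ 0 := by
    simpa using (algebraMap κ0 L).injective.ne hc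
  refine ⟨p, ?_, ?_⟩
  · apply hker
    rw [map_aeval hcomp, hp, map_mul, aeval_C, minpoly.aeval, mul_zero]
  · rintro ⟨b, hb⟩
    have h1 : ψ (aeval z (derivative p)) = 0 := by
      rw [hb, map_mul, hcomp, hφπ, map_zero, zero_mul]
    rw [map_aeval hcomp, ← derivative_map, hp, derivative_C_mul, map_mul, aeval_C] at h1
    rcases mul_eq_zero.1 h1 with h2 | h2
    · exact hcL h2
    · exact hs.aeval_derivative_ne_zero (minpoly.aeval κ0 (ψ z)) h2

end Fermat.Agent.RED.PUR.VertBridge22
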