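/-
Program H (S18), chapter PUR (helper22): the VERTICAL BRIDGE, concrete-generic part.

In helper8's generic Gauss setting `(O, π, E ≤ fracField O, t ∈ E ∩ gaussRing O, t̃ transcendental,
(DEG), (IRR))`, for `R0 := O[X]` and ANY `R0`-algebra `B` with an injective ring hom `ι : B → E` identifying
`B` with the integral closure of `O[t]` in `E` (`algebraMap R0 B P ↦ P(t)`), we produce the hypotheses
`hB`, `hsep` of `FibreTrace17.traceNondeg_of_separable` for the vertical prime `(π)`: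
* `isPrime_span_pi`  : `(Ideal.span {algebraMap R0 B (C π)}).IsPrime`;
* `hsep_pi`          : `∀ z : B, ∃ p : R0[X], π ∣ p(z) ∧ ¬ π ∣ p'(z)`,
given that every element of `κ((q))` algebraic over `κ(t̃)` is separable over `κ(t̃)` (`SepLaurent25`).
-/
import Mathlib
import Fermat.Agent.RED.PUR.G1Package8
import Fermat.Agent.RED.PUR.VertBridge22
import Fermat.Agent.RED.PUR.SepLaurent25
import Fermat.Agent.RED.PUR.ChartGeneric22

set_option autoImplicit false
set_option linter.unusedSectionVars false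

noncomputable section

open HahnSeries ModularCurve Polynomial

namespace Fermat.Agent.RED.PUR.VertGauss22

open Fermat.Agent.RED.PUR.GaussGen8 Fermat.Agent.RED.PUR.KtGauss8 Fermat.Agent.RED.PUR.G1Package8
open Fermat.Agent.RED.PUR.VertBridge22

variable {K : Type*} [Field K] (O : ValuationSubring K) [IsDiscreteValuationRing ↥O]
  {π : ↥O} (hπ : Irreducible π)
  (E : IntermediateField K (LaurentSeries K)) (hE : E ≤ fracField O)
  (t : ↥E) (ht : (t : LaurentSeries K) ∈ gaussRing O)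

/-- `φ : O[X] → κ(t̃)`, `P ↦ P̃(t̃)`. -/
def phi : (↥O)[X] →+* ↥(kt O ⟨(t : LaurentSeries K), ht⟩) :=
  RingHom.codRestrict
    (((aeval (gaussRed O ⟨(t : LaurentSeries K), ht⟩)).toRingHom).comp (mapRingHom (res0 O)))
    (kt O ⟨(t : LaurentSeries K), ht⟩)
    (fun P => aeval_mem_kt (P.map (res0 O)))

theorem coe_phi (P : (↥O)[X]) :
    ((phi O E t ht P : ↥(kt O ⟨(t : LaurentSeries K), ht⟩)) : LaurentSeries (Res O)) =
      aeval (gaussRed O ⟨(t : LaurentSeries K), ht⟩) (P.map (res0 O)) := rfl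

include hπ in
theorem phi_C_pi : phi O E t ht (C π) = 0 := by
  apply Subtype.ext
  rw [coe_phi, Polynomial.map_C, aeval_C, res0_unif (isUnif_of_irreducible O hπ), map_zero]
  rfl

/-- every element of `κ(t̃)` is a ratio of `φ`-values. -/
theorem phi_frac (c : ↥(kt O ⟨(t : LaurentSeries K), ht⟩)) :
    ∃ a b : (↥O)[X], phi O E t ht b ≠ 0 ∧ c * phi O E t ht b = phi O E t ht a := by
  obtain ⟨r, s, hc⟩ := (IntermediateField.mem_adjoin_simple_iff (Res O) (c : LaurentSeries (Res O))).1 c.2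
  have hsurj : Function.Surjective (Polynomial.map (res0 O)) :=
    Polynomial.map_surjective _ IsLocalRing.residue_surjective
  obtain ⟨a, rfl⟩ := hsurj r
  obtain ⟨b, rfl⟩ := hsurj s
  by_cases hb : phi O E t ht b = 0
  · refine ⟨0, 1, ?_, ?_⟩
    · rw [map_one]; exact one_ne_zero
    · have hb' : aeval (gaussRed O ⟨(t : LaurentSeries K), ht⟩) (b.map (res0 O)) = 0 := by
        rw [← coe_phi, hb]; rfl
      rw [hb', div_zero] at hc
      rw [map_one, mul_one, map_zero]
      exact Subtype.ext hc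
  · refine ⟨a, b, hb, Subtype.ext ?_⟩
    have hb' : aeval (gaussRed O ⟨(t : LaurentSeries K), ht⟩) (b.map (res0 O)) ≠ 0 := by
      intro h
      exact hb (Subtype.ext h)
    show (c : LaurentSeries (Res O)) * _ = _
    rw [coe_phi, coe_phi, hc, div_mul_cancel₀ _ hb']

variable {B : Type*} [CommRing B] [Algebra (↥O)[X] B] (ι : B →+* ↥E)
  (h1 : ∀ r : (↥O)[X], ι (algebraMap (↥O)[X] B r) = aeval t r)
  (h2 : ∀ b : B, IsIntegral ↥(Algebra.adjoin ↥O {t}) (ι b))

/-- `B → Ov`. -/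
def toOv : B →+* ↥(OvE O hπ E hE) :=
  RingHom.codRestrict ι (OvE O hπ E hE) (fun b => mem_OvE_of_isIntegral hπ hE t ht (h2 b))

/-- The Gauss reduction on `B`. -/
def psi : B →+* LaurentSeries (Res O) :=
  (gaussVSRed (isUnif_of_irreducible O hπ) E hE).comp (toOv O hπ E hE t ht ι h2)

theorem psi_apply (b : B) :
    psi O hπ E hE t ht ι h2 b =
      gaussRed O ⟨((ι b : ↥E) : LaurentSeries K),
        (mem_OvE_iff O hπ E hE _).mp (mem_OvE_of_isIntegral hπ hE t ht (h2 b))⟩ := rfl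

include h1 in
theorem psi_comp (r : (↥O)[X]) :
    psi O hπ E hE t ht ι h2 (algebraMap (↥O)[X] B r) =
      algebraMap ↥(kt O ⟨(t : LaurentSeries K), ht⟩) (LaurentSeries (Res O)) (phi O E t ht r) := by
  rw [psi_apply]
  have hco : ((ι (algebraMap (↥O)[X] B r) : ↥E) : LaurentSeries K) =
      ((polyG O ⟨(t : LaurentSeries K), ht⟩ r : ↥(gaussRing O)) : LaurentSeries K) := by
    rw [h1, coe_aeval, coe_polyG]
  have : (⟨((ι (algebraMap (↥O)[X] B r) : ↥E) : LaurentSeries K),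
        (mem_OvE_iff O hπ E hE _).mp (mem_OvE_of_isIntegral hπ hE t ht (h2 _))⟩ : ↥(gaussRing O)) =
      polyG O ⟨(t : LaurentSeries K), ht⟩ r := Subtype.ext hco
  rw [this, gaussRed_polyG]
  rfl

variable (hι : Function.Injective ι)
  (h3 : ∀ x : ↥E, IsIntegral ↥(Algebra.adjoin ↥O {t}) x → ∃ b : B, ι b = x)
  (htr : Transcendental (Res O) (gaussRed O ⟨(t : LaurentSeries K), ht⟩))
  {n : ℕ} (hdeg : DegLe O E ⟨(t : LaurentSeries K), ht⟩ n)
  (hirr : Irr O E ⟨(t : LaurentSeries K), ht⟩ n)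

include h1 hι h3 htr hdeg hirr in
/-- The kernel of the Gauss reduction on `B` is `π B`. -/
theorem psi_ker (b : B) (hb : psi O hπ E hE t ht ι h2 b = 0) :
    algebraMap (↥O)[X] B (C π) ∣ b := by
  have hu := isUnif_of_irreducible O hπ
  rw [psi_apply] at hb
  obtain ⟨g, hg⟩ := (gaussRed_eq_zero_iff hu _).mp hb
  have hg' : ((ι b : ↥E) : LaurentSeries K) = piK π * (g : LaurentSeries K) :=
    congrArg (fun y : ↥(gaussRing O) => (y : LaurentSeries K)) hg
  have hpi := algebraMap_pi_ne_zero hπ (E := E)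
  set c : ↥E := (algebraMap ↥O ↥E π)⁻¹ * ι b with hc
  have hcOv : c ∈ OvE O hπ E hE := by
    rw [mem_OvE_iff]
    have : ((c : ↥E) : LaurentSeries K) = (g : LaurentSeries K) := by
      show ((algebraMap ↥O ↥E π : ↥E) : LaurentSeries K)⁻¹ * ((ι b : ↥E) : LaurentSeries K) = _
      rw [coe_algebraMap_pi, hg', ← mul_assoc, inv_mul_cancel₀ (piK_ne_zero hu), one_mul]
    rw [this]
    exact g.2
  have hbc : ι b = algebraMap ↥O ↥E π * c := by
    rw [hc, ← mul_assoc, mul_inv_cancel₀ hpi, one_mul]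
  have hcint : IsIntegral ↥(Algebra.adjoin ↥O {t}) c :=
    isIntegral_of_mul hπ hE t ht htr hdeg hirr hcOv (hbc ▸ h2 b)
  obtain ⟨b', hb'⟩ := h3 c hcint
  refine ⟨b', hι ?_⟩
  rw [map_mul, h1, aeval_C, hb', hbc]

include h1 hι in
/-- residues of elements of `B` are integral over `κ(t̃)`. -/
theorem isIntegral_psi (z : B) :
    IsIntegral ↥(kt O ⟨(t : LaurentSeries K), ht⟩) (psi O hπ E hE t ht ι h2 z) := by
  obtain ⟨P, hP, hcoeff, hPz⟩ :=
    (Fermat.Agent.RED.PUR.ChartGeneric22.isIntegral_subalgebra_iff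
      (Algebra.adjoin ↥O {t}) (ι z)).1 (h2 z)
  set f : (↥O)[X] →+* ↥E := (aeval t).toRingHom with hf
  have hl : P ∈ lifts f := by
    rw [lifts_iff_coeff_lifts]
    intro k
    have := hcoeff k
    rw [Algebra.adjoin_singleton_eq_range_aeval] at this
    obtain ⟨Q, hQ⟩ := this
    exact ⟨Q, hQ⟩
  obtain ⟨q, hq, -, hqm⟩ := lifts_and_natDegree_eq_and_monic hl hP
  have hzero : aeval z q = 0 := by
    apply hι
    rw [map_zero, aeval_def, hom_eval₂]
    have hcomp : ι.comp (algebraMap (↥O)[X] B) = f := RingHom.ext fun r => h1 r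
    rw [hcomp, ← eval_map, hq, hPz]
  refine ⟨q.map (phi O E t ht), hqm.map _, ?_⟩
  rw [← aeval_def, ← map_aeval (psi_comp O hπ E hE t ht ι h1 h2), hzero, map_zero]

include hπ hE ht h2 h1 hι h3 htr hdeg hirr in
/-- **`hB`**: `π B` is a prime ideal. -/
theorem isPrime_span_pi :
    (Ideal.span {algebraMap (↥O)[X] B (C π)}).IsPrime :=
  isPrime_span_of_residue (C π) (phi O E t ht) (psi O hπ E hE t ht ι h2)
    (psi_comp O hπ E hE t ht ι h1 h2) (phi_C_pi O hπ E t ht)
    (psi_ker O hπ E hE t ht ι h1 h2 hι h3 htr hdeg hirr)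

include hπ hE ht h2 h1 hι h3 htr hdeg hirr in
/-- **`hsep`** (literal shape of `FibreTrace17.traceNondeg_of_separable`), given that algebraic
elements of `κ((q))` over `κ(t̃)` are separable. -/
theorem hsep_pi
    (hsepkt : ∀ z : LaurentSeries (Res O), IsAlgebraic ↥(kt O ⟨(t : LaurentSeries K), ht⟩) z →
      IsSeparable ↥(kt O ⟨(t : LaurentSeries K), ht⟩) z) :
    ∀ z : B, ∃ p : Polynomial (↥O)[X], algebraMap (↥O)[X] B (C π) ∣ aeval z p ∧
      ¬ algebraMap (↥O)[X] B (C π) ∣ aeval z (derivative p) :=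
  hsep_of_residue (psi_comp O hπ E hE t ht ι h1 h2) (phi_C_pi O hπ E t ht)
    (phi_frac O E t ht) (psi_ker O hπ E hE t ht ι h1 h2 hι h3 htr hdeg hirr)
    (fun z => hsepkt _ (isIntegral_psi O hπ E hE t ht ι h1 h2 hι z).isAlgebraic)

include hπ hE ht h2 h1 hι h3 htr hdeg hirr in
/-- **`hsep`** with `SepLaurent25`: residue field perfect of characteristic `ℓ`, `ord t̃ = -1`. -/
theorem hsep_pi_of_order (ℓ : ℕ) [Fact ℓ.Prime] [CharP (Res O) ℓ] [PerfectField (Res O)]
    (hord : (gaussRed O ⟨(t : LaurentSeries K), ht⟩).order = -1) :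
    ∀ z : B, ∃ p : Polynomial (↥O)[X], algebraMap (↥O)[X] B (C π) ∣ aeval z p ∧
      ¬ algebraMap (↥O)[X] B (C π) ∣ aeval z (derivative p) :=
  hsep_pi O hπ E hE t ht ι h1 h2 hι h3 htr hdeg hirr
    (fun _ hz => Fermat.Agent.RED.PUR.SepLaurent25.isSeparable_of_isAlgebraic_of_order ℓ hord hz)

end Fermat.Agent.RED.PUR.VertGauss22
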