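/-
Program H (S18), chapter PUR (helper22): the VERTICAL BRIDGE in the literal shape of the vertical
hypotheses of `PurityMain26.smooth_of_purity`.

In helper8's generic Gauss setting `(O, π, E ≤ fracField O, t ∈ E ∩ gaussRing O, t̃ transcendental, (DEG),
(IRR))`, `R0 := O[X]`, `B` any `R0`-algebra identified by `ι : B → E` with the integral closure of `O[t]`
in `E`, `k₀ := κ(t̃)`, `L := κ((q))`, `ρ₀ := VertGauss22.phi`, `ρ := VertGauss22.psi`:
`hcomp`, `hker₀`, `hker`, `hgen`, `hsep`, and `hchar`.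
-/
import Mathlib
import Fermat.Agent.RED.PUR.VertGauss22

set_option autoImplicit false
set_option linter.unusedSectionVars false

noncomputable section

open HahnSeries ModularCurve Polynomial

namespace Fermat.Agent.RED.PUR.VertPurity22

open Fermat.Agent.RED.PUR.GaussGen8 Fermat.Agent.RED.PUR.KtGauss8 Fermat.Agent.RED.PUR.G1Package8
open Fermat.Agent.RED.PUR.VertGauss22

variable {K : Type*} [Field K] (O : ValuationSubring K) [IsDiscreteValuationRing ↥O]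
  {π : ↥O} (hπ : Irreducible π)
  (E : IntermediateField K (LaurentSeries K)) (hE : E ≤ fracField O)
  (t : ↥E) (ht : (t : LaurentSeries K) ∈ gaussRing O)
  (htr : Transcendental (Res O) (gaussRed O ⟨(t : LaurentSeries K), ht⟩))

include hπ htr in
/-- **`hker₀`**: a polynomial reduces to zero iff `π` divides it. -/
theorem phi_eq_zero_iff (r : (↥O)[X]) : phi O E t ht r = 0 ↔ C π ∣ r := by
  rw [← map_res0_eq_zero_iff hπ]
  constructor
  · intro h
    have h' : aeval (gaussRed O ⟨(t : LaurentSeries K), ht⟩) (r.map (res0 O)) = 0 := by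
      rw [← coe_phi, h]; rfl
    exact (transcendental_iff.mp htr) _ h'
  · intro h
    apply Subtype.ext
    rw [coe_phi, h, map_zero]
    rfl

include hπ in
/-- **`hchar`**: every nonzero integer divides a power of `π` in `O[X]` (`K` of characteristic 0). -/
theorem natCast_dvd_pow [CharZero K] (n : ℕ) (hn : n ≠ 0) :
    ∃ k : ℕ, ((n : ℕ) : (↥O)[X]) ∣ (C π) ^ k := by
  have hn0 : ((n : ℕ) : ↥O) ≠ 0 := by
    intro h
    have h' : (((n : ℕ) : ↥O) : K) = 0 := by rw [h]; rfl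
    rw [show (((n : ℕ) : ↥O) : K) = ((n : ℕ) : K) from by simp] at h'
    exact hn (Nat.cast_eq_zero.mp h')
  obtain ⟨k, u, hu⟩ := exists_eq_pow_mul_unit hπ hn0
  refine ⟨k, C ((u⁻¹ : (↥O)ˣ) : ↥O), ?_⟩
  rw [← C_eq_natCast, hu, C_mul, C_pow, mul_assoc, ← C_mul, Units.mul_inv, C_1, mul_one]

variable {B : Type*} [CommRing B] [Algebra (↥O)[X] B] (ι : B →+* ↥E)
  (h1 : ∀ r : (↥O)[X], ι (algebraMap (↥O)[X] B r) = aeval t r)
  (h2 : ∀ b : B, IsIntegral ↥(Algebra.adjoin ↥O {t}) (ι b))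
  (hι : Function.Injective ι)
  (h3 : ∀ x : ↥E, IsIntegral ↥(Algebra.adjoin ↥O {t}) x → ∃ b : B, ι b = x)
  {n : ℕ} (hdeg : DegLe O E ⟨(t : LaurentSeries K), ht⟩ n)
  (hirr : Irr O E ⟨(t : LaurentSeries K), ht⟩ n)

include h1 hι h3 htr hdeg hirr in
/-- **`hker`**: the kernel of the Gauss reduction on `B` is `π B`. -/
theorem psi_eq_zero_iff (z : B) :
    psi O hπ E hE t ht ι h2 z = 0 ↔ algebraMap (↥O)[X] B (C π) ∣ z := by
  constructor
  · exact psi_ker O hπ E hE t ht ι h1 h2 hι h3 htr hdeg hirr z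
  · rintro ⟨c, rfl⟩
    rw [map_mul, psi_comp O hπ E hE t ht ι h1 h2, phi_C_pi O hπ E t ht, map_zero, zero_mul]

include h1 hι in
/-- **`hsep`**: residues of elements of `B` are separable over `κ(t̃)`. -/
theorem isSeparable_psi
    (hsepkt : ∀ z : LaurentSeries (Res O), IsAlgebraic ↥(kt O ⟨(t : LaurentSeries K), ht⟩) z →
      IsSeparable ↥(kt O ⟨(t : LaurentSeries K), ht⟩) z) (z : B) :
    IsSeparable ↥(kt O ⟨(t : LaurentSeries K), ht⟩) (psi O hπ E hE t ht ι h2 z) :=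
  hsepkt _ (isIntegral_psi O hπ E hE t ht ι h1 h2 hι z).isAlgebraic

include h1 hι htr in
/-- **`hsep`** via `SepLaurent25`: `κ` perfect of characteristic `ℓ`, `ord t̃` prime to `ℓ`. -/
theorem isSeparable_psi_of_order (ℓ : ℕ) [Fact ℓ.Prime] [CharP (Res O) ℓ] [PerfectField (Res O)]
    (hord : IsCoprime (gaussRed O ⟨(t : LaurentSeries K), ht⟩).order (ℓ : ℤ)) (z : B) :
    IsSeparable ↥(kt O ⟨(t : LaurentSeries K), ht⟩) (psi O hπ E hE t ht ι h2 z) := by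
  have h0 : gaussRed O ⟨(t : LaurentSeries K), ht⟩ ≠ 0 := by
    rintro h
    exact htr (h ▸ isAlgebraic_zero)
  exact isSeparable_psi O hπ E hE t ht ι h1 h2 hι
    (fun _ hz => Fermat.Agent.RED.PUR.SepLaurent25.isSeparable_of_isAlgebraic ℓ h0 hord hz) z

include hπ hE ht h2 h1 hι h3 htr hdeg hirr in
/-- **All vertical hypotheses of `PurityMain26.smooth_of_purity`**, bundled
(`π := C π`, `k₀ := κ(t̃)`, `L := κ((q))`, `ρ₀ := phi`, `ρ := psi`). -/
theorem vertical_data [CharZero K] (ℓ : ℕ) [Fact ℓ.Prime] [CharP (Res O) ℓ] [PerfectField (Res O)]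
    (hord : IsCoprime (gaussRed O ⟨(t : LaurentSeries K), ht⟩).order (ℓ : ℤ)) :
    (∀ m : ℕ, m ≠ 0 → ∃ k : ℕ, ((m : ℕ) : (↥O)[X]) ∣ (C π) ^ k) ∧
    ∃ (ρ₀ : (↥O)[X] →+* ↥(kt O ⟨(t : LaurentSeries K), ht⟩))
      (ρ : B →+* LaurentSeries (Res O)),
      (∀ r : (↥O)[X], ρ (algebraMap (↥O)[X] B r) =
        algebraMap ↥(kt O ⟨(t : LaurentSeries K), ht⟩) (LaurentSeries (Res O)) (ρ₀ r)) ∧
      (∀ r : (↥O)[X], ρ₀ r = 0 ↔ C π ∣ r) ∧
      (∀ z : B, ρ z = 0 ↔ algebraMap (↥O)[X] B (C π) ∣ z) ∧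
      (∀ c : ↥(kt O ⟨(t : LaurentSeries K), ht⟩), ∃ r r' : (↥O)[X], ρ₀ r' ≠ 0 ∧ c * ρ₀ r' = ρ₀ r) ∧
      (∀ z : B, IsSeparable ↥(kt O ⟨(t : LaurentSeries K), ht⟩) (ρ z)) :=
  ⟨natCast_dvd_pow O hπ, phi O E t ht, psi O hπ E hE t ht ι h2,
    psi_comp O hπ E hE t ht ι h1 h2,
    phi_eq_zero_iff O hπ E t ht htr,
    psi_eq_zero_iff O hπ E hE t ht htr ι h1 h2 hι h3 hdeg hirr,
    phi_frac O E t ht,
    isSeparable_psi_of_order O hπ E hE t ht htr ι h1 h2 hι ℓ hord⟩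

end Fermat.Agent.RED.PUR.VertPurity22
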