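/-
Program H (S18), chapter RED/PUR, helper8: the inverse coordinate in the generic Gauss package
(request of helper23, CUSP PLAN 4 (G∞)).

For `tG sG : gaussRing O` with `(sG : K((q))) = (tG : K((q)))⁻¹` and `t̃` transcendental:
`gaussRed sG = (gaussRed tG)⁻¹`, `Kt O sG = Kt O tG`, `kt O sG = kt O tG`, transcendence of `s̃`,
and `DegLe`, `Irr` transport from `tG` to `sG`.
-/
import Mathlib
import Fermat.Agent.RED.PUR.G1Package8

set_option autoImplicit false
set_option linter.unusedSectionVars false

noncomputable section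

open HahnSeries Polynomial

namespace Fermat.Agent.RED.PUR.GaussInv8

open Fermat.Agent.RED.PUR.GaussGen8 Fermat.Agent.RED.PUR.KtGauss8
open Fermat.Agent.RED.PUR.G1Package8

variable {K : Type*} [Field K] {O : ValuationSubring K}
  (tG sG : ↥(gaussRing O)) (hst : (sG : LaurentSeries K) = (tG : LaurentSeries K)⁻¹)

theorem gaussRed_ne_zero (htr : Transcendental (Res O) (gaussRed O tG)) : gaussRed O tG ≠ 0 := by
  intro h0
  apply htr
  rw [h0]
  exact isAlgebraic_zero

include hst

theorem coe_ne_zero (htr : Transcendental (Res O) (gaussRed O tG)) :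
    (tG : LaurentSeries K) ≠ 0 := by
  intro h0
  apply gaussRed_ne_zero tG htr
  have : tG = 0 := Subtype.ext h0
  rw [this, map_zero]

theorem mul_eq_one (htr : Transcendental (Res O) (gaussRed O tG)) : tG * sG = 1 := by
  apply Subtype.ext
  show (tG : LaurentSeries K) * (sG : LaurentSeries K) = 1
  rw [hst, mul_inv_cancel₀ (coe_ne_zero tG sG hst htr)]

/-- `s̃ = t̃⁻¹`. -/
theorem gaussRed_eq_inv (htr : Transcendental (Res O) (gaussRed O tG)) :
    gaussRed O sG = (gaussRed O tG)⁻¹ := by
  have h := congrArg (gaussRed O) (mul_eq_one tG sG hst htr)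
  rw [map_mul, map_one] at h
  exact eq_inv_of_mul_eq_one_right h

/-- `s̃` is transcendental. -/
theorem transcendental_gaussRed (htr : Transcendental (Res O) (gaussRed O tG)) :
    Transcendental (Res O) (gaussRed O sG) := by
  rw [gaussRed_eq_inv tG sG hst htr]
  intro halg
  apply htr
  have := halg.inv
  rwa [inv_inv] at this

omit hst in
theorem adjoin_inv_eq {k L : Type*} [Field k] [Field L] [Algebra k L] (x : L) :
    IntermediateField.adjoin k {x⁻¹} = IntermediateField.adjoin k {x} := by
  apply le_antisymm
  · rw [IntermediateField.adjoin_le_iff]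
    rintro y hy
    rw [Set.mem_singleton_iff] at hy
    rw [hy]
    exact IntermediateField.inv_mem _ (IntermediateField.mem_adjoin_simple_self k x)
  · rw [IntermediateField.adjoin_le_iff]
    rintro y hy
    rw [Set.mem_singleton_iff] at hy
    rw [hy]
    have h := IntermediateField.inv_mem _ (IntermediateField.mem_adjoin_simple_self k x⁻¹)
    rwa [inv_inv] at h

/-- `K(s) = K(t)`. -/
theorem Kt_eq : Kt O sG = Kt O tG := by
  show IntermediateField.adjoin K {(sG : LaurentSeries K)}
    = IntermediateField.adjoin K {(tG : LaurentSeries K)}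
  rw [hst]
  exact adjoin_inv_eq _

/-- `κ(s̃) = κ(t̃)`. -/
theorem kt_eq (htr : Transcendental (Res O) (gaussRed O tG)) : kt O sG = kt O tG := by
  show IntermediateField.adjoin (Res O) {gaussRed O sG}
    = IntermediateField.adjoin (Res O) {gaussRed O tG}
  rw [gaussRed_eq_inv tG sG hst htr]
  exact adjoin_inv_eq _

/-- `(DEG)` transports to the inverse coordinate. -/
theorem degLe_of_inv (E : IntermediateField K (LaurentSeries K)) {n : ℕ}
    (hdeg : DegLe O E tG n) : DegLe O E sG n := by
  unfold DegLe
  rw [Kt_eq tG sG hst]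
  exact hdeg

/-- `(IRR)` transports to the inverse coordinate. -/
theorem irr_of_inv (htr : Transcendental (Res O) (gaussRed O tG))
    (E : IntermediateField K (LaurentSeries K)) {n : ℕ}
    (hirr : Irr O E tG n) : Irr O E sG n := by
  unfold Irr
  rw [kt_eq tG sG hst htr]
  exact hirr

omit hst in
/-- the inverse of `t` lies in the Gauss ring (`t̃ ≠ 0`). -/
theorem inv_mem_gaussRing (htr : Transcendental (Res O) (gaussRed O tG)) :
    (tG : LaurentSeries K)⁻¹ ∈ gaussRing O :=
  inv_mem_of_gaussRed_ne_zero O tG (gaussRed_ne_zero tG htr)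

end Fermat.Agent.RED.PUR.GaussInv8
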