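/-
Program H (S18), chapter RED/PUR (helper20): (β2), GENERIC part (Mathlib + Prelude places only).

`v` a place of `FL / L` whose residue field is `L`, `T ∈ FL`, `p ∈ L[X]` separable with `0 < ord_v p(T)`:
then `T ≡ c mod 𝔪_v` for a root `c` of `p`, and `ord_v p(T) = ord_v (T - c)`.

Descent form: `w` a place of `FK / K`, `bc : FK → FL` with `ord_v ∘ bc = e · ord_w`, `g ∈ K[X]` separable,
`0 < ord_w g(t)`, and simple zeros of `bc t - c` at the roots `c` of `g` ⇒ `ord_w g(t) = 1`.
-/
import Mathlib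
import Fermat.Prelude.Def_AlgebraicCurve_DivisorClassGroup
import Fermat.Agent.X0.FFResidue

set_option autoImplicit false

open Polynomial

noncomputable section

namespace Fermat.Agent.RED.PUR.HorizGen20

open AlgebraicCurve Fermat.Agent.X0.FF

variable {L FL : Type*} [Field L] [Field FL] [Algebra L FL]

/-- Taylor expansion to first order at a constant. -/
theorem aeval_eq_add_mul (p : L[X]) (c : L) (T : FL) :
    aeval T p = algebraMap L FL (p.eval c) + (T - algebraMap L FL c) * aeval T (p /ₘ (X - C c)) := by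
  conv_lhs => rw [← modByMonic_add_div p (X - C c), modByMonic_X_sub_C_eq_C_eval]
  simp only [map_add, map_mul, map_sub, aeval_C, aeval_X]

variable (v : Place L FL)

theorem aeval_mem {T : FL} (hT : T ∈ v.toValuationSubring) (p : L[X]) :
    aeval T p ∈ v.toValuationSubring := by
  rw [aeval_eq_sum_range]
  refine sum_mem fun i _ => ?_
  rw [Algebra.smul_def]
  exact mul_mem (v.algebraMap_mem' _) (pow_mem hT i)

/-- `p(T)` is a unit at `v` if `T ≡ c` and `p(c) ≠ 0`. -/
theorem ord_aeval_eq_zero {T : FL} {c : L} (hTc : 0 < v.ord (T - algebraMap L FL c)) (p : L[X])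
    (hpc : p.eval c ≠ 0) : v.ord (aeval T p) = 0 := by
  have hT : T ∈ v.toValuationSubring := by
    have h1 : T - algebraMap L FL c ∈ v.toValuationSubring := ffp_mem_of_ord_nonneg v hTc.le
    have := add_mem h1 (v.algebraMap_mem' c)
    rwa [sub_add_cancel] at this
  have hconst : algebraMap L FL (p.eval c) ≠ 0 := by rwa [Ne, map_eq_zero]
  have h0 : v.ord (algebraMap L FL (p.eval c)) = 0 := ffp_ord_algebraMap v _
  rw [aeval_eq_add_mul p c T]
  set Q := aeval T (p /ₘ (X - C c)) with hQ
  by_cases hQ0 : Q = 0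
  · rw [hQ0, mul_zero, add_zero, h0]
  · have hTc0 : T - algebraMap L FL c ≠ 0 := by
      intro h; rw [h, Place.ord_zero] at hTc; exact lt_irrefl _ hTc
    have hQmem : Q ∈ v.toValuationSubring := aeval_mem v hT _
    have hQord : 0 ≤ v.ord Q := ffp_ord_nonneg_of_mem v hQmem
    have hlt : v.ord (algebraMap L FL (p.eval c)) < v.ord ((T - algebraMap L FL c) * Q) := by
      rw [h0, v.ord_mul hTc0 hQ0]; omega
    rw [ffp_ord_add_eq_of_lt v hconst hlt, h0]

/-- At a pole of `T`, `p(T)` has non-positive order (`p ≠ 0`). -/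
theorem ord_aeval_nonpos_of_pole {T : FL} (hT : v.ord T < 0) (p : L[X]) (hp : p ≠ 0) :
    v.ord (aeval T p) ≤ 0 := by
  have hT0 : T ≠ 0 := by
    intro h; rw [h, Place.ord_zero] at hT; exact lt_irrefl _ hT
  let _ : Invertible T := invertibleOfNonzero hT0
  have hrev := eval₂_reverse_mul_pow (algebraMap L FL) T p
  rw [invOf_eq_inv] at hrev
  have hs : 0 < v.ord (T⁻¹ - algebraMap L FL 0) := by
    rw [map_zero, sub_zero, v.ord_inv]; omega
  have h1 : v.ord (aeval T⁻¹ p.reverse) = 0 := by
    apply ord_aeval_eq_zero v hs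
    rw [← coeff_zero_eq_eval_zero, coeff_zero_reverse]
    exact leadingCoeff_ne_zero.mpr hp
  have hne1 : aeval T⁻¹ p.reverse ≠ 0 := by
    intro h0
    have hz : eval₂ (algebraMap L FL) T⁻¹ p.reverse = 0 := h0
    have hcoef : p.reverse.eval 0 ≠ 0 := by
      rw [← coeff_zero_eq_eval_zero, coeff_zero_reverse]
      exact leadingCoeff_ne_zero.mpr hp
    -- p.reverse(T⁻¹) = const + T⁻¹ * …, cannot vanish: use the order computation differently
    have := aeval_eq_add_mul p.reverse 0 T⁻¹
    rw [h0, map_zero, sub_zero] at this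
    -- const = - T⁻¹ * Q, orders: 0 = ord T⁻¹ + ord Q > 0 unless Q = 0
    set Q := aeval T⁻¹ (p.reverse /ₘ (X - C 0)) with hQ
    have hconst : algebraMap L FL (p.reverse.eval 0) ≠ 0 := by rwa [Ne, map_eq_zero]
    have hc0 : v.ord (algebraMap L FL (p.reverse.eval 0)) = 0 := ffp_ord_algebraMap v _
    have hTinv : T⁻¹ ∈ v.toValuationSubring := by
      apply ffp_mem_of_ord_nonneg; rw [v.ord_inv]; omega
    have hQmem : Q ∈ v.toValuationSubring := aeval_mem v hTinv _
    have hQ0 : Q ≠ 0 := by
      intro hq; rw [hq, mul_zero, add_zero] at this; exact hconst this.symm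
    have heq : algebraMap L FL (p.reverse.eval 0) = -(T⁻¹ * Q) := by
      rw [eq_neg_iff_add_eq_zero]; exact this.symm
    have : v.ord (algebraMap L FL (p.reverse.eval 0)) = v.ord T⁻¹ + v.ord Q := by
      rw [heq, ffp_ord_neg, v.ord_mul (inv_ne_zero hT0) hQ0]
    have hQord : 0 ≤ v.ord Q := ffp_ord_nonneg_of_mem v hQmem
    rw [hc0, v.ord_inv] at this
    omega
  have hpow : T ^ p.natDegree ≠ 0 := pow_ne_zero _ hT0
  have : aeval T p = aeval T⁻¹ p.reverse * T ^ p.natDegree := hrev.symm
  rw [this, v.ord_mul hne1 hpow, h1, zero_add]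
  have := v.ord_zpow T (p.natDegree : ℤ)
  rw [zpow_natCast] at this
  rw [this]
  have : (0 : ℤ) ≤ p.natDegree := Int.natCast_nonneg _
  nlinarith

/-- **Generic horizontal lemma over the big field.** -/
theorem ord_aeval_eq_ord_sub
    (hres : ∀ f : FL, f ∈ v.toValuationSubring →
      ∃ c : L, f = algebraMap L FL c ∨ 0 < v.ord (f - algebraMap L FL c))
    (T : FL) (p : L[X]) (hp : p.Separable) (hpos : 0 < v.ord (aeval T p)) :
    ∃ c : L, p.IsRoot c ∧ 0 < v.ord (T - algebraMap L FL c) ∧
      v.ord (aeval T p) = v.ord (T - algebraMap L FL c) := by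
  have hp0 : p ≠ 0 := hp.ne_zero
  have hTmem : T ∈ v.toValuationSubring := by
    by_contra hT
    have hneg : v.ord T < 0 := by
      by_contra hge
      exact hT (ffp_mem_of_ord_nonneg v (not_lt.mp hge))
    have := ord_aeval_nonpos_of_pole v hneg p hp0
    omega
  obtain ⟨c, hc | hc⟩ := hres T hTmem
  · exfalso
    rw [hc, aeval_algebraMap_apply, ffp_ord_algebraMap] at hpos
    exact lt_irrefl _ hpos
  · have hroot : p.IsRoot c := by
      by_contra hnr
      have := ord_aeval_eq_zero v hc p hnr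
      omega
    refine ⟨c, hroot, hc, ?_⟩
    have hfac : (X - C c) * (p /ₘ (X - C c)) = p := mul_divByMonic_eq_iff_isRoot.mpr hroot
    set q := p /ₘ (X - C c) with hq
    have hqc : q.eval c ≠ 0 := by
      have hder := hp.eval₂_derivative_ne_zero (RingHom.id L) (x := c) (by simpa using hroot)
      rw [← hfac, derivative_mul] at hder
      simpa using hder
    have hq0 : v.ord (aeval T q) = 0 := ord_aeval_eq_zero v hc q hqc
    have hTc0 : T - algebraMap L FL c ≠ 0 := by
      intro h; rw [h, Place.ord_zero] at hc; exact lt_irrefl _ hc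
    have hqne : aeval T q ≠ 0 := by
      intro h0
      have : aeval T p = 0 := by rw [← hfac, map_mul, h0, mul_zero]
      rw [this, Place.ord_zero] at hpos
      exact lt_irrefl _ hpos
    have : aeval T p = (T - algebraMap L FL c) * aeval T q := by
      rw [← hfac, map_mul]
      simp
    rw [this, v.ord_mul hTc0 hqne, hq0, add_zero]

/-- Zeros of `T⁻¹ - c` (`c ≠ 0`) are the zeros of `T - c⁻¹`, with the same multiplicity. -/
theorem ord_inv_sub (T : FL) (c : L) (hc : c ≠ 0) (hpos : 0 < v.ord (T⁻¹ - algebraMap L FL c)) :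
    v.ord (T⁻¹ - algebraMap L FL c) = v.ord (T - algebraMap L FL c⁻¹) := by
  have hcF : algebraMap L FL c ≠ 0 := by rwa [Ne, map_eq_zero]
  have hne : T⁻¹ - algebraMap L FL c ≠ 0 := by
    intro h; rw [h, Place.ord_zero] at hpos; exact lt_irrefl _ hpos
  have hT0 : T ≠ 0 := by
    intro h
    rw [h, inv_zero, zero_sub, ffp_ord_neg, ffp_ord_algebraMap] at hpos
    exact lt_irrefl _ hpos
  have hc0 : v.ord (algebraMap L FL c) = 0 := ffp_ord_algebraMap v _
  have hTinv : v.ord T⁻¹ = 0 := by
    have hlt : v.ord (algebraMap L FL c) < v.ord (T⁻¹ - algebraMap L FL c) := by rw [hc0]; exact hpos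
    have := ffp_ord_add_eq_of_lt v hcF hlt
    rw [add_sub_cancel, hc0] at this
    exact this
  have hfac : T⁻¹ - algebraMap L FL c
      = (-(algebraMap L FL c) * T⁻¹) * (T - algebraMap L FL c⁻¹) := by
    rw [map_inv₀]
    field_simp
    ring
  have hne2 : T - algebraMap L FL c⁻¹ ≠ 0 := by
    intro h
    rw [h, mul_zero] at hfac
    exact hne hfac
  have hne1 : -(algebraMap L FL c) * T⁻¹ ≠ 0 :=
    mul_ne_zero (neg_ne_zero.mpr hcF) (inv_ne_zero hT0)
  rw [hfac, v.ord_mul hne1 hne2, v.ord_mul (neg_ne_zero.mpr hcF) (inv_ne_zero hT0), ffp_ord_neg, hc0,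
    hTinv, zero_add, zero_add]

/-! ### descent to a subfield of constants -/

section Descent

variable {K FK : Type*} [Field K] [Field FK] [Algebra K FK] [Algebra K L]

theorem bc_aeval (bc : FK →+* FL)
    (hbc : ∀ a : K, bc (algebraMap K FK a) = algebraMap L FL (algebraMap K L a)) (t : FK) (g : K[X]) :
    bc (aeval t g) = aeval (bc t) (g.map (algebraMap K L)) := by
  rw [aeval_def, hom_eval₂, aeval_def, eval₂_map]
  congr 1
  ext a
  exact hbc a

/-- **Generic (β2).**  `ord_w g(t) = 1` as soon as the zeros of `bc t - c` (`c` a root of `g`) at the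
place `v` above `w` are simple. -/
theorem ord_aeval_eq_one (bc : FK →+* FL)
    (hbc : ∀ a : K, bc (algebraMap K FK a) = algebraMap L FL (algebraMap K L a))
    (w : Place K FK) (e : ℕ) (he : 0 < e) (hve : ∀ f : FK, v.ord (bc f) = (e : ℤ) * w.ord f)
    (hres : ∀ f : FL, f ∈ v.toValuationSubring →
      ∃ c : L, f = algebraMap L FL c ∨ 0 < v.ord (f - algebraMap L FL c))
    (t : FK) (g : K[X]) (hg : g.Separable)
    (hsimple : ∀ c : L, (g.map (algebraMap K L)).IsRoot c →
      0 < v.ord (bc t - algebraMap L FL c) → v.ord (bc t - algebraMap L FL c) = 1)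
    (hpos : 0 < w.ord (aeval t g)) : w.ord (aeval t g) = 1 := by
  have h1 := hve (aeval t g)
  rw [bc_aeval bc hbc] at h1
  have hepos : (0 : ℤ) < e := by exact_mod_cast he
  have hpos' : 0 < v.ord (aeval (bc t) (g.map (algebraMap K L))) := by
    rw [h1]; positivity
  obtain ⟨c, hroot, hc, heq⟩ :=
    ord_aeval_eq_ord_sub v hres (bc t) (g.map (algebraMap K L)) hg.map hpos'
  rw [hsimple c hroot hc] at heq
  rw [heq] at h1
  -- `1 = e * ord_w`, `e > 0`, `ord_w > 0`
  have h2 : (e : ℤ) * w.ord (aeval t g) = 1 := h1.symm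
  have h3 : w.ord (aeval t g) ∣ 1 := Dvd.intro_left _ h2
  exact Int.eq_one_of_dvd_one hpos.le h3

end Descent

end Fermat.Agent.RED.PUR.HorizGen20
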