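/-
Program H (S18), chapter RED/PUR (helper20): (β2)-CONCRETE, part 1 — the horizontal bridge over `ℚbar`.

Inputs (as hypotheses, in the literal `Interface12` shapes): (B6) `Unbranched n e M` and
(B5) `CuspExp n e M cv`.  Output:

* `ord_sub_eq_one` : at every place `v` of `Fbar_M`, a zero of `t - c` with `c` NOT a finite cusp value
  is simple;
* `exists_cv_eq_of_ord_jF_neg` : at a place over `j = ∞` where `t - c` vanishes, `c` is a cusp value;
* `ord_nonpos_of_none`, … : small facts on the cusp shapes.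
-/
import Mathlib
import Fermat.Agent.RED.BASE.Interface12
import Fermat.Agent.X0.CuspSurj
import Fermat.Agent.X0.CuspGood
import Fermat.Agent.X0.Degree
import Fermat.Agent.X0.FFResidue
import Fermat.Agent.X0.FFConst
import Fermat.Agent.RED.PUR.HorizGen20

set_option autoImplicit false

open UpperHalfPlane hiding I
open scoped MatrixGroups IntermediateField

noncomputable section

namespace Fermat.Agent.RED.PUR.HorizUnram20

open Fermat.Agent.X0 Fermat.Agent.X0.FF AlgebraicCurve
open Fermat.Agent.RED.BASE.Interface12 Fermat.Agent.RED.BASE.EtaQuot12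

/-! ### coefficients of the tail `λ q^a V` of a cusp shape -/

section Tail

variable {k : Type*} [Field k]

theorem coeff_tail_of_lt (lam : k) (a : ℕ) (V : PowerSeries k) {i : ℤ} (hi : i < a) :
    (HahnSeries.C lam * HahnSeries.single (a : ℤ) 1 * HahnSeries.ofPowerSeries ℤ k V).coeff i = 0 := by
  rw [mul_assoc, HahnSeries.C_mul_eq_smul, HahnSeries.coeff_smul, HahnSeries.coeff_single_mul, one_mul]
  have h : ((V : PowerSeries k) : LaurentSeries k).coeff (i - a) = 0 := by
    rw [PowerSeries.coeff_coe, if_pos (by omega)]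
  rw [show HahnSeries.ofPowerSeries ℤ k V = ((V : PowerSeries k) : LaurentSeries k) from rfl, h,
    smul_zero]

end Tail

/-! ### the two cusp shapes -/

/-- finite shape: `E - c` has order `≤ 0` unless `c` is the value. -/
theorem order_sub_nonpos_of_some {m : ℕ} {E : LaurentSeries Kbar} {c₀ c : Kbar}
    (h : CuspShape m E (some c₀)) (hne : c₀ ≠ c) : (E - HahnSeries.C c).order ≤ 0 := by
  obtain ⟨a, lam, V, ha, -, -, -, -, hE⟩ := h
  apply HahnSeries.order_le_of_coeff_ne_zero
  rw [hE, HahnSeries.coeff_sub, HahnSeries.coeff_add,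
    coeff_tail_of_lt lam a V (by exact_mod_cast ha), add_zero, HahnSeries.C_apply,
    HahnSeries.C_apply, HahnSeries.coeff_single_same, HahnSeries.coeff_single_same]
  exact sub_ne_zero.mpr hne

/-- pole shape: `E - c` has negative order. -/
theorem order_sub_neg_of_none {m : ℕ} {E : LaurentSeries Kbar} {c : Kbar}
    (h : CuspShape m E none) : (E - HahnSeries.C c).order < 0 := by
  obtain ⟨a, lam, V, ha, hlam, hV, -, hE⟩ := h
  set Y : LaurentSeries Kbar :=
    HahnSeries.C lam * HahnSeries.single (a : ℤ) 1 * HahnSeries.ofPowerSeries ℤ Kbar V with hY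
  have hE' : E⁻¹ = Y := hE
  -- `Y ≠ 0`
  have hYa : Y.coeff a = lam := by
    rw [hY, mul_assoc, HahnSeries.C_mul_eq_smul, HahnSeries.coeff_smul, HahnSeries.coeff_single_mul,
      one_mul, sub_self]
    rw [show HahnSeries.ofPowerSeries ℤ Kbar V = ((V : PowerSeries Kbar) : LaurentSeries Kbar) from rfl,
      PowerSeries.coeff_coe, if_neg (by omega)]
    simp only [Int.natAbs_zero, PowerSeries.coeff_zero_eq_constantCoeff]
    rw [hV, smul_eq_mul, mul_one]
  have hY0 : Y ≠ 0 := by
    intro h0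
    rw [h0] at hYa
    exact hlam.1 (by simpa using hYa.symm)
  have hE0 : E ≠ 0 := by
    intro h0
    rw [h0, inv_zero] at hE'
    exact hY0 hE'.symm
  have hEY : E * Y = 1 := by rw [← hE', mul_inv_cancel₀ hE0]
  -- `(E - c) * Y = 1 - c Y` has a nonzero constant coefficient
  have hprod : (E - HahnSeries.C c) * Y = 1 - HahnSeries.C c * Y := by rw [sub_mul, hEY]
  have hYorder : (a : ℤ) ≤ Y.order := by
    rw [HahnSeries.le_order_iff_forall hY0]
    intro i hi
    exact coeff_tail_of_lt lam a V hi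
  have hcoeff0 : (1 - HahnSeries.C c * Y).coeff 0 = 1 := by
    rw [HahnSeries.coeff_sub, HahnSeries.C_mul_eq_smul, HahnSeries.coeff_smul,
      coeff_tail_of_lt lam a V (by exact_mod_cast ha), smul_zero, sub_zero, HahnSeries.coeff_one,
      if_pos rfl]
  have hne : (E - HahnSeries.C c) ≠ 0 := by
    intro h0
    rw [h0, zero_mul] at hprod
    rw [← hprod] at hcoeff0
    simp at hcoeff0
  have hord : ((E - HahnSeries.C c) * Y).order ≤ 0 := by
    rw [hprod]
    exact HahnSeries.order_le_of_coeff_ne_zero (by rw [hcoeff0]; exact one_ne_zero)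
  rw [HahnSeries.order_mul hne hY0] at hord
  have : (0 : ℤ) < a := by exact_mod_cast ha
  omega

/-! ### the main statements over `ℚbar` -/

section Main

variable (n e M : ℕ) [NeZero n] [NeZero M] (cv : SL(2, ℤ) → Option Kbar)

/-- At a place over `j = ∞` where `t - c` vanishes, `c` is a (finite) cusp value. -/
theorem exists_cv_eq_of_ord_jF_neg (h : TMem n e M)
    (hC : ∀ γ : SL(2, ℤ), CuspShape n ((cuspData M).T γ (tF M h)) (cv γ))
    (v : Place Kbar (FF M)) (hv : v.ord (jF M) < 0) (c : Kbar)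
    (hpos : 0 < v.ord (tF M h - algebraMap Kbar (FF M) c)) : ∃ γ, cv γ = some c := by
  have hx : FF.IsGen Kbar (jF M) := Degree.isGen_jF M (realizeData M) (cuspData M)
  have hfd : FiniteDimensional (IntermediateField.adjoin Kbar {jF M}) (FF M) := hx.finite
  have hcard := Degree.card_eq_finrank_adjoin M (realizeData M) (cuspData M)
  have hG := CuspGood.good (cuspData M)
  obtain ⟨g, rfl⟩ := CuspSurj.exists_cuspPlace_eq hG hcard v hv
  obtain ⟨m, hm, hspec, -⟩ := cuspPlace_spec hG g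
  have hne : tF M h - algebraMap Kbar (FF M) c ≠ 0 := by
    intro h0
    rw [h0, Place.ord_zero] at hpos
    exact lt_irrefl _ hpos
  have hord := hspec _ hne
  rw [map_sub, hG.map_const] at hord
  have hm' : (0 : ℤ) < m := by exact_mod_cast hm
  have hordpos : 0 < ((cuspData M).T g⁻¹ (tF M h) - HahnSeries.C c).order := by
    rw [hord]
    positivity
  refine ⟨g⁻¹, ?_⟩
  have hshape := hC g⁻¹
  rcases hcv : cv g⁻¹ with _ | c₀
  · rw [hcv] at hshape
    have := order_sub_neg_of_none (c := c) hshape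
    omega
  · rw [hcv] at hshape
    by_cases hcc : c₀ = c
    · rw [hcc]
    · have := order_sub_nonpos_of_some hshape hcc
      omega

/-- **(H1)** zeros of `t - c` at non-cusp values are simple. -/
theorem ord_sub_eq_one (h : TMem n e M)
    (hU : ∀ v : Place Kbar (FF M), 0 ≤ v.ord (jF M) →
      ∃ c : Kbar, v.ord (tF M h - algebraMap Kbar (FF M) c) = 1)
    (hC : ∀ γ : SL(2, ℤ), CuspShape n ((cuspData M).T γ (tF M h)) (cv γ))
    (v : Place Kbar (FF M)) (c : Kbar) (hnc : ∀ γ, cv γ ≠ some c)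
    (hpos : 0 < v.ord (tF M h - algebraMap Kbar (FF M) c)) :
    v.ord (tF M h - algebraMap Kbar (FF M) c) = 1 := by
  by_cases hv : 0 ≤ v.ord (jF M)
  · obtain ⟨c', hc'⟩ := hU v hv
    by_cases hcc : c' = c
    · rw [← hcc]; exact hc'
    · exfalso
      have hconst : algebraMap Kbar (FF M) (c' - c) ≠ 0 := by
        rw [Ne, map_eq_zero]
        exact sub_ne_zero.mpr hcc
      have h0 : v.ord (algebraMap Kbar (FF M) (c' - c)) = 0 := ffp_ord_algebraMap v _
      have hlt : v.ord (algebraMap Kbar (FF M) (c' - c))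
          < v.ord (tF M h - algebraMap Kbar (FF M) c') := by rw [h0, hc']; exact zero_lt_one
      have := ffp_ord_add_eq_of_lt v hconst hlt
      rw [h0] at this
      have heq : algebraMap Kbar (FF M) (c' - c) + (tF M h - algebraMap Kbar (FF M) c')
          = tF M h - algebraMap Kbar (FF M) c := by
        rw [map_sub]; ring
      rw [heq] at this
      omega
  · exfalso
    obtain ⟨γ, hγ⟩ := exists_cv_eq_of_ord_jF_neg n e M cv h hC v (not_le.mp hv) c hpos
    exact hnc γ hγ

/-- The same from the literal `Interface12` Props. -/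
theorem ord_sub_eq_one' (hU : Unbranched n e M) (hC : CuspExp n e M cv) (h : TMem n e M)
    (v : Place Kbar (FF M)) (c : Kbar) (hnc : ∀ γ, cv γ ≠ some c)
    (hpos : 0 < v.ord (tF M h - algebraMap Kbar (FF M) c)) :
    v.ord (tF M h - algebraMap Kbar (FF M) c) = 1 := by
  obtain ⟨h1, hU'⟩ := hU
  obtain ⟨h2, hC'⟩ := hC
  exact ord_sub_eq_one n e M cv h hU' hC' v c hnc hpos

end Main

/-! ### (H2): the statement over a subfield of constants `K ⊂ ℚbar` -/

section KLevel

open Polynomial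

variable (n e M : ℕ) [NeZero n] [NeZero M] (cv : SL(2, ℤ) → Option Kbar)
variable {K FK : Type*} [Field K] [Field FK] [Algebra K FK] [Algebra K Kbar]

/-- residue fields of places of `Fbar_M` are `ℚbar`. -/
theorem exists_ord_sub_pos_bar (v : Place Kbar (FF M)) (f : FF M) (hf : f ∈ v.toValuationSubring) :
    ∃ c : Kbar, f = algebraMap Kbar (FF M) c ∨ 0 < v.ord (f - algebraMap Kbar (FF M) c) :=
  FF.exists_ord_sub_pos (Degree.isGen_jF M (realizeData M) (cuspData M)) v hf

/-- **(H2)** `ord_w g(t) = 1` at a `K`-place `w` of `FK` lying under a place of `Fbar_M`, for `g`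
separable without cusp-value roots. -/
theorem ord_aeval_eq_one (h : TMem n e M)
    (hU : ∀ v : Place Kbar (FF M), 0 ≤ v.ord (jF M) →
      ∃ c : Kbar, v.ord (tF M h - algebraMap Kbar (FF M) c) = 1)
    (hC : ∀ γ : SL(2, ℤ), CuspShape n ((cuspData M).T γ (tF M h)) (cv γ))
    (bc : FK →+* FF M)
    (hbc : ∀ a : K, bc (algebraMap K FK a) = algebraMap Kbar (FF M) (algebraMap K Kbar a))
    (t : FK) (ht : bc t = tF M h) (w : Place K FK)
    (hExt : ∃ (v : Place Kbar (FF M)) (d : ℕ), 0 < d ∧ ∀ f : FK, v.ord (bc f) = (d : ℤ) * w.ord f)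
    (g : K[X]) (hg : g.Separable)
    (hnc : ∀ c : Kbar, (g.map (algebraMap K Kbar)).IsRoot c → ∀ γ, cv γ ≠ some c)
    (hpos : 0 < w.ord (aeval t g)) : w.ord (aeval t g) = 1 := by
  obtain ⟨v, d, hd, hve⟩ := hExt
  refine HorizGen20.ord_aeval_eq_one v bc hbc w d hd hve (exists_ord_sub_pos_bar M v) t g hg ?_ hpos
  intro c hroot hc
  rw [ht] at hc ⊢
  exact ord_sub_eq_one n e M cv h hU hC v c (hnc c hroot) hc

/-- **(H2′)** the twin on the chart at infinity: `s = t⁻¹`, roots `c ≠ 0` of `g` with `c⁻¹` not a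
cusp value. -/
theorem ord_aeval_inv_eq_one (h : TMem n e M)
    (hU : ∀ v : Place Kbar (FF M), 0 ≤ v.ord (jF M) →
      ∃ c : Kbar, v.ord (tF M h - algebraMap Kbar (FF M) c) = 1)
    (hC : ∀ γ : SL(2, ℤ), CuspShape n ((cuspData M).T γ (tF M h)) (cv γ))
    (bc : FK →+* FF M)
    (hbc : ∀ a : K, bc (algebraMap K FK a) = algebraMap Kbar (FF M) (algebraMap K Kbar a))
    (s : FK) (hs : bc s = (tF M h)⁻¹) (w : Place K FK)
    (hExt : ∃ (v : Place Kbar (FF M)) (d : ℕ), 0 < d ∧ ∀ f : FK, v.ord (bc f) = (d : ℤ) * w.ord f)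
    (g : K[X]) (hg : g.Separable)
    (hnc : ∀ c : Kbar, (g.map (algebraMap K Kbar)).IsRoot c → c ≠ 0 ∧ ∀ γ, cv γ ≠ some c⁻¹)
    (hpos : 0 < w.ord (aeval s g)) : w.ord (aeval s g) = 1 := by
  obtain ⟨v, d, hd, hve⟩ := hExt
  refine HorizGen20.ord_aeval_eq_one v bc hbc w d hd hve (exists_ord_sub_pos_bar M v) s g hg ?_ hpos
  intro c hroot hc
  rw [hs] at hc ⊢
  obtain ⟨hc0, hcv⟩ := hnc c hroot
  have heq : v.ord ((tF M h)⁻¹ - algebraMap Kbar (FF M) c)
      = v.ord (tF M h - algebraMap Kbar (FF M) c⁻¹) := HorizGen20.ord_inv_sub v (tF M h) c hc0 hc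
  rw [heq] at hc ⊢
  exact ord_sub_eq_one n e M cv h hU hC v c⁻¹ hcv hc

end KLevel

/-! ### the `≤ 1` forms over `ℚbar` (input of `PlaceIntegral3.isRadical_span_singleton`) -/

section LeOne

open Polynomial

variable (n e M : ℕ) [NeZero n] [NeZero M] (cv : SL(2, ℤ) → Option Kbar)

/-- `ord_v p(t) ≤ 1` at every place, for `p` separable without cusp-value roots. -/
theorem ord_aeval_le_one (h : TMem n e M)
    (hU : ∀ v : Place Kbar (FF M), 0 ≤ v.ord (jF M) →
      ∃ c : Kbar, v.ord (tF M h - algebraMap Kbar (FF M) c) = 1)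
    (hC : ∀ γ : SL(2, ℤ), CuspShape n ((cuspData M).T γ (tF M h)) (cv γ))
    (p : Kbar[X]) (hp : p.Separable) (hnc : ∀ c : Kbar, p.IsRoot c → ∀ γ, cv γ ≠ some c)
    (v : Place Kbar (FF M)) : v.ord (aeval (tF M h) p) ≤ 1 := by
  by_cases hpos : 0 < v.ord (aeval (tF M h) p)
  · obtain ⟨c, hroot, hc, heq⟩ :=
      HorizGen20.ord_aeval_eq_ord_sub v (exists_ord_sub_pos_bar M v) (tF M h) p hp hpos
    rw [heq, ord_sub_eq_one n e M cv h hU hC v c (hnc c hroot) hc]
  · omega

/-- the twin for `t⁻¹`. -/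
theorem ord_aeval_inv_le_one (h : TMem n e M)
    (hU : ∀ v : Place Kbar (FF M), 0 ≤ v.ord (jF M) →
      ∃ c : Kbar, v.ord (tF M h - algebraMap Kbar (FF M) c) = 1)
    (hC : ∀ γ : SL(2, ℤ), CuspShape n ((cuspData M).T γ (tF M h)) (cv γ))
    (p : Kbar[X]) (hp : p.Separable)
    (hnc : ∀ c : Kbar, p.IsRoot c → c ≠ 0 ∧ ∀ γ, cv γ ≠ some c⁻¹)
    (v : Place Kbar (FF M)) : v.ord (aeval (tF M h)⁻¹ p) ≤ 1 := by
  by_cases hpos : 0 < v.ord (aeval (tF M h)⁻¹ p)
  · obtain ⟨c, hroot, hc, heq⟩ :=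
      HorizGen20.ord_aeval_eq_ord_sub v (exists_ord_sub_pos_bar M v) (tF M h)⁻¹ p hp hpos
    obtain ⟨hc0, hcv⟩ := hnc c hroot
    have heq2 : v.ord ((tF M h)⁻¹ - algebraMap Kbar (FF M) c)
        = v.ord (tF M h - algebraMap Kbar (FF M) c⁻¹) := HorizGen20.ord_inv_sub v (tF M h) c hc0 hc
    rw [heq2] at hc
    rw [heq, heq2, ord_sub_eq_one n e M cv h hU hC v c⁻¹ hcv hc]
  · omega

end LeOne

end Fermat.Agent.RED.PUR.HorizUnram20
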