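/-
Program H (S18), chapter RED/PUR (helper20): (β2)-CONCRETE, part 2 — the `hUNR` hypothesis of
`PurityMain26.smooth_of_purity` / `PurityMain26.not_dvd_discr_of_valuative` from (EXT) + BASE.

`A` a domain with fraction field `K ⊂ ℚbar` (`K = A[1/π]`), `F ⊇ K` a field with a ring map `bc : F → Fbar_M`
over `K → ℚbar`, `t ∈ F` with `bc t = t_M` (the Hauptmodul), `B` an `A[X]`-algebra inside `F`
(`X ↦ t`).  For a discrete valuation subring `O ⊇ B` of `F` in which `π` and all `t - c_i`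
(`c_i` the finite cusp values) are units, some polynomial `g0(t)`, `g0 ∈ A[X]`, is a uniformiser
of `O`.
-/
import Mathlib
import Fermat.Agent.RED.PUR.HorizUnram20

set_option autoImplicit false
set_option linter.unusedSectionVars false

open UpperHalfPlane hiding I
open scoped MatrixGroups IntermediateField
open Polynomial

noncomputable section

namespace Fermat.Agent.RED.PUR.HorizPlace20

open Fermat.Agent.X0 Fermat.Agent.X0.FF AlgebraicCurve
open Fermat.Agent.RED.BASE.Interface12 Fermat.Agent.RED.BASE.EtaQuot12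

/-! ### generic: places from discrete valuation subrings, uniformisers -/

section Generic

variable {K F : Type*} [Field K] [Field F] [Algebra K F]

/-- A discrete valuation subring of `F` containing `K` is a place of `F / K`. -/
def placeOfDVR (O : ValuationSubring F) [IsDiscreteValuationRing O]
    (hK : ∀ a : K, algebraMap K F a ∈ O) : Place K F where
  toValuationSubring := O
  algebraMap_mem' := hK
  ne_top' := by
    intro htop
    obtain ⟨ϖ, hϖ⟩ := IsDiscreteValuationRing.exists_irreducible O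
    apply hϖ.not_isUnit
    have hne : (ϖ : F) ≠ 0 := by
      intro h0
      exact hϖ.ne_zero (Subtype.ext h0)
    have hall : ∀ x : F, x ∈ O := by
      intro x
      have hx : x ∈ (⊤ : ValuationSubring F) := ValuationSubring.mem_top x
      rwa [← htop] at hx
    have hinv : (ϖ : F)⁻¹ ∈ O := hall _
    refine IsUnit.of_mul_eq_one ⟨_, hinv⟩ ?_
    apply Subtype.ext
    simp [hne]
  isPrincipalIdealRing' := inferInstance

@[simp] theorem placeOfDVR_toValuationSubring (O : ValuationSubring F) [IsDiscreteValuationRing O]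
    (hK : ∀ a : K, algebraMap K F a ∈ O) : (placeOfDVR O hK).toValuationSubring = O := rfl

/-- An element of order one is a uniformiser, in the elementwise shape of `hUNR`. -/
theorem uniformizer_of_ord_eq_one (w : Place K F) (G : F) (hG : w.ord G = 1) :
    G⁻¹ ∉ w.toValuationSubring ∧
      ∀ y ∈ w.toValuationSubring, y⁻¹ ∉ w.toValuationSubring → y / G ∈ w.toValuationSubring := by
  have hG0 : G ≠ 0 := by
    intro h; rw [h, Place.ord_zero] at hG; exact zero_ne_one hG
  refine ⟨fun h => ?_, fun y hy hyinv => ?_⟩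
  · have := ffp_ord_nonneg_of_mem w h
    rw [w.ord_inv, hG] at this
    omega
  · rcases eq_or_ne y 0 with rfl | hy0
    · simp
    · have h1 : 0 ≤ w.ord y := ffp_ord_nonneg_of_mem w hy
      have h2 : ¬ 0 ≤ w.ord y⁻¹ := fun h => hyinv (ffp_mem_of_ord_nonneg w h)
      rw [w.ord_inv] at h2
      apply ffp_mem_of_ord_nonneg
      rw [div_eq_mul_inv, w.ord_mul hy0 (inv_ne_zero hG0), w.ord_inv, hG]
      omega

variable {A : Type*} [CommRing A] [Algebra A F]

/-- `K = A[1/π] ⊆ O` as soon as `A ⊆ O` and `π⁻¹ ∈ O`. -/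
theorem algebraMap_mem_of_inv_mem (O : ValuationSubring F) (π : A)
    (hK : ∀ a : K, ∃ (r : A) (k : ℕ), algebraMap K F a * algebraMap A F π ^ k = algebraMap A F r)
    (hA : ∀ r : A, algebraMap A F r ∈ O) (hπ0 : algebraMap A F π ≠ 0)
    (hπ : (algebraMap A F π)⁻¹ ∈ O) (a : K) : algebraMap K F a ∈ O := by
  obtain ⟨r, k, hrk⟩ := hK a
  have : algebraMap K F a = algebraMap A F r * ((algebraMap A F π)⁻¹) ^ k := by
    rw [← hrk, mul_assoc, ← mul_pow, mul_inv_cancel₀ hπ0, one_pow, mul_one]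
  rw [this]
  exact O.mul_mem _ _ (hA r) (O.pow_mem hπ k)

end Generic

/-! ### the concrete statement -/

section Concrete

variable (n e M : ℕ) [NeZero n] [NeZero M] (cv : SL(2, ℤ) → Option Kbar)
variable {A K F B : Type*} [CommRing A] [IsDomain A] [Field K] [CharZero K] [Field F] [CommRing B]
  [Algebra A K] [IsFractionRing A K] [Algebra K F] [Algebra A F] [IsScalarTower A K F]
  [Algebra A[X] B] [Algebra B F]
  [Algebra K Kbar] [Algebra A Kbar] [IsScalarTower A K Kbar] [Algebra.IsAlgebraic K Kbar]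

/-- **Generic core of (H3).**  `T' ∈ Fbar_M` non-constant with simple zeros of `T' - c` at the `good`
values `c`; `s ∈ F` with `bc s = T'`; `B` an `A[X]`-algebra in `F` with `X ↦ s`.  A discrete valuation
subring `O ⊇ B` in which `π` is a unit and whose centre value is `good` has a uniformiser `g0(s)`,
`g0 ∈ A[X]`. -/
theorem exists_uniformizer_gen (T' : FF M)
    (hconst : ∀ c : Kbar, T' ≠ algebraMap Kbar (FF M) c) (good : Kbar → Prop)
    (hsimple : ∀ (v : Place Kbar (FF M)) (c : Kbar), good c →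
      0 < v.ord (T' - algebraMap Kbar (FF M) c) → v.ord (T' - algebraMap Kbar (FF M) c) = 1)
    (bc : F →+* FF M)
    (hbc : ∀ a : K, bc (algebraMap K F a) = algebraMap Kbar (FF M) (algebraMap K Kbar a))
    (s : F) (hs : bc s = T')
    (hExt : ∀ w : Place K F, ∃ (v : Place Kbar (FF M)) (d : ℕ), 0 < d ∧
      ∀ f : F, v.ord (bc f) = (d : ℤ) * w.ord f)
    (hX : ∀ p : A[X], algebraMap B F (algebraMap A[X] B p) = aeval s p)
    (π : A) (hπ0 : algebraMap A F π ≠ 0)
    (hK : ∀ a : K, ∃ (r : A) (k : ℕ), algebraMap K F a * algebraMap A F π ^ k = algebraMap A F r)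
    (O : ValuationSubring F) (hB : ∀ z : B, algebraMap B F z ∈ O) [IsDiscreteValuationRing O]
    (hπ : (algebraMap B F (algebraMap A[X] B (C π)))⁻¹ ∈ O)
    (hgood : ∀ (w : Place K F), w.toValuationSubring = O → ∀ (v : Place Kbar (FF M)) (d : ℕ),
      0 < d → (∀ f : F, v.ord (bc f) = (d : ℤ) * w.ord f) → ∀ c : Kbar,
      0 < v.ord (T' - algebraMap Kbar (FF M) c) → good c) :
    ∃ g0 : A[X], (algebraMap B F (algebraMap A[X] B g0))⁻¹ ∉ O ∧
      ∀ y ∈ O, y⁻¹ ∉ O → y / algebraMap B F (algebraMap A[X] B g0) ∈ O := by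
  -- `A ⊆ O`, `K ⊆ O`
  have hA : ∀ r : A, algebraMap A F r ∈ O := by
    intro r
    have := hB (algebraMap A[X] B (C r))
    rwa [hX, aeval_C] at this
  have hπ' : (algebraMap A F π)⁻¹ ∈ O := by rwa [hX, aeval_C] at hπ
  have hKO : ∀ a : K, algebraMap K F a ∈ O := algebraMap_mem_of_inv_mem O π hK hA hπ0 hπ'
  set w : Place K F := placeOfDVR O hKO with hw
  obtain ⟨v, d, hd, hve⟩ := hExt w
  have hdpos : (0 : ℤ) < d := by exact_mod_cast hd
  -- `s ∈ O`
  have hsO : s ∈ O := by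
    have := hB (algebraMap A[X] B X)
    rwa [hX, aeval_X] at this
  have hTv : T' ∈ v.toValuationSubring := by
    apply ffp_mem_of_ord_nonneg
    rw [← hs, hve]
    have : 0 ≤ w.ord s := ffp_ord_nonneg_of_mem w hsO
    positivity
  -- the centre value `c`
  obtain ⟨c, hc | hc⟩ := HorizUnram20.exists_ord_sub_pos_bar M v T' hTv
  · exact absurd hc (hconst c)
  have hgoodc : good c := hgood w rfl v d hd hve c hc
  -- the minimal polynomial of `c` over `K`
  have hcint : IsIntegral K c := (Algebra.IsAlgebraic.isAlgebraic c).isIntegral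
  set g : K[X] := minpoly K c with hg
  have hgirr : Irreducible g := minpoly.irreducible hcint
  have hgsep : g.Separable := hgirr.separable
  have hgroot : (g.map (algebraMap K Kbar)).IsRoot c := by
    rw [IsRoot, eval_map, ← aeval_def]
    exact minpoly.aeval K c
  -- `0 < ord_w g(s)`
  have hbcg : bc (aeval s g) = aeval T' (g.map (algebraMap K Kbar)) := by
    rw [HorizGen20.bc_aeval bc hbc, hs]
  have hgbar0 : g.map (algebraMap K Kbar) ≠ 0 :=
    (Polynomial.map_ne_zero_iff (algebraMap K Kbar).injective).mpr hgirr.ne_zero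
  have hTtr : aeval T' (g.map (algebraMap K Kbar)) ≠ 0 := by
    intro h0
    have halg : IsAlgebraic Kbar T' := ⟨_, hgbar0, h0⟩
    obtain ⟨c', hc'⟩ := FF.eq_algebraMap_of_isAlgebraic halg
    exact hconst c' hc'
  have hposv : 0 < v.ord (aeval T' (g.map (algebraMap K Kbar))) := by
    have hexp := HorizGen20.aeval_eq_add_mul (g.map (algebraMap K Kbar)) c T'
    rw [hgroot, map_zero, zero_add] at hexp
    set Q := aeval T' ((g.map (algebraMap K Kbar)) /ₘ (X - C c)) with hQ
    have hQ0 : Q ≠ 0 := by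
      intro hq; rw [hq, mul_zero] at hexp; exact hTtr hexp
    have hTc0 : T' - algebraMap Kbar (FF M) c ≠ 0 := by
      intro hq; rw [hq, zero_mul] at hexp; exact hTtr hexp
    have hQmem : Q ∈ v.toValuationSubring := HorizGen20.aeval_mem v hTv _
    have hQord : 0 ≤ v.ord Q := ffp_ord_nonneg_of_mem v hQmem
    rw [hexp, v.ord_mul hTc0 hQ0]
    omega
  have hposw : 0 < w.ord (aeval s g) := by
    have := hve (aeval s g)
    rw [hbcg] at this
    rw [this] at hposv
    by_contra hle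
    have : w.ord (aeval s g) ≤ 0 := not_lt.mp hle
    nlinarith
  -- `ord_w g(s) = 1`
  have hone : w.ord (aeval s g) = 1 := by
    refine HorizGen20.ord_aeval_eq_one v bc hbc w d hd hve (HorizUnram20.exists_ord_sub_pos_bar M v)
      s g hgsep ?_ hposw
    intro c' _ hc'
    rw [hs] at hc' ⊢
    -- `c' = c`
    have hcc : c' = c := by
      by_contra hne
      have hconst' : algebraMap Kbar (FF M) (c - c') ≠ 0 := by
        rw [Ne, map_eq_zero]; exact sub_ne_zero.mpr (Ne.symm hne)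
      have h0 : v.ord (algebraMap Kbar (FF M) (c - c')) = 0 := ffp_ord_algebraMap v _
      have hlt : v.ord (algebraMap Kbar (FF M) (c - c'))
          < v.ord (T' - algebraMap Kbar (FF M) c) := by rw [h0]; exact hc
      have := ffp_ord_add_eq_of_lt v hconst' hlt
      have heq : algebraMap Kbar (FF M) (c - c') + (T' - algebraMap Kbar (FF M) c)
          = T' - algebraMap Kbar (FF M) c' := by rw [map_sub]; ring
      rw [heq, h0] at this
      omega
    rw [hcc]
    exact hsimple v c hgoodc hc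
  -- scale `g` into `A[X]`
  obtain ⟨b, hbM, hb⟩ := IsLocalization.integerNormalization_spec (nonZeroDivisors A) g
  set g0 : A[X] := IsLocalization.integerNormalization (nonZeroDivisors A) g with hg0
  have hb0 : b ≠ 0 := nonZeroDivisors.ne_zero hbM
  have hbK : algebraMap A K b ≠ 0 := by
    rw [Ne, map_eq_zero_iff _ (IsFractionRing.injective A K)]; exact hb0
  have hG : aeval s g0 = algebraMap K F (algebraMap A K b) * aeval s g := by
    rw [← aeval_map_algebraMap K s g0, hb, ← algebraMap_smul K b g, map_smul, Algebra.smul_def]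
  have hgt0 : aeval s g ≠ 0 := by
    intro h0; rw [h0, Place.ord_zero] at hone; exact zero_ne_one hone
  have hordG : w.ord (aeval s g0) = 1 := by
    rw [hG, w.ord_mul ((_root_.map_ne_zero _).mpr hbK) hgt0, ffp_ord_algebraMap, hone, zero_add]
  refine ⟨g0, ?_⟩
  rw [hX]
  exact uniformizer_of_ord_eq_one w _ hordG

/-- `bc` on the constants coming from `A`. -/
theorem bc_algebraMap_A (bc : F →+* FF M)
    (hbc : ∀ a : K, bc (algebraMap K F a) = algebraMap Kbar (FF M) (algebraMap K Kbar a)) (a : A) :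
    bc (algebraMap A F a) = algebraMap Kbar (FF M) (algebraMap A Kbar a) := by
  rw [IsScalarTower.algebraMap_apply A K F, hbc, ← IsScalarTower.algebraMap_apply A K Kbar]

/-- **Core of (H3), chart `t`.**  A discrete valuation subring `O ⊇ B` of `F` in which `π` and all
`t - c_i` (`c_i` the finite cusp values) are units has a uniformiser of the form `g0(t)`, `g0 ∈ A[X]`. -/
theorem exists_uniformizer (h : TMem n e M)
    (hU : ∀ v : Place Kbar (FF M), 0 ≤ v.ord (jF M) →
      ∃ c : Kbar, v.ord (tF M h - algebraMap Kbar (FF M) c) = 1)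
    (hC : ∀ γ : SL(2, ℤ), CuspShape n ((cuspData M).T γ (tF M h)) (cv γ))
    (hconst : ∀ c : Kbar, tF M h ≠ algebraMap Kbar (FF M) c)
    (hcvA : ∀ γ c, cv γ = some c → ∃ a : A, algebraMap A Kbar a = c)
    (bc : F →+* FF M)
    (hbc : ∀ a : K, bc (algebraMap K F a) = algebraMap Kbar (FF M) (algebraMap K Kbar a))
    (t : F) (ht : bc t = tF M h)
    (hExt : ∀ w : Place K F, ∃ (v : Place Kbar (FF M)) (d : ℕ), 0 < d ∧
      ∀ f : F, v.ord (bc f) = (d : ℤ) * w.ord f)
    (hX : ∀ p : A[X], algebraMap B F (algebraMap A[X] B p) = aeval t p)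
    (π : A) (hπ0 : algebraMap A F π ≠ 0)
    (hK : ∀ a : K, ∃ (r : A) (k : ℕ), algebraMap K F a * algebraMap A F π ^ k = algebraMap A F r)
    (O : ValuationSubring F) (hB : ∀ z : B, algebraMap B F z ∈ O) [IsDiscreteValuationRing O]
    (hπ : (algebraMap B F (algebraMap A[X] B (C π)))⁻¹ ∈ O)
    (hcusp : ∀ a : A, (∃ γ, cv γ = some (algebraMap A Kbar a)) →
      (algebraMap B F (algebraMap A[X] B (X - C a)))⁻¹ ∈ O) :
    ∃ g0 : A[X], (algebraMap B F (algebraMap A[X] B g0))⁻¹ ∉ O ∧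
      ∀ y ∈ O, y⁻¹ ∉ O → y / algebraMap B F (algebraMap A[X] B g0) ∈ O := by
  refine exists_uniformizer_gen M (tF M h) hconst (fun c => ∀ γ, cv γ ≠ some c)
    (fun v c hgc hc => HorizUnram20.ord_sub_eq_one n e M cv h hU hC v c hgc hc)
    bc hbc t ht hExt hX π hπ0 hK O hB hπ ?_
  intro w hwO v d hd hve c hc γ hγ
  obtain ⟨a, ha⟩ := hcvA γ c hγ
  have h1 := hcusp a ⟨γ, by rw [ha]; exact hγ⟩
  rw [hX, map_sub, aeval_X, aeval_C, ← hwO] at h1
  have h2 : 0 ≤ w.ord (t - algebraMap A F a)⁻¹ := ffp_ord_nonneg_of_mem w h1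
  rw [w.ord_inv] at h2
  have h3 := hve (t - algebraMap A F a)
  rw [map_sub, ht, bc_algebraMap_A M bc hbc, ha] at h3
  rw [h3] at hc
  have hdpos : (0 : ℤ) < d := by exact_mod_cast hd
  nlinarith

/-- **Core of (H3), chart `t⁻¹`.**  `X ↦ s`, `bc s = t_M⁻¹`: a discrete valuation subring `O ⊇ B` in which
`π`, `s` and all `c_i s - 1` are units has a uniformiser of the form `g0(s)`, `g0 ∈ A[X]`. -/
theorem exists_uniformizer_inv (h : TMem n e M)
    (hU : ∀ v : Place Kbar (FF M), 0 ≤ v.ord (jF M) →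
      ∃ c : Kbar, v.ord (tF M h - algebraMap Kbar (FF M) c) = 1)
    (hC : ∀ γ : SL(2, ℤ), CuspShape n ((cuspData M).T γ (tF M h)) (cv γ))
    (hconst : ∀ c : Kbar, tF M h ≠ algebraMap Kbar (FF M) c)
    (hcvA : ∀ γ c, cv γ = some c → ∃ a : A, algebraMap A Kbar a = c)
    (bc : F →+* FF M)
    (hbc : ∀ a : K, bc (algebraMap K F a) = algebraMap Kbar (FF M) (algebraMap K Kbar a))
    (s : F) (hs : bc s = (tF M h)⁻¹)
    (hExt : ∀ w : Place K F, ∃ (v : Place Kbar (FF M)) (d : ℕ), 0 < d ∧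
      ∀ f : F, v.ord (bc f) = (d : ℤ) * w.ord f)
    (hX : ∀ p : A[X], algebraMap B F (algebraMap A[X] B p) = aeval s p)
    (π : A) (hπ0 : algebraMap A F π ≠ 0)
    (hK : ∀ a : K, ∃ (r : A) (k : ℕ), algebraMap K F a * algebraMap A F π ^ k = algebraMap A F r)
    (O : ValuationSubring F) (hB : ∀ z : B, algebraMap B F z ∈ O) [IsDiscreteValuationRing O]
    (hπ : (algebraMap B F (algebraMap A[X] B (C π)))⁻¹ ∈ O)
    (hsunit : (algebraMap B F (algebraMap A[X] B X))⁻¹ ∈ O)
    (hcusp : ∀ a : A, (∃ γ, cv γ = some (algebraMap A Kbar a)) →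
      (algebraMap B F (algebraMap A[X] B (C a * X - 1)))⁻¹ ∈ O) :
    ∃ g0 : A[X], (algebraMap B F (algebraMap A[X] B g0))⁻¹ ∉ O ∧
      ∀ y ∈ O, y⁻¹ ∉ O → y / algebraMap B F (algebraMap A[X] B g0) ∈ O := by
  have hT0 : tF M h ≠ 0 := by
    intro h0
    exact hconst 0 (by rw [h0, map_zero])
  have hconst' : ∀ c : Kbar, (tF M h)⁻¹ ≠ algebraMap Kbar (FF M) c := by
    intro c hc
    apply hconst c⁻¹
    rw [map_inv₀, ← hc, inv_inv]
  refine exists_uniformizer_gen M (tF M h)⁻¹ hconst'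
    (fun c => c ≠ 0 ∧ ∀ γ, cv γ ≠ some c⁻¹) ?_ bc hbc s hs hExt hX π hπ0 hK O hB hπ ?_
  · rintro v c ⟨hc0, hcv⟩ hc
    have heq : v.ord ((tF M h)⁻¹ - algebraMap Kbar (FF M) c)
        = v.ord (tF M h - algebraMap Kbar (FF M) c⁻¹) := HorizGen20.ord_inv_sub v (tF M h) c hc0 hc
    rw [heq] at hc ⊢
    exact HorizUnram20.ord_sub_eq_one n e M cv h hU hC v c⁻¹ hcv hc
  · intro w hwO v d hd hve c hc
    have hdpos : (0 : ℤ) < d := by exact_mod_cast hd
    -- `s` is a unit of `O`, so `ord_v T⁻¹ = 0`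
    have hsO : s ∈ w.toValuationSubring := by
      have := hB (algebraMap A[X] B X)
      rwa [hX, aeval_X, ← hwO] at this
    have hsinv : s⁻¹ ∈ w.toValuationSubring := by
      rwa [hX, aeval_X, ← hwO] at hsunit
    have hws : w.ord s = 0 := by
      have h1 := ffp_ord_nonneg_of_mem w hsO
      have h2 := ffp_ord_nonneg_of_mem w hsinv
      rw [w.ord_inv] at h2
      omega
    have hvT : v.ord (tF M h)⁻¹ = 0 := by rw [← hs, hve, hws, mul_zero]
    have hc0 : c ≠ 0 := by
      intro h0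
      rw [h0, map_zero, sub_zero, hvT] at hc
      exact lt_irrefl _ hc
    refine ⟨hc0, fun γ hγ => ?_⟩
    obtain ⟨a, ha⟩ := hcvA γ c⁻¹ hγ
    have h1 := hcusp a ⟨γ, by rw [ha]; exact hγ⟩
    rw [hX, map_sub, map_mul, aeval_X, aeval_C, map_one, ← hwO] at h1
    have h2 : 0 ≤ w.ord (algebraMap A F a * s - 1)⁻¹ := ffp_ord_nonneg_of_mem w h1
    rw [w.ord_inv] at h2
    have h3 := hve (algebraMap A F a * s - 1)
    rw [map_sub, map_mul, map_one, hs, bc_algebraMap_A M bc hbc, ha] at h3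
    -- `c⁻¹ T⁻¹ - 1 = c⁻¹ (T⁻¹ - c)`
    have hfac : algebraMap Kbar (FF M) c⁻¹ * (tF M h)⁻¹ - 1
        = algebraMap Kbar (FF M) c⁻¹ * ((tF M h)⁻¹ - algebraMap Kbar (FF M) c) := by
      rw [mul_sub, ← map_mul, inv_mul_cancel₀ hc0, map_one]
    have hcinv : algebraMap Kbar (FF M) c⁻¹ ≠ 0 := by
      rw [Ne, map_eq_zero]; exact inv_ne_zero hc0
    have hne : (tF M h)⁻¹ - algebraMap Kbar (FF M) c ≠ 0 := by
      intro h0; rw [h0, Place.ord_zero] at hc; exact lt_irrefl _ hc
    rw [hfac, v.ord_mul hcinv hne, ffp_ord_algebraMap, zero_add] at h3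
    rw [h3] at hc
    nlinarith

/-! ### the literal `hUNR` shapes of `PurityMain26` (`R0 := A[X]`, `π := C π₀`) -/

/-- **`hUNR` of `PurityMain26.smooth_of_purity`** at a maximal ideal `x` of `B` containing no
`t - c_i` (`c_i` the finite cusp values): a NON-cusp closed point of the chart `t`. -/
theorem hUNR_noncusp (h : TMem n e M)
    (hU : ∀ v : Place Kbar (FF M), 0 ≤ v.ord (jF M) →
      ∃ c : Kbar, v.ord (tF M h - algebraMap Kbar (FF M) c) = 1)
    (hC : ∀ γ : SL(2, ℤ), CuspShape n ((cuspData M).T γ (tF M h)) (cv γ))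
    (hconst : ∀ c : Kbar, tF M h ≠ algebraMap Kbar (FF M) c)
    (hcvA : ∀ γ c, cv γ = some c → ∃ a : A, algebraMap A Kbar a = c)
    (bc : F →+* FF M)
    (hbc : ∀ a : K, bc (algebraMap K F a) = algebraMap Kbar (FF M) (algebraMap K Kbar a))
    (t : F) (ht : bc t = tF M h)
    (hExt : ∀ w : Place K F, ∃ (v : Place Kbar (FF M)) (d : ℕ), 0 < d ∧
      ∀ f : F, v.ord (bc f) = (d : ℤ) * w.ord f)
    (hX : ∀ p : A[X], algebraMap B F (algebraMap A[X] B p) = aeval t p)
    (π : A) (hπ0 : algebraMap A F π ≠ 0)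
    (hK : ∀ a : K, ∃ (r : A) (k : ℕ), algebraMap K F a * algebraMap A F π ^ k = algebraMap A F r)
    (x : Ideal B)
    (hx : ∀ a : A, (∃ γ, cv γ = some (algebraMap A Kbar a)) → algebraMap A[X] B (X - C a) ∉ x) :
    ∀ O : ValuationSubring F, (∀ z : B, algebraMap B F z ∈ O) → IsDiscreteValuationRing O →
      (algebraMap B F (algebraMap A[X] B (C π)))⁻¹ ∈ O →
      (∀ r : A[X], algebraMap A[X] B r ∉ x → (algebraMap B F (algebraMap A[X] B r))⁻¹ ∈ O) →
      ∃ g0 : A[X], (algebraMap B F (algebraMap A[X] B g0))⁻¹ ∉ O ∧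
        ∀ y ∈ O, y⁻¹ ∉ O → y / algebraMap B F (algebraMap A[X] B g0) ∈ O := by
  intro O hB hdvr hπ hcen
  have := hdvr
  exact exists_uniformizer n e M cv h hU hC hconst hcvA bc hbc t ht hExt hX π hπ0 hK O hB hπ
    (fun a ha => hcen _ (hx a ha))

/-- **`hUNR` of `PurityMain26.not_dvd_discr_of_valuative`** at the cusp point `P ∋ X - C a₀` of the chart
`t`, excluded element `q := X - C a₀`: the other cusp values are separated from `a₀` at `P`. -/
theorem hUNR_cusp (h : TMem n e M)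
    (hU : ∀ v : Place Kbar (FF M), 0 ≤ v.ord (jF M) →
      ∃ c : Kbar, v.ord (tF M h - algebraMap Kbar (FF M) c) = 1)
    (hC : ∀ γ : SL(2, ℤ), CuspShape n ((cuspData M).T γ (tF M h)) (cv γ))
    (hconst : ∀ c : Kbar, tF M h ≠ algebraMap Kbar (FF M) c)
    (hcvA : ∀ γ c, cv γ = some c → ∃ a : A, algebraMap A Kbar a = c)
    (bc : F →+* FF M)
    (hbc : ∀ a : K, bc (algebraMap K F a) = algebraMap Kbar (FF M) (algebraMap K Kbar a))
    (t : F) (ht : bc t = tF M h)
    (hExt : ∀ w : Place K F, ∃ (v : Place Kbar (FF M)) (d : ℕ), 0 < d ∧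
      ∀ f : F, v.ord (bc f) = (d : ℤ) * w.ord f)
    (hX : ∀ p : A[X], algebraMap B F (algebraMap A[X] B p) = aeval t p)
    (π : A) (hπ0 : algebraMap A F π ≠ 0)
    (hK : ∀ a : K, ∃ (r : A) (k : ℕ), algebraMap K F a * algebraMap A F π ^ k = algebraMap A F r)
    (P : Ideal A[X]) (a₀ : A)
    (hP : ∀ a : A, (∃ γ, cv γ = some (algebraMap A Kbar a)) → a = a₀ ∨ X - C a ∉ P) :
    ∀ O : ValuationSubring F, (∀ z : B, algebraMap B F z ∈ O) → IsDiscreteValuationRing O →
      (algebraMap B F (algebraMap A[X] B (C π)))⁻¹ ∈ O →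
      (algebraMap B F (algebraMap A[X] B (X - C a₀)))⁻¹ ∈ O →
      (∀ r : A[X], r ∉ P → (algebraMap B F (algebraMap A[X] B r))⁻¹ ∈ O) →
      ∃ g0 : A[X], (algebraMap B F (algebraMap A[X] B g0))⁻¹ ∉ O ∧
        ∀ y ∈ O, y⁻¹ ∉ O → y / algebraMap B F (algebraMap A[X] B g0) ∈ O := by
  intro O hB hdvr hπ hq hcen
  have := hdvr
  refine exists_uniformizer n e M cv h hU hC hconst hcvA bc hbc t ht hExt hX π hπ0 hK O hB hπ ?_
  intro a ha
  rcases hP a ha with rfl | hne
  · exact hq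
  · exact hcen _ hne

/-- **`hUNR` of `PurityMain26.not_dvd_discr_of_valuative`** at the cusp point `t = ∞` of the chart
`s = t⁻¹` (`X ↦ s`), excluded element `q := X`. -/
theorem hUNR_cusp_inv (h : TMem n e M)
    (hU : ∀ v : Place Kbar (FF M), 0 ≤ v.ord (jF M) →
      ∃ c : Kbar, v.ord (tF M h - algebraMap Kbar (FF M) c) = 1)
    (hC : ∀ γ : SL(2, ℤ), CuspShape n ((cuspData M).T γ (tF M h)) (cv γ))
    (hconst : ∀ c : Kbar, tF M h ≠ algebraMap Kbar (FF M) c)
    (hcvA : ∀ γ c, cv γ = some c → ∃ a : A, algebraMap A Kbar a = c)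
    (bc : F →+* FF M)
    (hbc : ∀ a : K, bc (algebraMap K F a) = algebraMap Kbar (FF M) (algebraMap K Kbar a))
    (s : F) (hs : bc s = (tF M h)⁻¹)
    (hExt : ∀ w : Place K F, ∃ (v : Place Kbar (FF M)) (d : ℕ), 0 < d ∧
      ∀ f : F, v.ord (bc f) = (d : ℤ) * w.ord f)
    (hX : ∀ p : A[X], algebraMap B F (algebraMap A[X] B p) = aeval s p)
    (π : A) (hπ0 : algebraMap A F π ≠ 0)
    (hK : ∀ a : K, ∃ (r : A) (k : ℕ), algebraMap K F a * algebraMap A F π ^ k = algebraMap A F r)
    (P : Ideal A[X])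
    (hP : ∀ a : A, (∃ γ, cv γ = some (algebraMap A Kbar a)) → C a * X - 1 ∉ P) :
    ∀ O : ValuationSubring F, (∀ z : B, algebraMap B F z ∈ O) → IsDiscreteValuationRing O →
      (algebraMap B F (algebraMap A[X] B (C π)))⁻¹ ∈ O →
      (algebraMap B F (algebraMap A[X] B X))⁻¹ ∈ O →
      (∀ r : A[X], r ∉ P → (algebraMap B F (algebraMap A[X] B r))⁻¹ ∈ O) →
      ∃ g0 : A[X], (algebraMap B F (algebraMap A[X] B g0))⁻¹ ∉ O ∧
        ∀ y ∈ O, y⁻¹ ∉ O → y / algebraMap B F (algebraMap A[X] B g0) ∈ O := by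
  intro O hB hdvr hπ hq hcen
  have := hdvr
  exact exists_uniformizer_inv n e M cv h hU hC hconst hcvA bc hbc s hs hExt hX π hπ0 hK O hB hπ hq
    (fun a ha => hcen _ (hP a ha))

end Concrete

end Fermat.Agent.RED.PUR.HorizPlace20
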