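/-
Program H (S18), chapter RED/PUR — helper4 (integrator).  `HorizPlace20.hUNR_noncusp` for the chart
algebra `B := A[X]` itself (`A[X] → F`, `X ↦ t`), stated with `aeval t` and NO algebra instance on
`A[X] → F`: the shape consumed by `OffIface4.HUNROff`.
-/
import Mathlib
import Fermat.Agent.RED.PUR.HorizPlace20

set_option autoImplicit false
set_option linter.unusedSectionVars false
set_option linter.unusedVariables false
set_option linter.style.haveILetI false

open UpperHalfPlane hiding I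
open scoped MatrixGroups IntermediateField
open Polynomial

noncomputable section

namespace Fermat.Agent.RED.PUR.HorizPoly4

open Fermat.Agent.X0 Fermat.Agent.X0.FF AlgebraicCurve
open Fermat.Agent.RED.BASE.Interface12 Fermat.Agent.RED.BASE.EtaQuot12

variable (n e M : ℕ) [NeZero n] [NeZero M] (cv : SL(2, ℤ) → Option Kbar)
variable {A K F : Type*} [CommRing A] [IsDomain A] [Field K] [CharZero K] [Field F]
  [Algebra A K] [IsFractionRing A K] [Algebra K F] [Algebra A F] [IsScalarTower A K F]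
  [Algebra K Kbar] [Algebra A Kbar] [IsScalarTower A K Kbar] [Algebra.IsAlgebraic K Kbar]

/-- **`hUNR` at a non-cusp point, polynomial form.**  `P` an ideal of `A[X]` containing no `X - C a`
(`a` a finite cusp value): every discrete valuation subring `O` of `F` containing `A[t]`, in which `π`
is a unit and all `r(t)`, `r ∉ P`, are units, has a uniformiser `g0(t)`, `g0 ∈ A[X]`. -/
theorem hUNR_noncusp_poly (h : TMem n e M)
    (hU : ∀ v : Place Kbar (FF M), 0 ≤ v.ord (jF M) →
      ∃ c : Kbar, v.ord (tF M h - algebraMap Kbar (FF M) c) = 1)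
    (hC : ∀ γ : SL(2, ℤ), CuspShape n ((cuspData M).T γ (tF M h)) (cv γ))
    (hconst : ∀ c : Kbar, tF M h ≠ algebraMap Kbar (FF M) c)
    (hcvA : ∀ γ c, cv γ = some c → ∃ a : A, algebraMap A Kbar a = c)
    (bc : F →+* FF M)
    (hbc : ∀ a : K, bc (algebraMap K F a) = algebraMap Kbar (FF M) (algebraMap K Kbar a))
    (t : F) (ht : bc t = tF M h)
    (hExt : ∀ w : Place K F, ∃ (v : Place Kbar (FF M)) (d : ℕ), 0 < d ∧
      ∀ f : F, v.ord (bc f) = (d : ℤ) * w.ord f)
    (π : A) (hπ0 : algebraMap A F π ≠ 0)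
    (hK : ∀ a : K, ∃ (r : A) (k : ℕ), algebraMap K F a * algebraMap A F π ^ k = algebraMap A F r)
    (P : Ideal A[X])
    (hP : ∀ a : A, (∃ γ, cv γ = some (algebraMap A Kbar a)) → (X - C a : A[X]) ∉ P) :
    ∀ O : ValuationSubring F, (∀ z : A[X], aeval t z ∈ O) → IsDiscreteValuationRing O →
      (algebraMap A F π)⁻¹ ∈ O →
      (∀ r : A[X], r ∉ P → (aeval t r)⁻¹ ∈ O) →
      ∃ g0 : A[X], (aeval t g0)⁻¹ ∉ O ∧ ∀ y ∈ O, y⁻¹ ∉ O → y / aeval t g0 ∈ O := by
  intro O hB hdvr hπ hcen
  letI : Algebra A[X] F := (aeval t : A[X] →ₐ[A] F).toRingHom.toAlgebra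
  have hX : ∀ p : A[X], algebraMap A[X] F (algebraMap A[X] A[X] p) = aeval t p := fun p => rfl
  have key := HorizPlace20.hUNR_noncusp (B := A[X]) n e M cv h hU hC hconst hcvA bc hbc t ht hExt
    hX π hπ0 hK P (fun a ha => hP a ha) O (fun z => hB z) hdvr
    (by
      show (aeval t (C π))⁻¹ ∈ O
      rw [aeval_C]; exact hπ)
    (fun r hr => hcen r hr)
  exact key

end Fermat.Agent.RED.PUR.HorizPoly4
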