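/-
Program H (S18), chapter RED/PUR — helper26.  **Horizontal bridge: from places to `hUNR`.**

Produces the hypothesis `hUNR` of `PurityMain26.smooth_of_purity` (for `R0 = A[X]`, `X ↦ t`) from a
statement about the places of `F / K`:

  for every discrete valuation ring `O ⊇ K` of `F` with `t ∈ O` and every irreducible `g ∈ K[X]`
  without root at a cusp value and with `g(t)` a non-unit of `O`:  `g(t)` is a uniformiser of `O`.

(= `ord_w (g(t)) = 1`, i.e. helper20's `HorizUnram20.ord_aeval_eq_one`.)  The point `x` is assumed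
to be a non-cusp point: `t - c ∉ x` for all cusp values `c ∈ A`.
-/
import Mathlib

set_option autoImplicit false
set_option linter.style.haveILetI false
set_option linter.unusedSectionVars false

namespace Fermat.Agent.RED.PUR.HorizBridge26

open Polynomial IsLocalRing

variable {A K F : Type*} [CommRing A] [IsDomain A] [IsDiscreteValuationRing A]
  [Field K] [Algebra A K] [IsFractionRing A K]
  [Field F] [Algebra K F] [Algebra A F] [IsScalarTower A K F]
  [Algebra A[X] F] [IsScalarTower A A[X] F]
  (B : Type*) [CommRing B] [IsDomain B] [Algebra A[X] B] [Algebra B F] [IsScalarTower A[X] B F]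
  [IsFractionRing B F] [Algebra.IsIntegral A[X] B]

omit [IsDomain A] [IsDiscreteValuationRing A] in
theorem algebraMap_C (a : A) : algebraMap A[X] F (C a) = algebraMap A F a := by
  rw [IsScalarTower.algebraMap_apply A A[X] F, Polynomial.algebraMap_eq]

omit [IsDomain A] [IsDiscreteValuationRing A] [IsFractionRing A K] in
theorem algebraMap_eq_aeval (t : F) (hX : algebraMap A[X] F X = t) (p : A[X]) :
    algebraMap A[X] F p = aeval t p := by
  induction p using Polynomial.induction_on' with
  | add p q hp hq => rw [map_add, map_add, hp, hq]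
  | monomial n a =>
    rw [← C_mul_X_pow_eq_monomial, map_mul, map_pow, hX, algebraMap_C, map_mul, aeval_C, map_pow,
      aeval_X]

omit [IsDomain A] [IsDiscreteValuationRing A] [IsFractionRing A K] in
theorem aeval_map (t : F) (hX : algebraMap A[X] F X = t) (p : A[X]) :
    aeval t (p.map (algebraMap A K)) = algebraMap A[X] F p := by
  rw [algebraMap_eq_aeval t hX, aeval_map_algebraMap]

variable (K) in
omit [IsDomain A] [IsDiscreteValuationRing A] in
include K in
theorem algebraMap_A_F_injective : Function.Injective (algebraMap A F) := by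
  rw [IsScalarTower.algebraMap_eq A K F]
  exact (algebraMap K F).injective.comp (IsFractionRing.injective A K)

/-- `K = Frac A ⊆ O` as soon as `A ⊆ O` and the uniformiser of `A` is a unit of `O`. -/
theorem algebraMap_K_mem (ϖ : A) (hϖ : Irreducible ϖ) (O : ValuationSubring F)
    (hAO : ∀ a : A, algebraMap A F a ∈ O) (hϖO : (algebraMap A F ϖ)⁻¹ ∈ O) (a : K) :
    algebraMap K F a ∈ O := by
  obtain ⟨n, d, hd, rfl⟩ := IsFractionRing.div_surjective (A := A) a
  have hd0 : d ≠ 0 := nonZeroDivisors.ne_zero hd
  obtain ⟨k, u, hdu⟩ := IsDiscreteValuationRing.eq_unit_mul_pow_irreducible hd0 hϖ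
  have hinj := algebraMap_A_F_injective (A := A) K (F := F)
  have hϖ0 : algebraMap A F ϖ ≠ 0 := fun h => hϖ.ne_zero (hinj (by rw [h, map_zero]))
  have hu : algebraMap A F (u : A) * algebraMap A F ((↑u⁻¹ : Aˣ) : A) = 1 := by
    rw [← map_mul, Units.mul_inv, map_one]
  have hu0 : algebraMap A F (u : A) ≠ 0 := left_ne_zero_of_mul_eq_one hu
  have key : algebraMap K F (algebraMap A K n / algebraMap A K d) =
      algebraMap A F n * algebraMap A F ((↑u⁻¹ : Aˣ) : A) * ((algebraMap A F ϖ)⁻¹) ^ k := by
    rw [map_div₀, ← IsScalarTower.algebraMap_apply, ← IsScalarTower.algebraMap_apply, hdu, map_mul,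
      map_pow, div_eq_iff (mul_ne_zero hu0 (pow_ne_zero k hϖ0)), inv_pow]
    calc algebraMap A F n = algebraMap A F n *
          (algebraMap A F (u : A) * algebraMap A F ((↑u⁻¹ : Aˣ) : A)) *
          ((algebraMap A F ϖ ^ k)⁻¹ * algebraMap A F ϖ ^ k) := by
            rw [hu, inv_mul_cancel₀ (pow_ne_zero k hϖ0), mul_one, mul_one]
      _ = _ := by ring
  rw [key]
  exact O.mul_mem _ _ (O.mul_mem _ _ (hAO n) (hAO _)) (pow_mem hϖO k)

section Centre

variable {F' : Type*} [Field F'] {R : Type*} [CommRing R]

/-- The centre of the valuation ring `O` on a ring `R` mapping into `O`. -/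
def centre (φ : R →+* F') (O : ValuationSubring F') (h : ∀ r, φ r ∈ O) : Ideal R where
  carrier := {r | O.valuation (φ r) < 1}
  zero_mem' := by
    change O.valuation (φ 0) < 1
    rw [map_zero, map_zero]; exact zero_lt_one
  add_mem' := by
    intro a b ha hb
    change O.valuation (φ (a + b)) < 1
    rw [map_add]
    exact lt_of_le_of_lt (O.valuation.map_add _ _) (max_lt ha hb)
  smul_mem' := by
    intro c a ha
    change O.valuation (φ (c • a)) < 1
    rw [smul_eq_mul, map_mul, map_mul]
    have hc : O.valuation (φ c) ≤ 1 := (O.valuation_le_one_iff _).mpr (h c)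
    calc O.valuation (φ c) * O.valuation (φ a) ≤ 1 * O.valuation (φ a) :=
          mul_le_mul_left hc _
      _ = O.valuation (φ a) := one_mul _
      _ < 1 := ha

theorem mem_centre_iff (φ : R →+* F') (O : ValuationSubring F') (h : ∀ r, φ r ∈ O) (r : R) :
    r ∈ centre φ O h ↔ O.valuation (φ r) < 1 := Iff.rfl

theorem centre_isPrime (φ : R →+* F') (O : ValuationSubring F') (h : ∀ r, φ r ∈ O) :
    (centre φ O h).IsPrime := by
  refine ⟨fun htop => ?_, fun {a b} hab => ?_⟩
  · have h1 : (1 : R) ∈ centre φ O h := by rw [htop]; trivial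
    rw [mem_centre_iff, map_one, map_one] at h1
    exact lt_irrefl _ h1
  · rw [mem_centre_iff, map_mul, map_mul] at hab
    by_contra hcon
    push Not at hcon
    have ha : O.valuation (φ a) = 1 :=
      le_antisymm ((O.valuation_le_one_iff _).mpr (h a)) (not_lt.mp hcon.1)
    have hb : O.valuation (φ b) = 1 :=
      le_antisymm ((O.valuation_le_one_iff _).mpr (h b)) (not_lt.mp hcon.2)
    rw [ha, hb, one_mul] at hab
    exact lt_irrefl _ hab

/-- For `y ≠ 0`: `y` is a non-unit of `O` iff `O.valuation y < 1`. -/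
theorem inv_notMem_iff (O : ValuationSubring F') (y : F') (hy : y ≠ 0) :
    y⁻¹ ∉ O ↔ O.valuation y < 1 := by
  rw [← O.valuation_le_one_iff, map_inv₀, not_le]
  have hv : O.valuation y ≠ 0 := (Valuation.ne_zero_iff _).mpr hy
  constructor
  · intro h
    by_contra hcon
    push Not at hcon
    have : (O.valuation y)⁻¹ ≤ 1 := inv_le_one_of_one_le₀ hcon
    exact not_lt.mpr this h
  · intro h
    exact (one_lt_inv₀ (zero_lt_iff.mpr hv)).mpr h

end Centre

section Main

/-- **Horizontal bridge.**  See the file header. -/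
theorem hUNR_of_places (t : F) (hX : algebraMap A[X] F X = t) (ht : Transcendental K t)
    (ϖ : A) (hϖ : Irreducible ϖ) (cusps : Set A)
    (x : Ideal B) (hx : ∀ c ∈ cusps, algebraMap A[X] B (X - C c) ∉ x)
    (H : ∀ O : ValuationSubring F, (∀ a : K, algebraMap K F a ∈ O) → IsDiscreteValuationRing O →
      t ∈ O → ∀ g : K[X], Irreducible g → (∀ c ∈ cusps, ¬ g.IsRoot (algebraMap A K c)) →
      (aeval t g)⁻¹ ∉ O → ∀ y ∈ O, y⁻¹ ∉ O → y / aeval t g ∈ O) :
    ∀ O : ValuationSubring F, (∀ s : B, algebraMap B F s ∈ O) → IsDiscreteValuationRing O →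
      (algebraMap B F (algebraMap A[X] B (C ϖ)))⁻¹ ∈ O →
      (∀ r : A[X], algebraMap A[X] B r ∉ x → (algebraMap B F (algebraMap A[X] B r))⁻¹ ∈ O) →
      ∃ g0 : A[X], (algebraMap B F (algebraMap A[X] B g0))⁻¹ ∉ O ∧
        ∀ y ∈ O, y⁻¹ ∉ O → y / algebraMap B F (algebraMap A[X] B g0) ∈ O := by
  classical
  intro O hBO hdvr hπO hcen
  have hRF : ∀ r : A[X], algebraMap B F (algebraMap A[X] B r) = algebraMap A[X] F r :=
    fun r => (IsScalarTower.algebraMap_apply A[X] B F r).symm
  have hR0O : ∀ r : A[X], algebraMap A[X] F r ∈ O := fun r => by rw [← hRF]; exact hBO _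
  have hAO : ∀ a : A, algebraMap A F a ∈ O := fun a => by
    rw [← algebraMap_C (F := F)]; exact hR0O _
  have htO : t ∈ O := by rw [← hX]; exact hR0O X
  have hϖO : (algebraMap A F ϖ)⁻¹ ∈ O := by
    rw [← algebraMap_C (F := F), ← hRF]; exact hπO
  have hKO : ∀ a : K, algebraMap K F a ∈ O := algebraMap_K_mem ϖ hϖ O hAO hϖO
  -- polynomials in `t` with coefficients in `K` lie in `O`
  have haeval : ∀ p : K[X], aeval t p ∈ O := by
    intro p
    let OK : Subalgebra K F := { O.toSubring with algebraMap_mem' := hKO }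
    have h1 : Algebra.adjoin K {t} ≤ OK := Algebra.adjoin_le (by
      intro y hy
      rw [Set.mem_singleton_iff] at hy
      rw [hy]; exact htO)
    exact h1 (aeval_mem_adjoin_singleton K t)
  -- the centre of `O` on `K[X]`
  set I : Ideal K[X] := centre (aeval t : K[X] →ₐ[K] F).toRingHom O haeval with hI
  haveI hIprime : I.IsPrime := centre_isPrime _ O haeval
  have hmemI : ∀ p : K[X], p ∈ I ↔ O.valuation (aeval t p) < 1 := fun p => Iff.rfl
  have hinjK : ∀ p : K[X], p ≠ 0 → aeval t p ≠ 0 := fun p hp h0 =>
    hp ((transcendental_iff.mp ht) p h0)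
  -- `I ≠ ⊥`
  have hIne : I ≠ ⊥ := by
    -- a nonzero non-unit of `O`
    obtain ⟨ϖO, hϖO'⟩ := IsDiscreteValuationRing.exists_irreducible O
    have hy0 : (ϖO : F) ≠ 0 := fun h => hϖO'.ne_zero (Subtype.ext h)
    have hyv : O.valuation (ϖO : F) < 1 := by
      rw [← ValuationSubring.valuation_lt_one_iff]
      exact (IsLocalRing.mem_maximalIdeal _).mpr hϖO'.not_isUnit
    -- write it as a fraction of elements of `B`
    obtain ⟨b1, b2, hb2, hfrac⟩ := IsFractionRing.div_surjective (A := B) (ϖO : F)
    have hb20 : algebraMap B F b2 ≠ 0 := by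
      have : b2 ≠ 0 := nonZeroDivisors.ne_zero hb2
      exact fun h => this ((IsFractionRing.injective B F) (by rw [h, map_zero]))
    have hb1v : O.valuation (algebraMap B F b1) < 1 := by
      have h1 : algebraMap B F b1 = (ϖO : F) * algebraMap B F b2 := by
        rw [← hfrac]; field_simp
      rw [h1, map_mul]
      have h2 : O.valuation (algebraMap B F b2) ≤ 1 := (O.valuation_le_one_iff _).mpr (hBO b2)
      calc O.valuation (ϖO : F) * O.valuation (algebraMap B F b2)
          ≤ O.valuation (ϖO : F) * 1 := mul_le_mul_right h2 _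
        _ = O.valuation (ϖO : F) := mul_one _
        _ < 1 := hyv
    have hb10 : b1 ≠ 0 := by
      intro h
      apply hy0
      rw [← hfrac, h, map_zero, zero_div]
    -- contract to `A[X]`
    have hne := Ideal.comap_ne_bot_of_integral_mem (R := A[X])
      (I := centre (algebraMap B F) O hBO) hb10 hb1v (Algebra.IsIntegral.isIntegral b1)
    obtain ⟨r, hr, hr0⟩ := Submodule.exists_mem_ne_zero_of_ne_bot hne
    intro hbot
    have hrI : r.map (algebraMap A K) ∈ I := by
      rw [hmemI, aeval_map t hX, ← hRF]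
      exact hr
    rw [hbot, Ideal.mem_bot] at hrI
    exact hr0 (Polynomial.map_injective _ (IsFractionRing.injective A K) (by rw [hrI, Polynomial.map_zero]))
  -- the generator of `I`
  obtain ⟨g, hg⟩ := (IsPrincipalIdealRing.principal I).principal
  have hIg : I = Ideal.span {g} := hg
  have hg0 : g ≠ 0 := by
    intro h
    apply hIne
    rw [hIg, h]
    exact Ideal.span_singleton_eq_bot.mpr rfl
  have hgprime : Prime g := (Ideal.span_singleton_prime hg0).mp (hIg ▸ hIprime)
  have hgirr : Irreducible g := hgprime.irreducible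
  have hgI : g ∈ I := by rw [hIg]; exact Ideal.mem_span_singleton_self g
  have hgt0 : aeval t g ≠ 0 := hinjK g hg0
  have hgnonunit : (aeval t g)⁻¹ ∉ O := (inv_notMem_iff O _ hgt0).mpr ((hmemI g).mp hgI)
  -- no cusp roots
  have hnocusp : ∀ c ∈ cusps, ¬ g.IsRoot (algebraMap A K c) := by
    intro c hc hroot
    obtain ⟨q, hq⟩ := dvd_iff_isRoot.mpr hroot
    have hqu : IsUnit q :=
      (hgirr.isUnit_or_isUnit hq).resolve_left (not_isUnit_X_sub_C _)
    have hXcI : (X - C (algebraMap A K c)) ∈ I := by
      obtain ⟨u, rfl⟩ := hqu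
      have : X - C (algebraMap A K c) = g * ((u⁻¹ : K[X]ˣ) : K[X]) := by
        rw [hq, mul_assoc, Units.mul_inv, mul_one]
      rw [this]; exact I.mul_mem_right _ hgI
    have hmap : (X - C c : A[X]).map (algebraMap A K) = X - C (algebraMap A K c) := by
      rw [Polynomial.map_sub, Polynomial.map_X, Polynomial.map_C]
    have h1 : O.valuation (algebraMap A[X] F (X - C c)) < 1 := by
      have := (hmemI _).mp hXcI
      rwa [← hmap, aeval_map t hX] at this
    have h2 : algebraMap A[X] B (X - C c) ∈ x := by
      by_contra hnot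
      have h3 := hcen _ hnot
      rw [hRF, ← O.valuation_le_one_iff, map_inv₀] at h3
      have h4 : O.valuation (algebraMap A[X] F (X - C c)) ≠ 0 := by
        rw [Valuation.ne_zero_iff, ← aeval_map (K := K) t hX, hmap]
        exact hinjK _ (X_sub_C_ne_zero _)
      have h5 : 1 ≤ O.valuation (algebraMap A[X] F (X - C c)) := by
        by_contra hlt
        push Not at hlt
        exact absurd h3 (not_le.mpr ((one_lt_inv₀ (zero_lt_iff.mpr h4)).mpr hlt))
      exact absurd h1 (not_lt.mpr h5)
    exact hx c hc h2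
  have hH := H O hKO hdvr htO g hgirr hnocusp hgnonunit
  -- scale `g` into `A[X]`
  obtain ⟨d, hd, hnorm⟩ := IsLocalization.integerNormalization_spec (nonZeroDivisors A) g
  set g0 := IsLocalization.integerNormalization (nonZeroDivisors A) g with hg0def
  have hd0 : algebraMap A K d ≠ 0 := by
    have : d ≠ 0 := nonZeroDivisors.ne_zero hd
    exact fun h => this ((IsFractionRing.injective A K) (by rw [h, map_zero]))
  have hg0F : algebraMap A[X] F g0 = algebraMap K F (algebraMap A K d) * aeval t g := by
    have h1 : (d • g : K[X]) = C (algebraMap A K d) * g := by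
      rw [Algebra.smul_def, Polynomial.algebraMap_apply]
    rw [← aeval_map (K := K) t hX, hnorm, h1, map_mul, aeval_C]
  have hdO : algebraMap K F (algebraMap A K d) ∈ O := hKO _
  have hdinvO : (algebraMap K F (algebraMap A K d))⁻¹ ∈ O := by
    rw [← map_inv₀]; exact hKO _
  have hdF0 : algebraMap K F (algebraMap A K d) ≠ 0 := by
    rw [Ne, map_eq_zero]; exact hd0
  refine ⟨g0, ?_, ?_⟩
  · rw [hRF, hg0F]
    intro hmem
    apply hgnonunit
    have : (aeval t g)⁻¹ = algebraMap K F (algebraMap A K d) *
        (algebraMap K F (algebraMap A K d) * aeval t g)⁻¹ := by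
      field_simp
    rw [this]
    exact O.mul_mem _ _ hdO hmem
  · intro y hy hyinv
    rw [hRF, hg0F]
    have : y / (algebraMap K F (algebraMap A K d) * aeval t g) =
        (y / aeval t g) * (algebraMap K F (algebraMap A K d))⁻¹ := by
      field_simp
    rw [this]
    exact O.mul_mem _ _ (hH y hy hyinv) hdinvO

end Main

end Fermat.Agent.RED.PUR.HorizBridge26
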