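/-
Program H (S18), chapter PUR (helper22): `PurityMain26.smooth_of_purity` with the vertical hypotheses
discharged by the Gauss package (`VertPurity22.vertical_data`): in helper8's generic Gauss setting, for
`R0 := O[X]`, `B` (an integrally closed domain, finite and faithful over `R0`, with `Frac B = E`) identified
with the integral closure of `O[t]` in `E`, a maximal ideal `x ∋ π` of `B` is locally generated by `π` and a
polynomial in `t` as soon as the HORIZONTAL hypothesis `hUNR` holds.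
-/
import Mathlib
import Fermat.Agent.RED.PUR.VertPurity22
import Fermat.Agent.RED.PUR.PurityMain26

set_option autoImplicit false
set_option linter.unusedSectionVars false
noncomputable section
open HahnSeries ModularCurve Polynomial
open Fermat.Agent.RED.PUR.GaussGen8 Fermat.Agent.RED.PUR.KtGauss8 Fermat.Agent.RED.PUR.G1Package8
open Fermat.Agent.RED.PUR.VertGauss22 Fermat.Agent.RED.PUR.VertPurity22

namespace Fermat.Agent.RED.PUR.VertSmooth22

variable {K : Type*} [Field K] [CharZero K] (O : ValuationSubring K) [IsDiscreteValuationRing ↥O]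
  {π : ↥O} (hπ : Irreducible π)
  (E : IntermediateField K (LaurentSeries K)) (hE : E ≤ fracField O)
  (t : ↥E) (ht : (t : LaurentSeries K) ∈ gaussRing O)
  (htr : Transcendental (Res O) (gaussRed O ⟨(t : LaurentSeries K), ht⟩))
  {B : Type*} [CommRing B] [IsDomain B] [IsIntegrallyClosed B] [Algebra (↥O)[X] B]
  [Module.Finite (↥O)[X] B] [FaithfulSMul (↥O)[X] B] [Algebra B ↥E] [IsFractionRing B ↥E]
  (h1 : ∀ r : (↥O)[X], algebraMap B ↥E (algebraMap (↥O)[X] B r) = aeval t r)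
  (h2 : ∀ b : B, IsIntegral ↥(Algebra.adjoin ↥O {t}) (algebraMap B ↥E b))
  (h3 : ∀ x : ↥E, IsIntegral ↥(Algebra.adjoin ↥O {t}) x → ∃ b : B, algebraMap B ↥E b = x)
  {n : ℕ} (hdeg : DegLe O E ⟨(t : LaurentSeries K), ht⟩ n)
  (hirr : Irr O E ⟨(t : LaurentSeries K), ht⟩ n)

include hπ hE ht htr h1 h2 h3 hdeg hirr in
/-- **(LOC) at a closed point, vertical side discharged.** -/
theorem smooth_of_hUNR [IsPrincipalIdealRing ((↥O)[X] ⧸ Ideal.span {(C π : (↥O)[X])})]
    (ℓ : ℕ) [Fact ℓ.Prime] [CharP (Res O) ℓ] [PerfectField (Res O)]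
    (hord : IsCoprime (gaussRed O ⟨(t : LaurentSeries K), ht⟩).order (ℓ : ℤ))
    (x : Ideal B) [hx : x.IsMaximal] (hπx : algebraMap (↥O)[X] B (C π) ∈ x)
    (hUNR : ∀ O' : ValuationSubring ↥E, (∀ s : B, algebraMap B ↥E s ∈ O') →
      IsDiscreteValuationRing O' →
      (algebraMap B ↥E (algebraMap (↥O)[X] B (C π)))⁻¹ ∈ O' →
      (∀ r : (↥O)[X], algebraMap (↥O)[X] B r ∉ x → (algebraMap B ↥E (algebraMap (↥O)[X] B r))⁻¹ ∈ O') →
      ∃ g0 : (↥O)[X], (algebraMap B ↥E (algebraMap (↥O)[X] B g0))⁻¹ ∉ O' ∧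
        ∀ y ∈ O', y⁻¹ ∉ O' → y / algebraMap B ↥E (algebraMap (↥O)[X] B g0) ∈ O') :
    ∃ f : (↥O)[X], algebraMap (↥O)[X] B f ∈ x ∧ ∀ y ∈ x, ∃ d, d ∉ x ∧
      d * y ∈ Ideal.span {algebraMap (↥O)[X] B (C π), algebraMap (↥O)[X] B f} := by
  obtain ⟨hchar, ρ₀, ρ, hcomp, hker₀, hker, hgen, hsep⟩ :=
    vertical_data O hπ E hE t ht htr (algebraMap B ↥E) h1 h2 (IsFractionRing.injective B ↥E) h3
      hdeg hirr ℓ hord
  exact Fermat.Agent.RED.PUR.PurityMain26.smooth_of_purity B ↥E (C π) (prime_C_unif hπ) x hπx hchar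
    ρ₀ ρ hcomp hker₀ hker hgen hsep hUNR

end Fermat.Agent.RED.PUR.VertSmooth22
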