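/-
Program H (S18), chapter RED/PUR — helper21.  Deliverable (P), GENERIC half.

Level 1 (abstract E3 setting of `IntClosBase13`: `A` a DVR, `K = Frac A` of characteristic zero,
`F ⊇ K`, `t : F` transcendental, `F` finite over `K(t)`, `F` an `A[X]`-algebra by `X ↦ t`,
`B := integralClosure A[X] F`):
* `smoothAt_chart_of_loc`: transport of the local statement (LOC) at a maximal ideal of `B` to
  `ChartTransfer3.SmoothAt ϖ (chart A t) x` along `IntClosBase13.chartEquiv`;
* `smoothAt_chart_of_purity`: (LOC) from explicit vertical data `(ρ₀, ρ)` and the places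
  hypothesis `H` of `HorizBridge26`.

Level 2 (helper8's Gauss setting `(O, E)`, vertical side discharged by `VertSmooth22.smooth_of_hUNR`):
* `smoothOff_gen`: `ModelIface4.SmoothOff O E π t S` from the LITERAL `hUNR` of
  `PurityMain26.smooth_of_purity` at every maximal ideal `x ∋ C π` of `B := integralClosure O[X] E`
  containing no `X - C c`, `c ∈ S`;
* `smoothOff_of_places`: the same from the places hypothesis `H` (`HorizBridge26.hUNR_of_places`).
-/
import Mathlib
import Fermat.Agent.RED.PUR.PurityMain26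
import Fermat.Agent.RED.PUR.HorizBridge26
import Fermat.Agent.RED.PUR.IntClosBase13
import Fermat.Agent.RED.PUR.VertSmooth22
import Fermat.Agent.RED.ModelIface4

set_option autoImplicit false
set_option linter.unusedSectionVars false
set_option linter.unusedVariables false
set_option linter.style.haveILetI false

noncomputable section

open Polynomial IntermediateField

namespace Fermat.Agent.RED.PUR.SmoothOffGen21

open Fermat.Agent.RED.PUR.IntClosBase13 Fermat.Agent.RED.PUR.ChartsGeneric13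
  Fermat.Agent.RED.ChartTransfer3

/-! ### Level 1: the abstract E3 setting -/

section Abstract

variable {A K F : Type*} [CommRing A] [IsDomain A] [IsDiscreteValuationRing A]
  [Field K] [Field F] [Algebra A K] [IsFractionRing A K] [CharZero K] [Algebra K F] [Algebra A F]
  [IsScalarTower A K F] [Algebra A[X] F] [IsScalarTower A A[X] F] {t : F}

/-- every nonzero integer divides a power of `C ϖ` in `A[X]`. -/
theorem hchar_poly [CharZero A] {ϖ : A} (hϖ : Irreducible ϖ) (n : ℕ) (hn : n ≠ 0) :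
    ∃ k : ℕ, (n : A[X]) ∣ (C ϖ) ^ k := by
  have hn0 : (n : A) ≠ 0 := Nat.cast_ne_zero.mpr hn
  obtain ⟨k, u, hu⟩ := IsDiscreteValuationRing.eq_unit_mul_pow_irreducible hn0 hϖ
  refine ⟨k, ?_⟩
  have h2 : (n : A) ∣ ϖ ^ k := ⟨((u⁻¹ : Aˣ) : A), by
    rw [hu, mul_comm (u : A), mul_assoc, Units.mul_inv, mul_one]⟩
  have h3 := map_dvd (C : A →+* A[X]) h2
  rwa [map_natCast, map_pow] at h3

/-- the image of `X - C c` in the chart is `t - c`. -/
theorem chartEquiv_X_sub_C (hX : algebraMap A[X] F X = t) (c : A) :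
    chartEquiv (A := A) hX (algebraMap A[X] ↥(integralClosure A[X] F) (X - C c)) =
      (⟨t, t_mem_chart A t⟩ : ↥(chart A t)) - algebraMap A ↥(chart A t) c := by
  apply Subtype.ext
  show algebraMap A[X] F (X - C c) = t - algebraMap A F c
  rw [algebraMap_eq_aeval hX, map_sub, aeval_X, aeval_C]

/-- **Transport of (LOC)** from `integralClosure A[X] F` to the contract chart `chart A t`. -/
theorem smoothAt_chart_of_loc (hX : algebraMap A[X] F X = t) (ϖ : A)
    (x : Ideal ↥(chart A t))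
    (hloc : ∃ f : A[X], algebraMap A[X] ↥(integralClosure A[X] F) f ∈
        x.comap (chartEquiv (A := A) hX : ↥(integralClosure A[X] F) →+* ↥(chart A t)) ∧
      ∀ y ∈ x.comap (chartEquiv (A := A) hX : ↥(integralClosure A[X] F) →+* ↥(chart A t)),
        ∃ d, d ∉ x.comap (chartEquiv (A := A) hX : ↥(integralClosure A[X] F) →+* ↥(chart A t)) ∧
          d * y ∈ Ideal.span {algebraMap A[X] ↥(integralClosure A[X] F) (C ϖ),
            algebraMap A[X] ↥(integralClosure A[X] F) f}) :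
    SmoothAt ϖ (chart A t) x := by
  classical
  set B := ↥(integralClosure A[X] F) with hB
  set e := chartEquiv (A := A) hX with he
  obtain ⟨f, hfx', hloc⟩ := hloc
  refine ⟨e (algebraMap A[X] B f), hfx', ?_⟩
  intro y hy
  have hy' : e.symm y ∈ x.comap (e : B →+* ↥(chart A t)) := by
    rw [Ideal.mem_comap]
    show e (e.symm y) ∈ x
    rw [e.apply_symm_apply]; exact hy
  obtain ⟨d, hd, hdy⟩ := hloc _ hy'
  refine ⟨e d, hd, ?_⟩
  have h1 : e (d * e.symm y) ∈ Ideal.map (e : B →+* ↥(chart A t))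
      (Ideal.span {algebraMap A[X] B (C ϖ), algebraMap A[X] B f}) :=
    Ideal.mem_map_of_mem _ hdy
  rw [Ideal.map_span, Set.image_pair, map_mul, e.apply_symm_apply] at h1
  have h2 : (e : B →+* ↥(chart A t)) (algebraMap A[X] B (C ϖ)) = algebraMap A ↥(chart A t) ϖ := by
    show e _ = _
    rw [he, chartEquiv_algebraMap]
  rw [h2] at h1
  exact h1

/-- the pulled-back ideal is maximal, contains `C ϖ`, and avoids `X - C c`, `c ∈ S`. -/
theorem comap_chartEquiv_props (hX : algebraMap A[X] F X = t) (ϖ : A) (S : Set A)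
    (x : Ideal ↥(chart A t)) (hx : x.IsMaximal) (hπx : algebraMap A ↥(chart A t) ϖ ∈ x)
    (hS : ∀ c ∈ S, (⟨t, t_mem_chart A t⟩ : ↥(chart A t)) - algebraMap A ↥(chart A t) c ∉ x) :
    (x.comap (chartEquiv (A := A) hX :
        ↥(integralClosure A[X] F) →+* ↥(chart A t))).IsMaximal ∧
      algebraMap A[X] ↥(integralClosure A[X] F) (C ϖ) ∈
        x.comap (chartEquiv (A := A) hX : ↥(integralClosure A[X] F) →+* ↥(chart A t)) ∧
      ∀ c ∈ S, algebraMap A[X] ↥(integralClosure A[X] F) (X - C c) ∉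
        x.comap (chartEquiv (A := A) hX : ↥(integralClosure A[X] F) →+* ↥(chart A t)) := by
  refine ⟨Ideal.comap_isMaximal_of_surjective _ (chartEquiv (A := A) hX).surjective, ?_, ?_⟩
  · rw [Ideal.mem_comap]
    show chartEquiv (A := A) hX _ ∈ x
    rw [chartEquiv_algebraMap]
    exact hπx
  · intro c hc hmem
    apply hS c hc
    rw [Ideal.mem_comap] at hmem
    rw [← chartEquiv_X_sub_C hX c]
    exact hmem

/-- **(P), abstract form, from explicit vertical data and the places hypothesis.** -/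
theorem smoothAt_chart_of_purity (hX : algebraMap A[X] F X = t) (ht : Transcendental K t)
    [FiniteDimensional K⟮t⟯ F] {ϖ : A} (hϖ : Irreducible ϖ) (S : Set A)
    {k₀ L : Type*} [Field k₀] [Field L] [Algebra k₀ L] (ρ₀ : A[X] →+* k₀)
    (ρ : ↥(integralClosure A[X] F) →+* L)
    (hcomp : ∀ r : A[X], ρ (algebraMap A[X] ↥(integralClosure A[X] F) r) = algebraMap k₀ L (ρ₀ r))
    (hker₀ : ∀ r : A[X], ρ₀ r = 0 ↔ C ϖ ∣ r)
    (hker : ∀ z : ↥(integralClosure A[X] F), ρ z = 0 ↔
      algebraMap A[X] ↥(integralClosure A[X] F) (C ϖ) ∣ z)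
    (hgen : ∀ c : k₀, ∃ r r' : A[X], ρ₀ r' ≠ 0 ∧ c * ρ₀ r' = ρ₀ r)
    (hsep : ∀ z : ↥(integralClosure A[X] F), IsSeparable k₀ (ρ z))
    (H : ∀ O : ValuationSubring F, (∀ a : K, algebraMap K F a ∈ O) → IsDiscreteValuationRing O →
      t ∈ O → ∀ g : K[X], Irreducible g → (∀ c ∈ S, ¬ g.IsRoot (algebraMap A K c)) →
      (aeval t g)⁻¹ ∉ O → ∀ y ∈ O, y⁻¹ ∉ O → y / aeval t g ∈ O)
    (x : Ideal ↥(chart A t)) (hx : x.IsMaximal) (hπx : algebraMap A ↥(chart A t) ϖ ∈ x)
    (hS : ∀ c ∈ S, (⟨t, t_mem_chart A t⟩ : ↥(chart A t)) - algebraMap A ↥(chart A t) c ∉ x) :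
    SmoothAt ϖ (chart A t) x := by
  classical
  have hcharA : CharZero A :=
    ⟨fun a b hab => by
      have := congrArg (algebraMap A K) hab
      simpa using this⟩
  have hfin : Module.Finite A[X] ↥(integralClosure A[X] F) := finite_integralClosure hX ht
  have hic : IsIntegrallyClosed ↥(integralClosure A[X] F) :=
    isIntegrallyClosed_integralClosure hX ht
  have hfr : IsFractionRing ↥(integralClosure A[X] F) F := isFractionRing_integralClosure hX ht
  have hfa : FaithfulSMul A[X] ↥(integralClosure A[X] F) := faithfulSMul_integralClosure hX ht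
  have hpir : IsPrincipalIdealRing (A[X] ⧸ Ideal.span {(C ϖ : A[X])}) :=
    isPrincipalIdealRing_quot hϖ
  obtain ⟨hx'max, hπx', hSx'⟩ := comap_chartEquiv_props hX ϖ S x hx hπx hS
  have hUNR := HorizBridge26.hUNR_of_places (A := A) (K := K) (F := F)
    ↥(integralClosure A[X] F) t hX ht ϖ hϖ S _ hSx' H
  exact smoothAt_chart_of_loc hX ϖ x
    (PurityMain26.smooth_of_purity ↥(integralClosure A[X] F) F (C ϖ) (prime_C hϖ) _ hπx'
      (hchar_poly hϖ) ρ₀ ρ hcomp hker₀ hker hgen hsep hUNR)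

end Abstract

/-! ### Level 2: the Gauss setting -/

section Gauss

open ModularCurve
open Fermat.Agent.RED.PUR.GaussGen8 Fermat.Agent.RED.PUR.KtGauss8 Fermat.Agent.RED.PUR.G1Package8
  Fermat.Agent.RED.PUR.VertGauss22 Fermat.Agent.RED.NumInst4 Fermat.Agent.RED.ModelIface4

variable {K : Type*} [Field K] [CharZero K] (O : ValuationSubring K) [IsDiscreteValuationRing ↥O]
  {π : ↥O} (hπ : Irreducible π)
  (E : IntermediateField K (LaurentSeries K)) (hE : E ≤ fracField O)
  (t : ↥E) (ht : (t : LaurentSeries K) ∈ gaussRing O)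
  (htr : Transcendental (Res O) (gaussRed O ⟨(t : LaurentSeries K), ht⟩))
  {n : ℕ} (hdeg : DegLe O E ⟨(t : LaurentSeries K), ht⟩ n)
  (hirr : Irr O E ⟨(t : LaurentSeries K), ht⟩ n)

include hπ hE ht htr hdeg hirr in
/-- **(P), generic Gauss form, literal `hUNR`.**  (LOC) at the closed points of the chart
`chart O t` over `π` away from the values `c ∈ S`, from (DEG)+(IRR), `ord t̃` prime to `ℓ`,
perfect residue field of characteristic `ℓ`, and the LITERAL horizontal hypothesis `hUNR` of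
`PurityMain26.smooth_of_purity` at every maximal ideal `x ∋ C π` of `integralClosure O[X] E`
containing no `X - C c`, `c ∈ S`. -/
theorem smoothOff_gen [Algebra (↥O)[X] ↥E] [IsScalarTower ↥O (↥O)[X] ↥E]
    (hX : algebraMap (↥O)[X] ↥E X = t)
    (ℓ : ℕ) [Fact ℓ.Prime] [CharP (Res O) ℓ] [PerfectField (Res O)]
    (hord : IsCoprime (gaussRed O ⟨(t : LaurentSeries K), ht⟩).order (ℓ : ℤ))
    (htrK : Transcendental K t) [FiniteDimensional ↥K⟮t⟯ ↥E] (S : Set ↥O)
    (hH : ∀ x : Ideal ↥(integralClosure (↥O)[X] ↥E), x.IsMaximal →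
      algebraMap (↥O)[X] ↥(integralClosure (↥O)[X] ↥E) (C π) ∈ x →
      (∀ c ∈ S, algebraMap (↥O)[X] ↥(integralClosure (↥O)[X] ↥E) (X - C c) ∉ x) →
      ∀ O' : ValuationSubring ↥E,
        (∀ s : ↥(integralClosure (↥O)[X] ↥E),
          algebraMap ↥(integralClosure (↥O)[X] ↥E) ↥E s ∈ O') →
        IsDiscreteValuationRing O' →
        (algebraMap ↥(integralClosure (↥O)[X] ↥E) ↥E
          (algebraMap (↥O)[X] ↥(integralClosure (↥O)[X] ↥E) (C π)))⁻¹ ∈ O' →
        (∀ r : (↥O)[X], algebraMap (↥O)[X] ↥(integralClosure (↥O)[X] ↥E) r ∉ x →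
          (algebraMap ↥(integralClosure (↥O)[X] ↥E) ↥E
            (algebraMap (↥O)[X] ↥(integralClosure (↥O)[X] ↥E) r))⁻¹ ∈ O') →
        ∃ g0 : (↥O)[X], (algebraMap ↥(integralClosure (↥O)[X] ↥E) ↥E
            (algebraMap (↥O)[X] ↥(integralClosure (↥O)[X] ↥E) g0))⁻¹ ∉ O' ∧
          ∀ y ∈ O', y⁻¹ ∉ O' → y / algebraMap ↥(integralClosure (↥O)[X] ↥E) ↥E
            (algebraMap (↥O)[X] ↥(integralClosure (↥O)[X] ↥E) g0) ∈ O') :
    SmoothOff O E π t S := by
  haveI : IsScalarTower ↥O K ↥E := isScalarTower_OE O E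
  intro x hx hπx hS
  have h1 : ∀ r : (↥O)[X], algebraMap ↥(integralClosure (↥O)[X] ↥E) ↥E
      (algebraMap (↥O)[X] ↥(integralClosure (↥O)[X] ↥E) r) = aeval t r := fun r =>
    algebraMap_eq_aeval hX r
  have h2 : ∀ b : ↥(integralClosure (↥O)[X] ↥E),
      IsIntegral ↥(Algebra.adjoin ↥O {t}) (algebraMap ↥(integralClosure (↥O)[X] ↥E) ↥E b) :=
    fun b => (isIntegral_iff hX (b : ↥E)).mp b.2
  have h3 : ∀ y : ↥E, IsIntegral ↥(Algebra.adjoin ↥O {t}) y →
      ∃ b : ↥(integralClosure (↥O)[X] ↥E), algebraMap ↥(integralClosure (↥O)[X] ↥E) ↥E b = y :=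
    fun y hy => ⟨⟨y, (isIntegral_iff hX y).mpr hy⟩, rfl⟩
  haveI hfin : Module.Finite (↥O)[X] ↥(integralClosure (↥O)[X] ↥E) :=
    finite_integralClosure hX htrK
  haveI hic : IsIntegrallyClosed ↥(integralClosure (↥O)[X] ↥E) :=
    isIntegrallyClosed_integralClosure hX htrK
  haveI hfr : IsFractionRing ↥(integralClosure (↥O)[X] ↥E) ↥E :=
    isFractionRing_integralClosure hX htrK
  haveI hfa : FaithfulSMul (↥O)[X] ↥(integralClosure (↥O)[X] ↥E) :=
    faithfulSMul_integralClosure hX htrK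
  haveI hpir : IsPrincipalIdealRing ((↥O)[X] ⧸ Ideal.span {(C π : (↥O)[X])}) :=
    isPrincipalIdealRing_quot hπ
  obtain ⟨hx'max, hπx', hSx'⟩ := comap_chartEquiv_props (A := ↥O) (F := ↥E) hX π S x hx hπx hS
  haveI := hx'max
  exact smoothAt_chart_of_loc (A := ↥O) (F := ↥E) hX π x
    (Fermat.Agent.RED.PUR.VertSmooth22.smooth_of_hUNR (B := ↥(integralClosure (↥O)[X] ↥E))
      O hπ E hE t ht htr h1 h2 h3 hdeg hirr ℓ hord
      _ hπx' (hH _ hx'max hπx' hSx'))

include hπ hE ht htr hdeg hirr in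
/-- **(P), generic Gauss form, places hypothesis.**  As `smoothOff_gen`, with the horizontal
hypothesis in the form `H` of `HorizBridge26.hUNR_of_places`: every `K`-place `Ov ∋ t` of `E` at
which an irreducible `g ∈ K[X]` without root in `S` vanishes has `g(t)` as a uniformiser. -/
theorem smoothOff_of_places [Algebra (↥O)[X] ↥E] [IsScalarTower ↥O (↥O)[X] ↥E]
    (hX : algebraMap (↥O)[X] ↥E X = t)
    (ℓ : ℕ) [Fact ℓ.Prime] [CharP (Res O) ℓ] [PerfectField (Res O)]
    (hord : IsCoprime (gaussRed O ⟨(t : LaurentSeries K), ht⟩).order (ℓ : ℤ))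
    (htrK : Transcendental K t) [FiniteDimensional ↥K⟮t⟯ ↥E] (S : Set ↥O)
    (H : ∀ Ov : ValuationSubring ↥E, (∀ a : K, algebraMap K ↥E a ∈ Ov) →
      IsDiscreteValuationRing Ov → t ∈ Ov → ∀ g : K[X], Irreducible g →
      (∀ c ∈ S, ¬ g.IsRoot (algebraMap ↥O K c)) →
      (aeval t g)⁻¹ ∉ Ov → ∀ y ∈ Ov, y⁻¹ ∉ Ov → y / aeval t g ∈ Ov) :
    SmoothOff O E π t S := by
  haveI : IsScalarTower ↥O K ↥E := isScalarTower_OE O E
  haveI hfr : IsFractionRing ↥(integralClosure (↥O)[X] ↥E) ↥E :=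
    isFractionRing_integralClosure hX htrK
  exact smoothOff_gen O hπ E hE t ht htr hdeg hirr hX ℓ hord htrK S
    (fun x _ _ hSx => HorizBridge26.hUNR_of_places (A := ↥O) (K := K) (F := ↥E)
      ↥(integralClosure (↥O)[X] ↥E) t hX htrK π hπ S x hSx H)

include hπ hE ht htr hdeg hirr in
/-- `smoothOff_of_places` with the `O[X]`-algebra structure `X ↦ t` of `IntClosBase13.polyAlgebra`
built in (no instance hypotheses). -/
theorem smoothOff_of_places_poly
    (ℓ : ℕ) [Fact ℓ.Prime] [CharP (Res O) ℓ] [PerfectField (Res O)]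
    (hord : IsCoprime (gaussRed O ⟨(t : LaurentSeries K), ht⟩).order (ℓ : ℤ))
    (htrK : Transcendental K t) [FiniteDimensional ↥K⟮t⟯ ↥E] (S : Set ↥O)
    (H : ∀ Ov : ValuationSubring ↥E, (∀ a : K, algebraMap K ↥E a ∈ Ov) →
      IsDiscreteValuationRing Ov → t ∈ Ov → ∀ g : K[X], Irreducible g →
      (∀ c ∈ S, ¬ g.IsRoot (algebraMap ↥O K c)) →
      (aeval t g)⁻¹ ∉ Ov → ∀ y ∈ Ov, y⁻¹ ∉ Ov → y / aeval t g ∈ Ov) :
    SmoothOff O E π t S := by
  haveI : IsScalarTower ↥O K ↥E := isScalarTower_OE O E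
  letI : Algebra (↥O)[X] ↥E := polyAlgebra (A := ↥O) t
  haveI : IsScalarTower ↥O (↥O)[X] ↥E := polyAlgebra_isScalarTower (A := ↥O) t
  exact smoothOff_of_places O hπ E hE t ht htr hdeg hirr (polyAlgebra_algebraMap_X (A := ↥O) t)
    ℓ hord htrK S H

end Gauss

end Fermat.Agent.RED.PUR.SmoothOffGen21
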