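/-
Program H (S18), chapter RED/PUR — helper4 (integrator).  GENERIC Prop-wrapper for the horizontal input
of `SmoothOffGen21.smoothOff_gen` (no `polyAlgebra` instance in the statement, `aeval t` instead), in
the style of `CuspIface23.HUNRCusp`:

* `HUNROff O E π t S` : for every ideal `P` of `O[X]` containing no `X - C c`, `c ∈ S`, every discrete
  valuation ring `O'` of `E` containing the chart, in which `π` is a unit and whose centre lies in
  `P`, has a uniformiser of the form `g0(t)`, `g0 ∈ O[X]`;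
* `smoothOff_of_hunrOff` : `smoothOff_gen` restated with this wrapper.
-/
import Fermat.Agent.RED.PUR.SmoothOffGen21

set_option autoImplicit false
set_option linter.unusedSectionVars false
set_option linter.unusedVariables false
set_option linter.style.haveILetI false

noncomputable section

namespace Fermat.Agent.RED.PUR.OffIface4

open Polynomial IntermediateField ModularCurve
open Fermat.Agent.RED.PUR.IntClosBase13
open Fermat.Agent.RED.PUR.GaussGen8 Fermat.Agent.RED.PUR.KtGauss8 Fermat.Agent.RED.PUR.G1Package8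
open Fermat.Agent.RED.ModelIface4

variable {K : Type*} [Field K] (O : ValuationSubring K) (E : IntermediateField K (LaurentSeries K))

/-- The horizontal hypothesis at the non-cusp closed points: for every ideal `P` of `O[X]` containing
no `X - C c` (`c ∈ S`), every discrete valuation ring `O'` of `E` containing the chart, in which `π`
is a unit and whose centre lies in `P`, has a uniformiser of the form `g0(t)`, `g0 ∈ O[X]`. -/
def HUNROff (π : ↥O) (t : ↥E) (S : Set ↥O) : Prop :=
  ∀ P : Ideal (↥O)[X], (∀ c ∈ S, (X - C c : (↥O)[X]) ∉ P) →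
  ∀ O' : ValuationSubring ↥E,
    (∀ s : ↥E, IsIntegral ↥(Algebra.adjoin ↥O {t}) s → s ∈ O') →
    IsDiscreteValuationRing O' →
    (algebraMap ↥O ↥E π)⁻¹ ∈ O' →
    (∀ r : (↥O)[X], r ∉ P → (aeval t r)⁻¹ ∈ O') →
    ∃ g0 : (↥O)[X], (aeval t g0)⁻¹ ∉ O' ∧ ∀ y ∈ O', y⁻¹ ∉ O' → y / aeval t g0 ∈ O'

variable {O E}

/-- **The purity theorem away from the cusp values, wrapped.** -/
theorem smoothOff_of_hunrOff [CharZero K] [IsDiscreteValuationRing ↥O] {π : ↥O}
    (hπ : Irreducible π)
    (hE : E ≤ fracField O) (t : ↥E) (ht : (t : LaurentSeries K) ∈ gaussRing O)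
    (htr : Transcendental (Res O) (gaussRed O ⟨(t : LaurentSeries K), ht⟩))
    {n : ℕ} (hdeg : DegLe O E ⟨(t : LaurentSeries K), ht⟩ n)
    (hirr : Irr O E ⟨(t : LaurentSeries K), ht⟩ n)
    (ℓ : ℕ) [Fact ℓ.Prime] [CharP (Res O) ℓ] [PerfectField (Res O)]
    (hord : IsCoprime (gaussRed O ⟨(t : LaurentSeries K), ht⟩).order (ℓ : ℤ))
    (htrK : Transcendental K t) [FiniteDimensional ↥K⟮t⟯ ↥E] (S : Set ↥O)
    (hunr : HUNROff O E π t S) : SmoothOff O E π t S := by
  haveI : IsScalarTower ↥O K ↥E := Fermat.Agent.RED.NumInst4.isScalarTower_OE O E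
  letI : Algebra (↥O)[X] ↥E := polyAlgebra (A := ↥O) t
  haveI : IsScalarTower ↥O (↥O)[X] ↥E := polyAlgebra_isScalarTower (A := ↥O) t
  have hX : algebraMap (↥O)[X] ↥E X = t := polyAlgebra_algebraMap_X (A := ↥O) t
  refine SmoothOffGen21.smoothOff_gen O hπ E hE t ht htr hdeg hirr hX ℓ hord htrK S ?_
  intro x hxmax hπx hSx O' hB hdvr h1 h3
  have haev : ∀ r : (↥O)[X], algebraMap ↥(integralClosure (↥O)[X] ↥E) ↥E
      (algebraMap (↥O)[X] ↥(integralClosure (↥O)[X] ↥E) r) = aeval t r := fun r =>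
    algebraMap_eq_aeval hX r
  refine (fun ⟨g0, hg1, hg2⟩ => ⟨g0, by rw [haev]; exact hg1, fun y hy hy' => by
    rw [haev]; exact hg2 y hy hy'⟩)
    (hunr (x.comap (algebraMap (↥O)[X] ↥(integralClosure (↥O)[X] ↥E)))
      (fun c hc hmem => hSx c hc hmem) O' ?_ hdvr ?_ ?_)
  · intro s hs
    exact hB ⟨s, (isIntegral_iff hX s).mpr hs⟩
  · have := h1
    rwa [haev, aeval_C] at this
  · intro r hr
    have := h3 r hr
    rwa [haev] at this

end Fermat.Agent.RED.PUR.OffIface4
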