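/-
Program H (S18), chapter RED/PUR — helper4 (integrator).  The CONCRETE purity theorem modulo the
horizontal bridge at the concrete types (mirror of `CuspConcrete23.overTarget_of_hunr`):

* `offTarget_of_hunr` : `ModelTargets4.OffTarget n e M A cv` from
  `EventuallyT n e M A fun K ϖ t => OffIface4.HUNROff (AK A K) (FK M K) ϖ t (cuspSet A K cv)`.

Everything else (Gauss package, `ord t̃` prime to `ℓ`, residue field, transcendence, finiteness) is
discharged inside, as in `ModelMain4` / `CuspConcrete23`.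
-/
import Fermat.Agent.RED.PUR.OffIface4
import Fermat.Agent.RED.PUR.TqOrder26
import Fermat.Agent.RED.ModelFinal4
import Fermat.Agent.RED.BASE.Hauptmodul12

set_option autoImplicit false
set_option linter.unusedSectionVars false
set_option linter.unusedVariables false
set_option linter.style.haveILetI false

open HahnSeries ModularCurve IntermediateField
open scoped MatrixGroups

noncomputable section

namespace Fermat.Agent.RED.PUR.OffConcrete4

open Fermat.Agent.RED.Interface4 Fermat.Agent.RED.PUR.GaussGen8 Fermat.Agent.RED.PUR.KtGauss8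
  Fermat.Agent.RED.PUR.G1Package8 Fermat.Agent.RED.ModelIface4 Fermat.Agent.RED.ModelTargets4
  Fermat.Agent.RED.BASE.EtaQuot12 Fermat.Agent.X0 Fermat.Agent.RED.NumInst4
  Fermat.Agent.RED.DESC.NumberFieldDVR27 Fermat.Agent.RED.BASE.Interface12
  Fermat.Agent.RED.BASE.Hauptmodul12 Fermat.Agent.RED.PUR.OffIface4

open Fermat.Agent.RED.BASE

variable {n e : ℕ} [NeZero n] {M : ℕ} [NeZero M] {A : ValuationSubring Qbar}

/-- **PUR-concrete**, given the horizontal bridge at the non-cusp closed points. -/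
theorem offTarget_of_hunr (hb : BaseHyp n e) (hnM : n ∣ M) {ℓ : ℕ} [Fact ℓ.Prime]
    (hℓM : ¬ ℓ ∣ M) (hA : A.LiesOverPrime ℓ) (cv : SL(2, ℤ) → Option Kbar)
    (hH : EventuallyT n e M A fun K ϖ t =>
      HUNROff (AK A K) (FK M K) ϖ t (cuspSet A K cv)) :
    OffTarget n e M A cv := by
  have hℓ : ℓ.Prime := Fact.out
  have hB := Main12.baseExports hb M hnM
  obtain ⟨K₁, hK₁, hT⟩ := Fermat.Agent.RED.ModelFinal4.tTarget (n := n) (e := e) M hB.mem
  obtain ⟨K₂, hK₂, hJ⟩ := Fermat.Agent.RED.ModelFinal4.jTarget (n := n) (e := e) hB.genBase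
  obtain ⟨K₄, hK₄, hH⟩ := hH
  refine ⟨K₁ ⊔ K₂ ⊔ K₄, inferInstance, fun K hKfd hle ϖ hϖ t htq => ?_⟩
  have hle1 : K₁ ≤ K := le_trans (le_trans le_sup_left le_sup_left) hle
  have hle2 : K₂ ≤ K := le_trans (le_trans le_sup_right le_sup_left) hle
  have hle4 : K₄ ≤ K := le_trans le_sup_right hle
  have hdvr : IsDiscreteValuationRing ↥(AK A K) := isDiscreteValuationRing_AK A K hℓ.ne_zero hA
  have hchar : CharP (Res (AK A K)) ℓ := charP_residueField_AK A K hℓ hA
  have hfinres : Finite (Res (AK A K)) := finite_residueField_AK A K hℓ.ne_zero hA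
  have hE : FK M K ≤ fracField (AK A K) :=
    Fermat.Agent.RED.PUR.GaussBridge10.FK_le_fracField A K M
  have ht : ((t : ↥(FK M K)) : LaurentSeries K) ∈ gaussRing (AK A K) := by
    rw [htq]; exact tq_mem_gaussRing (AK A K) n e
  have htr : Transcendental (Res (AK A K))
      (gaussRed (AK A K) ⟨((t : ↥(FK M K)) : LaurentSeries K), ht⟩) := by
    have h1 : (⟨((t : ↥(FK M K)) : LaurentSeries K), ht⟩ : gaussRing (AK A K)) =
        ⟨tq K n e, tq_mem_gaussRing (AK A K) n e⟩ := Subtype.ext htq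
    rw [h1]
    exact transcendental_gaussRed_tq (AK A K) n e
  have hjt : jqModC K ∈ Kt (AK A K) ⟨((t : ↥(FK M K)) : LaurentSeries K), ht⟩ := by
    show jqModC K ∈ IntermediateField.adjoin K {((t : ↥(FK M K)) : LaurentSeries K)}
    rw [htq]
    exact hJ K hKfd hle2
  have htE' : ((t : ↥(FK M K)) : LaurentSeries K) ∈ FK M K := t.2
  obtain ⟨nn, -, hdeg, hirr⟩ := Fermat.Agent.RED.PUR.GaussInst25.exists_degLe_irr_FK A K hϖ ℓ M hℓM
    ⟨((t : ↥(FK M K)) : LaurentSeries K), ht⟩ htE' hjt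
  have hn : relfinrank (Kt (AK A K) ⟨((t : ↥(FK M K)) : LaurentSeries K), ht⟩) (FK M K) ≠ 0 :=
    Fermat.Agent.RED.ModelMain4.relfinrank_ne_zero (AK A K) M _ htE' hjt
  have hfd : FiniteDimensional ↥(IntermediateField.adjoin K {t}) ↥(FK M K) :=
    Fermat.Agent.RED.ModelAsm4.finiteDimensional_adjoin t hn
  have htrK : Transcendental K t :=
    Fermat.Agent.RED.ModelAsm4.transcendental_of_coe t
      (transcendental_t (tG := ⟨((t : ↥(FK M K)) : LaurentSeries K), ht⟩) hϖ htr)
  have hord := Fermat.Agent.RED.PUR.TqOrder26.isCoprime_order_gaussRed (AK A K) n e t ht htq (ℓ : ℤ)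
  exact smoothOff_of_hunrOff hϖ hE t ht htr hdeg hirr ℓ hord htrK (cuspSet A K cv)
    (hH K hKfd hle4 ϖ hϖ t htq)

end Fermat.Agent.RED.PUR.OffConcrete4
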