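/-
Program H (S18), chapter RED/PUR — helper4 (integrator).  The horizontal bridge at the NON-cusp closed
points, at the concrete types:

* `hunrOff_generic` : `OffIface4.HUNROff O E π t {c | ∃ γ, cv γ = some (algebraMap K Kbar c)}` for a
  discrete valuation subring `O` of a field `K ⊂ ℚbar` and `E ⊂ K((q))` with a ring map
  `bc : E → Fbar_M` (`bc t = t_M`) along which places extend — from `HorizPlace20.hUNR_noncusp`;
* `hH_off` : `EventuallyT n e M A fun K ϖ t => HUNROff (AK A K) (FK M K) ϖ t (cuspSet A K cv)`;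
* `offTarget` : `ModelTargets4.OffTarget n e M A cv` (the deliverable of PUR-concrete).
-/
import Mathlib
import Fermat.Agent.RED.PUR.HorizPoly4
import Fermat.Agent.RED.PUR.OffConcrete4
import Fermat.Agent.RED.BASE.CuspFinite12
import Fermat.Agent.RED.CUSP.RankConcrete16

set_option autoImplicit false
set_option linter.unusedSectionVars false
set_option linter.unusedVariables false
set_option linter.style.haveILetI false

open HahnSeries ModularCurve IntermediateField AlgebraicCurve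
open scoped MatrixGroups
open Polynomial

noncomputable section

namespace Fermat.Agent.RED.PUR.OffHoriz4

open Fermat.Agent.X0 Fermat.Agent.X0.FF
open Fermat.Agent.RED.BASE.Interface12 Fermat.Agent.RED.BASE.EtaQuot12
open Fermat.Agent.RED.PUR.OffIface4

section Generic

variable (n e M : ℕ) [NeZero n] [NeZero M] (cv : SL(2, ℤ) → Option Kbar)

/-- **The horizontal bridge away from the cusp values, generic `(O, E)`.** -/
theorem hunrOff_generic (h : TMem n e M)
    (hU : ∀ v : Place Kbar (FF M), 0 ≤ v.ord (jF M) →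
      ∃ c : Kbar, v.ord (tF M h - algebraMap Kbar (FF M) c) = 1)
    (hC : ∀ γ : SL(2, ℤ), CuspShape n ((cuspData M).T γ (tF M h)) (cv γ))
    (hconst : ∀ c : Kbar, tF M h ≠ algebraMap Kbar (FF M) c)
    {K : Type*} [Field K] [CharZero K] [Algebra K Kbar] [Algebra.IsAlgebraic K Kbar]
    (O : ValuationSubring K) [IsDiscreteValuationRing ↥O]
    (E : IntermediateField K (LaurentSeries K))
    (hcvA : ∀ γ c, cv γ = some c → ∃ a : ↥O, algebraMap K Kbar (a : K) = c)
    (bc : ↥E →+* FF M)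
    (hbc : ∀ a : K, bc (algebraMap K ↥E a) = algebraMap Kbar (FF M) (algebraMap K Kbar a))
    (t : ↥E) (ht : bc t = tF M h)
    (hExt : ∀ w : Place K ↥E, ∃ (v : Place Kbar (FF M)) (d : ℕ), 0 < d ∧
      ∀ f : ↥E, v.ord (bc f) = (d : ℤ) * w.ord f)
    {π : ↥O} (hπ : Irreducible π) :
    HUNROff O E π t {c | ∃ γ, cv γ = some (algebraMap K Kbar (c : K))} := by
  intro P hP O' hint hdvr hπO hcen
  letI : Algebra ↥O Kbar := ((algebraMap K Kbar).comp O.subtype).toAlgebra
  haveI : IsScalarTower ↥O K Kbar := IsScalarTower.of_algebraMap_eq fun _ => rfl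
  haveI : IsScalarTower ↥O K ↥E := Fermat.Agent.RED.NumInst4.isScalarTower_OE O E
  have hinjE : Function.Injective (algebraMap ↥O ↥E) := by
    rw [IsScalarTower.algebraMap_eq ↥O K ↥E]
    exact (algebraMap K ↥E).injective.comp Subtype.val_injective
  refine HorizPoly4.hUNR_noncusp_poly n e M cv h hU hC hconst (A := ↥O) (K := K) (F := ↥E)
    (fun γ c hγ => ?_) bc hbc t ht hExt π ?_ (fun a => ?_) P (fun a ha => ?_) O' (fun z => ?_)
    hdvr hπO hcen
  · obtain ⟨a, ha⟩ := hcvA γ c hγ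
    exact ⟨a, ha⟩
  · exact fun h0 => hπ.ne_zero (hinjE (by rw [h0, map_zero]))
  · -- denominators are powers of `π`
    by_cases ha : a ∈ O
    · refine ⟨⟨a, ha⟩, 0, ?_⟩
      rw [pow_zero, mul_one, IsScalarTower.algebraMap_apply ↥O K ↥E]
      rfl
    · have hainv : a⁻¹ ∈ O := (O.mem_or_inv_mem a).resolve_left ha
      have ha0 : a ≠ 0 := fun h0 => ha (by rw [h0]; exact O.zero_mem)
      have hne : (⟨a⁻¹, hainv⟩ : ↥O) ≠ 0 := fun h0 =>
        inv_ne_zero ha0 (congrArg Subtype.val h0)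
      obtain ⟨k, u, hu⟩ := IsDiscreteValuationRing.eq_unit_mul_pow_irreducible hne hπ
      refine ⟨((u⁻¹ : (↥O)ˣ) : ↥O), k, ?_⟩
      have h1 : a⁻¹ = ((u : ↥O) : K) * ((π : ↥O) : K) ^ k := by
        have := congrArg Subtype.val hu
        simpa using this
      have hu0 : ((u : ↥O) : K) ≠ 0 := fun h0 => u.ne_zero (Subtype.ext h0)
      have h2 : a * ((π : ↥O) : K) ^ k = (((u⁻¹ : (↥O)ˣ) : ↥O) : K) := by
        have h3 : ((u : ↥O) : K) * (((u⁻¹ : (↥O)ˣ) : ↥O) : K) = 1 := by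
          rw [← MulMemClass.coe_mul, Units.mul_inv, OneMemClass.coe_one]
        have h4 : a * (((u : ↥O) : K) * ((π : ↥O) : K) ^ k) = 1 := by
          rw [← h1, mul_inv_cancel₀ ha0]
        have h5 : a * ((π : ↥O) : K) ^ k * ((u : ↥O) : K) = 1 := by
          rw [← h4]; ring
        calc a * ((π : ↥O) : K) ^ k
            = a * ((π : ↥O) : K) ^ k * (((u : ↥O) : K) * (((u⁻¹ : (↥O)ˣ) : ↥O) : K)) := by
              rw [h3, mul_one]
          _ = (a * ((π : ↥O) : K) ^ k * ((u : ↥O) : K)) * (((u⁻¹ : (↥O)ˣ) : ↥O) : K) := by ring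
          _ = (((u⁻¹ : (↥O)ˣ) : ↥O) : K) := by rw [h5, one_mul]
      rw [IsScalarTower.algebraMap_apply ↥O K ↥E, IsScalarTower.algebraMap_apply ↥O K ↥E,
        ← map_pow, ← map_mul]
      exact congrArg (algebraMap K ↥E) h2
  · obtain ⟨γ, hγ⟩ := ha
    exact hP a ⟨γ, hγ⟩
  · apply hint
    have hmem : aeval t z ∈ Algebra.adjoin ↥O {t} := by
      rw [Algebra.adjoin_singleton_eq_range_aeval]
      exact ⟨z, rfl⟩
    exact isIntegral_algebraMap (R := ↥(Algebra.adjoin ↥O {t})) (A := ↥E) (x := ⟨_, hmem⟩)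

end Generic

section Concrete

open Fermat.Agent.RED.Interface4 Fermat.Agent.RED.ModelTargets4 Fermat.Agent.RED.NumInst4
  Fermat.Agent.RED.DESC.NumberFieldDVR27 Fermat.Agent.RED.DESC.PlaceExtend27
  Fermat.Agent.RED.BASE.Hauptmodul12 Fermat.Agent.RED.BASE

variable {n e : ℕ} [NeZero n] {M : ℕ} [NeZero M] {A : ValuationSubring Qbar}

/-- **The horizontal bridge at the non-cusp closed points, concrete types.** -/
theorem hH_off (hb : BaseHyp n e) (hnM : n ∣ M) {ℓ : ℕ} [Fact ℓ.Prime]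
    (hℓM : ¬ ℓ ∣ M) (hA : A.LiesOverPrime ℓ) (cv : SL(2, ℤ) → Option Kbar)
    (hcv : MainCusp12.CuspExports n e M cv) :
    EventuallyT n e M A fun K ϖ t => HUNROff (AK A K) (FK M K) ϖ t (cuspSet A K cv) := by
  classical
  have hℓ : ℓ.Prime := Fact.out
  have hB := Main12.baseExports hb M hnM
  obtain ⟨S, hS⟩ := CuspFinite12.exists_finset_cuspValues cv hcv.cuspExp
  obtain ⟨K₀, hK₀, -, hSK⟩ := exists_numberField (⊥ : IntermediateField ℚ Qbar) S
  refine ⟨K₀, hK₀, fun K hKfd hle ϖ hϖ t htq => ?_⟩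
  have hdvr : IsDiscreteValuationRing ↥(AK A K) := isDiscreteValuationRing_AK A K hℓ.ne_zero hA
  haveI halg : Algebra.IsAlgebraic ↥K Kbar := isAlgebraic_Qbar_over K
  obtain ⟨h, hC⟩ := hcv.cuspExp
  obtain ⟨h', hU⟩ := hB.unbranched
  obtain ⟨h'', hgen⟩ := hB.isGen
  have hconst : ∀ c : Kbar, tF M h ≠ algebraMap Kbar (FF M) c := fun c h0 =>
    hgen.sub_algebraMap_ne_zero c (sub_eq_zero.mpr h0)
  have hℓn : ¬ ℓ ∣ n := fun hdvd => hℓM (hdvd.trans hnM)
  have hnA : ((n : Kbar))⁻¹ ∈ A := inv_natCast_mem hℓ hA n hℓn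
  have hcvA : ∀ γ c, cv γ = some c → ∃ a : ↥(AK A K), algebraMap ↥K Kbar (a : ↥K) = c := by
    intro γ c hγ
    have hcK : c ∈ K := hle (hSK c (hS γ c hγ))
    have hshape := hC γ
    rw [hγ] at hshape
    obtain ⟨a, lam, V, -, -, -, -, hcint, -⟩ := hshape
    have hcA : c ∈ A := hcint.mem_of_inv_mem A hnA (NeZero.ne n)
    exact ⟨⟨⟨c, hcK⟩, hcA⟩, rfl⟩
  exact hunrOff_generic n e M cv h hU hC hconst (AK A K) (FK M K) hcvA
    (baseChangeHom M K) (baseChangeHom_algebraMap M K) t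
    (Fermat.Agent.RED.CUSP.RankConcrete16.baseChangeHom_eq_tF M K h t htq)
    (exists_place_above M K) hϖ

/-- **PUR-concrete**: (LOC) at the non-cusp closed points of the chart `t`. -/
theorem offTarget (hb : BaseHyp n e) (M : ℕ) [NeZero M] (hnM : n ∣ M) (ℓ : ℕ) [Fact ℓ.Prime]
    (hℓM : ¬ ℓ ∣ M) (A : ValuationSubring Qbar) (hA : A.LiesOverPrime ℓ)
    (cv : SL(2, ℤ) → Option Kbar) (hcv : MainCusp12.CuspExports n e M cv) :
    OffTarget n e M A cv :=
  Fermat.Agent.RED.PUR.OffConcrete4.offTarget_of_hunr hb hnM hℓM hA cv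
    (hH_off hb hnM hℓM hA cv hcv)

end Concrete

end Fermat.Agent.RED.PUR.OffHoriz4
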