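/-
Program H (S18), chapter RED/PUR (helper24): the (G1) saturation fields `sat0/sat1` of
`CoreIface24.TwoChartModel`, ABSTRACT form, from (UNIQ) + Hartogs.

`P` a noetherian integrally closed domain (`= A_K[t]`), `E = Frac P`; `B` a noetherian integrally
closed domain, integral over `P` (`= chart`), `F = Frac B`; `π ∈ P` a prime element;
`Ov` a valuation subring of `F` containing `B` whose centre on `P` is `(π)`, and which is the ONLY
valuation subring of `F` with its restriction to `E`.  Then `B` is `π`-saturated in `Ov`: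
`b ∈ B`, `b = π c`, `c ∈ Ov` imply `c ∈ B`.

Proof: `B = ⋂ B_𝔮` over the height-one primes (`Hartogs22`); for `π ∉ 𝔮` trivial; for `π ∈ 𝔮`,
`𝔮 ∩ P` has height one (going-down), so it is `(π)`, hence `B_𝔮 ∩ E = P_(π) = Ov ∩ E`
(`Hartogs22.eq_valuationSubringAt_of_center`) and `B_𝔮 = Ov` by uniqueness.
-/
import Mathlib
import Fermat.Agent.RED.PUR.Hartogs22
import Fermat.Agent.RED.PUR.UniqueExt20

set_option autoImplicit false

namespace Fermat.Agent.RED.PUR.SatUniq24

open Fermat.Agent.RED.PUR

variable {P B E F : Type*} [CommRing P] [IsDomain P] [IsNoetherianRing P] [IsIntegrallyClosed P]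
  [Field E] [Algebra P E] [IsFractionRing P E]
  [CommRing B] [IsDomain B] [IsNoetherianRing B] [IsIntegrallyClosed B]
  [Algebra P B] [Algebra.IsIntegral P B] [FaithfulSMul P B]
  [Field F] [Algebra B F] [IsFractionRing B F]
  [Algebra E F] [Algebra P F] [IsScalarTower P B F] [IsScalarTower P E F]

omit [IsIntegrallyClosed B] in
/-- A height-one prime of `B` containing the prime element `π` of `P` lies over `(π)`. -/
theorem under_eq_span (π : P) (hπ : Prime π) (𝔮 : Ideal B) [𝔮.IsPrime] (h : 𝔮.height = 1)
    (hπ𝔮 : algebraMap P B π ∈ 𝔮) : 𝔮.under P = Ideal.span {π} := by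
  have hprime : (Ideal.span {π}).IsPrime := (Ideal.span_singleton_prime hπ.ne_zero).mpr hπ
  have hle : Ideal.span {π} ≤ 𝔮.under P := by
    rw [Ideal.span_le, Set.singleton_subset_iff]
    exact hπ𝔮
  have hne : Ideal.span {π} ≠ (⊥ : Ideal P) := by
    rw [Ne, Ideal.span_singleton_eq_bot]; exact hπ.ne_zero
  have hheight := Ideal.height_eq_height_add_of_liesOver_of_hasGoingDown (𝔮.under P) 𝔮
  have hle1 : (𝔮.under P).height ≤ 1 := by
    rw [← h, hheight]; exact le_self_add
  by_contra hneq
  have hlt : Ideal.span {π} < 𝔮.under P := lt_of_le_of_ne hle (fun e => hneq e.symm)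
  have h2 := Ideal.height_add_one_le_of_lt_of_isPrime hlt
  have h3 : (Ideal.span {π}).height = 0 := by
    by_contra h0
    have h1 : 1 ≤ (Ideal.span {π}).height := Order.one_le_iff_ne_zero.2 h0
    have h4 : (1 : ℕ∞) + 1 ≤ 1 := le_trans (add_le_add_left h1 1) (le_trans h2 hle1)
    exact absurd h4 (by decide)
  exact hne (Ideal.height_eq_zero_iff_eq_bot.1 h3)

omit [IsIntegrallyClosed B] in
theorem height_span_eq_one (π : P) (hπ : Prime π) (𝔮 : Ideal B) [𝔮.IsPrime] (h : 𝔮.height = 1)
    (hπ𝔮 : algebraMap P B π ∈ 𝔮) : (Ideal.span {π}).height = 1 := by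
  have hne : Ideal.span {π} ≠ (⊥ : Ideal P) := by
    rw [Ne, Ideal.span_singleton_eq_bot]; exact hπ.ne_zero
  have hheight := Ideal.height_eq_height_add_of_liesOver_of_hasGoingDown (𝔮.under P) 𝔮
  have hle1 : (𝔮.under P).height ≤ 1 := by
    rw [← h, hheight]; exact le_self_add
  rw [under_eq_span π hπ 𝔮 h hπ𝔮] at hle1
  refine le_antisymm hle1 (Order.one_le_iff_ne_zero.2 ?_)
  intro h0
  exact hne (Ideal.height_eq_zero_iff_eq_bot.1 h0)

/-- **Saturation from uniqueness.** -/
theorem sat_of_unique (π : P) (hπ : Prime π) (Ov : ValuationSubring F)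
    (hB : ∀ b : B, algebraMap B F b ∈ Ov)
    (hcen : ∀ p : P, Ov.valuation (algebraMap P F p) < 1 ↔ π ∣ p)
    (huniq : ∀ V : ValuationSubring F,
      V.comap (algebraMap E F) = Ov.comap (algebraMap E F) → V = Ov)
    (b : B) (c : F) (hc : c ∈ Ov) (hbc : algebraMap B F b = algebraMap P F π * c) :
    ∃ b' : B, algebraMap B F b' = c := by
  have hprime : (Ideal.span {π}).IsPrime := (Ideal.span_singleton_prime hπ.ne_zero).mpr hπ
  have hPF : ∀ p : P, algebraMap P F p = algebraMap B F (algebraMap P B p) := fun p =>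
    IsScalarTower.algebraMap_apply P B F p
  have hPEF : ∀ p : P, algebraMap P F p = algebraMap E F (algebraMap P E p) := fun p =>
    IsScalarTower.algebraMap_apply P E F p
  have key : c ∈ (algebraMap B F).range := by
    rw [Hartogs22.mem_range_iff_forall_mem_valuationSubringAt]
    intro 𝔮 _ h
    by_cases hπ𝔮 : algebraMap P B π ∈ 𝔮
    · -- the vertical height-one primes
      have h1 : (Ideal.span {π}).height = 1 := height_span_eq_one π hπ 𝔮 h hπ𝔮
      have hunder := under_eq_span π hπ 𝔮 h hπ𝔮
      set V := Hartogs22.valuationSubringAt (K := F) 𝔮 h with hV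
      have hVc : V.comap (algebraMap E F) = Hartogs22.valuationSubringAt (K := E) _ h1 := by
        apply Hartogs22.eq_valuationSubringAt_of_center
        · intro p
          rw [ValuationSubring.mem_comap, ← hPEF, hPF]
          exact Hartogs22.algebraMap_mem_valuationSubringAt 𝔮 h _
        · intro p
          rw [UniqueExt20.comap_val_lt_one_iff, ← hPEF, hPF,
            Hartogs22.valuation_algebraMap_lt_one_iff, ← hunder]
          rfl
      have hOc : Ov.comap (algebraMap E F) = Hartogs22.valuationSubringAt (K := E) _ h1 := by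
        apply Hartogs22.eq_valuationSubringAt_of_center
        · intro p
          rw [ValuationSubring.mem_comap, ← hPEF, hPF]
          exact hB _
        · intro p
          rw [UniqueExt20.comap_val_lt_one_iff, ← hPEF, hcen, Ideal.mem_span_singleton]
      have hVO : V = Ov := huniq V (hVc.trans hOc.symm)
      rw [hVO]; exact hc
    · -- the horizontal height-one primes
      refine Hartogs22.mem_valuationSubringAt_iff.2 ⟨b, algebraMap P B π, hπ𝔮, ?_⟩
      rw [hbc, ← hPF]; ring
  obtain ⟨b', hb'⟩ := key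
  exact ⟨b', hb'⟩

end Fermat.Agent.RED.PUR.SatUniq24
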