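/-
Program H (S18), chapter RED/PUR (helper24): the (G1) saturation fields `sat0/sat1` of
`CoreIface24.TwoChartModel` for the concrete charts `ChartGeneric22.chart R s`
(`s = t` or `s = t⁻¹`), from the two GAUSS inputs

* `hcen`  : an element of `R[s]` of positive valuation is divisible by `π` in `R[s]`
            (the centre of `Ov` on `R[s]` is `(π)`);
* `huniq` : `Ov` is the only valuation subring of `F` with its restriction to `E = K(s)`
            (`UniqueExt20.eq_of_residue_independent`).

Instantiates `SatUniq24.sat_of_unique` with `P := R[s]`, `B := integralClosure R[s] F`.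
-/
import Mathlib
import Fermat.Agent.RED.PUR.SatUniq24
import Fermat.Agent.RED.PUR.ChartGeneric22

set_option autoImplicit false

namespace Fermat.Agent.RED.PUR.SatChart24

open Polynomial Fermat.Agent.RED.PUR Fermat.Agent.RED.PUR.ChartGeneric22

section Prime

variable {R F : Type*} [CommRing R] [IsDomain R] [Field F] [Algebra R F]

omit [IsDomain R] in
/-- `π` stays prime in `R[s]` for `s` transcendental. -/
theorem prime_algebraMap_adjoin {π : R} (hπ : Prime π) {s : F} (hs : Transcendental R s) :
    Prime (algebraMap R (Algebra.adjoin R {s}) π) := by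
  have h1 : Prime (C π : R[X]) := Polynomial.prime_C_iff.mpr hπ
  have h2 : Prime ((adjoinEquiv hs) (C π)) := (MulEquiv.prime_iff (adjoinEquiv hs)).mpr h1
  have h3 : (adjoinEquiv hs) (C π) = algebraMap R (Algebra.adjoin R {s}) π := by
    have : (C π : R[X]) = algebraMap R R[X] π := rfl
    rw [this, AlgEquiv.commutes]
  rwa [h3] at h2

end Prime

variable {R K F : Type*} [CommRing R] [IsDomain R] [Field K] [Field F] [Algebra R K] [Algebra K F]
  [Algebra R F] [IsScalarTower R K F] [IsFractionRing R K] [IsNoetherianRing R]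
  [IsIntegrallyClosed R] [CharZero K]

/-- **(G1) saturation for a chart.** -/
theorem sat_chart {π : R} (hπ : Prime π) (E : IntermediateField K F) [FiniteDimensional E F]
    {s : F} (hs : s ∈ E) (hE : E ≤ IntermediateField.adjoin K {s}) (htr : Transcendental K s)
    (Ov : ValuationSubring F) (hR : ∀ r : R, algebraMap R F r ∈ Ov) (hsOv : s ∈ Ov)
    (hπv : Ov.valuation (algebraMap R F π) < 1)
    (hcen : ∀ p ∈ Algebra.adjoin R {s}, Ov.valuation p < 1 →
      ∃ p' ∈ Algebra.adjoin R {s}, p = algebraMap R F π * p')
    (huniq : ∀ V : ValuationSubring F,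
      V.comap (algebraMap E F) = Ov.comap (algebraMap E F) → V = Ov) :
    ∀ b ∈ chart R s, ∀ c ∈ Ov, b = algebraMap R F π * c → c ∈ chart R s := by
  intro b hb c hc hbc
  let _ : Algebra (Algebra.adjoin R {s}) E := (adjoinToField E hs).toAlgebra
  have : IsFractionRing (Algebra.adjoin R {s}) E := isFractionRing_adjoin E hs hE
  have : IsScalarTower (Algebra.adjoin R {s}) E F := IsScalarTower.of_algebraMap_eq (fun _ => rfl)
  have : CharZero F := charZero_of_injective_algebraMap (algebraMap K F).injective
  have : CharZero E := charZero_of_injective_algebraMap (R := K) (algebraMap K E).injective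
  have : Algebra.IsSeparable E F := inferInstance
  have htrR : Transcendental R s := transcendental_of_field htr
  have : IsIntegrallyClosed (Algebra.adjoin R {s}) := isIntegrallyClosed_adjoin htrR
  have : IsNoetherianRing (integralClosure (Algebra.adjoin R {s}) F) :=
    integralClosure.isNoetherianRing (A := Algebra.adjoin R {s}) (K := E) F
  have : IsIntegrallyClosed (integralClosure (Algebra.adjoin R {s}) F) :=
    integralClosure.isIntegrallyClosedOfFiniteExtension E
  have : IsFractionRing (integralClosure (Algebra.adjoin R {s}) F) F :=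
    integralClosure.isFractionRing_of_finite_extension E F
  have : FaithfulSMul (Algebra.adjoin R {s}) (integralClosure (Algebra.adjoin R {s}) F) :=
    (faithfulSMul_iff_algebraMap_injective _ _).2 (fun a a' h => Subtype.ext
      (congrArg (fun z : integralClosure (Algebra.adjoin R {s}) F => (z : F)) h))
  have hπP : Prime (algebraMap R (Algebra.adjoin R {s}) π) := prime_algebraMap_adjoin hπ htrR
  have hle := chart_le_valuationSubring Ov hR hsOv
  obtain ⟨b', hb'⟩ := SatUniq24.sat_of_unique (P := Algebra.adjoin R {s})
    (B := integralClosure (Algebra.adjoin R {s}) F) (E := E) (F := F)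
    (algebraMap R (Algebra.adjoin R {s}) π) hπP Ov
    (fun x => hle _ x.2)
    (by
      intro p
      constructor
      · intro h
        obtain ⟨p', hp', hpp⟩ := hcen (p : F) p.2 h
        exact ⟨⟨p', hp'⟩, Subtype.ext hpp⟩
      · rintro ⟨p', rfl⟩
        have h1 : Ov.valuation ((p' : F)) ≤ 1 :=
          (Ov.valuation_le_one_iff _).2 (hle _ (adjoin_le_chart s p'.2))
        have h2 : (algebraMap (Algebra.adjoin R {s}) F)
            (algebraMap R (Algebra.adjoin R {s}) π * p') = algebraMap R F π * (p' : F) := rfl
        rw [h2, map_mul]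
        calc Ov.valuation (algebraMap R F π) * Ov.valuation (p' : F)
            ≤ Ov.valuation (algebraMap R F π) * 1 := by gcongr
          _ < 1 := by rw [mul_one]; exact hπv)
    huniq ⟨b, hb⟩ c hc hbc
  rw [← hb']
  exact b'.2

/-- **(G1) saturation for both charts** `chart R t`, `chart R t⁻¹`, in the literal shape of the
hypotheses `sat0`, `sat1` of `ChartGeneric22.twoChartModel_of`. -/
theorem sat_both {π : R} (hπ : Prime π) {t : F}
    [FiniteDimensional (IntermediateField.adjoin K {t}) F] (htr : Transcendental K t)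
    (Ov : ValuationSubring F) (hR : ∀ r : R, algebraMap R F r ∈ Ov) (ht : t ∈ Ov)
    (htinv : t⁻¹ ∈ Ov) (hπv : Ov.valuation (algebraMap R F π) < 1)
    (hcen0 : ∀ p ∈ Algebra.adjoin R {t}, Ov.valuation p < 1 →
      ∃ p' ∈ Algebra.adjoin R {t}, p = algebraMap R F π * p')
    (hcen1 : ∀ p ∈ Algebra.adjoin R {t⁻¹}, Ov.valuation p < 1 →
      ∃ p' ∈ Algebra.adjoin R {t⁻¹}, p = algebraMap R F π * p')
    (huniq : ∀ V : ValuationSubring F,
      V.comap (algebraMap (IntermediateField.adjoin K {t}) F) =
        Ov.comap (algebraMap (IntermediateField.adjoin K {t}) F) → V = Ov) :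
    (∀ b ∈ chart R t, ∀ c ∈ Ov, b = algebraMap R F π * c → c ∈ chart R t) ∧
    (∀ b ∈ chart R t⁻¹, ∀ c ∈ Ov, b = algebraMap R F π * c → c ∈ chart R t⁻¹) := by
  have hmem : t ∈ IntermediateField.adjoin K {t} := IntermediateField.mem_adjoin_simple_self K t
  have hinv_mem : t⁻¹ ∈ IntermediateField.adjoin K {t} := inv_mem hmem
  have hE' : IntermediateField.adjoin K {t} ≤ IntermediateField.adjoin K {t⁻¹} := by
    rw [IntermediateField.adjoin_le_iff, Set.singleton_subset_iff]
    have h1 : t⁻¹ ∈ IntermediateField.adjoin K {t⁻¹} :=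
      IntermediateField.mem_adjoin_simple_self K t⁻¹
    have h2 := inv_mem h1
    rwa [inv_inv] at h2
  have htr' : Transcendental K t⁻¹ := fun h => htr (IsAlgebraic.inv_iff.1 h)
  exact ⟨sat_chart hπ _ hmem le_rfl htr Ov hR ht hπv hcen0 huniq,
    sat_chart hπ _ hinv_mem hE' htr' Ov hR htinv hπv hcen1 huniq⟩

end Fermat.Agent.RED.PUR.SatChart24
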