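/-
Program H (S18), helper3: the PLACE DICTIONARY between a function field `F/K` and its constant
field extension `F'/L` (`L/K` algebraic, e.g. `K` a number field, `L = ℚ̄`, `F = K·F_M`,
`F' = ℚ̄·F_M`), for a common generator `t ∈ F` (`F` finite over `K(t)`, `F'` finite over `L(t)`).

Shared by DESC (hypothesis transfer), DISC (β2) and CUSP (iv) of `H_BLUEPRINT3_v2.md`.

* `mem_intRing_of_forall_place`      : finite at all places where `t` is finite ⇒ integral over `K[t]`.
* `isIntegral_polyRing_of_isIntegral_polyRing`, `isIntegral_polyRing_of_map` : descent of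
  integrality `L[t] ⇒ K[t]` and `F' ⇒ F`.
* `mem_intRing_of_forall_place_map`  : `z : F` finite at all `L`-places of `F'` (where `t` is finite)
  ⇒ `z` integral over `K[t]`.
* `map_mem_of_mem_intRing`           : converse.
* `div_mem_intRing`                  : division criterion (`ord_v g ≤ ord_v z` for all `v` ⇒ `z/g` integral).
* `isRadical_span_singleton`         : `g` with only simple zeros on the affine part ⇒ `(g)` radical in
  the integral closure of `K[t]` in `F`  (⇒ unit discriminant at `(g)`, DiscrEtale21).
* `intRingMap`, `intRingMap_injective`, `intRingMap_isIntegral` : `B_K → B_L`.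
* `exists_place_over_of_mem`, `exists_place_over` : **(EXT)** every `K`-place of `F` is the restriction
  of an `L`-place of `F'`, with `ord_v = e · ord_w` on `F`, `e ≥ 1`.
* `isIntegral_top`                   : `F'` is integral over `F`.
-/
import Mathlib
import Fermat.Prelude.Def_AlgebraicCurve_DivisorPushPull
import Fermat.Agent.X0.FFSum
import Fermat.Agent.X0.FFDict
import Fermat.Agent.X0.FFDedekind

set_option autoImplicit false
set_option linter.unusedSectionVars false
set_option linter.style.haveILetI false

open AlgebraicCurve IsDedekindDomain IntermediateField Polynomial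

namespace Fermat.Agent.RED.PUR.PlaceIntegral3

open Fermat.Agent.X0.FF Fermat.Agent.X0.FFDedekind

/-! ### part 1 -/
section One

variable {K F : Type*} [Field K] [Field F] [Algebra K F] [CharZero K] {x : F}

/-- **(PI-1)** An element of `F` lying in the valuation ring of every place at which the
generator `x` is finite is integral over `K[x]`. -/
theorem mem_intRing_of_forall_place (hx : IsGen K x) (f : F)
    (h : ∀ v : Place K F, x ∈ v.toValuationSubring → f ∈ v.toValuationSubring) :
    f ∈ intRing K x := by
  have hDed := isDedekindDomain_intRing hx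
  have hFrac := isFractionRing_intRing hx
  have key : ∀ w : HeightOneSpectrum (intRing K x), w.valuation F f ≤ 1 := by
    intro w
    have hxw : x ∈ (Place.ofHeightOneSpectrum (K := K) (F := F) w).toValuationSubring := by
      have := algebraMap_mem_ofHeightOneSpectrum (K := K) (F := F) w
        (⟨x, (integralClosure (polyRing K x) F).algebraMap_mem (genA K x)⟩ : intRing K x)
      exact this
    have := h _ hxw
    rw [Place.ofHeightOneSpectrum_toValuationSubring] at this
    exact this
  obtain ⟨b, hb⟩ := HeightOneSpectrum.mem_integers_of_valuation_le_one F f key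
  rw [← hb]
  exact b.2

end One

/-! ### part 2 -/
section Descent

variable {K L F' : Type*} [Field K] [Field L] [Field F']
  [Algebra K L] [Algebra L F'] [Algebra K F']
  [IsScalarTower K L F'] [Algebra.IsIntegral K L]

theorem polyRing_le (t' : F') : polyRing K t' ≤ (polyRing L t').restrictScalars K := by
  apply Algebra.adjoin_le
  intro y hy
  rw [Set.mem_singleton_iff] at hy
  rw [hy]
  exact Algebra.self_mem_adjoin_singleton L t'

theorem isIntegral_of_mem_polyRing (t' : F') {b : F'} (hb : b ∈ polyRing L t') :
    IsIntegral (polyRing K t') b := by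
  induction hb using Algebra.adjoin_induction with
  | mem y hy =>
    rw [Set.mem_singleton_iff] at hy
    rw [hy]
    exact isIntegral_algebraMap (R := polyRing K t') (A := F')
      (x := ⟨t', Algebra.self_mem_adjoin_singleton K t'⟩)
  | algebraMap l =>
    have hl : IsIntegral K l := Algebra.IsIntegral.isIntegral l
    have hl' : IsIntegral K (algebraMap L F' l) := hl.map (IsScalarTower.toAlgHom K L F')
    exact hl'.tower_top
  | add y z _ _ hy hz => exact hy.add hz
  | mul y z _ _ hy hz => exact hy.mul hz

end Descent

/-! ### part 2 -/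
section Descent2

variable {K L F' : Type*} [Field K] [Field L] [Field F']
  [Algebra K L] [Algebra L F'] [Algebra K F']
  [IsScalarTower K L F'] [Algebra.IsIntegral K L]

/-- Integrality over `L[t']` implies integrality over `K[t']` when `L/K` is integral. -/
theorem isIntegral_polyRing_of_isIntegral_polyRing (t' z' : F')
    (h : IsIntegral (polyRing L t') z') : IsIntegral (polyRing K t') z' := by
  obtain ⟨p, hp, hpz⟩ := h
  let C := integralClosure (polyRing K t') F'
  let φ : polyRing L t' →+* C :=
    { toFun := fun b => ⟨(b : F'), isIntegral_of_mem_polyRing (K := K) t' b.2⟩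
      map_one' := rfl
      map_mul' := fun _ _ => rfl
      map_zero' := rfl
      map_add' := fun _ _ => rfl }
  have hC : IsIntegral C z' := by
    refine ⟨p.map φ, hp.map φ, ?_⟩
    rw [Polynomial.eval₂_map]
    exact hpz
  have hmem : z' ∈ integralClosure C F' := hC
  rw [integralClosure_idem] at hmem
  obtain ⟨c, hc⟩ := hmem
  rw [← hc]
  exact c.2

end Descent2

/-! ### part 2 -/
section Descent3

variable {K F F' : Type*} [Field K] [Field F] [Field F']
  [Algebra K F] [Algebra K F'] [Algebra F F'] [IsScalarTower K F F']

theorem exists_of_mem_polyRing_map (t : F) {b' : F'} (hb : b' ∈ polyRing K (algebraMap F F' t)) :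
    ∃ b ∈ polyRing K t, algebraMap F F' b = b' := by
  induction hb using Algebra.adjoin_induction with
  | mem y hy =>
    rw [Set.mem_singleton_iff] at hy
    exact ⟨t, Algebra.self_mem_adjoin_singleton K t, hy.symm⟩
  | algebraMap c =>
    exact ⟨algebraMap K F c, Subalgebra.algebraMap_mem _ c,
      (IsScalarTower.algebraMap_apply K F F' c).symm⟩
  | add y z _ _ hy hz =>
    obtain ⟨a, ha, rfl⟩ := hy
    obtain ⟨b, hb, rfl⟩ := hz
    exact ⟨a + b, add_mem ha hb, map_add _ _ _⟩
  | mul y z _ _ hy hz =>
    obtain ⟨a, ha, rfl⟩ := hy
    obtain ⟨b, hb, rfl⟩ := hz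
    exact ⟨a * b, mul_mem ha hb, map_mul _ _ _⟩

/-- Integrality over `K[t'] ⊆ F'` (`t'` the image of `t`) of the image of `z : F` gives integrality
of `z` over `K[t] ⊆ F`. -/
theorem isIntegral_polyRing_of_map (t z : F)
    (h : IsIntegral (polyRing K (algebraMap F F' t)) (algebraMap F F' z)) :
    IsIntegral (polyRing K t) z := by
  rw [← isIntegral_algebraMap_iff (R := polyRing K t) (algebraMap F F').injective]
  obtain ⟨p, hp, hpz⟩ := h
  let C := integralClosure (polyRing K t) F'
  have hmemC : ∀ b' : polyRing K (algebraMap F F' t), (b' : F') ∈ C := by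
    intro b'
    obtain ⟨b, hb, hbb⟩ := exists_of_mem_polyRing_map (K := K) t b'.2
    rw [← hbb]
    exact isIntegral_algebraMap (R := polyRing K t) (A := F') (x := ⟨b, hb⟩)
  let φ : polyRing K (algebraMap F F' t) →+* C :=
    { toFun := fun b => ⟨(b : F'), hmemC b⟩
      map_one' := rfl
      map_mul' := fun _ _ => rfl
      map_zero' := rfl
      map_add' := fun _ _ => rfl }
  have hC : IsIntegral C (algebraMap F F' z) := by
    refine ⟨p.map φ, hp.map φ, ?_⟩
    rw [Polynomial.eval₂_map]
    exact hpz
  have hmem : algebraMap F F' z ∈ integralClosure C F' := hC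
  rw [integralClosure_idem] at hmem
  obtain ⟨c, hc⟩ := hmem
  rw [← hc]
  exact c.2

end Descent3

/-! ### part 3 -/
section Two

variable {K L F F' : Type*} [Field K] [Field L] [Field F] [Field F']
  [Algebra K L] [Algebra K F] [Algebra L F'] [Algebra K F'] [Algebra F F']
  [IsScalarTower K L F'] [IsScalarTower K F F'] [Algebra.IsIntegral K L] [CharZero L]

/-- An element of `F` whose image in `F'` is finite at every `L`-place of `F'` at which `t` is
finite, is integral over `K[t]`. -/
theorem mem_intRing_of_forall_place_map {t : F} (ht' : IsGen L (algebraMap F F' t)) (z : F)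
    (h : ∀ v : Place L F', algebraMap F F' t ∈ v.toValuationSubring →
      algebraMap F F' z ∈ v.toValuationSubring) : z ∈ intRing K t := by
  have h1 : algebraMap F F' z ∈ intRing L (algebraMap F F' t) :=
    mem_intRing_of_forall_place ht' _ h
  have h2 : IsIntegral (polyRing K (algebraMap F F' t)) (algebraMap F F' z) :=
    isIntegral_polyRing_of_isIntegral_polyRing (K := K) (L := L) _ _ h1
  exact isIntegral_polyRing_of_map (K := K) t z h2

/-- The image in `F'` of an element of `F` integral over `K[t]` is finite at every `L`-place
of `F'` at which `t` is finite. -/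
theorem map_mem_of_mem_intRing {t : F} {z : F} (hz : z ∈ intRing K t) (v : Place L F')
    (htv : algebraMap F F' t ∈ v.toValuationSubring) :
    algebraMap F F' z ∈ v.toValuationSubring := by
  have hA : ∀ a : polyRing K t, algebraMap (polyRing K t) F' a ∈ v.toValuationSubring := by
    rintro ⟨a, ha⟩
    show algebraMap F F' a ∈ v.toValuationSubring
    induction ha using Algebra.adjoin_induction with
    | mem y hy =>
      rw [Set.mem_singleton_iff] at hy
      rw [hy]; exact htv
    | algebraMap c =>
      rw [← IsScalarTower.algebraMap_apply K F F' c, IsScalarTower.algebraMap_apply K L F' c]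
      exact v.algebraMap_mem' _
    | add y z _ _ hy hz => rw [map_add]; exact add_mem hy hz
    | mul y z _ _ hy hz => rw [map_mul]; exact mul_mem hy hz
  have hz' : IsIntegral (polyRing K t) (algebraMap F F' z) := by
    have hz0 : IsIntegral (polyRing K t) z := hz
    exact hz0.map (IsScalarTower.toAlgHom (polyRing K t) F F')
  exact mem_of_isIntegral_of_algebraMap_mem v hA hz'

/-- **Division criterion.** If at every `L`-place of `F'` where `t` is finite the order of `g`
is at most the order of `z`, then `z / g` is integral over `K[t]`. -/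
theorem div_mem_intRing {t : F} (ht' : IsGen L (algebraMap F F' t)) {z g : F} (hg : g ≠ 0)
    (h : ∀ v : Place L F', algebraMap F F' t ∈ v.toValuationSubring →
      v.ord (algebraMap F F' g) ≤ v.ord (algebraMap F F' z)) : z / g ∈ intRing K t := by
  rcases eq_or_ne z 0 with rfl | hz
  · rw [zero_div]; exact zero_mem _
  apply mem_intRing_of_forall_place_map (K := K) (L := L) ht'
  intro v htv
  have hg' : algebraMap F F' g ≠ 0 := (map_ne_zero_iff _ (algebraMap F F').injective).mpr hg
  have hz' : algebraMap F F' z ≠ 0 := (map_ne_zero_iff _ (algebraMap F F').injective).mpr hz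
  apply mem_of_ord_nonneg
  rw [map_div₀, div_eq_mul_inv, v.ord_mul hz' (inv_ne_zero hg'), v.ord_inv]
  have := h v htv
  omega

/-- **Radical criterion.** If `g ≠ 0` is integral over `K[t]` and has order `≤ 1` at every `L`-place
of `F'` where `t` is finite (i.e. all its zeros in the affine part are simple), then the principal
ideal `(g)` of the integral closure of `K[t]` in `F` is radical. -/
theorem isRadical_span_singleton {t : F} (ht' : IsGen L (algebraMap F F' t)) (g : intRing K t)
    (hg : g ≠ 0)
    (h : ∀ v : Place L F', algebraMap F F' t ∈ v.toValuationSubring →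
      v.ord (algebraMap F F' (g : F)) ≤ 1) : (Ideal.span {g}).IsRadical := by
  rw [Ideal.isRadical_iff_pow_one_lt 2 (by norm_num)]
  intro z hz
  rw [Ideal.mem_span_singleton'] at hz ⊢
  obtain ⟨y, hy⟩ := hz
  have hgF : (g : F) ≠ 0 := fun h0 => hg (Subtype.ext h0)
  rcases eq_or_ne z 0 with rfl | hz0
  · exact ⟨0, zero_mul _⟩
  have hzF : (z : F) ≠ 0 := fun h0 => hz0 (Subtype.ext h0)
  have hyg : (y : F) * (g : F) = (z : F) ^ 2 := by
    have := congrArg (fun w : intRing K t => (w : F)) hy
    simpa using this
  have hyF : (y : F) ≠ 0 := by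
    intro h0
    rw [h0, zero_mul] at hyg
    exact hzF (pow_eq_zero_iff (two_ne_zero)|>.mp hyg.symm)
  have key : (z : F) / (g : F) ∈ intRing K t := by
    apply div_mem_intRing (K := K) (L := L) ht' hgF
    intro v htv
    have hinj := (algebraMap F F').injective
    have hz1 : 0 ≤ v.ord (algebraMap F F' (z : F)) :=
      ord_nonneg_of_mem v (map_mem_of_mem_intRing (K := K) z.2 v htv)
    have hy1 : 0 ≤ v.ord (algebraMap F F' (y : F)) :=
      ord_nonneg_of_mem v (map_mem_of_mem_intRing (K := K) y.2 v htv)
    have hg1 := h v htv
    have hmul : v.ord (algebraMap F F' (y : F)) + v.ord (algebraMap F F' (g : F)) =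
        2 * v.ord (algebraMap F F' (z : F)) := by
      have h1 := congrArg (algebraMap F F') hyg
      rw [map_mul, map_pow] at h1
      have h2 := congrArg v.ord h1
      rw [v.ord_mul ((map_ne_zero_iff _ hinj).mpr hyF) ((map_ne_zero_iff _ hinj).mpr hgF),
        Fermat.Agent.X0.FF.ord_pow] at h2
      simpa using h2
    omega
  refine ⟨⟨(z : F) / (g : F), key⟩, ?_⟩
  apply Subtype.ext
  show (z : F) / (g : F) * (g : F) = (z : F)
  field_simp

end Two

/-! ### part 4 -/
/-- Transitivity of integrality in ring-hom form: if `z` is integral over the image of `g : S → A`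
and every `g s` is integral over `R`, then `z` is integral over `R`. -/
theorem isIntegral_of_isIntegralElem {R S A : Type*} [CommRing R] [CommRing S] [CommRing A]
    [Algebra R A] (g : S →+* A) (hg : ∀ s, IsIntegral R (g s)) {z : A}
    (hz : g.IsIntegralElem z) : IsIntegral R z := by
  obtain ⟨p, hp, hpz⟩ := hz
  let C := integralClosure R A
  let φ : S →+* C :=
    { toFun := fun s => ⟨g s, hg s⟩
      map_one' := Subtype.ext (map_one g)
      map_mul' := fun a b => Subtype.ext (map_mul g a b)
      map_zero' := Subtype.ext (map_zero g)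
      map_add' := fun a b => Subtype.ext (map_add g a b) }
  have hC : IsIntegral C z := by
    refine ⟨p.map φ, hp.map φ, ?_⟩
    rw [Polynomial.eval₂_map]
    exact hpz
  have hmem : z ∈ integralClosure C A := hC
  rw [integralClosure_idem] at hmem
  obtain ⟨c, hc⟩ := hmem
  rw [← hc]
  exact c.2

section Ext

variable {K L F F' : Type*} [Field K] [Field L] [Field F] [Field F']
  [Algebra K L] [Algebra K F] [Algebra L F'] [Algebra K F'] [Algebra F F']
  [IsScalarTower K L F'] [IsScalarTower K F F'] [Algebra.IsIntegral K L] [CharZero L] [CharZero K]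

theorem map_mem_polyRing {t a : F} (ha : a ∈ polyRing K t) :
    algebraMap F F' a ∈ polyRing L (algebraMap F F' t) := by
  induction ha using Algebra.adjoin_induction with
  | mem y hy =>
    rw [Set.mem_singleton_iff] at hy
    rw [hy]; exact Algebra.self_mem_adjoin_singleton L _
  | algebraMap c =>
    rw [← IsScalarTower.algebraMap_apply K F F' c, IsScalarTower.algebraMap_apply K L F' c]
    exact Subalgebra.algebraMap_mem _ _
  | add y z _ _ hy hz => rw [map_add]; exact add_mem hy hz
  | mul y z _ _ hy hz => rw [map_mul]; exact mul_mem hy hz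

theorem map_mem_intRing {t z : F} (hz : z ∈ intRing K t) :
    algebraMap F F' z ∈ intRing L (algebraMap F F' t) := by
  have hz0 : IsIntegral (polyRing K t) z := hz
  obtain ⟨p, hp, hpz⟩ := hz0
  let θ : polyRing K t →+* polyRing L (algebraMap F F' t) :=
    { toFun := fun a => ⟨algebraMap F F' (a : F), map_mem_polyRing (K := K) (L := L) a.2⟩
      map_one' := Subtype.ext (map_one _)
      map_mul' := fun a b => Subtype.ext (map_mul _ _ _)
      map_zero' := Subtype.ext (map_zero _)
      map_add' := fun a b => Subtype.ext (map_add _ _ _) }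
  refine ⟨p.map θ, hp.map θ, ?_⟩
  rw [Polynomial.eval₂_map]
  have h1 := congrArg (algebraMap F F') hpz
  rw [map_zero, Polynomial.hom_eval₂] at h1
  exact h1

end Ext

/-! ### part 5 -/
section Ext

variable {K L F F' : Type*} [Field K] [Field L] [Field F] [Field F']
  [Algebra K L] [Algebra K F] [Algebra L F'] [Algebra K F'] [Algebra F F']
  [IsScalarTower K L F'] [IsScalarTower K F F'] [Algebra.IsIntegral K L] [CharZero L] [CharZero K]

/-- The ring hom `B_K → B_L` between the integral closures of `K[t]` in `F` and of `L[t]` in `F'`. -/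
def intRingMap (t : F) : intRing K t →+* intRing L (algebraMap F F' t) where
  toFun z := ⟨algebraMap F F' (z : F), map_mem_intRing (K := K) (L := L) z.2⟩
  map_one' := Subtype.ext (map_one _)
  map_mul' _ _ := Subtype.ext (map_mul _ _ _)
  map_zero' := Subtype.ext (map_zero _)
  map_add' _ _ := Subtype.ext (map_add _ _ _)

theorem intRingMap_injective (t : F) :
    Function.Injective (intRingMap (K := K) (L := L) (F' := F') t) := by
  intro a b h
  apply Subtype.ext
  have := congrArg (fun z : intRing L (algebraMap F F' t) => (z : F')) h
  exact (algebraMap F F').injective this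

/-- every element of `B_L` is integral over `B_K`. -/
theorem intRingMap_isIntegral (t : F) : (intRingMap (K := K) (L := L) (F' := F') t).IsIntegral := by
  intro b'
  -- integrality in `F'` over `B_K`
  have h1 : IsIntegral (polyRing K (algebraMap F F' t)) ((b' : F')) :=
    isIntegral_polyRing_of_isIntegral_polyRing (K := K) (L := L) _ _ b'.2
  have h2 : IsIntegral (intRing K t) (b' : F') := by
    refine isIntegral_of_isIntegralElem (R := intRing K t)
      (algebraMap (polyRing K (algebraMap F F' t)) F') ?_ h1
    intro s
    obtain ⟨b, hb, hbb⟩ := exists_of_mem_polyRing_map (K := K) t s.2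
    have : algebraMap (polyRing K (algebraMap F F' t)) F' s =
        algebraMap (intRing K t) F'
          ⟨b, (integralClosure (polyRing K t) F).algebraMap_mem ⟨b, hb⟩⟩ := hbb.symm
    rw [this]
    exact isIntegral_algebraMap
  obtain ⟨p, hp, hpz⟩ := h2
  refine ⟨p, hp, ?_⟩
  apply Subtype.ext
  have h3 : ((Polynomial.eval₂ (intRingMap (K := K) (L := L) (F' := F') t) b' p :
      intRing L (algebraMap F F' t)) : F') =
      Polynomial.eval₂ (algebraMap (intRing K t) F') (b' : F') p := by
    rw [Polynomial.eval₂_eq_sum_range, Polynomial.eval₂_eq_sum_range]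
    simp only [AddSubmonoidClass.coe_finsetSum, MulMemClass.coe_mul, SubmonoidClass.coe_pow]
    rfl
  rw [h3, hpz]
  rfl

end Ext

/-! ### part 6 -/
section Ext

variable {K L F F' : Type*} [Field K] [Field L] [Field F] [Field F']
  [Algebra K L] [Algebra K F] [Algebra L F'] [Algebra K F'] [Algebra F F']
  [IsScalarTower K L F'] [IsScalarTower K F F'] [Algebra.IsIntegral K L] [CharZero L] [CharZero K]

/-- **(EXT), affine case.** A `K`-place `w` of `F` at which `t` is finite is the restriction of an
`L`-place `v` of `F'` (at which `t` is finite). -/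
theorem exists_place_over_of_mem {t : F} (ht : IsGen K t) (ht' : IsGen L (algebraMap F F' t))
    (w : Place K F) (htw : t ∈ w.toValuationSubring) :
    ∃ v : Place L F', algebraMap F F' t ∈ v.toValuationSubring ∧
      ∀ z : F, z ∈ w.toValuationSubring ↔ algebraMap F F' z ∈ v.toValuationSubring := by
  have hDed := isDedekindDomain_intRing ht
  have hFrac := isFractionRing_intRing ht
  have hDed' := isDedekindDomain_intRing ht'
  have hFrac' := isFractionRing_intRing ht'
  have hB : ∀ b : intRing K t, algebraMap (intRing K t) F b ∈ w.toValuationSubring :=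
    intRing_le_of_mem w htw
  set P := centreSpec w hB with hP
  let ψ := intRingMap (K := K) (L := L) (F' := F') t
  letI : Algebra (intRing K t) (intRing L (algebraMap F F' t)) := ψ.toAlgebra
  haveI : Algebra.IsIntegral (intRing K t) (intRing L (algebraMap F F' t)) :=
    ⟨intRingMap_isIntegral (K := K) (L := L) (F' := F') t⟩
  have hker : RingHom.ker (algebraMap (intRing K t) (intRing L (algebraMap F F' t))) ≤ P.asIdeal := by
    intro a ha
    rw [RingHom.mem_ker] at ha
    have : a = 0 := intRingMap_injective (K := K) (L := L) (F' := F') t (by rw [map_zero]; exact ha)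
    rw [this]; exact zero_mem _
  obtain ⟨Q, hQp, hQc⟩ := Ideal.exists_ideal_over_prime_of_isIntegral_of_isDomain
    (S := intRing L (algebraMap F F' t)) P.asIdeal hker
  have hQ0 : Q ≠ ⊥ := by
    intro h0
    apply P.ne_bot
    rw [← hQc, h0]
    rw [eq_bot_iff]
    intro a ha
    rw [Ideal.mem_comap, Ideal.mem_bot] at ha
    have : a = 0 := intRingMap_injective (K := K) (L := L) (F' := F') t (by rw [map_zero]; exact ha)
    rw [this]; exact zero_mem _
  let W : HeightOneSpectrum (intRing L (algebraMap F F' t)) := ⟨Q, hQp, hQ0⟩
  let v : Place L F' := Place.ofHeightOneSpectrum (K := L) (F := F') W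
  have htv : algebraMap F F' t ∈ v.toValuationSubring :=
    algebraMap_mem_ofHeightOneSpectrum (K := L) (F := F') W
      (⟨algebraMap F F' t, (integralClosure (polyRing L (algebraMap F F' t)) F').algebraMap_mem
        (genA L (algebraMap F F' t))⟩ : intRing L (algebraMap F F' t))
  refine ⟨v, htv, ?_⟩
  -- the comap valuation subring
  let O : ValuationSubring F := v.toValuationSubring.comap (algebraMap F F')
  have hOmem : ∀ z : F, z ∈ O ↔ algebraMap F F' z ∈ v.toValuationSubring := fun z => Iff.rfl
  have hw : w.toValuationSubring = HeightOneSpectrum.valuationSubringAtPrime F P := by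
    have h1 := ofHeightOneSpectrum_centreSpec (K := K) (F := F) w hB
    have h2 : (Place.ofHeightOneSpectrum (K := K) (F := F) P).toValuationSubring =
        w.toValuationSubring := by rw [hP, h1]
    rw [← h2, Place.ofHeightOneSpectrum_toValuationSubring,
      ← HeightOneSpectrum.valuationSubringAtPrime_eq_valuationSubring]
  have hle : HeightOneSpectrum.valuationSubringAtPrime F P ≤ O := by
    rintro x ⟨a, s, hs, rfl⟩
    rw [hOmem, map_mul, map_inv₀]
    have ha : algebraMap F F' (algebraMap (intRing K t) F a) ∈ v.toValuationSubring :=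
      algebraMap_mem_ofHeightOneSpectrum (K := L) (F := F') W (ψ a)
    have hs1 : ψ s ∉ W.asIdeal := by
      intro hmem
      apply hs
      have : s ∈ Q.comap (algebraMap (intRing K t) (intRing L (algebraMap F F' t))) := hmem
      rw [hQc] at this
      exact this
    have hs0 : ψ s ≠ 0 := fun h0 => hs1 (h0 ▸ zero_mem _)
    have hs2 : v.ord (algebraMap F F' (algebraMap (intRing K t) F s)) = 0 := by
      have h1 := ord_ofHeightOneSpectrum_algebraMap_nonneg (K := L) (F := F') W (ψ s)
      have h2 := (ord_ofHeightOneSpectrum_algebraMap_pos_iff (K := L) (F := F') W hs0).not.mpr hs1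
      have h3 : v.ord (algebraMap F F' (algebraMap (intRing K t) F s)) =
          (Place.ofHeightOneSpectrum (K := L) (F := F') W).ord
            (algebraMap (intRing L (algebraMap F F' t)) F' (ψ s)) := rfl
      omega
    have hsinv : (algebraMap F F' (algebraMap (intRing K t) F s))⁻¹ ∈ v.toValuationSubring := by
      apply mem_of_ord_nonneg
      rw [v.ord_inv, hs2, neg_zero]
    exact mul_mem ha hsinv
  have hOtop : O ≠ ⊤ := by
    intro htop
    obtain ⟨a, haP, ha0⟩ := Submodule.exists_mem_ne_zero_of_ne_bot P.ne_bot
    have ha1 : ψ a ∈ W.asIdeal := by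
      have : a ∈ Q.comap (algebraMap (intRing K t) (intRing L (algebraMap F F' t))) := by
        rw [hQc]; exact haP
      exact this
    have ha2 : ψ a ≠ 0 := fun h0 =>
      ha0 (intRingMap_injective (K := K) (L := L) (F' := F') t (by rw [map_zero]; exact h0))
    have hpos := (ord_ofHeightOneSpectrum_algebraMap_pos_iff (K := L) (F := F') W ha2).mpr ha1
    have hinv : (algebraMap (intRing K t) F a)⁻¹ ∈ O := by rw [htop]; trivial
    rw [hOmem, map_inv₀] at hinv
    have h4 := ord_nonneg_of_mem v hinv
    rw [v.ord_inv] at h4
    have h5 : v.ord (algebraMap F F' (algebraMap (intRing K t) F a)) =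
        (Place.ofHeightOneSpectrum (K := L) (F := F') W).ord
          (algebraMap (intRing L (algebraMap F F' t)) F' (ψ a)) := rfl
    omega
  have heq : HeightOneSpectrum.valuationSubringAtPrime F P = O :=
    ValuationSubring.eq_of_le_of_ne_top _ hle hOtop
  intro z
  rw [hw, heq, hOmem]

end Ext

/-! ### part 7 -/
section Ext

variable {K L F F' : Type*} [Field K] [Field L] [Field F] [Field F']
  [Algebra K L] [Algebra K F] [Algebra L F'] [Algebra K F'] [Algebra F F']
  [IsScalarTower K L F'] [IsScalarTower K F F'] [Algebra.IsIntegral K L] [CharZero L] [CharZero K]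

/-- `F'` is algebraic over `F` (when `F'` is a function field over `L ⊇ K` generated by `t ∈ F`). -/
theorem isIntegral_top {t : F} (_ht : IsGen K t) (ht' : IsGen L (algebraMap F F' t)) :
    Algebra.IsIntegral F F' := by
  have hFrac' := isFractionRing_intRing ht'
  have hint : ∀ a : intRing L (algebraMap F F' t), IsIntegral F (a : F') := by
    intro a
    have h1 : IsIntegral (polyRing K (algebraMap F F' t)) ((a : F')) :=
      isIntegral_polyRing_of_isIntegral_polyRing (K := K) (L := L) _ _ a.2
    refine isIntegral_of_isIntegralElem (R := F)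
      (algebraMap (polyRing K (algebraMap F F' t)) F') ?_ h1
    intro s
    obtain ⟨b, _, hbb⟩ := exists_of_mem_polyRing_map (K := K) t s.2
    have : algebraMap (polyRing K (algebraMap F F' t)) F' s = algebraMap F F' b := hbb.symm
    rw [this]
    exact isIntegral_algebraMap
  constructor
  intro x
  obtain ⟨a, b, hb, rfl⟩ := IsFractionRing.div_surjective (A := intRing L (algebraMap F F' t)) x
  have ha' : IsIntegral F (algebraMap (intRing L (algebraMap F F' t)) F' a) := hint a
  have hb' : IsIntegral F (algebraMap (intRing L (algebraMap F F' t)) F' b) := hint b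
  rw [div_eq_mul_inv]
  exact ha'.mul (IsIntegral.inv hb')

/-- An `L`-place of `F'` viewed as a `K`-place. -/
def placeRestrictScalars (v : Place L F') : Place K F' where
  toValuationSubring := v.toValuationSubring
  algebraMap_mem' a := by
    rw [IsScalarTower.algebraMap_apply K L F' a]
    exact v.algebraMap_mem' _
  ne_top' := v.ne_top'
  isPrincipalIdealRing' := v.isPrincipalIdealRing'

theorem placeRestrictScalars_ord (v : Place L F') (f : F') :
    (placeRestrictScalars (K := K) v).ord f = v.ord f := rfl

end Ext

/-! ### part 7 -/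
section Ext2

variable {K L F F' : Type*} [Field K] [Field L] [Field F] [Field F']
  [Algebra K L] [Algebra K F] [Algebra L F'] [Algebra K F'] [Algebra F F']
  [IsScalarTower K L F'] [IsScalarTower K F F'] [Algebra.IsIntegral K L] [CharZero L] [CharZero K]

/-- **(EXT)** Every `K`-place `w` of `F` is the restriction of an `L`-place `v` of `F'`, and
`ord_v = e · ord_w` on `F` for some `e ≥ 1`. -/
theorem exists_place_over {t : F} (ht : IsGen K t) (ht' : IsGen L (algebraMap F F' t))
    (w : Place K F) :
    ∃ (v : Place L F') (e : ℕ), 0 < e ∧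
      (∀ z : F, z ∈ w.toValuationSubring ↔ algebraMap F F' z ∈ v.toValuationSubring) ∧
      ∀ z : F, v.ord (algebraMap F F' z) = e * w.ord z := by
  have hint : Algebra.IsIntegral F F' := isIntegral_top (K := K) ht ht'
  have hmain : ∃ v : Place L F',
      ∀ z : F, z ∈ w.toValuationSubring ↔ algebraMap F F' z ∈ v.toValuationSubring := by
    rcases w.toValuationSubring.mem_or_inv_mem t with htw | htw
    · obtain ⟨v, -, hv⟩ := exists_place_over_of_mem (K := K) (L := L) ht ht' w htw
      exact ⟨v, hv⟩
    · have ht2 : IsGen K t⁻¹ := ht.inv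
      have ht2' : IsGen L (algebraMap F F' t⁻¹) := by
        rw [map_inv₀]; exact ht'.inv
      obtain ⟨v, -, hv⟩ := exists_place_over_of_mem (K := K) (L := L) ht2 ht2' w htw
      exact ⟨v, hv⟩
  obtain ⟨v, hv⟩ := hmain
  let vK : Place K F' := placeRestrictScalars (K := K) v
  have hres : vK.restrict F = w := by
    apply Place.ext
    ext z
    rw [Place.restrict_toValuationSubring, ValuationSubring.mem_comap]
    exact (hv z).symm
  refine ⟨v, Place.ramificationIndex (F := F) vK, vK.ramificationIndex_pos (F := F), hv, ?_⟩
  intro z
  have := vK.ord_restrict (F := F) z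
  rw [hres] at this
  exact this

end Ext2

end Fermat.Agent.RED.PUR.PlaceIntegral3
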