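/-
Program H (S18), chapter RED/PUR — helper26.  **Horizontal bridge at a cusp point.**

The hypothesis `hUNR` of `CuspDisc21.cusp_semi_of_purity` (the `q`-excluded form at
`P := cuspIdeal ϖ c = (ϖ, X - c)`, `q := X - C c`) from the SAME places hypothesis `H` as
`HorizBridge26.hUNR_of_places`, provided the other cusp values are separated from `c` modulo `ϖ`
(`c' - c` a unit).  It is `HorizBridgeQ26.hUNR_of_places_excl` at `P := cuspIdeal ϖ c`,
`q := X - C c`.
-/
import Mathlib
import Fermat.Agent.RED.PUR.HorizBridgeQ26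
import Fermat.Agent.RED.CUSP.PolyToPS16

set_option autoImplicit false
set_option linter.style.haveILetI false
set_option linter.unusedSectionVars false

namespace Fermat.Agent.RED.PUR.HorizBridgeCusp26

open Polynomial IsLocalRing Fermat.Agent.RED.PUR.HorizBridge26
  Fermat.Agent.RED.PUR.HorizBridgeQ26 Fermat.Agent.RED.CUSP.PolyToPS16

variable {A K F : Type*} [CommRing A] [IsDomain A] [IsDiscreteValuationRing A]
  [Field K] [Algebra A K] [IsFractionRing A K]
  [Field F] [Algebra K F] [Algebra A F] [IsScalarTower A K F]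
  [Algebra A[X] F] [IsScalarTower A A[X] F]
  (B : Type*) [CommRing B] [IsDomain B] [Algebra A[X] B] [Algebra B F] [IsScalarTower A[X] B F]
  [IsFractionRing B F] [Algebra.IsIntegral A[X] B]

/-- A cusp value `c'` separated from `c` modulo `ϖ` gives `X - C c' ∉ (ϖ, X - c)`. -/
theorem X_sub_C_notMem_cuspIdeal (ϖ : A) (hϖ : Irreducible ϖ) (c c' : A)
    (hu : IsUnit (c' - c)) : (X - C c' : A[X]) ∉ cuspIdeal ϖ c := by
  intro hmem
  rw [mem_cuspIdeal_iff, eval_sub, eval_X, eval_C, Ideal.mem_span_singleton] at hmem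
  have h1 : ϖ ∣ c' - c := by
    have : c' - c = -(c - c') := by ring
    rw [this]
    exact (dvd_neg).mpr hmem
  exact hϖ.not_isUnit (isUnit_of_dvd_unit h1 hu)

/-- **Horizontal bridge at the cusp point over `c`.**  The literal `hUNR` of
`CuspDisc21.cusp_semi_of_purity` from the places hypothesis `H` of
`HorizBridge26.hUNR_of_places`. -/
theorem hUNR_of_places_cusp (t : F) (hX : algebraMap A[X] F X = t) (ht : Transcendental K t)
    (ϖ : A) (hϖ : Irreducible ϖ) (cusps : Set A) (c : A)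
    (hsepar : ∀ c' ∈ cusps, c' ≠ c → IsUnit (c' - c))
    (H : ∀ O : ValuationSubring F, (∀ a : K, algebraMap K F a ∈ O) → IsDiscreteValuationRing O →
      t ∈ O → ∀ g : K[X], Irreducible g → (∀ c ∈ cusps, ¬ g.IsRoot (algebraMap A K c)) →
      (aeval t g)⁻¹ ∉ O → ∀ y ∈ O, y⁻¹ ∉ O → y / aeval t g ∈ O) :
    ∀ O : ValuationSubring F, (∀ s : B, algebraMap B F s ∈ O) → IsDiscreteValuationRing O →
      (algebraMap B F (algebraMap A[X] B (C ϖ)))⁻¹ ∈ O →
      (algebraMap B F (algebraMap A[X] B (X - C c)))⁻¹ ∈ O →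
      (∀ r : A[X], r ∉ cuspIdeal ϖ c → (algebraMap B F (algebraMap A[X] B r))⁻¹ ∈ O) →
      ∃ g0 : A[X], (algebraMap B F (algebraMap A[X] B g0))⁻¹ ∉ O ∧
        ∀ y ∈ O, y⁻¹ ∉ O → y / algebraMap B F (algebraMap A[X] B g0) ∈ O := by
  classical
  refine hUNR_of_places_excl B t hX ht ϖ hϖ cusps (X - C c) (X_sub_C_ne_zero c)
    (cuspIdeal ϖ c) ?_ H
  intro c' hc'
  by_cases h : c' = c
  · right
    rw [h]
  · left
    exact X_sub_C_notMem_cuspIdeal ϖ hϖ c c' (hsepar c' hc' h)

end Fermat.Agent.RED.PUR.HorizBridgeCusp26
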