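/-
Program H (S18), chapter RED/PUR (helper3): the horizontal bridge at the non-cusp closed points, at
the concrete types.  Produces the input `hH` of `OffConcrete4.offTarget_of_hunr`:

* `hH_off : EventuallyT n e M A fun K ϖ t => HUNROff (AK A K) (FK M K) ϖ t (cuspSet A K cv)`

from `HorizPlace20.hUNR_noncusp` (helper20), with `B := O[X]` acting on `E` through `X ↦ t`,
`bc := PlaceExtend27.baseChangeHom`, `hExt := PlaceExtend27.exists_place_above`; and hence
`offTarget`, input (3) of the S18 chain.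
-/
import Mathlib
import Fermat.Agent.RED.PUR.HorizPlace20
import Fermat.Agent.RED.PUR.OffConcrete4
import Fermat.Agent.RED.CUSP.HunrCuspConcrete3
import Fermat.Agent.RED.BASE.CuspFinite12

set_option autoImplicit false
set_option linter.unusedSectionVars false
set_option linter.unusedVariables false
set_option linter.style.haveILetI false

open ModularCurve IntermediateField Polynomial
open scoped MatrixGroups

noncomputable section

namespace Fermat.Agent.RED.PUR.HunrOffConcrete3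

open Fermat.Agent.X0 Fermat.Agent.X0.FF AlgebraicCurve
open Fermat.Agent.RED.BASE.Interface12 Fermat.Agent.RED.BASE.EtaQuot12
open Fermat.Agent.RED.PUR.OffIface4
open Fermat.Agent.RED.PUR.IntClosBase13

/-! ### Generic part: `HUNROff` from `HorizPlace20` -/

section Generic

variable {K : Type*} [Field K] [CharZero K] (O : ValuationSubring K)
  (E : IntermediateField K (LaurentSeries K))
  (n e M : ℕ) [NeZero n] [NeZero M] (cv : SL(2, ℤ) → Option Kbar)
  [Algebra K Kbar] [Algebra ↥O Kbar] [IsScalarTower ↥O K Kbar] [Algebra.IsAlgebraic K Kbar]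

/-- **`HUNROff` away from the cusp values**, generic form. -/
theorem hunrOff_gen (h : TMem n e M)
    (hU : ∀ v : Place Kbar (FF M), 0 ≤ v.ord (jF M) →
      ∃ c : Kbar, v.ord (tF M h - algebraMap Kbar (FF M) c) = 1)
    (hC : ∀ γ : SL(2, ℤ), CuspShape n ((cuspData M).T γ (tF M h)) (cv γ))
    (hconst : ∀ c : Kbar, tF M h ≠ algebraMap Kbar (FF M) c)
    (hcvA : ∀ γ c, cv γ = some c → ∃ a : ↥O, algebraMap ↥O Kbar a = c)
    (bc : ↥E →+* FF M)
    (hbc : ∀ a : K, bc (algebraMap K ↥E a) = algebraMap Kbar (FF M) (algebraMap K Kbar a))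
    (t : ↥E) (ht : bc t = tF M h)
    (hExt : ∀ w : Place K ↥E, ∃ (v : Place Kbar (FF M)) (d : ℕ), 0 < d ∧
      ∀ f : ↥E, v.ord (bc f) = (d : ℤ) * w.ord f)
    (π : ↥O) (hπ0 : algebraMap ↥O ↥E π ≠ 0)
    (hK : ∀ a : K, ∃ (r : ↥O) (k : ℕ),
      algebraMap K ↥E a * algebraMap ↥O ↥E π ^ k = algebraMap ↥O ↥E r)
    (S : Set ↥O)
    (hS : ∀ a : ↥O, (∃ γ, cv γ = some (algebraMap ↥O Kbar a)) → a ∈ S) :
    HUNROff O E π t S := by
  intro P hP O' hB hdvr h1 h3
  haveI : IsScalarTower ↥O K ↥E := Fermat.Agent.RED.NumInst4.isScalarTower_OE O E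
  letI : Algebra (↥O)[X] ↥E := polyAlgebra (A := ↥O) t
  haveI : IsScalarTower ↥O (↥O)[X] ↥E := polyAlgebra_isScalarTower (A := ↥O) t
  have hXt : algebraMap (↥O)[X] ↥E X = t := polyAlgebra_algebraMap_X (A := ↥O) t
  have haev : ∀ p : (↥O)[X], algebraMap (↥O)[X] ↥E p = aeval t p := fun p =>
    algebraMap_eq_aeval hXt p
  have hX : ∀ p : (↥O)[X],
      algebraMap (↥O)[X] ↥E (algebraMap (↥O)[X] (↥O)[X] p) = aeval t p := fun p => by
    rw [Algebra.algebraMap_self, RingHom.id_apply, haev]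
  have key := Fermat.Agent.RED.PUR.HorizPlace20.hUNR_noncusp n e M cv (A := ↥O) (K := K)
    (F := ↥E) (B := (↥O)[X]) h hU hC hconst hcvA bc hbc t ht hExt hX π hπ0 hK P
    (fun a ha => by
      rw [Algebra.algebraMap_self, RingHom.id_apply]
      exact hP a (hS a ha)) O'
    (fun z => by
      rw [haev]
      exact Fermat.Agent.RED.CUSP.HunrCuspConcrete3.aeval_mem_of_chart_le O E t O' hB z) hdvr
    (by rw [hX, aeval_C]; exact h1)
    (fun r hr => by
      rw [hX]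
      refine h3 r ?_
      rwa [Algebra.algebraMap_self, RingHom.id_apply] at hr)
  obtain ⟨g0, hg1, hg2⟩ := key
  refine ⟨g0, ?_, ?_⟩
  · rw [hX] at hg1; exact hg1
  · intro y hy hy'
    have := hg2 y hy hy'
    rw [hX] at this
    exact this

end Generic

/-! ### Concrete part: `O := AK A K`, `E := FK M K` -/

section Concrete

open Fermat.Agent.RED.Interface4 Fermat.Agent.RED.ModelTargets4 Fermat.Agent.RED.NumInst4
  Fermat.Agent.RED.DESC.NumberFieldDVR27 Fermat.Agent.RED.DESC.PlaceExtend27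
  Fermat.Agent.RED.BASE Fermat.Agent.RED.BASE.Hauptmodul12

variable {n e : ℕ} [NeZero n] {M : ℕ} [NeZero M] {A : ValuationSubring Qbar}

/-- **Input `hH` of `OffConcrete4.offTarget_of_hunr`.** -/
theorem hH_off (hb : BaseHyp n e) (hnM : n ∣ M) {ℓ : ℕ} [Fact ℓ.Prime]
    (hℓM : ¬ ℓ ∣ M) (hA : A.LiesOverPrime ℓ) (cv : SL(2, ℤ) → Option Kbar)
    (hcv : MainCusp12.CuspExports n e M cv) :
    EventuallyT n e M A fun K ϖ t =>
      HUNROff (AK A K) (FK M K) ϖ t (cuspSet A K cv) := by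
  have hℓ : ℓ.Prime := Fact.out
  have hB := Main12.baseExports hb M hnM
  obtain ⟨S, hS⟩ := CuspFinite12.exists_finset_cuspValues cv hcv.cuspExp
  obtain ⟨K₀, hK₀fd, -, hK₀S⟩ := exists_numberField (⊥ : IntermediateField ℚ Qbar) S
  refine ⟨K₀, hK₀fd, fun K hKfd hle ϖ hϖ t htq => ?_⟩
  have hdvr : IsDiscreteValuationRing ↥(AK A K) := isDiscreteValuationRing_AK A K hℓ.ne_zero hA
  have halg : Algebra.IsAlgebraic ↥K Qbar := isAlgebraic_Qbar_over K
  -- BASE data
  obtain ⟨hm1, hU⟩ := hB.unbranched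
  obtain ⟨hm2, hC⟩ := hcv.cuspExp
  obtain ⟨hm3, hgen⟩ := hB.isGen
  have hconst : ∀ c : Kbar, tF M hB.mem ≠ algebraMap Kbar (FF M) c := fun c hc =>
    Fermat.Agent.X0.FF.IsGen.sub_algebraMap_ne_zero hgen c (sub_eq_zero.mpr hc)
  have hℓn : ¬ ℓ ∣ n := fun hd => hℓM (hd.trans hnM)
  have hnA : ((n : Qbar))⁻¹ ∈ A := inv_natCast_mem hℓ hA n hℓn
  have hn0 : n ≠ 0 := NeZero.ne n
  -- finite cusp values lie in `A ∩ K`
  have hcvA : ∀ γ c, cv γ = some c → ∃ a : ↥(AK A K), algebraMap ↥(AK A K) Kbar a = c := by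
    intro γ c hγ
    have hcK : c ∈ K := hle (hK₀S c (hS γ c hγ))
    have hcA : c ∈ A := by
      have hs := hC γ
      rw [hγ] at hs
      obtain ⟨a, lam, V, -, -, -, -, hInt, -⟩ := hs
      exact hInt.mem_of_inv_mem A hnA hn0
    exact ⟨⟨⟨c, hcK⟩, hcA⟩, rfl⟩
  have hbc : ∀ a : ↥K, baseChangeHom M K (algebraMap ↥K ↥(FK M K) a) =
      algebraMap Kbar (FF M) (algebraMap ↥K Kbar a) := fun a => baseChangeHom_algebraMap M K a
  have ht : baseChangeHom M K t = tF M hB.mem :=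
    Fermat.Agent.RED.CUSP.RankConcrete16.baseChangeHom_eq_tF M K hB.mem t htq
  have hExt : ∀ w : Place ↥K ↥(FK M K), ∃ (v : Place Kbar (FF M)) (d : ℕ), 0 < d ∧
      ∀ f : ↥(FK M K), v.ord (baseChangeHom M K f) = (d : ℤ) * w.ord f :=
    fun w => exists_place_above M K w
  have hπ0 : algebraMap ↥(AK A K) ↥(FK M K) ϖ ≠ 0 :=
    Fermat.Agent.RED.PUR.G1Package8.algebraMap_pi_ne_zero hϖ
  have hK : ∀ a : ↥K, ∃ (r : ↥(AK A K)) (k : ℕ),
      algebraMap ↥K ↥(FK M K) a * algebraMap ↥(AK A K) ↥(FK M K) ϖ ^ k =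
        algebraMap ↥(AK A K) ↥(FK M K) r := by
    intro a
    haveI : IsScalarTower ↥(AK A K) ↥K ↥(FK M K) := isScalarTower_OE (AK A K) (FK M K)
    obtain ⟨r, k, hrk⟩ := Fermat.Agent.RED.CORE.LocalStep15.hK_of_dvr (R := ↥(AK A K)) (K := ↥K)
      (C := ↥(AK A K)) (F := ↥(FK M K)) ϖ (Fermat.Agent.RED.ModelAsm4.dvr_factor hϖ) a
    exact ⟨r, k, hrk⟩
  exact hunrOff_gen (AK A K) (FK M K) n e M cv hB.mem hU hC hconst hcvA (baseChangeHom M K)
    hbc t ht hExt ϖ hπ0 hK (cuspSet A K cv) (fun a ha => ha)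

/-- **(3) `offTarget`** of the S18 chain. -/
theorem offTarget (hb : BaseHyp n e) (hnM : n ∣ M) {ℓ : ℕ} [Fact ℓ.Prime]
    (hℓM : ¬ ℓ ∣ M) (hA : A.LiesOverPrime ℓ) (cv : SL(2, ℤ) → Option Kbar)
    (hcv : MainCusp12.CuspExports n e M cv) : OffTarget n e M A cv :=
  Fermat.Agent.RED.PUR.OffConcrete4.offTarget_of_hunr hb hnM hℓM hA cv
    (hH_off hb hnM hℓM hA cv hcv)

end Concrete

end Fermat.Agent.RED.PUR.HunrOffConcrete3
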