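/-
Program H (S18), chapter RED/PUR — helper13.  **(L3) rank bridge** for CUSP (`CuspSemi23` (I3)):
in the generic (E3) setting of `IntClosBase13` (`A` a domain with fraction field `K`, `F ⊇ K` a
field, `t ∈ F` transcendental over `K`, `F` finite over `K(t)`, any `A[X]`-algebra structure on
`F` with `X ↦ t`) the `A[X]`-rank of `integralClosure A[X] F` is the degree `[F : K(t)]`.

* `finrank_integralClosure` :
  `Module.finrank A[X] ↥(integralClosure A[X] F) = Module.finrank ↥K⟮t⟯ F`;
* `finrank_chart` : the same for `Module.finrank ↥(Algebra.adjoin A {t}) ↥(integralClosure _ F)`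
  (the base of the contract chart `chart A t`).
-/
import Mathlib
import Fermat.Agent.RED.PUR.IntClosBase13

set_option autoImplicit false
set_option linter.unusedSectionVars false
set_option linter.style.haveILetI false

namespace Fermat.Agent.RED.PUR.RankBridge13

open Polynomial IntermediateField
open Fermat.Agent.RED.PUR.ChartsGeneric13 Fermat.Agent.RED.PUR.IntClosBase13

variable {A K F : Type*} [CommRing A] [IsDomain A]
  [Field K] [Field F] [Algebra A K] [IsFractionRing A K] [Algebra K F] [Algebra A F]
  [IsScalarTower A K F]

section Poly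

variable [Algebra A[X] F] [IsScalarTower A A[X] F] {t : F}

/-- **(L3)** the `A[X]`-rank of the integral closure of `A[X]` in `F` is `[F : K(t)]`. -/
theorem finrank_integralClosure (hX : algebraMap A[X] F X = t) (ht : Transcendental K t)
    [FiniteDimensional K⟮t⟯ F] :
    Module.finrank A[X] ↥(integralClosure A[X] F) = Module.finrank ↥K⟮t⟯ F := by
  letI := algSimplePoly (K := K) hX
  have h1 := isScalarTower_simplePoly (K := K) hX
  have h2 := isFractionRing_simplePoly (K := K) hX ht
  have h3 := isFractionRing_integralClosure (K := K) hX ht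
  exact (IsFractionRing.finrank_eq A[X] ↥K⟮t⟯ ↥(integralClosure A[X] F) F).symm

/-- positivity of the rank (for `Fintype`/`Fin n` indexings). -/
theorem finrank_integralClosure_pos (hX : algebraMap A[X] F X = t) (ht : Transcendental K t)
    [FiniteDimensional K⟮t⟯ F] :
    0 < Module.finrank A[X] ↥(integralClosure A[X] F) := by
  rw [finrank_integralClosure (K := K) hX ht]
  exact Module.finrank_pos

end Poly

section Adjoin

attribute [local instance] algSimple

/-- the same over the subalgebra `A[t] ⊆ F` (the base ring of the contract chart). -/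
theorem finrank_chart (K : Type*) [Field K] [Algebra A K] [IsFractionRing A K] [Algebra K F]
    [IsScalarTower A K F] (t : F) [FiniteDimensional K⟮t⟯ F] :
    Module.finrank ↥(Algebra.adjoin A {t}) ↥(integralClosure ↥(Algebra.adjoin A {t}) F) =
      Module.finrank ↥K⟮t⟯ F := by
  have h1 := isScalarTower_simple (R := A) (K := K) t
  have h2 := isFractionRing_simple (R := A) (K := K) t
  have h3 : IsFractionRing ↥(integralClosure ↥(Algebra.adjoin A {t}) F) F :=
    integralClosure.isFractionRing_of_finite_extension ↥K⟮t⟯ F
  exact (IsFractionRing.finrank_eq ↥(Algebra.adjoin A {t}) ↥K⟮t⟯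
    ↥(integralClosure ↥(Algebra.adjoin A {t}) F) F).symm

end Adjoin

end Fermat.Agent.RED.PUR.RankBridge13
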