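/-
Program H (S18), chapter RED/PUR, helper5: abstract bridge from the LOCAL outputs of PUR / CUSP to the
literal hypothesis (G2) of the two-chart model: "`B ⧸ πB` is a Dedekind domain".  Mathlib only.

* `exists_mul_mem_of_isReduced_quotient` : `S ⧸ I` reduced artinian, `x ⊇ I` maximal ⇒ `∃ s ∉ x`, `s • x ⊆ I`
  (the maximal ideals of a finite étale fibre are "locally generated" by `I`);
* `isDiscreteValuationRing_atPrime_of_forall_mul_mem` : (F1) `C` noetherian domain, `y ≠ ⊥` prime,
  `f ∈ y`, every `a ∈ y` satisfies `s * a ∈ (f)` for some `s ∉ y` ⇒ `C_y` is a DVR;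
* `isDedekindDomain_of_forall_isMaximal` : (F2) `C` noetherian domain, all localisations at nonzero
  maximal ideals are DVRs ⇒ `C` Dedekind;
* `isDedekindDomain_quotient_of_local_generators` : (F3) `B` noetherian, `B ⧸ πB` a domain, every maximal
  ideal `x ∋ π` satisfies `∃ f ∈ x, ∀ a ∈ x, ∃ s ∉ x, s * a ∈ (π, f)` ⇒ `B ⧸ πB` is Dedekind;
* `isDedekindDomain_quotient_of_reduced_fibres` : (F3') the same from `B ⧸ (π, f)` reduced + artinian.
-/
import Mathlib

set_option autoImplicit false

namespace Fermat.Agent.RED.PUR.DedekindFibre5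

open IsLocalRing

section Reduced

variable {S : Type*} [CommRing S]

/-- In a reduced artinian ring every maximal ideal is killed by an element outside it. -/
theorem exists_mul_eq_zero_of_isReduced (A : Type*) [CommRing A] [IsArtinianRing A] [IsReduced A]
    (x : Ideal A) [hx : x.IsMaximal] : ∃ s : A, s ∉ x ∧ ∀ a ∈ x, s * a = 0 := by
  classical
  let m : MaximalSpectrum A := ⟨x, hx⟩
  let e := IsArtinianRing.equivPi A
  refine ⟨e.symm (Pi.single m 1), ?_, ?_⟩
  · intro hs
    have h1 : e (e.symm (Pi.single m 1)) m = 0 := by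
      rw [IsArtinianRing.equivPi_apply]
      exact (Ideal.Quotient.eq_zero_iff_mem).mpr hs
    rw [AlgEquiv.apply_symm_apply, Pi.single_eq_same] at h1
    exact one_ne_zero h1
  · intro a ha
    apply e.injective
    rw [map_mul, AlgEquiv.apply_symm_apply, map_zero]
    funext n
    by_cases hn : n = m
    · subst hn
      rw [Pi.mul_apply, IsArtinianRing.equivPi_apply, Pi.zero_apply]
      have : (Ideal.Quotient.mk m.asIdeal a) = 0 := (Ideal.Quotient.eq_zero_iff_mem).mpr ha
      rw [this, mul_zero]
    · rw [Pi.mul_apply, Pi.single_eq_of_ne hn, zero_mul, Pi.zero_apply]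

/-- `S ⧸ I` reduced and artinian, `x ⊇ I` maximal: `x` is generated by `I` after inverting one element
outside `x`. -/
theorem exists_mul_mem_of_isReduced_quotient (I : Ideal S) [IsArtinianRing (S ⧸ I)]
    [IsReduced (S ⧸ I)] (x : Ideal S) [hx : x.IsMaximal] (hIx : I ≤ x) :
    ∃ s : S, s ∉ x ∧ ∀ a ∈ x, s * a ∈ I := by
  have hxm : (x.map (Ideal.Quotient.mk I)).IsMaximal := by
    refine (Ideal.map_eq_top_or_isMaximal_of_surjective _ Ideal.Quotient.mk_surjective hx).resolve_left
      fun htop => ?_
    have h1 : (x.map (Ideal.Quotient.mk I)).comap (Ideal.Quotient.mk I) = x := by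
      rw [Ideal.comap_map_of_surjective _ Ideal.Quotient.mk_surjective, ← RingHom.ker_eq_comap_bot,
        Ideal.mk_ker, sup_eq_left.mpr hIx]
    rw [htop, Ideal.comap_top] at h1
    exact hx.ne_top h1.symm
  obtain ⟨sbar, hs, hkill⟩ := exists_mul_eq_zero_of_isReduced (S ⧸ I) (x.map (Ideal.Quotient.mk I))
  obtain ⟨s, rfl⟩ := Ideal.Quotient.mk_surjective sbar
  refine ⟨s, fun hsx => hs (Ideal.mem_map_of_mem _ hsx), fun a ha => ?_⟩
  have := hkill _ (Ideal.mem_map_of_mem (Ideal.Quotient.mk I) ha)
  rwa [← map_mul, Ideal.Quotient.eq_zero_iff_mem] at this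

end Reduced

section DVR

variable {C : Type*} [CommRing C] [IsDomain C] [IsNoetherianRing C]

/-- **(F1)** A noetherian domain localised at a nonzero prime `y` which is generated by one element `f`
up to elements outside `y` is a discrete valuation ring. -/
theorem isDiscreteValuationRing_atPrime_of_forall_mul_mem (y : Ideal C) [hy : y.IsPrime]
    (hy0 : y ≠ ⊥) (f : C) (hf : f ∈ y) (h : ∀ a ∈ y, ∃ s : C, s ∉ y ∧ s * a ∈ Ideal.span {f}) :
    IsDiscreteValuationRing (Localization.AtPrime y) := by
  have hnf : ¬ IsField (Localization.AtPrime y) :=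
    IsLocalization.AtPrime.not_isField C hy0 (Localization.AtPrime y)
  have hmax : maximalIdeal (Localization.AtPrime y) =
      Ideal.span {algebraMap C (Localization.AtPrime y) f} := by
    rw [← Localization.AtPrime.map_eq_maximalIdeal]
    apply le_antisymm
    · rw [Ideal.map_le_iff_le_comap]
      intro a ha
      obtain ⟨s, hs, hsa⟩ := h a ha
      rw [Ideal.mem_comap]
      obtain ⟨c, hc⟩ := Ideal.mem_span_singleton'.mp hsa
      have hsu : IsUnit (algebraMap C (Localization.AtPrime y) s) :=
        IsLocalization.map_units (Localization.AtPrime y) (⟨s, hs⟩ : y.primeCompl)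
      have : algebraMap C (Localization.AtPrime y) s * algebraMap C (Localization.AtPrime y) a ∈
          Ideal.span {algebraMap C (Localization.AtPrime y) f} := by
        rw [← map_mul, ← hc, map_mul]
        exact Ideal.mul_mem_left _ _ (Ideal.mem_span_singleton_self _)
      exact (Ideal.unit_mul_mem_iff_mem _ hsu).mp this
    · rw [Ideal.span_singleton_le_iff_mem]
      exact Ideal.mem_map_of_mem _ hf
  have hprin : (maximalIdeal (Localization.AtPrime y)).IsPrincipal := ⟨⟨_, hmax⟩⟩
  exact ((IsDiscreteValuationRing.TFAE (Localization.AtPrime y) hnf).out 4 0).mp hprin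

omit [IsNoetherianRing C] in
/-- In a domain whose localisation at a maximal ideal `y` is a DVR, a nonzero prime contained in `y`
equals `y`. -/
theorem eq_of_le_of_isDiscreteValuationRing (y : Ideal C) [hy : y.IsMaximal]
    [IsDiscreteValuationRing (Localization.AtPrime y)] (P : Ideal C) [hP : P.IsPrime] (hP0 : P ≠ ⊥)
    (hPy : P ≤ y) : P = y := by
  have hdisj : Disjoint (y.primeCompl : Set C) (P : Set C) := by
    rw [Set.disjoint_left]
    intro a ha haP
    exact ha (hPy haP)
  have hP' : (P.map (algebraMap C (Localization.AtPrime y))).IsPrime :=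
    IsLocalization.isPrime_of_isPrime_disjoint y.primeCompl _ P hP hdisj
  have hP'0 : P.map (algebraMap C (Localization.AtPrime y)) ≠ ⊥ := by
    intro h0
    apply hP0
    rw [eq_bot_iff]
    intro a ha
    have : algebraMap C (Localization.AtPrime y) a ∈ (⊥ : Ideal (Localization.AtPrime y)) := by
      rw [← h0]; exact Ideal.mem_map_of_mem _ ha
    rw [Ideal.mem_bot] at this
    rw [Ideal.mem_bot]
    exact (IsLocalization.injective (Localization.AtPrime y)
      (le_nonZeroDivisors_of_noZeroDivisors (fun h : (0 : C) ∈ y.primeCompl => h y.zero_mem)))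
      (by rw [this, map_zero])
  have hmaxP : (P.map (algebraMap C (Localization.AtPrime y))).IsMaximal :=
    Ring.DimensionLEOne.maximalOfPrime hP'0 hP'
  have heq : P.map (algebraMap C (Localization.AtPrime y)) = maximalIdeal (Localization.AtPrime y) :=
    IsLocalRing.eq_maximalIdeal hmaxP
  have h1 : (P.map (algebraMap C (Localization.AtPrime y))).comap
      (algebraMap C (Localization.AtPrime y)) = P :=
    IsLocalization.under_map_of_isPrime_disjoint y.primeCompl _ hP hdisj
  rw [← h1, heq]
  exact IsLocalization.AtPrime.under_maximalIdeal (Localization.AtPrime y) y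

/-- **(F2)** A noetherian domain all of whose localisations at nonzero maximal ideals are DVRs is a
Dedekind domain. -/
theorem isDedekindDomain_of_forall_isMaximal
    (h : ∀ y : Ideal C, ∀ _ : y.IsMaximal, y ≠ ⊥ → IsDiscreteValuationRing (Localization.AtPrime y)) :
    IsDedekindDomain C := by
  have : IsDedekindDomainDvr C :=
    { is_dvr_at_nonzero_prime := by
        intro P hP0 hP
        obtain ⟨y, hy, hPy⟩ := Ideal.exists_le_maximal P hP.ne_top
        have hy0 : y ≠ ⊥ := fun h0 => hP0 (le_bot_iff.mp (h0 ▸ hPy))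
        have := h y hy hy0
        have : P = y := eq_of_le_of_isDiscreteValuationRing y P hP0 hPy
        subst this
        infer_instance }
  infer_instance

end DVR

section Fibre

variable {B : Type*} [CommRing B] [IsNoetherianRing B]

/-- **(F3)** The special fibre `B ⧸ πB` is a Dedekind domain as soon as it is a domain and every maximal
ideal `x ∋ π` of `B` is generated by `π` and one more element `f` up to elements outside `x`. -/
theorem isDedekindDomain_quotient_of_local_generators (π : B)
    [IsDomain (B ⧸ Ideal.span {π})]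
    (h : ∀ x : Ideal B, x.IsMaximal → π ∈ x →
      ∃ f ∈ x, ∀ a ∈ x, ∃ s : B, s ∉ x ∧ s * a ∈ Ideal.span {π, f}) :
    IsDedekindDomain (B ⧸ Ideal.span {π}) := by
  apply isDedekindDomain_of_forall_isMaximal
  intro y hy hy0
  set mk := Ideal.Quotient.mk (Ideal.span {π}) with hmk
  set x : Ideal B := y.comap mk with hx
  have hxmax : x.IsMaximal := Ideal.comap_isMaximal_of_surjective mk Ideal.Quotient.mk_surjective
  have hπx : π ∈ x := by
    rw [hx, Ideal.mem_comap]
    have : mk π = 0 := (Ideal.Quotient.eq_zero_iff_mem).mpr (Ideal.mem_span_singleton_self π)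
    rw [this]; exact y.zero_mem
  obtain ⟨f, hfx, hgen⟩ := h x hxmax hπx
  refine isDiscreteValuationRing_atPrime_of_forall_mul_mem y hy0 (mk f) hfx ?_
  intro abar ha
  obtain ⟨a, rfl⟩ := Ideal.Quotient.mk_surjective abar
  obtain ⟨s, hs, hsa⟩ := hgen a ha
  refine ⟨mk s, hs, ?_⟩
  rw [← map_mul]
  obtain ⟨c, d, hcd⟩ := Ideal.mem_span_pair.mp hsa
  rw [← hcd, map_add, map_mul, map_mul]
  have : mk π = 0 := (Ideal.Quotient.eq_zero_iff_mem).mpr (Ideal.mem_span_singleton_self π)
  rw [this, mul_zero, zero_add]
  exact Ideal.mul_mem_left _ _ (Ideal.mem_span_singleton_self _)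

/-- **(F3')** Same conclusion from reduced artinian double fibres: for every maximal ideal `x ∋ π` there is
`f ∈ x` with `B ⧸ (π, f)` reduced and artinian (e.g. finite étale over the residue field of `(π, f)`). -/
theorem isDedekindDomain_quotient_of_reduced_fibres (π : B)
    [IsDomain (B ⧸ Ideal.span {π})]
    (h : ∀ x : Ideal B, x.IsMaximal → π ∈ x →
      ∃ f ∈ x, IsArtinianRing (B ⧸ Ideal.span {π, f}) ∧ IsReduced (B ⧸ Ideal.span {π, f})) :
    IsDedekindDomain (B ⧸ Ideal.span {π}) := by
  apply isDedekindDomain_quotient_of_local_generators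
  intro x hx hπx
  obtain ⟨f, hfx, hart, hred⟩ := h x hx hπx
  refine ⟨f, hfx, ?_⟩
  have hle : Ideal.span {π, f} ≤ x := by
    rw [Ideal.span_le]
    rintro a (rfl | rfl)
    · exact hπx
    · exact hfx
  obtain ⟨s, hs, hsa⟩ := exists_mul_mem_of_isReduced_quotient (Ideal.span {π, f}) x hle
  exact fun a ha => ⟨s, hs, hsa a ha⟩

end Fibre

end Fermat.Agent.RED.PUR.DedekindFibre5
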