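import Mathlib
import Fermat.Agent.RED.PUR.Disc5

/-!
# Program H, chapter PUR: DISC (abstract), valuative forms relative to a parameter `p`

The valuative forms in `Disc5` quantify over every discrete valuation subring `O ⊇ S`; in a
two-dimensional `S` this is too strong to be checked (exceptional divisors).  Here the hypothesis is
restricted to those `O` in which a fixed `p : S` is a unit, under the assumption that `p` lies in no
height-one prime containing `g`.
-/

set_option autoImplicit false

open Module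

namespace Fermat.Agent.RED.PUR.DiscVal5

open Fermat.Agent.RED.PUR

section Radical

variable {S : Type*} [CommRing S] [IsDomain S] [IsIntegrallyClosed S] [IsNoetherianRing S]
variable {F : Type*} [Field F] [Algebra S F] [IsFractionRing S F]

/-- Valuative criterion for `(g)` to be radical, relative to `p`: it suffices to look at the discrete
valuation subrings `O ⊇ S` in which `p` is a unit and `g` is not. -/
theorem isRadical_span_of_valuative_of_unit (g p : S) (hg : g ≠ 0)
    (hp : ∀ 𝔓 : Ideal S, 𝔓.IsPrime → 𝔓.height = 1 → g ∈ 𝔓 → p ∉ 𝔓)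
    (hval : ∀ O : ValuationSubring F, (∀ s : S, algebraMap S F s ∈ O) →
      IsDiscreteValuationRing O → (algebraMap S F p)⁻¹ ∈ O → (algebraMap S F g)⁻¹ ∉ O →
      ∀ x ∈ O, x⁻¹ ∉ O → x / algebraMap S F g ∈ O) :
    (Ideal.span {g}).IsRadical := by
  refine Disc5.isRadical_span_of_unramified g hg fun 𝔓 h𝔓 hht hg𝔓 y hy => ?_
  by_cases hy0 : y = 0
  · exact ⟨1, fun h1 => h𝔓.ne_top ((Ideal.eq_top_iff_one _).mpr h1),
      by rw [hy0, mul_zero]; exact dvd_zero g⟩
  set O : ValuationSubring F := Hartogs22.valuationSubringAt (K := F) 𝔓 hht with hO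
  have hinj : Function.Injective (algebraMap S F) := IsFractionRing.injective S F
  -- an element of `𝔓` is a non-unit of `O`
  have hnonunit : ∀ w ∈ 𝔓, w ≠ 0 → (algebraMap S F w)⁻¹ ∉ O := by
    intro w hw hw0 hmem
    obtain ⟨a, s, hs, has⟩ := Hartogs22.mem_valuationSubringAt_iff.mp hmem
    have hw0' : algebraMap S F w ≠ 0 := fun h0 => hw0 (hinj (by rw [h0, map_zero]))
    have : algebraMap S F s = algebraMap S F (a * w) := by
      rw [map_mul, ← has]
      field_simp
    have hsaw : s = a * w := hinj this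
    exact hs (hsaw ▸ 𝔓.mul_mem_left a hw)
  -- `p` is a unit of `O`
  have hp𝔓 : p ∉ 𝔓 := hp 𝔓 h𝔓 hht hg𝔓
  have hp0 : algebraMap S F p ≠ 0 := by
    intro h0
    apply hp𝔓
    have : p = 0 := hinj (by rw [h0, map_zero])
    rw [this]; exact 𝔓.zero_mem
  have hpunit : (algebraMap S F p)⁻¹ ∈ O :=
    Hartogs22.mem_valuationSubringAt_iff.mpr ⟨1, p, hp𝔓, by
      rw [inv_mul_cancel₀ hp0, map_one]⟩
  have hxg := hval O (Hartogs22.algebraMap_mem_valuationSubringAt 𝔓 hht) inferInstance hpunit
    (hnonunit g hg𝔓 hg) (algebraMap S F y) (Hartogs22.algebraMap_mem_valuationSubringAt 𝔓 hht y)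
    (hnonunit y hy hy0)
  obtain ⟨a, s, hs, has⟩ := Hartogs22.mem_valuationSubringAt_iff.mp hxg
  refine ⟨s, hs, a, ?_⟩
  apply hinj
  have hg0' : algebraMap S F g ≠ 0 := fun h0 => hg (hinj (by rw [h0, map_zero]))
  rw [map_mul, map_mul, ← has]
  field_simp

end Radical

section Horizontal

variable {R S : Type*} [CommRing R] [CommRing S] [Algebra R S]
  [IsDomain S] [IsIntegrallyClosed S] [IsNoetherianRing S]
variable {ι : Type*} [Fintype ι] [DecidableEq ι]
variable {F : Type*} [Field F] [Algebra S F] [IsFractionRing S F]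

/-- **(β2), valuative form relative to `p`.** -/
theorem discr_notMem_span_of_valuative_of_unit (g : R) (p : S) [hprime : (Ideal.span {g}).IsPrime]
    [CharZero (R ⧸ Ideal.span {g})] (b : Basis ι R S) (hg : algebraMap R S g ≠ 0)
    (hp : ∀ 𝔓 : Ideal S, 𝔓.IsPrime → 𝔓.height = 1 → algebraMap R S g ∈ 𝔓 → p ∉ 𝔓)
    (hval : ∀ O : ValuationSubring F, (∀ s : S, algebraMap S F s ∈ O) →
      IsDiscreteValuationRing O → (algebraMap S F p)⁻¹ ∈ O →
      (algebraMap S F (algebraMap R S g))⁻¹ ∉ O →
      ∀ x ∈ O, x⁻¹ ∉ O → x / algebraMap S F (algebraMap R S g) ∈ O) :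
    Algebra.discr R b ∉ Ideal.span {g} := by
  apply Disc5.discr_notMem_of_isRadical (Ideal.span {g}) b
  rw [Ideal.map_span, Set.image_singleton]
  exact isRadical_span_of_valuative_of_unit _ p hg hp hval

end Horizontal

end Fermat.Agent.RED.PUR.DiscVal5
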