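import Mathlib
import Fermat.Agent.RED.CUSP.DiscCompare23

/-!
# Program H, chapter PUR: DISC (abstract), vertical part (beta 1)

`discr_notMem_ker_of_separable`: if `phi : R -> kappa` and a `phi`-semilinear `psi : S -> E` into a
field extension of `kappa` have `ker psi` contained in `(ker phi) S`, every element of `kappa` is a
ratio of values of `phi`, and every value of `psi` is separable over `kappa`, then the discriminant
of any basis of `S` over `R` is not in `ker phi`.  (Same content as `DiscAbstract21.discr_notMem_of_separable`,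
proved through `DiscCompare23.discr_map`; only the inclusion `ker psi <= (ker phi) S` is needed.)
-/

set_option autoImplicit false

open Module

namespace Fermat.Agent.RED.PUR.DiscVert5

open Fermat.Agent.RED.CUSP

variable {R S : Type*} [CommRing R] [CommRing S] [Algebra R S]
variable {ι : Type*} [Fintype ι] [DecidableEq ι]

/-- Common denominators: finitely many elements of a field `κ` all of whose elements are ratios of
values of `φ : R →+* κ` have a common denominator. -/
theorem exists_common_denominator {κ : Type*} [Field κ] (φ : R →+* κ)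
    (hκ : ∀ c : κ, ∃ r r' : R, φ r' ≠ 0 ∧ c * φ r' = φ r) (g : ι → κ) :
    ∃ D : R, φ D ≠ 0 ∧ ∀ i, ∃ a : R, g i * φ D = φ a := by
  choose r r' hr' hr using fun i => hκ (g i)
  refine ⟨∏ i, r' i, ?_, fun i => ⟨r i * ∏ j ∈ Finset.univ.erase i, r' j, ?_⟩⟩
  · rw [map_prod]
    exact Finset.prod_ne_zero_iff.mpr fun i _ => hr' i
  · rw [← Finset.mul_prod_erase Finset.univ r' (Finset.mem_univ i), map_mul, map_mul, ← mul_assoc,
      hr i]

/-- **(β1), spanning form.** -/
theorem discr_notMem_ker_of_span (b : Basis ι R S) {κ E : Type*} [Field κ] [Field E] [Algebra κ E]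
    [Algebra.IsSeparable κ E] (φ : R →+* κ) (ψ : S →+* E)
    (hcomp : ∀ r, ψ (algebraMap R S r) = algebraMap κ E (φ r))
    (hκ : ∀ c : κ, ∃ r r' : R, φ r' ≠ 0 ∧ c * φ r' = φ r)
    (hspan : ⊤ ≤ Submodule.span κ (Set.range fun i => ψ (b i)))
    (hker : ∀ s, ψ s = 0 → s ∈ (RingHom.ker φ).map (algebraMap R S)) :
    Algebra.discr R b ∉ RingHom.ker φ := by
  have hf : ∀ (r : R) (x : S), ψ (r • x) = φ r • ψ x := by
    intro r x
    rw [Algebra.smul_def, map_mul, hcomp, Algebra.smul_def]
  -- linear independence of the reduced basis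
  have hli : LinearIndependent κ (fun i => ψ (b i)) := by
    rw [Fintype.linearIndependent_iff]
    intro g hg l
    obtain ⟨D, hD, ha⟩ := exists_common_denominator φ hκ g
    choose a ha using ha
    have h1 : ψ (∑ i, a i • b i) = 0 := by
      rw [map_sum]
      have : ∀ i, ψ (a i • b i) = φ D • (g i • ψ (b i)) := by
        intro i
        rw [hf, ← ha i, smul_smul, mul_comm]
      rw [Finset.sum_congr rfl fun i _ => this i, ← Finset.smul_sum, hg, smul_zero]
    have h2 := (DiscCompare23.mem_map_iff_repr b (RingHom.ker φ) _).mp (hker _ h1) l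
    rw [b.repr_sum_self] at h2
    have h3 : g l * φ D = 0 := by rw [ha l]; exact h2
    exact (mul_eq_zero.mp h3).resolve_right hD
  let w : Basis ι κ E := Basis.mk hli hspan
  have hw : ∀ i, w i = ψ (b i) := fun i => Basis.mk_apply hli hspan i
  have hθ : DiscCompare23.theta ψ b w = 1 := by
    ext k l
    rw [DiscCompare23.theta_apply, ← hw l, Basis.repr_self, Matrix.one_apply,
      Finsupp.single_apply]
    simp only [eq_comm]
  have hdet : (DiscCompare23.theta ψ b w).det ≠ 0 := by
    rw [hθ, Matrix.det_one]; exact one_ne_zero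
  have hdisc := DiscCompare23.discr_map φ ψ hf b w hdet
  rw [hθ, Matrix.det_one, one_pow, one_mul] at hdisc
  intro hmem
  rw [RingHom.mem_ker, hdisc] at hmem
  have : Module.Finite κ E := Module.Finite.of_basis w
  exact Algebra.discr_not_zero_of_basis κ w hmem

/-- **(β1), vertical.** `φ : R → κ` a homomorphism to a field all of whose elements are ratios of
values of `φ`; `ψ : S → E` a `φ`-semilinear homomorphism to a field extension `E` of `κ` with kernel
`(ker φ) S`, such that every value of `ψ` is separable over `κ`.  Then the discriminant of any basis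
of `S` over `R` does not lie in `ker φ`. -/
theorem discr_notMem_ker_of_separable (b : Basis ι R S) {κ E : Type*} [Field κ] [Field E]
    [Algebra κ E] (φ : R →+* κ) (ψ : S →+* E)
    (hcomp : ∀ r, ψ (algebraMap R S r) = algebraMap κ E (φ r))
    (hκ : ∀ c : κ, ∃ r r' : R, φ r' ≠ 0 ∧ c * φ r' = φ r)
    (hsep : ∀ s : S, IsSeparable κ (ψ s))
    (hker : ∀ s, ψ s = 0 → s ∈ (RingHom.ker φ).map (algebraMap R S)) :
    Algebra.discr R b ∉ RingHom.ker φ := by
  set G : Set E := Set.range fun i => ψ (b i) with hG
  let T : IntermediateField κ E := IntermediateField.adjoin κ G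
  have hsepT : Algebra.IsSeparable κ T :=
    (IntermediateField.isSeparable_adjoin_iff_isSeparable κ E).mpr (by
      rintro _ ⟨i, rfl⟩; exact hsep _)
  -- the `κ`-span of the reduced basis
  set M : Submodule κ E := Submodule.span κ G with hM
  have hψM : ∀ s, ψ s ∈ M := by
    intro s
    rw [← b.sum_repr s, map_sum]
    refine Submodule.sum_mem _ fun i _ => ?_
    rw [Algebra.smul_def, map_mul, hcomp, ← Algebra.smul_def]
    exact Submodule.smul_mem _ _ (Submodule.subset_span ⟨i, rfl⟩)
  have hM1 : (1 : E) ∈ M := by rw [← map_one ψ]; exact hψM 1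
  have hMmul : ∀ x y, x ∈ M → y ∈ M → x * y ∈ M := by
    intro x y hx hy
    have : x * y ∈ M * M := Submodule.mul_mem_mul hx hy
    rw [hM, Submodule.span_mul_span] at this
    refine (Submodule.span_le.mpr ?_) this
    rintro _ ⟨_, ⟨i, rfl⟩, _, ⟨j, rfl⟩, rfl⟩
    dsimp only
    rw [← map_mul]
    exact hψM _
  have hTM : ∀ x ∈ T, x ∈ M := by
    intro x hx
    have hx' : x ∈ T.toSubalgebra := hx
    rw [IntermediateField.adjoin_toSubalgebra_of_isAlgebraic (by
      rintro _ ⟨i, rfl⟩; exact (hsep _).isIntegral.isAlgebraic)] at hx'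
    exact (Algebra.adjoin_le (S := M.toSubalgebra hM1 hMmul) (Submodule.subset_span)) hx'
  have hMT : ∀ x ∈ M, x ∈ T := by
    intro x hx
    have hle : M ≤ T.toSubalgebra.toSubmodule :=
      Submodule.span_le.mpr fun y hy => IntermediateField.subset_adjoin κ G hy
    exact hle hx
  let ψ' : S →+* T := ψ.codRestrict T fun s => hMT _ (hψM s)
  have hψ' : ∀ s, ((ψ' s : T) : E) = ψ s := fun s => rfl
  refine discr_notMem_ker_of_span (E := T) b φ ψ' ?_ hκ ?_ ?_
  · intro r
    apply Subtype.ext
    rw [hψ', hcomp]
    rfl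
  · rintro x -
    have hx : (x : E) ∈ M := hTM _ x.2
    have hmap : M = (Submodule.span κ (Set.range fun i => ψ' (b i))).map T.val.toLinearMap := by
      rw [Submodule.map_span, ← Set.range_comp]
      rfl
    rw [hmap] at hx
    obtain ⟨y, hy, hyx⟩ := hx
    have : y = x := Subtype.ext hyx
    exact this ▸ hy
  · intro s hs
    apply hker
    rw [← hψ', hs]
    rfl

/-- Principal form of `discr_notMem_ker_of_separable`. -/
theorem discr_notMem_span_of_separable (π : R) (b : Basis ι R S) {κ E : Type*} [Field κ] [Field E]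
    [Algebra κ E] (φ : R →+* κ) (ψ : S →+* E) (hφ : RingHom.ker φ = Ideal.span {π})
    (hcomp : ∀ r, ψ (algebraMap R S r) = algebraMap κ E (φ r))
    (hκ : ∀ c : κ, ∃ r r' : R, φ r' ≠ 0 ∧ c * φ r' = φ r)
    (hsep : ∀ s : S, IsSeparable κ (ψ s))
    (hker : ∀ s, ψ s = 0 → algebraMap R S π ∣ s) :
    Algebra.discr R b ∉ Ideal.span {π} := by
  rw [← hφ]
  refine discr_notMem_ker_of_separable b φ ψ hcomp hκ hsep fun s hs => ?_
  rw [hφ, Ideal.map_span, Set.image_singleton, Ideal.mem_span_singleton]
  exact hker s hs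

end Fermat.Agent.RED.PUR.DiscVert5
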