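/-
Program H (S18), chapter RED/PUR — helper21.  Two literal shapes requested by the PUR plan
(helper26 (PL-C)), on top of `DiscrEtale21`:

* `traceForm_nondegenerate_of_isReduced` : a reduced finite-dimensional commutative algebra over a
  perfect field has nondegenerate trace form;
* `exists_notMem_mul_mem_of_isPrime` : unit discriminant ⟹ every PRIME `x ⊇ 𝔪_R S` of `S` is
  locally generated by `𝔪_R S`.
-/
import Mathlib
import Fermat.Agent.RED.PUR.DiscrEtale21

set_option autoImplicit false

open Module IsLocalRing

namespace Fermat.Agent.RED.PUR.DiscrEtaleExtra21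

open Fermat.Agent.RED.PUR.DiscrEtale21

section Field

variable {k C : Type*} [Field k] [CommRing C] [Algebra k C] [Module.Finite k C]

attribute [local instance] IsArtinianRing.fieldOfSubtypeIsMaximal

/-- (PL-C)(ii) A reduced finite-dimensional commutative algebra over a perfect field has
nondegenerate trace form. -/
theorem traceForm_nondegenerate_of_isReduced [PerfectField k] [IsReduced C] :
    (Algebra.traceForm k C).Nondegenerate := by
  rw [← traceSep_iff_nondegenerate, traceSep_iff_forall_isSeparable_of_isReduced]
  intro 𝔪
  have : Module.Finite k (C ⧸ 𝔪.asIdeal) :=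
    Module.Finite.of_surjective (Ideal.Quotient.mkₐ k 𝔪.asIdeal).toLinearMap
      (Ideal.Quotient.mkₐ_surjective k 𝔪.asIdeal)
  infer_instance

/-- Characteristic zero version. -/
theorem traceForm_nondegenerate_of_isReduced_of_charZero [CharZero k] [IsReduced C] :
    (Algebra.traceForm k C).Nondegenerate := by
  have : PerfectField k := PerfectField.ofCharZero
  exact traceForm_nondegenerate_of_isReduced

end Field

section Local

variable {R S : Type*} [CommRing R] [CommRing S] [Algebra R S] [IsLocalRing R]
  [Module.Finite R S] [Module.Free R S] {ι : Type*} [Fintype ι] [DecidableEq ι]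

attribute [local instance] Ideal.Quotient.field

omit [Module.Free R S] in
/-- A prime of `S` containing `𝔪_R S` is maximal (`S` finite over the local ring `R`). -/
theorem isMaximal_of_isPrime_of_map_le (x : Ideal S) [hx : x.IsPrime]
    (hle : (maximalIdeal R).map (algebraMap R S) ≤ x) : x.IsMaximal := by
  have : Algebra.IsIntegral R S := Algebra.IsIntegral.of_finite R S
  have hcomap : x.comap (algebraMap R S) = maximalIdeal R := by
    refine ((maximalIdeal.isMaximal R).eq_of_le ?_ (Ideal.map_le_iff_le_comap.mp hle)).symm
    exact (Ideal.comap_isPrime (algebraMap R S) x).ne_top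
  refine Ideal.isMaximal_of_isIntegral_of_isMaximal_comap (R := R) x ?_
  rw [hcomap]
  exact maximalIdeal.isMaximal R

/-- (PL-C)(iii) Unit discriminant ⟹ every prime `x ⊇ 𝔪_R S` is locally generated by `𝔪_R S`. -/
theorem exists_notMem_mul_mem_of_isPrime (b : Basis ι R S) (hd : IsUnit (Algebra.discr R b))
    (x : Ideal S) [x.IsPrime] (hx : (maximalIdeal R).map (algebraMap R S) ≤ x) :
    ∀ y ∈ x, ∃ s, s ∉ x ∧ s * y ∈ (maximalIdeal R).map (algebraMap R S) := by
  intro y hy
  have : x.IsMaximal := isMaximal_of_isPrime_of_map_le x hx
  exact exists_not_mem_mul_mem_of_isUnit_discr b hd x hy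

end Local

end Fermat.Agent.RED.PUR.DiscrEtaleExtra21
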