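/-
Program H (S18), chapter RED/PUR, leaf (PL-B) (helper17): the two ways to PRODUCE
`Interface26.TraceNondeg R0 B 𝔭` ("the trace form of the fibre `B_𝔭 / 𝔭 B_𝔭` over `κ(𝔭)` is
nondegenerate").  `R0 ⊂ B` finite extension of integrally closed domains, `R0` noetherian.

* `mem_map_maximalIdeal_of_traceSep` : LOCAL FORM.  `R` local, `S` finite free over `R`, the trace
  form of the special fibre `S/pS` over `R/p` separates points; then `Tr(z y) ∈ p` for all `y`
  implies `z ∈ pS`.
* `traceNondeg_of_traceSep` : TRANSFER `(R0, B, 𝔭) ← (R0_𝔭, B_𝔭)`:  `B_𝔭` free over `R0_𝔭` and the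
  fibre trace form separates points  ⟹  `TraceNondeg R0 B 𝔭`.
* `isDiscreteValuationRing_atPrime` / `isDiscreteValuationRing_atPrime_span` : `R0_𝔭` is a DVR
  for a minimal nonzero prime of a normal noetherian domain / for a principal prime `(π)`.
* `algebraMap_mem_map_iff` : `z ∈ 𝔭 B_𝔭 ↔ ∃ s ∉ 𝔭, s • z ∈ 𝔭 B`.
* **(H)** `traceNondeg_of_reduced` : `𝔭` minimal nonzero prime, residue characteristic zero,
  fibre reduced (elementwise)  ⟹  `TraceNondeg R0 B 𝔭`.
* **(V)** `traceNondeg_of_separable` : `π` prime element, `π B` prime, every element of `B` is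
  modulo `π` a simple root of a polynomial over `R0`  ⟹  `TraceNondeg R0 B (π)`.
* field lemmas: `isSeparable_of_aeval_derivative_ne_zero`, `isSeparable_of_forall_simple_root`,
  `isSeparable_of_fibre`.
-/
import Mathlib
import Fermat.Agent.RED.PUR.Interface26
import Fermat.Agent.RED.PUR.DiscrEtale21

set_option autoImplicit false
set_option linter.unusedSectionVars false

open IsLocalRing Module

namespace Fermat.Agent.RED.PUR.FibreTrace17

open Fermat.Agent.RED.PUR.Interface26 Fermat.Agent.RED.PUR.DiscrEtale21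

section FieldLemmas

open Polynomial

variable {k L : Type*} [Field k] [Field L] [Algebra k L]

/-- A simple root of some polynomial is a separable element. -/
theorem isSeparable_of_aeval_derivative_ne_zero {x : L} (hx : IsIntegral k x) (q : k[X])
    (h0 : aeval x q = 0) (h1 : aeval x (derivative q) ≠ 0) : IsSeparable k x := by
  obtain ⟨r, hr⟩ := minpoly.dvd k x h0
  have hirr := minpoly.irreducible hx
  rw [IsSeparable, Polynomial.separable_iff_derivative_ne_zero hirr]
  intro hd
  apply h1
  rw [hr, derivative_mul, hd, zero_mul, zero_add, map_mul, minpoly.aeval, zero_mul]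

/-- A finite extension in which every element is, up to a nonzero scalar, a simple root of some
polynomial, is separable. -/
theorem isSeparable_of_forall_simple_root [FiniteDimensional k L]
    (h : ∀ x : L, ∃ (u : k) (q : k[X]), u ≠ 0 ∧ aeval (algebraMap k L u * x) q = 0 ∧
      aeval (algebraMap k L u * x) (derivative q) ≠ 0) : Algebra.IsSeparable k L := by
  rw [Algebra.isSeparable_def]
  intro x
  obtain ⟨u, q, hu, h0, h1⟩ := h x
  have hx' : IsSeparable k (algebraMap k L u * x) :=
    isSeparable_of_aeval_derivative_ne_zero (Algebra.IsIntegral.isIntegral _) q h0 h1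
  have : x = algebraMap k L u⁻¹ * (algebraMap k L u * x) := by
    rw [← mul_assoc, ← map_mul, inv_mul_cancel₀ hu, map_one, one_mul]
  rw [this]
  exact Field.isSeparable_mul (isSeparable_algebraMap _) hx'

/-- Separability of a finite field extension `L/k` presented as a "fibre" of a ring extension
`R0 → B`: `φ : R0 → k`, `ψ : B → L` compatible, every element of `L` is `ψ y` up to a nonzero
scalar `φ t`, and every `y : B` is, modulo `ker ψ`, a simple root of a polynomial over `R0`. -/
theorem isSeparable_of_fibre [FiniteDimensional k L] {R0 B : Type*} [CommRing R0] [CommRing B]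
    [Algebra R0 B] (φ : R0 →+* k) (ψ : B →+* L)
    (hcomm : (algebraMap k L).comp φ = ψ.comp (algebraMap R0 B))
    (hsurj : ∀ x : L, ∃ (t : R0) (y : B), φ t ≠ 0 ∧ algebraMap k L (φ t) * x = ψ y)
    (hsep : ∀ y : B, ∃ p : R0[X], ψ (aeval y p) = 0 ∧ ψ (aeval y (derivative p)) ≠ 0) :
    Algebra.IsSeparable k L := by
  have key : ∀ (p : R0[X]) (y : B), aeval (ψ y) (p.map φ) = ψ (aeval y p) := by
    intro p y
    rw [aeval_def, eval₂_map, hcomm, ← hom_eval₂, aeval_def]
  apply isSeparable_of_forall_simple_root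
  intro x
  obtain ⟨t, y, ht, hxy⟩ := hsurj x
  obtain ⟨p, hp0, hp1⟩ := hsep y
  refine ⟨φ t, p.map φ, ht, ?_, ?_⟩
  · rw [hxy, key, hp0]
  · rw [hxy, derivative_map, key]
    exact hp1

end FieldLemmas

section LocalForm

variable {R S : Type*} [CommRing R] [CommRing S] [Algebra R S] [IsLocalRing R]
  [Module.Finite R S] [Module.Free R S]

attribute [local instance] Ideal.Quotient.field

/-- Local form: if the trace form of the special fibre separates points, then an element all of
whose traces `Tr(z y)` lie in the maximal ideal lies in the extended maximal ideal. -/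
theorem mem_map_maximalIdeal_of_traceSep
    (h : TraceSep (R ⧸ maximalIdeal R) (S ⧸ (maximalIdeal R).map (algebraMap R S)))
    (z : S) (hz : ∀ y : S, Algebra.trace R S (z * y) ∈ maximalIdeal R) :
    z ∈ (maximalIdeal R).map (algebraMap R S) := by
  rw [← Ideal.Quotient.eq_zero_iff_mem]
  apply h
  intro y
  obtain ⟨y, rfl⟩ := Ideal.Quotient.mk_surjective y
  rw [← map_mul, Algebra.trace_quotient_mk, Ideal.Quotient.eq_zero_iff_mem]
  exact hz y

end LocalForm

section Transfer

variable {R0 B : Type*} [CommRing R0] [IsDomain R0] [IsIntegrallyClosed R0]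
  [CommRing B] [IsDomain B] [IsIntegrallyClosed B] [Algebra R0 B] [Module.Finite R0 B]
  [Module.IsTorsionFree R0 B]

variable (𝔭 : Ideal R0) [𝔭.IsPrime]

variable (B) in
/-- The localisation of `B` at the image of the complement of `𝔭`. -/
abbrev Loc : Type _ := Localization (Algebra.algebraMapSubmonoid B 𝔭.primeCompl)

omit [IsIntegrallyClosed R0] [IsIntegrallyClosed B] [Module.Finite R0 B] in
variable (B) in
theorem algebraMapSubmonoid_le : Algebra.algebraMapSubmonoid B 𝔭.primeCompl ≤ nonZeroDivisors B :=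
  Submonoid.map_le_of_le_comap _ <| 𝔭.primeCompl_le_nonZeroDivisors.trans
    (nonZeroDivisors_le_comap_nonZeroDivisors_of_injective _
      (FaithfulSMul.algebraMap_injective _ _))

theorem isDomain_loc : IsDomain (Loc B 𝔭) :=
  IsLocalization.isDomain_of_le_nonZeroDivisors _ (algebraMapSubmonoid_le B 𝔭)

theorem isIntegrallyClosed_loc : IsIntegrallyClosed (Loc B 𝔭) :=
  isIntegrallyClosed_of_isLocalization _ _ (algebraMapSubmonoid_le B 𝔭)

theorem finite_loc : Module.Finite (Localization.AtPrime 𝔭) (Loc B 𝔭) :=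
  .of_isLocalization R0 B 𝔭.primeCompl

theorem isTorsionFree_loc : IsTorsionFree (Localization.AtPrime 𝔭) (Loc B 𝔭) := by
  rw [isTorsionFree_iff_algebraMap_injective]
  exact localizationAlgebra_injective _ _ (FaithfulSMul.algebraMap_injective R0 B)

theorem isIntegrallyClosed_atPrime : IsIntegrallyClosed (Localization.AtPrime 𝔭) :=
  isIntegrallyClosed_of_isLocalization _ _ 𝔭.primeCompl_le_nonZeroDivisors

attribute [local instance] isDomain_loc isIntegrallyClosed_loc finite_loc isTorsionFree_loc
  isIntegrallyClosed_atPrime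

theorem map_map_eq :
    (maximalIdeal (Localization.AtPrime 𝔭)).map (algebraMap (Localization.AtPrime 𝔭) (Loc B 𝔭)) =
      (𝔭.map (algebraMap R0 B)).map (algebraMap B (Loc B 𝔭)) := by
  rw [← Localization.AtPrime.map_eq_maximalIdeal, Ideal.map_map, Ideal.map_map,
    ← IsScalarTower.algebraMap_eq, ← IsScalarTower.algebraMap_eq]

/-- **Transfer.**  If the localisation `B_𝔭` is free over `R0_𝔭` and the trace form of the fibre
`B_𝔭 / 𝔭 B_𝔭` over `κ(𝔭)` separates points, then `TraceNondeg R0 B 𝔭`. -/
theorem traceNondeg_of_traceSep [Module.Free (Localization.AtPrime 𝔭) (Loc B 𝔭)]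
    (h : TraceSep (Localization.AtPrime 𝔭 ⧸ maximalIdeal (Localization.AtPrime 𝔭))
      (Loc B 𝔭 ⧸ (maximalIdeal (Localization.AtPrime 𝔭)).map
        (algebraMap (Localization.AtPrime 𝔭) (Loc B 𝔭)))) :
    TraceNondeg R0 B 𝔭 := by
  intro z hz
  have key : algebraMap B (Loc B 𝔭) z ∈ (maximalIdeal (Localization.AtPrime 𝔭)).map
      (algebraMap (Localization.AtPrime 𝔭) (Loc B 𝔭)) := by
    apply mem_map_maximalIdeal_of_traceSep h
    intro y1
    obtain ⟨y, ⟨s, t, ht, rfl⟩, rfl⟩ : ∃ (y : B) (s : Algebra.algebraMapSubmonoid B 𝔭.primeCompl),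
        IsLocalization.mk' (Loc B 𝔭) y s = y1 :=
      IsLocalization.exists_mk'_eq (Algebra.algebraMapSubmonoid B 𝔭.primeCompl) y1
    have hu : IsUnit (algebraMap R0 (Localization.AtPrime 𝔭) t) :=
      IsLocalization.map_units (Localization.AtPrime 𝔭) (⟨t, ht⟩ : 𝔭.primeCompl)
    have h1 : algebraMap R0 (Localization.AtPrime 𝔭) t •
        (algebraMap B (Loc B 𝔭) z * IsLocalization.mk' (Loc B 𝔭) y
          (⟨algebraMap R0 B t, t, ht, rfl⟩ : Algebra.algebraMapSubmonoid B 𝔭.primeCompl)) =
        algebraMap B (Loc B 𝔭) (z * y) := by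
      rw [Algebra.smul_def, ← IsScalarTower.algebraMap_apply, IsScalarTower.algebraMap_apply R0 B,
        map_mul, mul_left_comm]
      congr 1
      rw [mul_comm]
      exact IsLocalization.mk'_spec _ _ _
    have h2 : algebraMap R0 (Localization.AtPrime 𝔭) t *
        Algebra.trace (Localization.AtPrime 𝔭) (Loc B 𝔭)
          (algebraMap B (Loc B 𝔭) z * IsLocalization.mk' (Loc B 𝔭) y
            (⟨algebraMap R0 B t, t, ht, rfl⟩ : Algebra.algebraMapSubmonoid B 𝔭.primeCompl)) =
        algebraMap R0 (Localization.AtPrime 𝔭) (Algebra.intTrace R0 B (z * y)) := by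
      rw [← smul_eq_mul, ← map_smul, h1, ← Algebra.intTrace_eq_trace,
        Algebra.intTrace_eq_of_isLocalization R0 B 𝔭.primeCompl
          (Aₘ := Localization.AtPrime 𝔭) (Bₘ := Loc B 𝔭)]
    have h3 : algebraMap R0 (Localization.AtPrime 𝔭) (Algebra.intTrace R0 B (z * y)) ∈
        maximalIdeal (Localization.AtPrime 𝔭) := by
      rw [← Localization.AtPrime.map_eq_maximalIdeal]
      exact Ideal.mem_map_of_mem _ (hz y)
    rw [← h2] at h3
    exact ((Ideal.IsPrime.mul_mem_iff_mem_or_mem inferInstance).mp h3).resolve_left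
      (fun hmem => (IsLocalRing.mem_maximalIdeal _).mp hmem hu)
  rw [map_map_eq, IsLocalization.mem_map_algebraMap_iff
    (Algebra.algebraMapSubmonoid B 𝔭.primeCompl)] at key
  obtain ⟨⟨⟨i, hi⟩, ⟨s, t, ht, rfl⟩⟩, hx⟩ := key
  refine ⟨t, ht, ?_⟩
  have hinj : Function.Injective (algebraMap B (Loc B 𝔭)) :=
    IsLocalization.injective _ (algebraMapSubmonoid_le B 𝔭)
  have : t • z = i := by
    apply hinj
    rw [Algebra.smul_def, map_mul, mul_comm]
    exact hx
  rw [this]
  exact hi

/-! ### (H): horizontal primes -/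

omit [IsIntegrallyClosed B] [Module.Finite R0 B] [Module.IsTorsionFree R0 B] in
/-- The localisation of a noetherian integrally closed domain at a minimal nonzero prime is a
discrete valuation ring. -/
theorem isDiscreteValuationRing_atPrime [IsNoetherianRing R0] (h0 : 𝔭 ≠ ⊥)
    (hht : ∀ 𝔮 : Ideal R0, 𝔮.IsPrime → 𝔮 < 𝔭 → 𝔮 = ⊥) :
    IsDiscreteValuationRing (Localization.AtPrime 𝔭) := by
  have hinj : Function.Injective (algebraMap R0 (Localization.AtPrime 𝔭)) :=
    IsLocalization.injective _ 𝔭.primeCompl_le_nonZeroDivisors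
  have hm0 : maximalIdeal (Localization.AtPrime 𝔭) ≠ ⊥ := by
    rw [← Localization.AtPrime.map_eq_maximalIdeal, Ne, Ideal.map_eq_bot_iff_of_injective hinj]
    exact h0
  have hnf : ¬ IsField (Localization.AtPrime 𝔭) := by
    rw [isField_iff_maximalIdeal_eq]
    exact hm0
  have htfae := (IsDiscreteValuationRing.TFAE (Localization.AtPrime 𝔭) hnf).out 3 0
  rw [← htfae]
  refine ⟨inferInstance, maximalIdeal _, ⟨hm0, inferInstance⟩, ?_⟩
  rintro P ⟨hP0, hPprime⟩
  have hPc : (P.under R0).IsPrime := inferInstance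
  have hle : P.under R0 ≤ 𝔭 := by
    have h1 : P.under R0 ≤ (maximalIdeal (Localization.AtPrime 𝔭)).under R0 :=
      Ideal.comap_mono (IsLocalRing.le_maximalIdeal hPprime.ne_top)
    rwa [IsLocalization.AtPrime.under_maximalIdeal (Localization.AtPrime 𝔭) 𝔭] at h1
  have hmc := IsLocalization.map_under 𝔭.primeCompl (Localization.AtPrime 𝔭) P
  rcases hle.lt_or_eq with hlt | heq
  · exfalso
    rw [hht _ hPc hlt, Ideal.map_bot] at hmc
    exact hP0 hmc.symm
  · rw [← hmc, heq, Localization.AtPrime.map_eq_maximalIdeal]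

/-- Membership in the extended ideal `𝔭 B_𝔭`, read off in `B`. -/
theorem algebraMap_mem_map_iff (z : B) :
    algebraMap B (Loc B 𝔭) z ∈ (maximalIdeal (Localization.AtPrime 𝔭)).map
      (algebraMap (Localization.AtPrime 𝔭) (Loc B 𝔭)) ↔
      ∃ s : R0, s ∉ 𝔭 ∧ s • z ∈ 𝔭.map (algebraMap R0 B) := by
  have hinj : Function.Injective (algebraMap B (Loc B 𝔭)) :=
    IsLocalization.injective _ (algebraMapSubmonoid_le B 𝔭)
  rw [map_map_eq, IsLocalization.mem_map_algebraMap_iff
    (Algebra.algebraMapSubmonoid B 𝔭.primeCompl)]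
  constructor
  · rintro ⟨⟨⟨i, hi⟩, ⟨s, t, ht, rfl⟩⟩, hx⟩
    refine ⟨t, ht, ?_⟩
    have : t • z = i := by
      apply hinj
      rw [Algebra.smul_def, map_mul, mul_comm]
      exact hx
    rw [this]
    exact hi
  · rintro ⟨t, ht, hi⟩
    refine ⟨⟨⟨t • z, hi⟩, ⟨algebraMap R0 B t, t, ht, rfl⟩⟩, ?_⟩
    simp only [Algebra.smul_def, map_mul, mul_comm]

/-- **(H)** Horizontal primes: `𝔭` a minimal nonzero prime of residue characteristic zero such
that the fibre `B_𝔭 / 𝔭 B_𝔭` is reduced (elementwise form). -/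
theorem traceNondeg_of_reduced [IsNoetherianRing R0] (h0 : 𝔭 ≠ ⊥)
    (hht : ∀ 𝔮 : Ideal R0, 𝔮.IsPrime → 𝔮 < 𝔭 → 𝔮 = ⊥)
    (hchar : ∀ n : ℕ, n ≠ 0 → (n : R0) ∉ 𝔭)
    (hred : ∀ z : B, z ^ 2 ∈ 𝔭.map (algebraMap R0 B) →
      ∃ s : R0, s ∉ 𝔭 ∧ s • z ∈ 𝔭.map (algebraMap R0 B)) :
    TraceNondeg R0 B 𝔭 := by
  classical
  have hdvr := isDiscreteValuationRing_atPrime 𝔭 h0 hht
  have hfree : Module.Free (Localization.AtPrime 𝔭) (Loc B 𝔭) := inferInstance
  apply traceNondeg_of_traceSep
  let b := Module.Free.chooseBasis (Localization.AtPrime 𝔭) (Loc B 𝔭)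
  have hcz : CharZero (Localization.AtPrime 𝔭 ⧸ maximalIdeal (Localization.AtPrime 𝔭)) := by
    apply charZero_of_inj_zero
    intro n hn
    by_contra hn0
    apply hchar n hn0
    rw [← IsLocalization.AtPrime.under_maximalIdeal (Localization.AtPrime 𝔭) 𝔭, Ideal.mem_comap,
      map_natCast, ← Ideal.Quotient.eq_zero_iff_mem, map_natCast]
    exact hn
  rw [← isUnit_discr_iff_traceSep b, isUnit_discr_iff_isRadical_of_charZero b,
    Ideal.isRadical_iff_pow_one_lt 2 one_lt_two]
  intro y1 hy1
  obtain ⟨y, ⟨s, t, ht, rfl⟩, rfl⟩ : ∃ (y : B) (s : Algebra.algebraMapSubmonoid B 𝔭.primeCompl),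
      IsLocalization.mk' (Loc B 𝔭) y s = y1 :=
    IsLocalization.exists_mk'_eq (Algebra.algebraMapSubmonoid B 𝔭.primeCompl) y1
  set s' : Algebra.algebraMapSubmonoid B 𝔭.primeCompl := ⟨algebraMap R0 B t, t, ht, rfl⟩
  have hy : algebraMap B (Loc B 𝔭) y = algebraMap B (Loc B 𝔭) (algebraMap R0 B t) *
      IsLocalization.mk' (Loc B 𝔭) y s' := by
    rw [mul_comm]; exact (IsLocalization.mk'_spec _ _ _).symm
  have hy2 : algebraMap B (Loc B 𝔭) (y ^ 2) ∈ (maximalIdeal (Localization.AtPrime 𝔭)).map
      (algebraMap (Localization.AtPrime 𝔭) (Loc B 𝔭)) := by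
    rw [map_pow, hy, mul_pow]
    exact Ideal.mul_mem_left _ _ hy1
  obtain ⟨s2, hs2, hs2y⟩ := (algebraMap_mem_map_iff 𝔭 _).mp hy2
  have h3 : (s2 • y) ^ 2 ∈ 𝔭.map (algebraMap R0 B) := by
    have : (s2 • y) ^ 2 = s2 • (s2 • y ^ 2) := by
      simp only [Algebra.smul_def]; ring
    rw [this, Algebra.smul_def]
    exact Ideal.mul_mem_left _ _ hs2y
  obtain ⟨s3, hs3, hs3y⟩ := hred _ h3
  have h4 : algebraMap B (Loc B 𝔭) y ∈ (maximalIdeal (Localization.AtPrime 𝔭)).map
      (algebraMap (Localization.AtPrime 𝔭) (Loc B 𝔭)) := by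
    rw [algebraMap_mem_map_iff]
    refine ⟨s3 * s2, ?_, ?_⟩
    · exact fun hmem => (Ideal.IsPrime.mem_or_mem inferInstance hmem).elim hs3 hs2
    · rwa [mul_smul]
  have hunit : IsUnit (algebraMap B (Loc B 𝔭) (algebraMap R0 B t)) :=
    IsLocalization.map_units (Loc B 𝔭) s'
  rw [hy] at h4
  exact (Ideal.unit_mul_mem_iff_mem _ hunit).mp h4

end Transfer

/-! ### (V): the vertical prime -/

section Vertical

open Polynomial

variable {R0 B : Type*} [CommRing R0] [IsDomain R0] [IsIntegrallyClosed R0]
  [CommRing B] [IsDomain B] [IsIntegrallyClosed B] [Algebra R0 B] [Module.Finite R0 B]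
  [Module.IsTorsionFree R0 B]

variable (π : R0) [hπp : (Ideal.span {π}).IsPrime]

attribute [local instance] isDomain_loc isIntegrallyClosed_loc finite_loc isTorsionFree_loc
  isIntegrallyClosed_atPrime

/-- The localisation at a principal nonzero prime of a noetherian domain is a DVR. -/
theorem isDiscreteValuationRing_atPrime_span [IsNoetherianRing R0] (hπ0 : π ≠ 0) :
    IsDiscreteValuationRing (Localization.AtPrime (Ideal.span {π})) := by
  have hinj : Function.Injective (algebraMap R0 (Localization.AtPrime (Ideal.span {π}))) :=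
    IsLocalization.injective _ (Ideal.span {π}).primeCompl_le_nonZeroDivisors
  have hm0 : maximalIdeal (Localization.AtPrime (Ideal.span {π})) ≠ ⊥ := by
    rw [← Localization.AtPrime.map_eq_maximalIdeal, Ne, Ideal.map_eq_bot_iff_of_injective hinj,
      Ideal.span_singleton_eq_bot]
    exact hπ0
  have hnf : ¬ IsField (Localization.AtPrime (Ideal.span {π})) := by
    rw [isField_iff_maximalIdeal_eq]
    exact hm0
  have hprin : (maximalIdeal (Localization.AtPrime (Ideal.span {π}))).IsPrincipal := by
    rw [← Localization.AtPrime.map_eq_maximalIdeal, Ideal.map_span, Set.image_singleton]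
    exact ⟨⟨_, rfl⟩⟩
  exact ((IsDiscreteValuationRing.TFAE _ hnf).out 4 0).mp hprin

/-- `π B` does not meet the image of the complement of `(π)` (lying over). -/
theorem disjoint_span_singleton :
    Disjoint (Algebra.algebraMapSubmonoid B (Ideal.span {π}).primeCompl : Set B)
      (Ideal.span {algebraMap R0 B π} : Ideal B) := by
  have : Algebra.IsIntegral R0 B := Algebra.IsIntegral.of_finite R0 B
  obtain ⟨Q, -, hQp, hQ⟩ := Ideal.exists_ideal_over_prime_of_isIntegral (Ideal.span {π})
    (⊥ : Ideal B) (by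
      rw [Ideal.comap_bot_of_injective _ (FaithfulSMul.algebraMap_injective R0 B)]
      exact bot_le)
  rw [Set.disjoint_left]
  rintro _ ⟨t, ht, rfl⟩ hmem
  apply ht
  have hle : Ideal.span {algebraMap R0 B π} ≤ Q := by
    rw [Ideal.span_singleton_le_iff_mem, ← Ideal.mem_comap, hQ]
    exact Ideal.mem_span_singleton_self π
  have := hle hmem
  rwa [← Ideal.mem_comap, hQ] at this

theorem map_maximalIdeal_eq_span :
    (maximalIdeal (Localization.AtPrime (Ideal.span {π}))).map
      (algebraMap (Localization.AtPrime (Ideal.span {π})) (Loc B (Ideal.span {π}))) =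
      (Ideal.span {algebraMap R0 B π}).map (algebraMap B (Loc B (Ideal.span {π}))) := by
  rw [map_map_eq, Ideal.map_span, Set.image_singleton]

/-- The kernel of `B → B_𝔭 / 𝔭 B_𝔭` is `π B` when `π B` is prime. -/
theorem algebraMap_mem_map_iff_dvd (hB : (Ideal.span {algebraMap R0 B π}).IsPrime) (z : B) :
    algebraMap B (Loc B (Ideal.span {π})) z ∈
      (maximalIdeal (Localization.AtPrime (Ideal.span {π}))).map
        (algebraMap (Localization.AtPrime (Ideal.span {π})) (Loc B (Ideal.span {π}))) ↔
      algebraMap R0 B π ∣ z := by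
  have h := IsLocalization.under_map_of_isPrime_disjoint
    (Algebra.algebraMapSubmonoid B (Ideal.span {π}).primeCompl) (Loc B (Ideal.span {π})) hB
    (disjoint_span_singleton π)
  rw [map_maximalIdeal_eq_span, ← Ideal.mem_comap, ← Ideal.under_def, h, Ideal.mem_span_singleton]

theorem isMaximal_map_maximalIdeal (hB : (Ideal.span {algebraMap R0 B π}).IsPrime) :
    ((maximalIdeal (Localization.AtPrime (Ideal.span {π}))).map
      (algebraMap (Localization.AtPrime (Ideal.span {π})) (Loc B (Ideal.span {π})))).IsMaximal := by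
  have hprime : ((maximalIdeal (Localization.AtPrime (Ideal.span {π}))).map
      (algebraMap (Localization.AtPrime (Ideal.span {π})) (Loc B (Ideal.span {π})))).IsPrime := by
    rw [map_maximalIdeal_eq_span]
    exact IsLocalization.isPrime_of_isPrime_disjoint _ _ _ hB (disjoint_span_singleton π)
  have : Algebra.IsIntegral (Localization.AtPrime (Ideal.span {π})) (Loc B (Ideal.span {π})) :=
    Algebra.IsIntegral.of_finite _ _
  apply Ideal.isMaximal_of_isIntegral_of_isMaximal_comap (R := Localization.AtPrime (Ideal.span {π}))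
  have : ((maximalIdeal (Localization.AtPrime (Ideal.span {π}))).map
      (algebraMap (Localization.AtPrime (Ideal.span {π})) (Loc B (Ideal.span {π})))).comap
      (algebraMap (Localization.AtPrime (Ideal.span {π})) (Loc B (Ideal.span {π}))) =
      maximalIdeal (Localization.AtPrime (Ideal.span {π})) :=
    ((IsLocalRing.maximalIdeal.isMaximal _).eq_of_le (Ideal.comap_ne_top _ hprime.ne_top)
      Ideal.le_comap_map).symm
  rw [this]
  infer_instance

attribute [local instance] Ideal.Quotient.field

theorem traceNondeg_of_separable_aux [IsNoetherianRing R0] (hπ0 : π ≠ 0)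
    (hB : (Ideal.span {algebraMap R0 B π}).IsPrime)
    (hsep : ∀ z : B, ∃ p : Polynomial R0, algebraMap R0 B π ∣ Polynomial.aeval z p ∧
      ¬ algebraMap R0 B π ∣ Polynomial.aeval z (Polynomial.derivative p)) :
    TraceNondeg R0 B (Ideal.span {π}) := by
  classical
  have hdvr := isDiscreteValuationRing_atPrime_span π hπ0
  have hfree : Module.Free (Localization.AtPrime (Ideal.span {π})) (Loc B (Ideal.span {π})) :=
    inferInstance
  apply traceNondeg_of_traceSep
  let b := Module.Free.chooseBasis (Localization.AtPrime (Ideal.span {π}))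
    (Loc B (Ideal.span {π}))
  have hmax := isMaximal_map_maximalIdeal π hB
  rw [← isUnit_discr_iff_traceSep b, isUnit_discr_iff_isSeparable_of_isMaximal b]
  have hfin : Module.Finite
      (Localization.AtPrime (Ideal.span {π}) ⧸ maximalIdeal (Localization.AtPrime (Ideal.span {π})))
      (Loc B (Ideal.span {π}) ⧸ (maximalIdeal (Localization.AtPrime (Ideal.span {π}))).map
        (algebraMap (Localization.AtPrime (Ideal.span {π})) (Loc B (Ideal.span {π})))) :=
    Module.Finite.of_restrictScalars_finite (Localization.AtPrime (Ideal.span {π})) _ _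
  refine isSeparable_of_fibre
    ((Ideal.Quotient.mk (maximalIdeal (Localization.AtPrime (Ideal.span {π})))).comp
      (algebraMap R0 (Localization.AtPrime (Ideal.span {π}))))
    ((Ideal.Quotient.mk ((maximalIdeal (Localization.AtPrime (Ideal.span {π}))).map
        (algebraMap (Localization.AtPrime (Ideal.span {π})) (Loc B (Ideal.span {π}))))).comp
      (algebraMap B (Loc B (Ideal.span {π})))) ?_ ?_ ?_
  · ext r
    simp only [RingHom.comp_apply, Ideal.Quotient.algebraMap_quotient_map_quotient]
    rw [← IsScalarTower.algebraMap_apply, ← IsScalarTower.algebraMap_apply]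
  · intro x
    obtain ⟨y1, rfl⟩ := Ideal.Quotient.mk_surjective x
    obtain ⟨y, ⟨s, t, ht, rfl⟩, rfl⟩ :
        ∃ (y : B) (s : Algebra.algebraMapSubmonoid B (Ideal.span {π}).primeCompl),
        IsLocalization.mk' (Loc B (Ideal.span {π})) y s = y1 :=
      IsLocalization.exists_mk'_eq (Algebra.algebraMapSubmonoid B (Ideal.span {π}).primeCompl) y1
    refine ⟨t, y, ?_, ?_⟩
    · rw [RingHom.comp_apply, Ne, Ideal.Quotient.eq_zero_iff_mem,
        IsLocalization.AtPrime.to_map_mem_maximal_iff _ (Ideal.span {π})]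
      exact ht
    · simp only [RingHom.comp_apply, Ideal.Quotient.algebraMap_quotient_map_quotient]
      rw [← map_mul, ← IsScalarTower.algebraMap_apply,
        IsScalarTower.algebraMap_apply R0 B (Loc B (Ideal.span {π})), mul_comm]
      congr 1
      exact IsLocalization.mk'_spec _ _ _
  · intro y
    obtain ⟨p, hp0, hp1⟩ := hsep y
    refine ⟨p, ?_, ?_⟩
    · rw [RingHom.comp_apply, Ideal.Quotient.eq_zero_iff_mem, algebraMap_mem_map_iff_dvd π hB]
      exact hp0
    · rw [RingHom.comp_apply, Ne, Ideal.Quotient.eq_zero_iff_mem, algebraMap_mem_map_iff_dvd π hB]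
      exact hp1

end Vertical

section Main

variable {R0 B : Type*} [CommRing R0] [IsDomain R0] [IsIntegrallyClosed R0]
  [CommRing B] [IsDomain B] [IsIntegrallyClosed B] [Algebra R0 B] [Module.Finite R0 B]
  [Module.IsTorsionFree R0 B] [IsNoetherianRing R0]

/-- **(V)** The vertical prime `(π)`: if `π B` is prime and every element of `B` is, modulo `π`,
a simple root of a polynomial over `R0`, then `TraceNondeg R0 B (π)`. -/
theorem traceNondeg_of_separable (π : R0) (hπ : Prime π)
    (hB : (Ideal.span {algebraMap R0 B π}).IsPrime)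
    (hsep : ∀ z : B, ∃ p : Polynomial R0, algebraMap R0 B π ∣ Polynomial.aeval z p ∧
      ¬ algebraMap R0 B π ∣ Polynomial.aeval z (Polynomial.derivative p)) :
    TraceNondeg R0 B (Ideal.span {π}) := by
  have : (Ideal.span {π}).IsPrime := (Ideal.span_singleton_prime hπ.ne_zero).mpr hπ
  exact traceNondeg_of_separable_aux π hπ.ne_zero hB hsep

end Main

end Fermat.Agent.RED.PUR.FibreTrace17
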