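/-
Program H (S18), chapter RED/PUR, helper8: the (G1) hypotheses of `ChartGeneric22.twoChartModel_of`,
literally, from the generic Gauss package `G1Package8` (inputs: `DegLe`, `Irr`).
-/
import Mathlib
import Fermat.Agent.RED.PUR.G1Package8
import Fermat.Agent.RED.PUR.ChartGeneric22

set_option autoImplicit false

noncomputable section

open HahnSeries Polynomial

namespace Fermat.Agent.RED.PUR.G1Fields8

open Fermat.Agent.RED.PUR.GaussGen8 Fermat.Agent.RED.PUR.KtGauss8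
open Fermat.Agent.RED.PUR.G1Package8 Fermat.Agent.RED.PUR.ChartGeneric22

variable {K : Type*} [Field K] {O : ValuationSubring K} [IsDiscreteValuationRing ↥O]
  {π : ↥O} (hπ : Irreducible π)
  {E : IntermediateField K (LaurentSeries K)} (hE : E ≤ fracField O)
  (t : ↥E) (ht : (t : LaurentSeries K) ∈ gaussRing O)

include hπ in
/-- `R_le_Ov`. -/
theorem algebraMap_mem_OvE (r : ↥O) : algebraMap ↥O ↥E r ∈ OvE O hπ E hE :=
  (mem_OvE_iff O hπ E hE _).mpr (algebraMap_O_mem r)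

/-- **All (G1) hypotheses of `ChartGeneric22.twoChartModel_of`** for `R := ↥O`, `F := ↥E`,
`Ov := OvE O hπ E hE = GaussGen8.gaussVS _ E hE`. -/
theorem g1_fields (htr : Transcendental (Res O) (gaussRed O ⟨(t : LaurentSeries K), ht⟩))
    {n : ℕ} (hdeg : DegLe O E ⟨(t : LaurentSeries K), ht⟩ n)
    (hirr : Irr O E ⟨(t : LaurentSeries K), ht⟩ n) :
    (∀ r : ↥O, algebraMap ↥O ↥E r ∈ OvE O hπ E hE) ∧
    t ∈ OvE O hπ E hE ∧ t⁻¹ ∈ OvE O hπ E hE ∧
    algebraMap ↥O ↥E π ≠ 0 ∧ (algebraMap ↥O ↥E π)⁻¹ ∉ OvE O hπ E hE ∧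
    (∀ x ∈ OvE O hπ E hE, x⁻¹ ∉ OvE O hπ E hE →
      ∃ c ∈ OvE O hπ E hE, x = algebraMap ↥O ↥E π * c) ∧
    (∀ b ∈ chart ↥O t, ∀ c ∈ OvE O hπ E hE, b = algebraMap ↥O ↥E π * c → c ∈ chart ↥O t) ∧
    (∀ b ∈ chart ↥O t⁻¹, ∀ c ∈ OvE O hπ E hE, b = algebraMap ↥O ↥E π * c →
      c ∈ chart ↥O t⁻¹) := by
  refine ⟨algebraMap_mem_OvE hπ hE, t_mem hπ hE t ht, t_inv_mem hπ hE t ht htr,
    algebraMap_pi_ne_zero hπ, pi_inv_not_mem hπ hE,
    fun x hx hxi => exists_eq_pi_mul hπ hE hx hxi, ?_, ?_⟩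
  · intro b hb c hc hbc
    rw [mem_chart_iff] at hb ⊢
    rw [hbc] at hb
    exact isIntegral_of_mul hπ hE t ht htr hdeg hirr hc hb
  · intro b hb c hc hbc
    rw [mem_chart_iff] at hb ⊢
    rw [hbc] at hb
    exact isIntegral_of_mul_inv hπ hE t ht htr hdeg hirr hc hb

end Fermat.Agent.RED.PUR.G1Fields8
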