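/-
Program H (S18), chapter RED/PUR, helper8: the VERTICAL separability input `hsep` of the purity chapter,
generic form.

If the residue `z̃` of `z ∈ E ∩ gaussRing O` is separable over `κ(t̃)`, then there is a polynomial
`Q ∈ O[X][Y]` with `Q(t, z) ∈ π·Ov` and `Q_Y(t, z) ∉ π·Ov`.
-/
import Mathlib
import Fermat.Agent.RED.PUR.G1Package8
import Fermat.Agent.RED.PUR.ChartGeneric22

set_option autoImplicit false
set_option linter.unusedSectionVars false

noncomputable section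

open HahnSeries Polynomial

namespace Fermat.Agent.RED.PUR.G1Sep8

open Fermat.Agent.RED.PUR.GaussGen8 Fermat.Agent.RED.PUR.KtGauss8
open Fermat.Agent.RED.PUR.G1Package8 Fermat.Agent.RED.PUR.ChartGeneric22

/-! ### Clearing denominators over `k(x)` -/

section Clear

variable {k L : Type*} [Field k] [Field L] [Algebra k L] (x : L)

/-- Clearing denominators: a polynomial over `k(x)` times a nonzero element of `k[x]` comes from
`k[X][Y]`. -/
theorem exists_clear (m : (IntermediateField.adjoin k {x})[X]) :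
    ∃ (d : k[X]) (q : k[X][X]), aeval x d ≠ 0 ∧
      q.map (aeval x : k[X] →ₐ[k] L).toRingHom
        = Polynomial.C (aeval x d) * m.map (algebraMap (IntermediateField.adjoin k {x}) L) := by
  induction m using Polynomial.induction_on' with
  | add p q hp hq =>
    obtain ⟨d1, q1, hd1, h1⟩ := hp
    obtain ⟨d2, q2, hd2, h2⟩ := hq
    refine ⟨d1 * d2, Polynomial.C d2 * q1 + Polynomial.C d1 * q2, ?_, ?_⟩
    · rw [map_mul]; exact mul_ne_zero hd1 hd2
    · rw [Polynomial.map_add, Polynomial.map_mul, Polynomial.map_mul, Polynomial.map_C,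
        Polynomial.map_C, h1, h2, Polynomial.map_add, map_mul, map_mul]
      simp only [AlgHom.toRingHom_eq_coe, RingHom.coe_coe]
      ring
  | monomial n c =>
    obtain ⟨r, s, hrs⟩ := (IntermediateField.mem_adjoin_simple_iff k (c : L)).mp c.2
    by_cases hs : aeval x s = 0
    · refine ⟨1, 0, by simp, ?_⟩
      have hc : (c : L) = 0 := by rw [hrs, hs, div_zero]
      have hc' : c = 0 := Subtype.ext hc
      simp [hc']
    · refine ⟨s, Polynomial.monomial n r, hs, ?_⟩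
      rw [Polynomial.map_monomial, Polynomial.map_monomial, Polynomial.C_mul_monomial]
      congr 1
      show aeval x r = aeval x s * (c : L)
      rw [hrs, mul_div_cancel₀ _ hs]

/-- A separable element over `k(x)` is a simple root of a polynomial over `k[x]`. -/
theorem exists_simple_root {w : L} (hw : IsSeparable (IntermediateField.adjoin k {x}) w) :
    ∃ q : k[X][X], q.eval₂ (aeval x : k[X] →ₐ[k] L).toRingHom w = 0 ∧
      (Polynomial.derivative q).eval₂ (aeval x : k[X] →ₐ[k] L).toRingHom w ≠ 0 := by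
  have hint : IsIntegral (IntermediateField.adjoin k {x}) w := hw.isIntegral
  set m := minpoly (IntermediateField.adjoin k {x}) w with hm
  have h0 : aeval w m = 0 := minpoly.aeval _ _
  have h1 : aeval w (Polynomial.derivative m) ≠ 0 :=
    Polynomial.Separable.aeval_derivative_ne_zero hw h0
  obtain ⟨d, q, hd, hq⟩ := exists_clear x m
  refine ⟨q, ?_, ?_⟩
  · rw [← Polynomial.eval_map, hq, Polynomial.eval_mul, Polynomial.eval_C, Polynomial.eval_map,
      ← Polynomial.aeval_def, h0, mul_zero]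
  · rw [← Polynomial.eval_map, ← Polynomial.derivative_map, hq, Polynomial.derivative_C_mul,
      Polynomial.eval_mul, Polynomial.eval_C, Polynomial.derivative_map, Polynomial.eval_map,
      ← Polynomial.aeval_def]
    exact mul_ne_zero hd h1

end Clear

/-! ### Two-variable evaluation in the Gauss ring -/

variable {K : Type*} [Field K] (O : ValuationSubring K)

/-- `O[X] → gaussRing`, `X ↦ t`. -/
def polyGHom (tG : ↥(gaussRing O)) : (↥O)[X] →+* ↥(gaussRing O) :=
  Polynomial.eval₂RingHom (constGHom O) tG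

theorem polyGHom_apply (tG : ↥(gaussRing O)) (P : (↥O)[X]) : polyGHom O tG P = polyG O tG P := rfl

/-- `Q(t, z)` in the Gauss ring. -/
def ev2 (tG zG : ↥(gaussRing O)) (Q : (↥O)[X][X]) : ↥(gaussRing O) := Q.eval₂ (polyGHom O tG) zG

theorem gaussRed_comp_polyGHom (tG : ↥(gaussRing O)) :
    (gaussRed O).comp (polyGHom O tG)
      = ((aeval (gaussRed O tG) : (Res O)[X] →ₐ[Res O] LaurentSeries (Res O)).toRingHom).comp
        (Polynomial.mapRingHom (res0 O)) := by
  refine RingHom.ext fun P => ?_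
  show gaussRed O (polyG O tG P) = aeval (gaussRed O tG) (P.map (res0 O))
  exact gaussRed_polyG O tG P

theorem gaussRed_ev2 (tG zG : ↥(gaussRing O)) (Q : (↥O)[X][X]) :
    gaussRed O (ev2 O tG zG Q)
      = (Q.map (Polynomial.mapRingHom (res0 O))).eval₂
        (aeval (gaussRed O tG) : (Res O)[X] →ₐ[Res O] LaurentSeries (Res O)).toRingHom
        (gaussRed O zG) := by
  rw [ev2, Polynomial.hom_eval₂, gaussRed_comp_polyGHom, Polynomial.eval₂_map]

theorem res0_surjective : Function.Surjective (res0 O) := by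
  intro y
  obtain ⟨c, rfl⟩ := Ideal.Quotient.mk_surjective y
  exact ⟨c, rfl⟩

/-- **Lifting a simple root**: if `z̃` is separable over `κ(t̃)` there is `Q ∈ O[X][Y]` with
`Q(t,z)~ = 0`, `Q_Y(t,z)~ ≠ 0`. -/
theorem exists_lift_simple_root (tG zG : ↥(gaussRing O))
    (hsep : IsSeparable ↥(kt O tG) (gaussRed O zG)) :
    ∃ Q : (↥O)[X][X], gaussRed O (ev2 O tG zG Q) = 0 ∧
      gaussRed O (ev2 O tG zG (Polynomial.derivative Q)) ≠ 0 := by
  obtain ⟨q, hq0, hq1⟩ := exists_simple_root (gaussRed O tG) hsep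
  have hsurj : Function.Surjective (Polynomial.map (Polynomial.mapRingHom (res0 O))) :=
    Polynomial.map_surjective _ (Polynomial.map_surjective _ (res0_surjective O))
  obtain ⟨Q, rfl⟩ := hsurj q
  refine ⟨Q, ?_, ?_⟩
  · rw [gaussRed_ev2]; exact hq0
  · rw [gaussRed_ev2, ← Polynomial.derivative_map]; exact hq1

/-! ### Inside `E` -/

variable {O}
variable [IsDiscreteValuationRing ↥O] {π : ↥O} (hπ : Irreducible π)
  {E : IntermediateField K (LaurentSeries K)} (hE : E ≤ fracField O)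

/-- the evaluation `O[X] → E`, `X ↦ t`. -/
abbrev evE (t : ↥E) : (↥O)[X] →+* ↥E := (aeval t : (↥O)[X] →ₐ[↥O] ↥E).toRingHom

/-- coercion of `ev2`. -/
theorem coe_ev2 (t z : ↥E) (ht : (t : LaurentSeries K) ∈ gaussRing O)
    (hz : (z : LaurentSeries K) ∈ gaussRing O) (Q : (↥O)[X][X]) :
    ((ev2 O ⟨(t : LaurentSeries K), ht⟩ ⟨(z : LaurentSeries K), hz⟩ Q : ↥(gaussRing O))
        : LaurentSeries K)
      = ((Q.eval₂ (evE t) z : ↥E) : LaurentSeries K) := by
  have h1 := Polynomial.hom_eval₂ Q (polyGHom O ⟨(t : LaurentSeries K), ht⟩)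
    (gaussRing O).subtype ⟨(z : LaurentSeries K), hz⟩
  have h2 := Polynomial.hom_eval₂ Q (evE t) E.val.toRingHom z
  have hcomp : (gaussRing O).subtype.comp (polyGHom O ⟨(t : LaurentSeries K), ht⟩)
      = E.val.toRingHom.comp (evE t) := by
    refine RingHom.ext fun P => ?_
    show ((polyG O ⟨(t : LaurentSeries K), ht⟩ P : ↥(gaussRing O)) : LaurentSeries K)
      = ((aeval t P : ↥E) : LaurentSeries K)
    rw [coe_polyG, coe_aeval]
  rw [hcomp] at h1
  exact h1.trans h2.symm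

include hπ in
/-- divisibility by `π` in `Ov` ⇔ zero residue. -/
theorem gaussRed_eq_zero_iff_exists (x : ↥E) (hx : (x : LaurentSeries K) ∈ gaussRing O) :
    gaussRed O ⟨(x : LaurentSeries K), hx⟩ = 0 ↔
      ∃ c ∈ OvE O hπ E hE, x = algebraMap ↥O ↥E π * c := by
  have hu := isUnif_of_irreducible O hπ
  constructor
  · intro h0
    obtain ⟨g, hg⟩ := (gaussRed_eq_zero_iff hu ⟨(x : LaurentSeries K), hx⟩).mp h0
    have hg' : (x : LaurentSeries K) = piK π * (g : LaurentSeries K) :=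
      congrArg (fun y : ↥(gaussRing O) => (y : LaurentSeries K)) hg
    have hpi := algebraMap_pi_ne_zero hπ (E := E)
    refine ⟨(algebraMap ↥O ↥E π)⁻¹ * x, ?_, ?_⟩
    · rw [mem_OvE_iff]
      have : (((algebraMap ↥O ↥E π)⁻¹ * x : ↥E) : LaurentSeries K) = (g : LaurentSeries K) := by
        show ((algebraMap ↥O ↥E π : ↥E) : LaurentSeries K)⁻¹ * (x : LaurentSeries K) = _
        rw [coe_algebraMap_pi, hg', ← mul_assoc, inv_mul_cancel₀ (piK_ne_zero hu), one_mul]
      rw [this]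
      exact g.2
    · rw [← mul_assoc, mul_inv_cancel₀ hpi, one_mul]
  · rintro ⟨c, hc, rfl⟩
    have hcG := (mem_OvE_iff O hπ E hE c).mp hc
    rw [gaussRed_eq_zero_iff hu]
    refine ⟨⟨(c : LaurentSeries K), hcG⟩, Subtype.ext ?_⟩
    show ((algebraMap ↥O ↥E π : ↥E) : LaurentSeries K) * (c : LaurentSeries K) = _
    rw [coe_algebraMap_pi]
    rfl

include hπ in
/-- **(SEP), generic**: if the residue of `z ∈ E ∩ gaussRing` is separable over `κ(t̃)`, then `z` is a
simple root modulo `π` of some `Q ∈ O[X][Y]` (evaluated at `X = t`). -/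
theorem exists_sep_poly (t z : ↥E) (ht : (t : LaurentSeries K) ∈ gaussRing O)
    (hz : (z : LaurentSeries K) ∈ gaussRing O)
    (hsep : IsSeparable ↥(kt O ⟨(t : LaurentSeries K), ht⟩)
      (gaussRed O ⟨(z : LaurentSeries K), hz⟩)) :
    ∃ Q : (↥O)[X][X],
      (∃ c ∈ OvE O hπ E hE, Q.eval₂ (evE t) z = algebraMap ↥O ↥E π * c) ∧
      ¬ ∃ c ∈ OvE O hπ E hE,
        (Polynomial.derivative Q).eval₂ (evE t) z = algebraMap ↥O ↥E π * c := by
  obtain ⟨Q, h0, h1⟩ := exists_lift_simple_root O _ _ hsep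
  have key : ∀ Q' : (↥O)[X][X], ((Q'.eval₂ (evE t) z : ↥E) : LaurentSeries K) ∈ gaussRing O := by
    intro Q'
    rw [← coe_ev2 t z ht hz]
    exact (ev2 O _ _ Q').2
  have key2 : ∀ Q' : (↥O)[X][X],
      (⟨((Q'.eval₂ (evE t) z : ↥E) : LaurentSeries K), key Q'⟩ : ↥(gaussRing O))
        = ev2 O ⟨(t : LaurentSeries K), ht⟩ ⟨(z : LaurentSeries K), hz⟩ Q' :=
    fun Q' => Subtype.ext (coe_ev2 t z ht hz Q').symm
  refine ⟨Q, ?_, ?_⟩
  · rw [← gaussRed_eq_zero_iff_exists hπ hE _ (key Q), key2]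
    exact h0
  · rw [← gaussRed_eq_zero_iff_exists hπ hE _ (key _), key2]
    exact h1

/-! ### The chart version -/

/-- `evE t` lands in `O[t]`. -/
theorem evE_mem_adjoin (t : ↥E) (P : (↥O)[X]) : evE t P ∈ Algebra.adjoin ↥O {t} :=
  Polynomial.aeval_mem_adjoin_singleton _ _

theorem eval₂_mem_chart (t : ↥E) {z : ↥E} (hz : z ∈ chart ↥O t) (Q : (↥O)[X][X]) :
    Q.eval₂ (evE t) z ∈ chart ↥O t := by
  rw [Polynomial.eval₂_eq_sum_range]
  exact Subalgebra.sum_mem _ fun i _ =>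
    Subalgebra.mul_mem _ (adjoin_le_chart t (evE_mem_adjoin t _)) (Subalgebra.pow_mem _ hz i)

/-- A monic `Q ∈ O[X][Y]` with `Q(t, z) = 0`, for `z` integral over `O[t]`. -/
theorem exists_monic_eval₂_eq_zero (t : ↥E) {z : ↥E}
    (hz : IsIntegral ↥(Algebra.adjoin ↥O {t}) z) :
    ∃ Q : (↥O)[X][X], Q.Monic ∧ Q.eval₂ (evE t) z = 0 := by
  obtain ⟨P, hP, hcoeff, hPz⟩ := (isIntegral_subalgebra_iff (Algebra.adjoin ↥O {t}) z).mp hz
  have hl : P ∈ Polynomial.lifts (evE (O := O) t) := by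
    rw [Polynomial.lifts_iff_coeff_lifts]
    intro n
    have := hcoeff n
    rw [Algebra.adjoin_singleton_eq_range_aeval] at this
    obtain ⟨p, hp⟩ := this
    exact ⟨p, hp⟩
  obtain ⟨Q, hQ, -, hQm⟩ := Polynomial.lifts_and_natDegree_eq_and_monic hl hP
  refine ⟨Q, hQm, ?_⟩
  rw [← Polynomial.eval_map, hQ, hPz]

/-- the residue of an element integral over `O[t]` is integral over `κ(t̃)`. -/
theorem isIntegral_gaussRed (t : ↥E) (ht : (t : LaurentSeries K) ∈ gaussRing O) {z : ↥E}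
    (hzint : IsIntegral ↥(Algebra.adjoin ↥O {t}) z) (hz : (z : LaurentSeries K) ∈ gaussRing O) :
    IsIntegral ↥(kt O ⟨(t : LaurentSeries K), ht⟩)
      (gaussRed O ⟨(z : LaurentSeries K), hz⟩) := by
  obtain ⟨Q, hQm, hQ0⟩ := exists_monic_eval₂_eq_zero t hzint
  have h0 : ev2 O ⟨(t : LaurentSeries K), ht⟩ ⟨(z : LaurentSeries K), hz⟩ Q = 0 := by
    apply Subtype.ext
    rw [coe_ev2, hQ0]
    rfl
  have h1 := gaussRed_ev2 O ⟨(t : LaurentSeries K), ht⟩ ⟨(z : LaurentSeries K), hz⟩ Q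
  rw [h0, map_zero] at h1
  set tr := gaussRed O ⟨(t : LaurentSeries K), ht⟩ with htr
  let ψ : (Res O)[X] →+* ↥(kt O ⟨(t : LaurentSeries K), ht⟩) :=
    (aeval (IntermediateField.AdjoinSimple.gen (Res O) tr) :
      (Res O)[X] →ₐ[Res O] ↥(kt O ⟨(t : LaurentSeries K), ht⟩)).toRingHom
  have hcomp : (algebraMap ↥(kt O ⟨(t : LaurentSeries K), ht⟩) (LaurentSeries (Res O))).comp ψ
      = (aeval tr : (Res O)[X] →ₐ[Res O] LaurentSeries (Res O)).toRingHom := by
    refine RingHom.ext fun P => ?_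
    show algebraMap ↥(kt O ⟨(t : LaurentSeries K), ht⟩) (LaurentSeries (Res O))
      (aeval (IntermediateField.AdjoinSimple.gen (Res O) tr) P) = aeval tr P
    rw [← Polynomial.aeval_algebraMap_apply, IntermediateField.AdjoinSimple.algebraMap_gen]
  refine ⟨(Q.map (Polynomial.mapRingHom (res0 O))).map ψ, (hQm.map _).map _, ?_⟩
  rw [Polynomial.eval₂_map, hcomp]
  exact h1.symm

include hπ hE in
/-- **(SEP) for the chart `O[t]`**: the literal input of the purity chapter. -/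
theorem exists_sep_poly_chart (t : ↥E) (ht : (t : LaurentSeries K) ∈ gaussRing O)
    (htr : Transcendental (Res O) (gaussRed O ⟨(t : LaurentSeries K), ht⟩))
    {n : ℕ} (hdeg : DegLe O E ⟨(t : LaurentSeries K), ht⟩ n)
    (hirr : Irr O E ⟨(t : LaurentSeries K), ht⟩ n)
    (hsepres : ∀ w : LaurentSeries (Res O),
      IsAlgebraic ↥(kt O ⟨(t : LaurentSeries K), ht⟩) w →
      IsSeparable ↥(kt O ⟨(t : LaurentSeries K), ht⟩) w)
    {z : ↥E} (hzB : z ∈ chart ↥O t) :
    ∃ Q : (↥O)[X][X],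
      (∃ c ∈ chart ↥O t, Q.eval₂ (evE t) z = algebraMap ↥O ↥E π * c) ∧
      ¬ ∃ c ∈ chart ↥O t,
        (Polynomial.derivative Q).eval₂ (evE t) z = algebraMap ↥O ↥E π * c := by
  have hzOv : z ∈ OvE O hπ E hE := mem_OvE_of_isIntegral hπ hE t ht hzB
  have hz : (z : LaurentSeries K) ∈ gaussRing O := (mem_OvE_iff O hπ E hE z).mp hzOv
  have hsep := hsepres _ (isIntegral_gaussRed t ht hzB hz).isAlgebraic
  obtain ⟨Q, ⟨c, hc, hQc⟩, hQ'⟩ := exists_sep_poly hπ hE t z ht hz hsep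
  refine ⟨Q, ⟨c, ?_, hQc⟩, ?_⟩
  · rw [mem_chart_iff]
    apply isIntegral_of_mul hπ hE t ht htr hdeg hirr hc
    rw [← hQc]
    exact eval₂_mem_chart t hzB Q
  · rintro ⟨c', hc', hQc'⟩
    exact hQ' ⟨c', mem_OvE_of_isIntegral hπ hE t ht hc', hQc'⟩

include hπ hE in
/-- **(SEP) for the chart `O[t⁻¹]`** (hypotheses for `t` only). -/
theorem exists_sep_poly_chart_inv (t : ↥E) (ht : (t : LaurentSeries K) ∈ gaussRing O)
    (htr : Transcendental (Res O) (gaussRed O ⟨(t : LaurentSeries K), ht⟩))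
    {n : ℕ} (hdeg : DegLe O E ⟨(t : LaurentSeries K), ht⟩ n)
    (hirr : Irr O E ⟨(t : LaurentSeries K), ht⟩ n)
    (hsepres : ∀ w : LaurentSeries (Res O),
      IsAlgebraic ↥(kt O ⟨(t : LaurentSeries K), ht⟩) w →
      IsSeparable ↥(kt O ⟨(t : LaurentSeries K), ht⟩) w)
    {z : ↥E} (hzB : z ∈ chart ↥O t⁻¹) :
    ∃ Q : (↥O)[X][X],
      (∃ c ∈ chart ↥O t⁻¹, Q.eval₂ (evE t⁻¹) z = algebraMap ↥O ↥E π * c) ∧
      ¬ ∃ c ∈ chart ↥O t⁻¹,
        (Polynomial.derivative Q).eval₂ (evE t⁻¹) z = algebraMap ↥O ↥E π * c := by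
  refine exists_sep_poly_chart hπ hE t⁻¹ (tinv_mem_gaussRing t ht htr)
    (transcendental_inv t ht htr) (degLe_inv t ht htr hdeg) (irr_inv t ht htr hirr) ?_ hzB
  rw [kt_inv t ht htr]
  exact hsepres

end Fermat.Agent.RED.PUR.G1Sep8
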