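/-
Program H (S18), chapter RED/PUR, helper8: `π` is a prime element of the charts
`chart O t`, `chart O t⁻¹` (the special fibre of a chart is integral), generic form.
-/
import Mathlib
import Fermat.Agent.RED.PUR.G1Sep8

set_option autoImplicit false
set_option linter.unusedSectionVars false

noncomputable section

open HahnSeries Polynomial

namespace Fermat.Agent.RED.PUR.G1Prime8

open Fermat.Agent.RED.PUR.GaussGen8 Fermat.Agent.RED.PUR.KtGauss8
open Fermat.Agent.RED.PUR.G1Package8 Fermat.Agent.RED.PUR.ChartGeneric22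
open Fermat.Agent.RED.PUR.G1Sep8

variable {K : Type*} [Field K] {O : ValuationSubring K} [IsDiscreteValuationRing ↥O]
  {π : ↥O} (hπ : Irreducible π)
  {E : IntermediateField K (LaurentSeries K)} (hE : E ≤ fracField O)

include hπ hE in
/-- In `Ov`: `π ∣ a b ⇒ π ∣ a ∨ π ∣ b`. -/
theorem dvd_or_dvd_OvE {a b : ↥E} (ha : a ∈ OvE O hπ E hE) (hb : b ∈ OvE O hπ E hE)
    (hab : ∃ c ∈ OvE O hπ E hE, a * b = algebraMap ↥O ↥E π * c) :
    (∃ c ∈ OvE O hπ E hE, a = algebraMap ↥O ↥E π * c) ∨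
      (∃ c ∈ OvE O hπ E hE, b = algebraMap ↥O ↥E π * c) := by
  have haG := (mem_OvE_iff O hπ E hE a).mp ha
  have hbG := (mem_OvE_iff O hπ E hE b).mp hb
  have habG : ((a * b : ↥E) : LaurentSeries K) ∈ gaussRing O :=
    (mem_OvE_iff O hπ E hE _).mp (mul_mem ha hb)
  rw [← gaussRed_eq_zero_iff_exists hπ hE _ habG] at hab
  have hmul : (⟨((a * b : ↥E) : LaurentSeries K), habG⟩ : ↥(gaussRing O))
      = ⟨(a : LaurentSeries K), haG⟩ * ⟨(b : LaurentSeries K), hbG⟩ := Subtype.ext rfl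
  rw [hmul, map_mul, mul_eq_zero] at hab
  rcases hab with h | h
  · left; exact (gaussRed_eq_zero_iff_exists hπ hE _ haG).mp h
  · right; exact (gaussRed_eq_zero_iff_exists hπ hE _ hbG).mp h

include hπ hE in
/-- **`π` is prime in the chart `O[t]`-integral closure.** -/
theorem prime_pi_chart (t : ↥E) (ht : (t : LaurentSeries K) ∈ gaussRing O)
    (htr : Transcendental (Res O) (gaussRed O ⟨(t : LaurentSeries K), ht⟩))
    {n : ℕ} (hdeg : DegLe O E ⟨(t : LaurentSeries K), ht⟩ n)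
    (hirr : Irr O E ⟨(t : LaurentSeries K), ht⟩ n) :
    Prime (algebraMap ↥O ↥(chart ↥O t) π) := by
  have hle : ∀ x ∈ chart ↥O t, x ∈ OvE O hπ E hE :=
    fun x hx => mem_OvE_of_isIntegral hπ hE t ht hx
  have hsat : ∀ b ∈ chart ↥O t, ∀ c ∈ OvE O hπ E hE, b = algebraMap ↥O ↥E π * c →
      c ∈ chart ↥O t := by
    intro b hb c hc hbc
    rw [mem_chart_iff] at hb ⊢
    rw [hbc] at hb
    exact isIntegral_of_mul hπ hE t ht htr hdeg hirr hc hb
  refine ⟨?_, ?_, ?_⟩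
  · intro h0
    exact algebraMap_pi_ne_zero hπ (E := E) (congrArg Subtype.val h0)
  · intro hu
    obtain ⟨c, hc⟩ := hu.exists_right_inv
    apply pi_inv_not_mem hπ hE
    have h1 : algebraMap ↥O ↥E π * (c : ↥E) = 1 := congrArg Subtype.val hc
    have : (algebraMap ↥O ↥E π)⁻¹ = (c : ↥E) := inv_eq_of_mul_eq_one_right h1
    rw [this]
    exact hle _ c.2
  · intro a b hab
    obtain ⟨c, hc⟩ := hab
    have hOv : ∃ c' ∈ OvE O hπ E hE, (a : ↥E) * (b : ↥E) = algebraMap ↥O ↥E π * c' :=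
      ⟨(c : ↥E), hle _ c.2, congrArg Subtype.val hc⟩
    rcases dvd_or_dvd_OvE hπ hE (hle _ a.2) (hle _ b.2) hOv with ⟨o, ho, e⟩ | ⟨o, ho, e⟩
    · left
      exact ⟨⟨o, hsat _ a.2 o ho e⟩, Subtype.ext e⟩
    · right
      exact ⟨⟨o, hsat _ b.2 o ho e⟩, Subtype.ext e⟩

include hπ hE in
/-- **`π` is prime in the chart at infinity.** -/
theorem prime_pi_chart_inv (t : ↥E) (ht : (t : LaurentSeries K) ∈ gaussRing O)
    (htr : Transcendental (Res O) (gaussRed O ⟨(t : LaurentSeries K), ht⟩))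
    {n : ℕ} (hdeg : DegLe O E ⟨(t : LaurentSeries K), ht⟩ n)
    (hirr : Irr O E ⟨(t : LaurentSeries K), ht⟩ n) :
    Prime (algebraMap ↥O ↥(chart ↥O t⁻¹) π) :=
  prime_pi_chart hπ hE t⁻¹ (tinv_mem_gaussRing t ht htr) (transcendental_inv t ht htr)
    (degLe_inv t ht htr hdeg) (irr_inv t ht htr hirr)

end Fermat.Agent.RED.PUR.G1Prime8
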