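/-
Program H (S18), chapter PUR, leaf (HART) -- helper17.
A noetherian integrally closed domain is the intersection (inside its fraction field) of its
localisations at the height-one primes (Matsumura 11.5).  Mathlib only.

Main results (namespace `Fermat.Agent.RED.PUR.Hartogs17`):
* `den y` : the denominator ideal `{r | r • y ∈ R}` of `y : K`.
* `exists_height_one_den_le` : for `x ∉ R` there is a prime `p` of height one and `r : R` with
  `p = den (r • x)`; in particular `den x ≤ p`.
* `mem_range_of_forall_height_one` : (HART) `x : K` lies in `R` as soon as for every height-one prime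
  `q` there are `a s : R`, `s ∉ q`, with `s • x = a`.
* `mem_range_of_forall_minimalPrimes` : the same with "`q` minimal over a nonzero principal ideal".
* `exists_height_one_mem_of_not_isUnit` : a nonzero nonunit lies in a height-one prime.
* `isUnit_of_forall_height_one` : `a ≠ 0` which lies in no height-one prime is a unit.
-/
import Mathlib

set_option autoImplicit false

namespace Fermat.Agent.RED.PUR.Hartogs17

open Ideal

variable {R K : Type*} [CommRing R] [Field K] [Algebra R K]

/-- The denominator ideal of `y : K`: all `r : R` with `r • y ∈ R`. -/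
def den (R : Type*) {K : Type*} [CommRing R] [Field K] [Algebra R K] (y : K) : Ideal R :=
  (1 : Submodule R K).colon {y}

theorem mem_den {y : K} {r : R} : r ∈ den R y ↔ ∃ a : R, algebraMap R K a = r • y := by
  rw [den, Submodule.mem_colon_singleton, Submodule.mem_one]

theorem den_eq_top_iff {y : K} : den R y = ⊤ ↔ ∃ a : R, algebraMap R K a = y := by
  rw [Ideal.eq_top_iff_one, mem_den]
  simp only [one_smul]

theorem den_le_den_smul (y : K) (r : R) : den R y ≤ den R (r • y) := by
  intro s hs
  rw [mem_den] at hs ⊢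
  obtain ⟨a, ha⟩ := hs
  refine ⟨r * a, ?_⟩
  rw [map_mul, ha, ← Algebra.smul_def, smul_comm]

theorem mem_den_smul_iff {y : K} {r s : R} : s ∈ den R (r • y) ↔ s * r ∈ den R y := by
  rw [mem_den, mem_den, mul_smul]

variable [IsDomain R] [IsFractionRing R K]

theorem den_ne_bot (y : K) : den R y ≠ ⊥ := by
  obtain ⟨a, s, hs, rfl⟩ := IsFractionRing.div_surjective (A := R) y
  have hs0 : s ≠ 0 := nonZeroDivisors.ne_zero hs
  intro h
  have : s ∈ den R (algebraMap R K a / algebraMap R K s) := by
    rw [mem_den]
    refine ⟨a, ?_⟩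
    rw [Algebra.smul_def, mul_div_cancel₀]
    exact (map_ne_zero_iff _ (IsFractionRing.injective R K)).mpr hs0
  rw [h, Ideal.mem_bot] at this
  exact hs0 this

section Noeth

variable [IsNoetherianRing R]

omit [IsDomain R] [IsFractionRing R K] in
/-- Among the denominators `den (r • x)`, `r • x ∉ R`, a maximal one is prime. -/
theorem exists_isPrime_den (x : K) (hx : ¬ ∃ a : R, algebraMap R K a = x) :
    ∃ r : R, (den R (r • x)).IsPrime := by
  classical
  let S : Set (Ideal R) := {I | ∃ r : R, I = den R (r • x) ∧ I ≠ ⊤}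
  have hS : S.Nonempty :=
    ⟨den R x, 1, by rw [one_smul], fun h => hx (den_eq_top_iff.mp h)⟩
  obtain ⟨I, ⟨r, rfl, hItop⟩, hmax⟩ := set_has_maximal_iff_noetherian.mpr
    (inferInstanceAs (IsNoetherian R R)) S hS
  refine ⟨r, Ideal.isPrime_iff.mpr ⟨hItop, ?_⟩⟩
  intro a b hab
  by_contra hcon
  push Not at hcon
  obtain ⟨ha, hb⟩ := hcon
  -- `den (a • r • x)` contains `den (r • x)` and `b`, and is proper since `a ∉ den (r • x)`
  have hle : den R (r • x) ≤ den R ((a * r) • x) := by
    rw [mul_smul]; exact den_le_den_smul _ _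
  have hne : den R ((a * r) • x) ≠ ⊤ := by
    intro h
    rw [Ideal.eq_top_iff_one, mul_smul, mem_den_smul_iff, one_mul] at h
    exact ha h
  have hbmem : b ∈ den R ((a * r) • x) := by
    rw [mul_smul, mem_den_smul_iff, mul_comm]
    exact hab
  have hlt : den R (r • x) < den R ((a * r) • x) :=
    lt_of_le_of_ne hle fun h => hb (h ▸ hbmem)
  exact hmax _ ⟨a * r, rfl, hne⟩ hlt

variable [IsIntegrallyClosed R]

/-- A prime denominator ideal `p = den y` (with `y ∉ R`) is minimal over a principal ideal. -/
theorem exists_mem_minimalPrimes_of_isPrime_den (y : K) (hp : (den R y).IsPrime) :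
    ∃ c : R, c ≠ 0 ∧ den R y ∈ (Ideal.span {c}).minimalPrimes := by
  classical
  have hy : ¬ ∃ a : R, algebraMap R K a = y := fun h => hp.ne_top (den_eq_top_iff.mpr h)
  -- Case distinction: does `y` map `p` into `p`?
  by_cases hcase : ∀ m ∈ den R y, ∀ a : R, algebraMap R K a = m • y → a ∈ den R y
  · -- then `y` is integral over `R`, contradiction
    exfalso
    apply hy
    let N : Submodule R K := Submodule.map (Algebra.linearMap R K) (den R y)
    have hNdef : ∀ z : K, z ∈ N ↔ ∃ m ∈ den R y, algebraMap R K m = z := by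
      intro z
      simp only [N, Submodule.mem_map, Algebra.linearMap_apply]
    have hNne : N ≠ ⊥ := by
      obtain ⟨m, hm, hm0⟩ := Submodule.exists_mem_ne_zero_of_ne_bot (den_ne_bot (R := R) y)
      intro h
      have : algebraMap R K m ∈ N := (hNdef _).mpr ⟨m, hm, rfl⟩
      rw [h, Submodule.mem_bot] at this
      exact hm0 ((map_eq_zero_iff _ (IsFractionRing.injective R K)).mp this)
    have hNfg : N.FG := by
      have : (den R y).FG := IsNoetherian.noetherian _
      exact Submodule.FG.map (Algebra.linearMap R K) this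
    have hstab : ∀ n ∈ N, y • n ∈ N := by
      intro n hn
      obtain ⟨m, hm, rfl⟩ := (hNdef n).mp hn
      obtain ⟨a, ha⟩ := mem_den.mp hm
      refine (hNdef _).mpr ⟨a, hcase m hm a ha, ?_⟩
      rw [ha, Algebra.smul_def, smul_eq_mul, mul_comm]
    have hint : IsIntegral R y := isIntegral_of_smul_mem_submodule N hNne hNfg y hstab
    exact IsIntegrallyClosed.isIntegral_iff.mp hint
  · push Not at hcase
    obtain ⟨m, hm, s, hs, hsp⟩ := hcase
    -- `s = m • y ∈ R ∖ p`; then `s • p ⊆ (m)`
    have hm0 : m ≠ 0 := by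
      rintro rfl
      rw [zero_smul, map_eq_zero_iff _ (IsFractionRing.injective R K)] at hs
      exact hsp (hs ▸ Ideal.zero_mem _)
    refine ⟨m, hm0, ⟨hp, (Ideal.span_singleton_le_iff_mem _).mpr hm⟩, ?_⟩
    rintro q ⟨hq, hmq⟩ hqp r hr
    -- `s * r = (r • y) * m ∈ (m) ⊆ q`
    obtain ⟨b, hb⟩ := mem_den.mp hr
    have hsr : s * r = b * m := by
      apply IsFractionRing.injective R K
      rw [map_mul, map_mul, hs, hb, Algebra.smul_def, Algebra.smul_def]
      ring
    have hmem : s * r ∈ q := by
      rw [hsr]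
      exact q.mul_mem_left _ ((Ideal.span_singleton_le_iff_mem _).mp hmq)
    rcases hq.mem_or_mem hmem with h | h
    · exact absurd (hqp h) hsp
    · exact h

/-- A prime denominator ideal has height one. -/
theorem height_eq_one_of_isPrime_den (y : K) (hp : (den R y).IsPrime) :
    (den R y).height = 1 := by
  obtain ⟨c, -, hmin⟩ := exists_mem_minimalPrimes_of_isPrime_den y hp
  have hle : (den R y).height ≤ 1 :=
    Ideal.height_le_one_of_isPrincipal_of_mem_minimalPrimes (Ideal.span {c}) _ hmin
  have hne : (den R y).height ≠ 0 := by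
    rw [Ne, Ideal.height_eq_zero_iff_eq_bot]
    exact den_ne_bot y
  exact le_antisymm hle (Order.one_le_iff_pos.mpr (pos_iff_ne_zero.mpr hne))

/-- For `x ∉ R` there is `r : R` such that `den (r • x)` is a prime of height one
(it contains `den x`). -/
theorem exists_height_one_den_le (x : K) (hx : ¬ ∃ a : R, algebraMap R K a = x) :
    ∃ r : R, (den R (r • x)).IsPrime ∧ (den R (r • x)).height = 1 ∧ den R x ≤ den R (r • x) := by
  obtain ⟨r, hr⟩ := exists_isPrime_den x hx
  exact ⟨r, hr, height_eq_one_of_isPrime_den _ hr, den_le_den_smul x r⟩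

/-- **(HART)**, minimal-prime form: `x : K` lies in `R` as soon as it lies in the localisation at
every prime which is minimal over a nonzero principal ideal. -/
theorem mem_range_of_forall_minimalPrimes (x : K)
    (h : ∀ (q : Ideal R) (c : R), c ≠ 0 → q ∈ (Ideal.span {c}).minimalPrimes →
      ∃ a s : R, s ∉ q ∧ algebraMap R K a = s • x) :
    ∃ a : R, algebraMap R K a = x := by
  by_contra hx
  obtain ⟨r, hr⟩ := exists_isPrime_den x hx
  obtain ⟨c, hc, hmin⟩ := exists_mem_minimalPrimes_of_isPrime_den _ hr
  obtain ⟨a, s, hs, has⟩ := h _ c hc hmin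
  apply hs
  rw [mem_den_smul_iff, mem_den]
  refine ⟨r * a, ?_⟩
  rw [map_mul, has, ← Algebra.smul_def, smul_smul, mul_comm]

/-- **(HART)**: a noetherian integrally closed domain is the intersection of its localisations at
the primes of height one: `x : K` lies in `R` as soon as for every height-one prime `q` there are
`a s : R`, `s ∉ q`, with `s • x = a`. -/
theorem mem_range_of_forall_height_one (x : K)
    (h : ∀ q : Ideal R, q.IsPrime → q.height = 1 →
      ∃ a s : R, s ∉ q ∧ algebraMap R K a = s • x) :
    ∃ a : R, algebraMap R K a = x := by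
  by_contra hx
  obtain ⟨r, hr, hht, -⟩ := exists_height_one_den_le x hx
  obtain ⟨a, s, hs, has⟩ := h _ hr hht
  apply hs
  rw [mem_den_smul_iff, mem_den]
  refine ⟨r * a, ?_⟩
  rw [map_mul, has, ← Algebra.smul_def, smul_smul, mul_comm]

omit [IsFractionRing R K] in
/-- Variant with an honest fraction field built in. -/
theorem mem_range_fractionRing_of_forall_height_one (x : FractionRing R)
    (h : ∀ q : Ideal R, q.IsPrime → q.height = 1 →
      ∃ a s : R, s ∉ q ∧ algebraMap R (FractionRing R) a = s • x) :
    ∃ a : R, algebraMap R (FractionRing R) a = x :=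
  mem_range_of_forall_height_one x h

omit [IsFractionRing R K] [Field K] [Algebra R K] in
/-- A nonzero element which lies in no height-one prime is a unit. -/
theorem isUnit_of_forall_height_one (a : R) (ha : a ≠ 0)
    (h : ∀ q : Ideal R, q.IsPrime → q.height = 1 → a ∉ q) : IsUnit a := by
  have hinj := IsFractionRing.injective R (FractionRing R)
  have ha' : algebraMap R (FractionRing R) a ≠ 0 := (map_ne_zero_iff _ hinj).mpr ha
  obtain ⟨b, hb⟩ := mem_range_of_forall_height_one (R := R) (K := FractionRing R)
    (algebraMap R (FractionRing R) a)⁻¹ (fun q hq hht =>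
      ⟨1, a, h q hq hht, by rw [Algebra.smul_def, map_one, mul_inv_cancel₀ ha']⟩)
  refine IsUnit.of_mul_eq_one b (hinj ?_)
  rw [map_mul, hb, map_one, mul_inv_cancel₀ ha']

omit [IsFractionRing R K] [Field K] [Algebra R K] in
/-- A nonzero nonunit lies in a prime of height one. -/
theorem exists_height_one_mem_of_not_isUnit (a : R) (ha : a ≠ 0) (hu : ¬ IsUnit a) :
    ∃ q : Ideal R, q.IsPrime ∧ q.height = 1 ∧ a ∈ q := by
  by_contra hcon
  push Not at hcon
  exact hu (isUnit_of_forall_height_one a ha hcon)

/-- Unit criterion: `x : K` nonzero such that at every height-one prime `q` it is a fraction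
`a / s` with BOTH `a, s ∉ q` is the image of a unit of `R`. -/
theorem exists_unit_of_forall_height_one (x : K) (hx0 : x ≠ 0)
    (h : ∀ q : Ideal R, q.IsPrime → q.height = 1 →
      ∃ a s : R, a ∉ q ∧ s ∉ q ∧ algebraMap R K a = s • x) :
    ∃ u : Rˣ, algebraMap R K (u : R) = x := by
  obtain ⟨a, ha⟩ := mem_range_of_forall_height_one x (fun q hq hht => by
    obtain ⟨a, s, -, hs, has⟩ := h q hq hht
    exact ⟨a, s, hs, has⟩)
  obtain ⟨b, hb⟩ := mem_range_of_forall_height_one x⁻¹ (fun q hq hht => by
    obtain ⟨a, s, ha', -, has⟩ := h q hq hht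
    refine ⟨s, a, ha', ?_⟩
    rw [Algebra.smul_def, has, Algebra.smul_def, mul_assoc, mul_inv_cancel₀ hx0, mul_one])
  have hab : a * b = 1 := by
    apply IsFractionRing.injective R K
    rw [map_mul, ha, hb, mul_inv_cancel₀ hx0, map_one]
  exact ⟨⟨a, b, hab, by rw [mul_comm]; exact hab⟩, ha⟩

/-- Subalgebra form of (HART), in the style of `MaximalSpectrum.iInf_localization_eq_bot`. -/
theorem iInf_localization_height_one_eq_bot :
    (⨅ q : {q : Ideal R // q.IsPrime ∧ q.height = 1},
      haveI : q.1.IsPrime := q.2.1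
      Localization.subalgebra.ofField K _ q.1.primeCompl_le_nonZeroDivisors) = ⊥ := by
  ext x
  rw [Algebra.mem_bot, Algebra.mem_iInf]
  constructor
  · intro hx
    obtain ⟨a, ha⟩ := mem_range_of_forall_height_one x (fun q hq hht => by
      obtain ⟨a, s, hs, rfl⟩ := hx ⟨q, hq, hht⟩
      refine ⟨a, s, hs, ?_⟩
      have hs0 : algebraMap R K s ≠ 0 :=
        (map_ne_zero_iff _ (IsFractionRing.injective R K)).mpr
          (nonZeroDivisors.ne_zero (q.primeCompl_le_nonZeroDivisors hs))
      rw [Algebra.smul_def, mul_comm, mul_assoc, inv_mul_cancel₀ hs0, mul_one])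
    exact ⟨a, ha⟩
  · rintro ⟨a, rfl⟩ ⟨q, hq, -⟩
    exact ⟨a, 1, q.ne_top_iff_one.mp hq.ne_top, by rw [map_one, inv_one, mul_one]⟩

end Noeth

end Fermat.Agent.RED.PUR.Hartogs17
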