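/-
Program H (S18), chapter RED/PUR — helper26.  **Horizontal bridge with an excluded element.**

Same as `HorizBridge26.hUNR_of_places`, for the hypothesis `hUNR` of
`PurityMain26.not_dvd_discr_of_valuative` / `CuspDisc21.cusp_semi_of_purity`, which has the extra
premise `q⁻¹ ∈ O` (`q = X - C c_i` at the cusp point over `c_i`): a cusp value `c` is allowed to
satisfy `t - c ∈ x` provided `X - C c ∣ q`.
-/
import Mathlib
import Fermat.Agent.RED.PUR.HorizBridge26

set_option autoImplicit false
set_option linter.style.haveILetI false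
set_option linter.unusedSectionVars false

namespace Fermat.Agent.RED.PUR.HorizBridgeQ26

open Polynomial IsLocalRing Fermat.Agent.RED.PUR.HorizBridge26

variable {A K F : Type*} [CommRing A] [IsDomain A] [IsDiscreteValuationRing A]
  [Field K] [Algebra A K] [IsFractionRing A K]
  [Field F] [Algebra K F] [Algebra A F] [IsScalarTower A K F]
  [Algebra A[X] F] [IsScalarTower A A[X] F]
  (B : Type*) [CommRing B] [IsDomain B] [Algebra A[X] B] [Algebra B F] [IsScalarTower A[X] B F]
  [IsFractionRing B F] [Algebra.IsIntegral A[X] B]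

section Main

/-- **Horizontal bridge with an excluded element `q`.**  See the file header. -/
theorem hUNR_of_places_excl (t : F) (hX : algebraMap A[X] F X = t) (ht : Transcendental K t)
    (ϖ : A) (hϖ : Irreducible ϖ) (cusps : Set A)
    (q : A[X]) (hq : q ≠ 0)
    (P : Ideal A[X]) (hx : ∀ c ∈ cusps, X - C c ∉ P ∨ X - C c ∣ q)
    (H : ∀ O : ValuationSubring F, (∀ a : K, algebraMap K F a ∈ O) → IsDiscreteValuationRing O →
      t ∈ O → ∀ g : K[X], Irreducible g → (∀ c ∈ cusps, ¬ g.IsRoot (algebraMap A K c)) →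
      (aeval t g)⁻¹ ∉ O → ∀ y ∈ O, y⁻¹ ∉ O → y / aeval t g ∈ O) :
    ∀ O : ValuationSubring F, (∀ s : B, algebraMap B F s ∈ O) → IsDiscreteValuationRing O →
      (algebraMap B F (algebraMap A[X] B (C ϖ)))⁻¹ ∈ O →
      (algebraMap B F (algebraMap A[X] B q))⁻¹ ∈ O →
      (∀ r : A[X], r ∉ P → (algebraMap B F (algebraMap A[X] B r))⁻¹ ∈ O) →
      ∃ g0 : A[X], (algebraMap B F (algebraMap A[X] B g0))⁻¹ ∉ O ∧
        ∀ y ∈ O, y⁻¹ ∉ O → y / algebraMap B F (algebraMap A[X] B g0) ∈ O := by
  classical
  intro O hBO hdvr hπO hqO hcen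
  have hRF : ∀ r : A[X], algebraMap B F (algebraMap A[X] B r) = algebraMap A[X] F r :=
    fun r => (IsScalarTower.algebraMap_apply A[X] B F r).symm
  have hR0O : ∀ r : A[X], algebraMap A[X] F r ∈ O := fun r => by rw [← hRF]; exact hBO _
  have hAO : ∀ a : A, algebraMap A F a ∈ O := fun a => by
    rw [← algebraMap_C (F := F)]; exact hR0O _
  have htO : t ∈ O := by rw [← hX]; exact hR0O X
  have hϖO : (algebraMap A F ϖ)⁻¹ ∈ O := by
    rw [← algebraMap_C (F := F), ← hRF]; exact hπO
  have hKO : ∀ a : K, algebraMap K F a ∈ O := algebraMap_K_mem ϖ hϖ O hAO hϖO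
  -- polynomials in `t` with coefficients in `K` lie in `O`
  have haeval : ∀ p : K[X], aeval t p ∈ O := by
    intro p
    let OK : Subalgebra K F := { O.toSubring with algebraMap_mem' := hKO }
    have h1 : Algebra.adjoin K {t} ≤ OK := Algebra.adjoin_le (by
      intro y hy
      rw [Set.mem_singleton_iff] at hy
      rw [hy]; exact htO)
    exact h1 (aeval_mem_adjoin_singleton K t)
  -- the centre of `O` on `K[X]`
  set I : Ideal K[X] := centre (aeval t : K[X] →ₐ[K] F).toRingHom O haeval with hI
  haveI hIprime : I.IsPrime := centre_isPrime _ O haeval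
  have hmemI : ∀ p : K[X], p ∈ I ↔ O.valuation (aeval t p) < 1 := fun p => Iff.rfl
  have hinjK : ∀ p : K[X], p ≠ 0 → aeval t p ≠ 0 := fun p hp h0 =>
    hp ((transcendental_iff.mp ht) p h0)
  -- `I ≠ ⊥`
  have hIne : I ≠ ⊥ := by
    -- a nonzero non-unit of `O`
    obtain ⟨ϖO, hϖO'⟩ := IsDiscreteValuationRing.exists_irreducible O
    have hy0 : (ϖO : F) ≠ 0 := fun h => hϖO'.ne_zero (Subtype.ext h)
    have hyv : O.valuation (ϖO : F) < 1 := by
      rw [← ValuationSubring.valuation_lt_one_iff]
      exact (IsLocalRing.mem_maximalIdeal _).mpr hϖO'.not_isUnit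
    -- write it as a fraction of elements of `B`
    obtain ⟨b1, b2, hb2, hfrac⟩ := IsFractionRing.div_surjective (A := B) (ϖO : F)
    have hb20 : algebraMap B F b2 ≠ 0 := by
      have : b2 ≠ 0 := nonZeroDivisors.ne_zero hb2
      exact fun h => this ((IsFractionRing.injective B F) (by rw [h, map_zero]))
    have hb1v : O.valuation (algebraMap B F b1) < 1 := by
      have h1 : algebraMap B F b1 = (ϖO : F) * algebraMap B F b2 := by
        rw [← hfrac]; field_simp
      rw [h1, map_mul]
      have h2 : O.valuation (algebraMap B F b2) ≤ 1 := (O.valuation_le_one_iff _).mpr (hBO b2)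
      calc O.valuation (ϖO : F) * O.valuation (algebraMap B F b2)
          ≤ O.valuation (ϖO : F) * 1 := mul_le_mul_right h2 _
        _ = O.valuation (ϖO : F) := mul_one _
        _ < 1 := hyv
    have hb10 : b1 ≠ 0 := by
      intro h
      apply hy0
      rw [← hfrac, h, map_zero, zero_div]
    -- contract to `A[X]`
    have hne := Ideal.comap_ne_bot_of_integral_mem (R := A[X])
      (I := centre (algebraMap B F) O hBO) hb10 hb1v (Algebra.IsIntegral.isIntegral b1)
    obtain ⟨r, hr, hr0⟩ := Submodule.exists_mem_ne_zero_of_ne_bot hne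
    intro hbot
    have hrI : r.map (algebraMap A K) ∈ I := by
      rw [hmemI, aeval_map t hX, ← hRF]
      exact hr
    rw [hbot, Ideal.mem_bot] at hrI
    exact hr0 (Polynomial.map_injective _ (IsFractionRing.injective A K) (by rw [hrI, Polynomial.map_zero]))
  -- the generator of `I`
  obtain ⟨g, hg⟩ := (IsPrincipalIdealRing.principal I).principal
  have hIg : I = Ideal.span {g} := hg
  have hg0 : g ≠ 0 := by
    intro h
    apply hIne
    rw [hIg, h]
    exact Ideal.span_singleton_eq_bot.mpr rfl
  have hgprime : Prime g := (Ideal.span_singleton_prime hg0).mp (hIg ▸ hIprime)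
  have hgirr : Irreducible g := hgprime.irreducible
  have hgI : g ∈ I := by rw [hIg]; exact Ideal.mem_span_singleton_self g
  have hgt0 : aeval t g ≠ 0 := hinjK g hg0
  have hgnonunit : (aeval t g)⁻¹ ∉ O := (inv_notMem_iff O _ hgt0).mpr ((hmemI g).mp hgI)
  -- no cusp roots
  have hnocusp : ∀ c ∈ cusps, ¬ g.IsRoot (algebraMap A K c) := by
    intro c hc hroot
    obtain ⟨q', hq'⟩ := dvd_iff_isRoot.mpr hroot
    have hqu : IsUnit q' :=
      (hgirr.isUnit_or_isUnit hq').resolve_left (not_isUnit_X_sub_C _)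
    have hXcI : (X - C (algebraMap A K c)) ∈ I := by
      obtain ⟨u, rfl⟩ := hqu
      have : X - C (algebraMap A K c) = g * ((u⁻¹ : K[X]ˣ) : K[X]) := by
        rw [hq', mul_assoc, Units.mul_inv, mul_one]
      rw [this]; exact I.mul_mem_right _ hgI
    have hmap : (X - C c : A[X]).map (algebraMap A K) = X - C (algebraMap A K c) := by
      rw [Polynomial.map_sub, Polynomial.map_X, Polynomial.map_C]
    have h1 : O.valuation (algebraMap A[X] F (X - C c)) < 1 := by
      have := (hmemI _).mp hXcI
      rwa [← hmap, aeval_map t hX] at this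
    have h4 : O.valuation (algebraMap A[X] F (X - C c)) ≠ 0 := by
      rw [Valuation.ne_zero_iff, ← aeval_map (K := K) t hX, hmap]
      exact hinjK _ (X_sub_C_ne_zero _)
    have hunit_of_inv : ∀ r : A[X], (algebraMap A[X] F r)⁻¹ ∈ O → O.valuation (algebraMap A[X] F r) ≠ 0 →
        1 ≤ O.valuation (algebraMap A[X] F r) := by
      intro r h3 h4'
      rw [← O.valuation_le_one_iff, map_inv₀] at h3
      by_contra hlt
      push Not at hlt
      exact absurd h3 (not_le.mpr ((one_lt_inv₀ (zero_lt_iff.mpr h4')).mpr hlt))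
    rcases hx c hc with hnot | hdvd
    · have h3 := hcen _ hnot
      rw [hRF] at h3
      exact absurd h1 (not_lt.mpr (hunit_of_inv _ h3 h4))
    · obtain ⟨r, hr⟩ := hdvd
      have hq3 := hqO
      rw [hRF] at hq3
      have hqF0 : algebraMap A[X] F q ≠ 0 := by
        rw [← aeval_map (K := K) t hX]
        apply hinjK
        intro h0
        exact hq (Polynomial.map_injective _ (IsFractionRing.injective A K)
          (by rw [h0, Polynomial.map_zero]))
      have hq1 := hunit_of_inv q hq3 ((Valuation.ne_zero_iff _).mpr hqF0)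
      have hrO : O.valuation (algebraMap A[X] F r) ≤ 1 := (O.valuation_le_one_iff _).mpr (hR0O r)
      have hlt : O.valuation (algebraMap A[X] F q) < 1 := by
        rw [hr, map_mul, map_mul]
        calc O.valuation (algebraMap A[X] F (X - C c)) * O.valuation (algebraMap A[X] F r)
            ≤ O.valuation (algebraMap A[X] F (X - C c)) * 1 := mul_le_mul_right hrO _
          _ = O.valuation (algebraMap A[X] F (X - C c)) := mul_one _
          _ < 1 := h1
      exact absurd hlt (not_lt.mpr hq1)
  have hH := H O hKO hdvr htO g hgirr hnocusp hgnonunit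
  -- scale `g` into `A[X]`
  obtain ⟨d, hd, hnorm⟩ := IsLocalization.integerNormalization_spec (nonZeroDivisors A) g
  set g0 := IsLocalization.integerNormalization (nonZeroDivisors A) g with hg0def
  have hd0 : algebraMap A K d ≠ 0 := by
    have : d ≠ 0 := nonZeroDivisors.ne_zero hd
    exact fun h => this ((IsFractionRing.injective A K) (by rw [h, map_zero]))
  have hg0F : algebraMap A[X] F g0 = algebraMap K F (algebraMap A K d) * aeval t g := by
    have h1 : (d • g : K[X]) = C (algebraMap A K d) * g := by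
      rw [Algebra.smul_def, Polynomial.algebraMap_apply]
    rw [← aeval_map (K := K) t hX, hnorm, h1, map_mul, aeval_C]
  have hdO : algebraMap K F (algebraMap A K d) ∈ O := hKO _
  have hdinvO : (algebraMap K F (algebraMap A K d))⁻¹ ∈ O := by
    rw [← map_inv₀]; exact hKO _
  have hdF0 : algebraMap K F (algebraMap A K d) ≠ 0 := by
    rw [Ne, map_eq_zero]; exact hd0
  refine ⟨g0, ?_, ?_⟩
  · rw [hRF, hg0F]
    intro hmem
    apply hgnonunit
    have : (aeval t g)⁻¹ = algebraMap K F (algebraMap A K d) *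
        (algebraMap K F (algebraMap A K d) * aeval t g)⁻¹ := by
      field_simp
    rw [this]
    exact O.mul_mem _ _ hdO hmem
  · intro y hy hyinv
    rw [hRF, hg0F]
    have : y / (algebraMap K F (algebraMap A K d) * aeval t g) =
        (y / aeval t g) * (algebraMap K F (algebraMap A K d))⁻¹ := by
      field_simp
    rw [this]
    exact O.mul_mem _ _ (hH y hy hyinv) hdinvO

/-- The same with the centre condition expressed through a prime `x` of `B`
(`P := x ∩ A[X]`); with `q = 1` this is `HorizBridge26.hUNR_of_places`. -/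
theorem hUNR_of_places_excl' (t : F) (hX : algebraMap A[X] F X = t) (ht : Transcendental K t)
    (ϖ : A) (hϖ : Irreducible ϖ) (cusps : Set A) (q : A[X]) (hq : q ≠ 0)
    (x : Ideal B) (hx : ∀ c ∈ cusps, algebraMap A[X] B (X - C c) ∉ x ∨ X - C c ∣ q)
    (H : ∀ O : ValuationSubring F, (∀ a : K, algebraMap K F a ∈ O) → IsDiscreteValuationRing O →
      t ∈ O → ∀ g : K[X], Irreducible g → (∀ c ∈ cusps, ¬ g.IsRoot (algebraMap A K c)) →
      (aeval t g)⁻¹ ∉ O → ∀ y ∈ O, y⁻¹ ∉ O → y / aeval t g ∈ O) :
    ∀ O : ValuationSubring F, (∀ s : B, algebraMap B F s ∈ O) → IsDiscreteValuationRing O →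
      (algebraMap B F (algebraMap A[X] B (C ϖ)))⁻¹ ∈ O →
      (algebraMap B F (algebraMap A[X] B q))⁻¹ ∈ O →
      (∀ r : A[X], algebraMap A[X] B r ∉ x → (algebraMap B F (algebraMap A[X] B r))⁻¹ ∈ O) →
      ∃ g0 : A[X], (algebraMap B F (algebraMap A[X] B g0))⁻¹ ∉ O ∧
        ∀ y ∈ O, y⁻¹ ∉ O → y / algebraMap B F (algebraMap A[X] B g0) ∈ O :=
  hUNR_of_places_excl B t hX ht ϖ hϖ cusps q hq (x.comap (algebraMap A[X] B)) hx H

end Main

end Fermat.Agent.RED.PUR.HorizBridgeQ26
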