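/-
Program H (S18), chapter RED/PUR (helper20): the hypothesis `H` of `HorizBridge26.hUNR_of_places`
(helper26) from (EXT) + BASE (B6)/(B5): "`O` a `K`-place of `F` with `t ∈ O`, `g ∈ K[X]` irreducible
without cusp-value roots in `K`, `g(t) ∈ 𝔪_O` ⇒ `g(t)` is a uniformiser of `O`".
-/
import Mathlib
import Fermat.Agent.RED.PUR.HorizPlace20

set_option autoImplicit false
set_option linter.unusedSectionVars false

open UpperHalfPlane hiding I
open scoped MatrixGroups IntermediateField
open Polynomial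

noncomputable section

namespace Fermat.Agent.RED.PUR.HorizH20

open Fermat.Agent.X0 Fermat.Agent.X0.FF AlgebraicCurve
open Fermat.Agent.RED.BASE.Interface12 Fermat.Agent.RED.BASE.EtaQuot12
open Fermat.Agent.RED.PUR.HorizPlace20

variable (n e M : ℕ) [NeZero n] [NeZero M] (cv : SL(2, ℤ) → Option Kbar)
variable {A K F : Type*} [CommRing A] [Field K] [CharZero K] [Field F]
  [Algebra A K] [Algebra K F] [Algebra K Kbar] [Algebra A Kbar] [IsScalarTower A K Kbar]

/-- **`H` of `HorizBridge26.hUNR_of_places`**, literal shape. -/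
theorem H_of_ord (h : TMem n e M)
    (hU : ∀ v : Place Kbar (FF M), 0 ≤ v.ord (jF M) →
      ∃ c : Kbar, v.ord (tF M h - algebraMap Kbar (FF M) c) = 1)
    (hC : ∀ γ : SL(2, ℤ), CuspShape n ((cuspData M).T γ (tF M h)) (cv γ))
    (cusps : Set A)
    (hcusps : ∀ γ c, cv γ = some c → ∃ a ∈ cusps, algebraMap A Kbar a = c)
    (bc : F →+* FF M)
    (hbc : ∀ a : K, bc (algebraMap K F a) = algebraMap Kbar (FF M) (algebraMap K Kbar a))
    (t : F) (ht : bc t = tF M h)
    (hExt : ∀ w : Place K F, ∃ (v : Place Kbar (FF M)) (d : ℕ), 0 < d ∧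
      ∀ f : F, v.ord (bc f) = (d : ℤ) * w.ord f) :
    ∀ O : ValuationSubring F, (∀ a : K, algebraMap K F a ∈ O) → IsDiscreteValuationRing O → t ∈ O →
      ∀ g : K[X], Irreducible g → (∀ c ∈ cusps, ¬ g.IsRoot (algebraMap A K c)) →
        (aeval t g)⁻¹ ∉ O → ∀ y ∈ O, y⁻¹ ∉ O → y / aeval t g ∈ O := by
  intro O hKO hdvr _ g hgirr hgnc hginv
  have := hdvr
  set w : Place K F := placeOfDVR O hKO with hw
  have hpos : 0 < w.ord (aeval t g) := by
    by_contra hle
    apply hginv
    have : 0 ≤ w.ord (aeval t g)⁻¹ := by rw [w.ord_inv]; omega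
    exact ffp_mem_of_ord_nonneg w this
  have hone : w.ord (aeval t g) = 1 := by
    refine HorizUnram20.ord_aeval_eq_one n e M cv h hU hC bc hbc t ht w (hExt w) g
      hgirr.separable ?_ hpos
    intro c hroot γ hγ
    obtain ⟨a, ha, hac⟩ := hcusps γ c hγ
    apply hgnc a ha
    rw [← hac, IsScalarTower.algebraMap_apply A K Kbar, IsRoot, eval_map, eval₂_at_apply] at hroot
    exact (map_eq_zero_iff _ (algebraMap K Kbar).injective).mp hroot
  exact (uniformizer_of_ord_eq_one w _ hone).2

end Fermat.Agent.RED.PUR.HorizH20
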