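/-
Program H (S18), chapter RED/PUR (helper20): (β2)-CONCRETE, part 3 — the horizontal hypotheses in the
GENERIC `(O, E)` setting of `ModelIface4` (`O` a discrete valuation subring of `K`, `E ⊂ K((q))`).

`HorizData O E n e M cv t` bundles what the BASE chapter and (EXT) give for the Hauptmodul `t ∈ E`:
a ring map `bc : E → Fbar_M` over `K → ℚbar` with `bc t = t_M`, extension of places, unbranchedness,
cusp shapes, and "every finite cusp value lies in `O`".  From it: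

* `hH_noncusp`   : the hypothesis `hH` of `SmoothOffGen21.smoothOff_gen` (literal `hUNR` at every ideal
  `x` of `integralClosure O[X] E` containing no `X - C c`, `c` a cusp value);
* `hUNRCusp`     : `CuspIface23.HUNRCusp O E π t c` at a finite cusp value `c`;
* `hUNRCusp_inv` : `CuspIface23.HUNRCusp O E π t⁻¹ 0`.
-/
import Mathlib
import Fermat.Agent.RED.PUR.HorizPlace20
import Fermat.Agent.RED.PUR.IntClosBase13
import Fermat.Agent.RED.NumInst4
import Fermat.Agent.RED.CUSP.CuspIface23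

set_option autoImplicit false
set_option linter.unusedSectionVars false
set_option linter.unusedVariables false
set_option linter.style.haveILetI false

open scoped MatrixGroups IntermediateField
open Polynomial

noncomputable section

namespace Fermat.Agent.RED.PUR.HorizOE20

open Fermat.Agent.X0 Fermat.Agent.X0.FF AlgebraicCurve
open Fermat.Agent.RED.BASE.Interface12 Fermat.Agent.RED.BASE.EtaQuot12
open Fermat.Agent.RED.PUR.IntClosBase13 Fermat.Agent.RED.CUSP.PolyToPS16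
open Fermat.Agent.RED.CUSP.CuspIface23

variable {K : Type*} [Field K] [CharZero K] (O : ValuationSubring K)
  (E : IntermediateField K (LaurentSeries K)) [Algebra K Kbar]

/-- The horizontal data for the coordinate `t ∈ E`. -/
def HorizData (n e M : ℕ) [NeZero n] [NeZero M] (cv : SL(2, ℤ) → Option Kbar) (t : ↥E) : Prop :=
  ∃ (h : TMem n e M) (bc : ↥E →+* FF M),
    (∀ v : Place Kbar (FF M), 0 ≤ v.ord (jF M) →
      ∃ c : Kbar, v.ord (tF M h - algebraMap Kbar (FF M) c) = 1) ∧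
    (∀ γ : SL(2, ℤ), CuspShape n ((cuspData M).T γ (tF M h)) (cv γ)) ∧
    (∀ c : Kbar, tF M h ≠ algebraMap Kbar (FF M) c) ∧
    (∀ γ c, cv γ = some c → ∃ a : ↥O, algebraMap K Kbar (a : K) = c) ∧
    (∀ a : K, bc (algebraMap K ↥E a) = algebraMap Kbar (FF M) (algebraMap K Kbar a)) ∧
    bc t = tF M h ∧
    (∀ w : Place K ↥E, ∃ (v : Place Kbar (FF M)) (d : ℕ), 0 < d ∧
      ∀ f : ↥E, v.ord (bc f) = (d : ℤ) * w.ord f)

variable {O E}

/-- `hK` of `HorizPlace20`: `K = O[1/π]`. -/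
theorem hK_OE [IsDiscreteValuationRing ↥O] {π : ↥O} (hπ : Irreducible π) (a : K) :
    ∃ (r : ↥O) (k : ℕ), algebraMap K ↥E a * algebraMap ↥O ↥E π ^ k = algebraMap ↥O ↥E r := by
  haveI : IsScalarTower ↥O K ↥E := Fermat.Agent.RED.NumInst4.isScalarTower_OE O E
  obtain ⟨⟨r, ⟨s, hs⟩⟩, h1⟩ := IsLocalization.surj (nonZeroDivisors ↥O) a
  have h1 : a * algebraMap ↥O K s = algebraMap ↥O K r := h1
  have hs0 : s ≠ 0 := nonZeroDivisors.ne_zero hs
  obtain ⟨k, u, hu⟩ := IsDiscreteValuationRing.eq_unit_mul_pow_irreducible hs0 hπ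
  refine ⟨r * ((u⁻¹ : (↥O)ˣ) : ↥O), k, ?_⟩
  have h2 : algebraMap K ↥E a * algebraMap ↥O ↥E s = algebraMap ↥O ↥E r := by
    rw [IsScalarTower.algebraMap_apply ↥O K ↥E, IsScalarTower.algebraMap_apply ↥O K ↥E, ← map_mul,
      h1]
  have h3 : algebraMap ↥O ↥E (u : ↥O) * algebraMap ↥O ↥E ((u⁻¹ : (↥O)ˣ) : ↥O) = 1 := by
    rw [← map_mul, Units.mul_inv, map_one]
  rw [map_mul, ← h2, hu, map_mul, map_pow]
  linear_combination (-(algebraMap K ↥E a * algebraMap ↥O ↥E π ^ k)) * h3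

theorem algebraMap_OE_ne_zero {π : ↥O} (hπ : π ≠ 0) : algebraMap ↥O ↥E π ≠ 0 := by
  haveI : IsScalarTower ↥O K ↥E := Fermat.Agent.RED.NumInst4.isScalarTower_OE O E
  rw [IsScalarTower.algebraMap_apply ↥O K ↥E, Ne, map_eq_zero]
  exact (map_ne_zero_iff _ (IsFractionRing.injective ↥O K)).mpr hπ

variable {n e M : ℕ} [NeZero n] [NeZero M] {cv : SL(2, ℤ) → Option Kbar} {t : ↥E}
  [Algebra.IsAlgebraic K Kbar]

/-- **`hH` of `SmoothOffGen21.smoothOff_gen`.** -/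
theorem hH_noncusp [IsDiscreteValuationRing ↥O] (hD : HorizData O E n e M cv t) {π : ↥O}
    (hπ : Irreducible π)
    [Algebra (↥O)[X] ↥E] [IsScalarTower ↥O (↥O)[X] ↥E] (hX : algebraMap (↥O)[X] ↥E X = t)
    (S : Set ↥O) (hS : ∀ a : ↥O, (∃ γ, cv γ = some (algebraMap K Kbar (a : K))) → a ∈ S)
    (x : Ideal ↥(integralClosure (↥O)[X] ↥E))
    (hx : ∀ c ∈ S, algebraMap (↥O)[X] ↥(integralClosure (↥O)[X] ↥E) (X - C c) ∉ x) :
    ∀ O' : ValuationSubring ↥E,
      (∀ s : ↥(integralClosure (↥O)[X] ↥E),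
        algebraMap ↥(integralClosure (↥O)[X] ↥E) ↥E s ∈ O') →
      IsDiscreteValuationRing O' →
      (algebraMap ↥(integralClosure (↥O)[X] ↥E) ↥E
        (algebraMap (↥O)[X] ↥(integralClosure (↥O)[X] ↥E) (C π)))⁻¹ ∈ O' →
      (∀ r : (↥O)[X], algebraMap (↥O)[X] ↥(integralClosure (↥O)[X] ↥E) r ∉ x →
        (algebraMap ↥(integralClosure (↥O)[X] ↥E) ↥E
          (algebraMap (↥O)[X] ↥(integralClosure (↥O)[X] ↥E) r))⁻¹ ∈ O') →
      ∃ g0 : (↥O)[X], (algebraMap ↥(integralClosure (↥O)[X] ↥E) ↥E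
          (algebraMap (↥O)[X] ↥(integralClosure (↥O)[X] ↥E) g0))⁻¹ ∉ O' ∧
        ∀ y ∈ O', y⁻¹ ∉ O' → y / algebraMap ↥(integralClosure (↥O)[X] ↥E) ↥E
          (algebraMap (↥O)[X] ↥(integralClosure (↥O)[X] ↥E) g0) ∈ O' := by
  haveI : IsScalarTower ↥O K ↥E := Fermat.Agent.RED.NumInst4.isScalarTower_OE O E
  letI : Algebra ↥O Kbar := ((algebraMap K Kbar).comp O.subtype).toAlgebra
  haveI : IsScalarTower ↥O K Kbar := IsScalarTower.of_algebraMap_eq fun _ => rfl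
  obtain ⟨h, bc, hU, hC, hconst, hcvO, hbc, ht, hExt⟩ := hD
  exact HorizPlace20.hUNR_noncusp (A := ↥O) (K := K) (F := ↥E)
    (B := ↥(integralClosure (↥O)[X] ↥E)) n e M cv h hU hC hconst
    (fun γ c hγ => hcvO γ c hγ) bc hbc t ht hExt (fun p => algebraMap_eq_aeval hX p) π
    (algebraMap_OE_ne_zero hπ.ne_zero) (hK_OE hπ) x
    (fun a ha => hx a (hS a ha))

/-- elements `g(t)`, `g ∈ O[X]`, are integral over `O[t]`. -/
theorem isIntegral_aeval (s : ↥E) (g : (↥O)[X]) :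
    IsIntegral ↥(Algebra.adjoin ↥O {s}) (aeval s g) := by
  have hmem : aeval s g ∈ Algebra.adjoin ↥O {s} := aeval_mem_adjoin_singleton ↥O s
  exact (isIntegral_algebraMap (R := ↥(Algebra.adjoin ↥O {s})) (A := ↥E)
    (x := ⟨aeval s g, hmem⟩))

theorem X_sub_C_notMem_cuspIdeal {π : ↥O} (hπ : Irreducible π) (a c : ↥O) (hu : IsUnit (a - c)) :
    (X - C a : (↥O)[X]) ∉ cuspIdeal π c := by
  rw [mem_cuspIdeal_iff, eval_sub, eval_X, eval_C, Ideal.mem_span_singleton]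
  intro hdvd
  have h2 : π ∣ a - c := by
    have := (dvd_neg (a := π) (b := c - a)).mpr hdvd
    rwa [neg_sub] at this
  exact hπ.not_isUnit (isUnit_of_dvd_unit h2 hu)

theorem C_mul_X_sub_one_notMem_cuspIdeal {π : ↥O} (hπ : Irreducible π) (a : ↥O) :
    (C a * X - 1 : (↥O)[X]) ∉ cuspIdeal π 0 := by
  rw [mem_cuspIdeal_iff, eval_sub, eval_mul, eval_X, eval_C, eval_one, mul_zero, zero_sub,
    Ideal.mem_span_singleton]
  intro hdvd
  exact hπ.not_isUnit (isUnit_of_dvd_unit hdvd isUnit_one.neg)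

/-- **`HUNRCusp` at a finite cusp value `c`**: the other cusp values are either `c` or differ from `c`
by a unit of `O`. -/
theorem hUNRCusp [IsDiscreteValuationRing ↥O] (hD : HorizData O E n e M cv t) {π : ↥O}
    (hπ : Irreducible π) (c : ↥O)
    (hsep : ∀ a : ↥O, (∃ γ, cv γ = some (algebraMap K Kbar (a : K))) → a = c ∨ IsUnit (a - c)) :
    HUNRCusp O E π t c := by
  haveI : IsScalarTower ↥O K ↥E := Fermat.Agent.RED.NumInst4.isScalarTower_OE O E
  letI : Algebra ↥O Kbar := ((algebraMap K Kbar).comp O.subtype).toAlgebra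
  haveI : IsScalarTower ↥O K Kbar := IsScalarTower.of_algebraMap_eq fun _ => rfl
  letI : Algebra (↥O)[X] ↥E := polyAlgebra (A := ↥O) t
  obtain ⟨h, bc, hU, hC, hconst, hcvO, hbc, ht, hExt⟩ := hD
  intro O' hB hdvr h1 h2 h3
  have hXp : ∀ p : (↥O)[X],
      algebraMap (↥O)[X] ↥E (algebraMap (↥O)[X] (↥O)[X] p) = aeval t p := fun p => rfl
  have key := HorizPlace20.hUNR_cusp (A := ↥O) (K := K) (F := ↥E) (B := (↥O)[X]) n e M cv h hU hC
    hconst (fun γ c hγ => hcvO γ c hγ) bc hbc t ht hExt hXp π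
    (algebraMap_OE_ne_zero hπ.ne_zero) (hK_OE hπ) (cuspIdeal π c) c
    (fun a ha => (hsep a ha).imp id (X_sub_C_notMem_cuspIdeal hπ a c))
    O' (fun z => (hXp z) ▸ hB _ (isIntegral_aeval t z)) hdvr
    (by rw [hXp, aeval_C]; exact h1)
    (by rw [hXp, map_sub, aeval_X, aeval_C]; exact h2)
    (fun r hr => by rw [hXp]; exact h3 r hr)
  obtain ⟨g0, hg1, hg2⟩ := key
  refine ⟨g0, ?_, fun y hy hy' => ?_⟩
  · rw [← hXp]; exact hg1
  · rw [← hXp]; exact hg2 y hy hy'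

/-- **`HUNRCusp` at `t = ∞`** (coordinate `t⁻¹`, value `0`). -/
theorem hUNRCusp_inv [IsDiscreteValuationRing ↥O] (hD : HorizData O E n e M cv t) {π : ↥O}
    (hπ : Irreducible π) : HUNRCusp O E π t⁻¹ 0 := by
  haveI : IsScalarTower ↥O K ↥E := Fermat.Agent.RED.NumInst4.isScalarTower_OE O E
  letI : Algebra ↥O Kbar := ((algebraMap K Kbar).comp O.subtype).toAlgebra
  haveI : IsScalarTower ↥O K Kbar := IsScalarTower.of_algebraMap_eq fun _ => rfl
  letI : Algebra (↥O)[X] ↥E := polyAlgebra (A := ↥O) t⁻¹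
  obtain ⟨h, bc, hU, hC, hconst, hcvO, hbc, ht, hExt⟩ := hD
  intro O' hB hdvr h1 h2 h3
  have hXp : ∀ p : (↥O)[X],
      algebraMap (↥O)[X] ↥E (algebraMap (↥O)[X] (↥O)[X] p) = aeval t⁻¹ p := fun p => rfl
  have key := HorizPlace20.hUNR_cusp_inv (A := ↥O) (K := K) (F := ↥E) (B := (↥O)[X]) n e M cv h hU
    hC hconst (fun γ c hγ => hcvO γ c hγ) bc hbc t⁻¹ (by rw [map_inv₀, ht]) hExt hXp π
    (algebraMap_OE_ne_zero hπ.ne_zero) (hK_OE hπ) (cuspIdeal π 0)
    (fun a _ => C_mul_X_sub_one_notMem_cuspIdeal hπ a)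
    O' (fun z => (hXp z) ▸ hB _ (isIntegral_aeval t⁻¹ z)) hdvr
    (by rw [hXp, aeval_C]; exact h1)
    (by
      rw [hXp, aeval_X]
      have := h2
      rwa [map_zero, sub_zero] at this)
    (fun r hr => by rw [hXp]; exact h3 r hr)
  obtain ⟨g0, hg1, hg2⟩ := key
  refine ⟨g0, ?_, fun y hy hy' => ?_⟩
  · rw [← hXp]; exact hg1
  · rw [← hXp]; exact hg2 y hy hy'

end Fermat.Agent.RED.PUR.HorizOE20
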