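/-
Program H (S18), MODEL assembly (helper18): TRANSFER of the local smoothness statement between
the two charts on their overlap.

`B0 ∋ t`, `B1 ∋ s = t⁻¹` subalgebras of a field `F` with `B0[1/t] = B1[1/s]` (the contract fields
`ov0`, `ov1` of `CoreIface24.TwoChartModel`).  For a maximal ideal `x` of `B1` with `π ∈ x`,
`s ∉ x`, the ideal `pull x = x·B1[1/s] ∩ B0` is a MAXIMAL ideal of `B0` containing `π` (this uses
that `R/π` is a field and that `B1` is integral over `R[s]`), and the contract statement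
`∃ s₀ ∈ x, ∀ y ∈ x, ∃ d ∉ x, d * y ∈ (π, s₀)` at `pull x` implies the same statement at `x`.
Hence on the second chart smoothness has to be proved only at the points with `t⁻¹ ∈ x`.
Mathlib only.
-/
import Mathlib

set_option autoImplicit false
set_option linter.style.haveILetI false
set_option linter.unusedSectionVars false

namespace Fermat.Agent.RED.PUR.OverlapTransfer18

open Polynomial

variable {R F : Type*} [CommRing R] [Field F] [Algebra R F]

/-- Two charts `B0 ∋ t`, `B1 ∋ s`, `t * s = 1`, with the same localisation `B0[1/t] = B1[1/s]`. -/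
structure Overlap (t s : F) (B0 B1 : Subalgebra R F) : Prop where
  mul_eq : t * s = 1
  t_mem : t ∈ B0
  s_mem : s ∈ B1
  ov0 : ∀ x ∈ B1, ∃ k : ℕ, t ^ k * x ∈ B0
  ov1 : ∀ x ∈ B0, ∃ k : ℕ, s ^ k * x ∈ B1

variable {t s : F} {B0 B1 : Subalgebra R F}

theorem Overlap.symm (h : Overlap t s B0 B1) : Overlap s t B1 B0 :=
  ⟨by rw [mul_comm]; exact h.mul_eq, h.s_mem, h.t_mem, h.ov1, h.ov0⟩

theorem Overlap.pow_mul_pow (h : Overlap t s B0 B1) (k : ℕ) : s ^ k * t ^ k = 1 := by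
  rw [← mul_pow, mul_comm, h.mul_eq, one_pow]

/-- `s` as an element of `B1`. -/
def Overlap.sB (h : Overlap t s B0 B1) : B1 := ⟨s, h.s_mem⟩

/-- `t` as an element of `B0`. -/
def Overlap.tB (h : Overlap t s B0 B1) : B0 := ⟨t, h.t_mem⟩

@[simp] theorem Overlap.coe_sB (h : Overlap t s B0 B1) : (h.sB : F) = s := rfl

@[simp] theorem Overlap.coe_tB (h : Overlap t s B0 B1) : (h.tB : F) = t := rfl

/-- The pulled back ideal `x·B1[1/s] ∩ B0`. -/
def pull (h : Overlap t s B0 B1) (x : Ideal B1) : Ideal B0 where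
  carrier := {b | ∃ (k : ℕ) (y : B1), y ∈ x ∧ (y : F) = s ^ k * (b : F)}
  add_mem' := by
    rintro b b' ⟨k, y, hy, e⟩ ⟨k', y', hy', e'⟩
    refine ⟨k + k', h.sB ^ k' * y + h.sB ^ k * y',
      x.add_mem (x.mul_mem_left _ hy) (x.mul_mem_left _ hy'), ?_⟩
    show s ^ k' * (y : F) + s ^ k * (y' : F) = s ^ (k + k') * ((b : F) + (b' : F))
    rw [e, e']; ring
  zero_mem' := ⟨0, 0, x.zero_mem, by simp⟩
  smul_mem' := by
    rintro c b ⟨k, y, hy, e⟩
    obtain ⟨j, hj⟩ := h.ov1 c c.2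
    refine ⟨j + k, (⟨_, hj⟩ : B1) * y, x.mul_mem_left _ hy, ?_⟩
    show s ^ j * (c : F) * (y : F) = s ^ (j + k) * ((c : F) * (b : F))
    rw [e]; ring

theorem mem_pull_iff (h : Overlap t s B0 B1) (x : Ideal B1) (b : B0) :
    b ∈ pull h x ↔ ∃ (k : ℕ) (y : B1), y ∈ x ∧ (y : F) = s ^ k * (b : F) := Iff.rfl

section Prime

variable (h : Overlap t s B0 B1) (x : Ideal B1) [hx : x.IsPrime] (hsx : h.sB ∉ x)

include hsx

/-- Membership in `pull x` can be tested with ANY admissible exponent. -/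
theorem mem_of_mem_pull {b : B0} (hb : b ∈ pull h x) {k : ℕ} {y : B1}
    (e : (y : F) = s ^ k * (b : F)) : y ∈ x := by
  obtain ⟨k', y', hy', e'⟩ := hb
  have hmul : h.sB ^ k' * y = h.sB ^ k * y' := by
    apply Subtype.ext
    show s ^ k' * (y : F) = s ^ k * (y' : F)
    rw [e, e']; ring
  have hmem : h.sB ^ k' * y ∈ x := by rw [hmul]; exact x.mul_mem_left _ hy'
  rcases hx.mem_or_mem hmem with h1 | h1
  · exact absurd (hx.mem_of_pow_mem _ h1) hsx
  · exact h1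

theorem one_notMem_pull : (1 : B0) ∉ pull h x := by
  intro h1
  have : (1 : B1) ∈ x := mem_of_mem_pull h x hsx h1 (k := 0) (y := 1) (by simp)
  exact hx.ne_top ((Ideal.eq_top_iff_one _).mpr this)

theorem tB_notMem_pull : h.tB ∉ pull h x := by
  intro h1
  have : (1 : B1) ∈ x := mem_of_mem_pull h x hsx h1 (k := 1) (y := 1) (by
    show (1 : F) = s ^ 1 * t
    rw [pow_one, mul_comm, h.mul_eq])
  exact hx.ne_top ((Ideal.eq_top_iff_one _).mpr this)

theorem pull_isPrime : (pull h x).IsPrime := by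
  refine ⟨fun htop => one_notMem_pull h x hsx (htop ▸ Submodule.mem_top), ?_⟩
  intro b b' hbb'
  obtain ⟨k, hk⟩ := h.ov1 b b.2
  obtain ⟨k', hk'⟩ := h.ov1 b' b'.2
  have hmem : (⟨_, hk⟩ : B1) * ⟨_, hk'⟩ ∈ x := by
    apply mem_of_mem_pull h x hsx hbb' (k := k + k')
    show s ^ k * (b : F) * (s ^ k' * (b' : F)) = s ^ (k + k') * ((b : F) * (b' : F))
    ring
  rcases hx.mem_or_mem hmem with h1 | h1
  · left; exact ⟨k, _, h1, rfl⟩
  · right; exact ⟨k', _, h1, rfl⟩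

end Prime

theorem algebraMap_mem_pull (h : Overlap t s B0 B1) (x : Ideal B1) {π : R}
    (hπ : algebraMap R B1 π ∈ x) : algebraMap R B0 π ∈ pull h x :=
  ⟨0, algebraMap R B1 π, hπ, by
    show algebraMap R F π = s ^ 0 * algebraMap R F π
    rw [pow_zero, one_mul]⟩

/-- A field integral over (the image of) a ring: nonzero elements of the image are invertible in
the image. -/
theorem exists_mul_eq_one_of_isIntegralElem {A L : Type*} [CommRing A] [Field L] (θ : A →+* L)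
    (hint : ∀ z : L, θ.IsIntegralElem z) (a0 : A) (h0 : θ a0 ≠ 0) :
    ∃ a : A, θ a0 * θ a = 1 := by
  have hint' : ∀ z : L, IsIntegral θ.range z := by
    intro z
    obtain ⟨p, hp, hpz⟩ := hint z
    refine ⟨p.map θ.rangeRestrict, hp.map _, ?_⟩
    rw [Polynomial.eval₂_map]
    exact hpz
  haveI : Algebra.IsIntegral θ.range L := ⟨hint'⟩
  have hfield : IsField θ.range :=
    isField_of_isIntegral_of_isField (R := θ.range) (S := L) Subtype.val_injective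
      (Field.toIsField _)
  obtain ⟨⟨_, a, rfl⟩, ha⟩ := hfield.mul_inv_cancel
    (a := ⟨θ a0, ⟨_, rfl⟩⟩) (by
    intro h; exact h0 (congrArg Subtype.val h))
  exact ⟨a, congrArg Subtype.val ha⟩

/-- In a domain `D` which is an algebra over `R` with `π ↦ 0`, `(π)` maximal: a nonzero element
integral over `R` is a unit. -/
theorem isUnit_of_isIntegral_of_isMaximal {R D : Type*} [CommRing R] [CommRing D] [IsDomain D]
    [Algebra R D] (π : R) (hπ : (Ideal.span {π} : Ideal R).IsMaximal)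
    (hπD : algebraMap R D π = 0) (τ : D) (hτ : τ ≠ 0) (hint : IsIntegral R τ) : IsUnit τ := by
  letI := Ideal.Quotient.field (Ideal.span {π} : Ideal R)
  letI : Algebra (R ⧸ (Ideal.span {π} : Ideal R)) D :=
    (Ideal.Quotient.lift (Ideal.span {π} : Ideal R) (algebraMap R D) (by
      intro a ha
      obtain ⟨c, rfl⟩ := Ideal.mem_span_singleton'.mp ha
      rw [map_mul, hπD, mul_zero])).toAlgebra
  haveI : IsScalarTower R (R ⧸ (Ideal.span {π} : Ideal R)) D :=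
    IsScalarTower.of_algebraMap_eq (fun r => rfl)
  exact (hint.tower_top (A := R ⧸ (Ideal.span {π} : Ideal R))).isUnit hτ

section Maximal

variable (h : Overlap t s B0 B1) (x : Ideal B1) [hx : x.IsMaximal] (hsx : h.sB ∉ x)
  (int1 : ∀ y ∈ B1, IsIntegral (Algebra.adjoin R {s}) y)

include hsx int1

/-- `s⁻¹` is a polynomial in `s` modulo `x` (the subring `R[s̄]` of the field `B1/x` is a field,
because `B1/x` is integral over it). -/
theorem exists_inverse_poly : ∃ (G : R[X]) (y : B1), y ∈ x ∧ (y : F) = s * aeval s G - 1 := by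
  classical
  letI := Ideal.Quotient.field x
  have hle : Algebra.adjoin R {s} ≤ B1 := Algebra.adjoin_le (by
    rintro z hz; rw [Set.mem_singleton_iff] at hz; subst hz; exact h.s_mem)
  let incl : Algebra.adjoin R {s} →+* B1 := (Subalgebra.inclusion hle).toRingHom
  let θ : Algebra.adjoin R {s} →+* (B1 ⧸ x) := (Ideal.Quotient.mk x).comp incl
  have hcomp : (B1.val : B1 →+* F).comp incl = algebraMap (Algebra.adjoin R {s}) F :=
    RingHom.ext fun _ => rfl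
  -- `B1/x` is integral over `θ`
  have hint : ∀ z : B1 ⧸ x, θ.IsIntegralElem z := by
    intro z
    obtain ⟨y, rfl⟩ := Ideal.Quotient.mk_surjective z
    obtain ⟨p, hp, hpy⟩ := int1 y y.2
    have h1 : p.eval₂ incl y = 0 := by
      apply Subtype.ext
      have := Polynomial.hom_eval₂ p incl (B1.val : B1 →+* F) y
      rw [hcomp] at this
      exact this.trans hpy
    refine ⟨p, hp, ?_⟩
    show p.eval₂ ((Ideal.Quotient.mk x).comp incl) (Ideal.Quotient.mk x y) = 0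
    rw [← Polynomial.hom_eval₂, h1, map_zero]
  -- `s̄` is a nonzero element of the image
  have hs0 : θ ⟨s, Algebra.self_mem_adjoin_singleton R s⟩ ≠ 0 := by
    intro h0
    apply hsx
    exact Ideal.Quotient.eq_zero_iff_mem.mp h0
  obtain ⟨a, ha⟩ := exists_mul_eq_one_of_isIntegralElem θ hint _ hs0
  obtain ⟨G, hG⟩ : ∃ G : R[X], aeval s G = (a : F) := by
    have h1 : (a : F) ∈ (Polynomial.aeval (R := R) s).range := by
      rw [← Algebra.adjoin_singleton_eq_range_aeval]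
      exact a.2
    exact h1
  refine ⟨G, h.sB * incl a - 1, ?_, ?_⟩
  · rw [← Ideal.Quotient.eq_zero_iff_mem, map_sub, map_mul, map_one, sub_eq_zero]
    exact ha
  · show s * (a : F) - 1 = s * aeval s G - 1
    rw [hG]

/-- `t` is invertible modulo `pull x`. -/
theorem exists_tB_mul_sub_one_mem_pull (π : R) (hπ : (Ideal.span {π} : Ideal R).IsMaximal)
    (hπx : algebraMap R B1 π ∈ x) : ∃ c : B0, h.tB * c - 1 ∈ pull h x := by
  obtain ⟨G, y, hy, e⟩ := exists_inverse_poly h x hsx int1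
  haveI : (pull h x).IsPrime := pull_isPrime h x hsx
  have hQ : aeval t (reflect G.natDegree G) * s ^ G.natDegree = aeval s G := by
    letI : Invertible s := ⟨t, h.mul_eq, by rw [mul_comm]; exact h.mul_eq⟩
    exact eval₂_reflect_mul_pow (algebraMap R F) s G.natDegree G le_rfl
  -- `b := Q(t) - t^(d+1) ∈ pull x`
  have hb : aeval h.tB (reflect G.natDegree G) - h.tB ^ (G.natDegree + 1) ∈ pull h x := by
    refine ⟨G.natDegree + 1, y, hy, ?_⟩
    rw [e]
    have hcoe : ((aeval h.tB (reflect G.natDegree G) - h.tB ^ (G.natDegree + 1) : B0) : F) =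
        aeval t (reflect G.natDegree G) - t ^ (G.natDegree + 1) := by
      rw [Subalgebra.coe_sub, aeval_subalgebra_coe]
      rfl
    rw [hcoe, mul_sub, h.pow_mul_pow, ← hQ]
    ring
  -- integrality of `t̄`
  have hint : IsIntegral R (Ideal.Quotient.mk (pull h x) h.tB) := by
    refine ⟨X ^ (G.natDegree + 1) - reflect G.natDegree G, monic_X_pow_sub ?_, ?_⟩
    · refine lt_of_le_of_lt degree_le_natDegree ?_
      have := natDegree_reflect_le (N := G.natDegree) (p := G)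
      rw [max_self] at this
      exact_mod_cast Nat.lt_succ_of_le this
    · rw [← aeval_def]
      have : aeval (Ideal.Quotient.mk (pull h x) h.tB)
          (X ^ (G.natDegree + 1) - reflect G.natDegree G) =
          Ideal.Quotient.mkₐ R (pull h x)
            (aeval h.tB (X ^ (G.natDegree + 1) - reflect G.natDegree G)) :=
        aeval_algHom_apply (Ideal.Quotient.mkₐ R (pull h x)) h.tB _
      rw [this, Ideal.Quotient.mkₐ_eq_mk, Ideal.Quotient.eq_zero_iff_mem, map_sub, map_pow,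
        aeval_X, ← neg_sub]
      exact (pull h x).neg_mem hb
  have hne : Ideal.Quotient.mk (pull h x) h.tB ≠ 0 := fun h0 =>
    tB_notMem_pull h x hsx (Ideal.Quotient.eq_zero_iff_mem.mp h0)
  have hπD : algebraMap R (B0 ⧸ pull h x) π = 0 :=
    Ideal.Quotient.eq_zero_iff_mem.mpr (algebraMap_mem_pull h x hπx)
  obtain ⟨c', hc'⟩ := (isUnit_of_isIntegral_of_isMaximal π hπ hπD _ hne hint).exists_right_inv
  obtain ⟨c, rfl⟩ := Ideal.Quotient.mk_surjective c'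
  refine ⟨c, ?_⟩
  rw [← Ideal.Quotient.eq_zero_iff_mem, map_sub, map_mul, map_one, hc', sub_self]

/-- **`pull x` is a maximal ideal of `B0`.** -/
theorem pull_isMaximal (π : R) (hπ : (Ideal.span {π} : Ideal R).IsMaximal)
    (hπx : algebraMap R B1 π ∈ x) : (pull h x).IsMaximal := by
  obtain ⟨c, hc⟩ := exists_tB_mul_sub_one_mem_pull h x hsx int1 π hπ hπx
  rw [Ideal.isMaximal_iff]
  refine ⟨one_notMem_pull h x hsx, ?_⟩
  intro J b hJ hb hbJ
  obtain ⟨k, hk⟩ := h.ov1 b b.2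
  have hβ : (⟨_, hk⟩ : B1) ∉ x := fun hmem => hb ⟨k, _, hmem, rfl⟩
  obtain ⟨β', i, hi, hβ'⟩ := hx.exists_inv hβ
  obtain ⟨j, hj⟩ := h.ov0 β' β'.2
  -- `e := b * (t^j β') - t^(k+j) ∈ pull x`
  have he : b * ⟨_, hj⟩ - h.tB ^ (k + j) ∈ pull h x := by
    refine ⟨k + j, -i, x.neg_mem hi, ?_⟩
    have h1 : ((-i : B1) : F) = (β' : F) * (s ^ k * (b : F)) - 1 := by
      have := congrArg (Subtype.val) hβ'
      have h2 : (β' : F) * (s ^ k * (b : F)) + (i : F) = 1 := this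
      show -(i : F) = _
      linear_combination -h2
    rw [h1]
    show (β' : F) * (s ^ k * (b : F)) - 1 = s ^ (k + j) * ((b : F) * (t ^ j * (β' : F)) - t ^ (k + j))
    have h3 := h.pow_mul_pow (k + j)
    have h4 := h.pow_mul_pow j
    linear_combination h3 - (s ^ k * (b : F) * (β' : F)) * h4
  have h1 : h.tB ^ (k + j) ∈ J := by
    have : h.tB ^ (k + j) = b * ⟨_, hj⟩ - (b * ⟨_, hj⟩ - h.tB ^ (k + j)) := by ring
    rw [this]
    exact J.sub_mem (J.mul_mem_right _ hbJ) (hJ he)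
  have h2 : (h.tB * c) ^ (k + j) ∈ J := by
    rw [mul_pow]; exact J.mul_mem_right _ h1
  have h3 : (h.tB * c) ^ (k + j) - 1 ∈ J := by
    obtain ⟨q, hq⟩ := sub_dvd_pow_sub_pow (h.tB * c) 1 (k + j)
    rw [one_pow] at hq
    rw [hq]
    exact J.mul_mem_right _ (hJ hc)
  have : (1 : B0) = (h.tB * c) ^ (k + j) - ((h.tB * c) ^ (k + j) - 1) := by ring
  rw [this]
  exact J.sub_mem h2 h3

/-- **Transfer**: the contract smoothness statement at `pull x` implies it at `x`. -/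
theorem smooth_of_smooth_pull (π : R)
    (hsm : ∃ s₀ ∈ pull h x, ∀ y ∈ pull h x, ∃ d : B0, d ∉ pull h x ∧
      d * y ∈ Ideal.span {algebraMap R B0 π, s₀}) :
    ∃ s₁ ∈ x, ∀ y ∈ x, ∃ d : B1, d ∉ x ∧ d * y ∈ Ideal.span {algebraMap R B1 π, s₁} := by
  obtain ⟨s₀, ⟨ks, ys, hys, es⟩, hs₀⟩ := hsm
  refine ⟨ys, hys, ?_⟩
  intro y hy
  obtain ⟨j, hj⟩ := h.ov0 y y.2
  have hy' : (⟨_, hj⟩ : B0) ∈ pull h x := by
    refine ⟨j, y, hy, ?_⟩
    show (y : F) = s ^ j * (t ^ j * (y : F))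
    rw [← mul_assoc, h.pow_mul_pow, one_mul]
  obtain ⟨d', hd', hdy⟩ := hs₀ _ hy'
  obtain ⟨a, b, hab⟩ := Ideal.mem_span_pair.mp hdy
  obtain ⟨n1, hn1⟩ := h.ov1 d' d'.2
  obtain ⟨n2, hn2⟩ := h.ov1 a a.2
  obtain ⟨n3, hn3⟩ := h.ov1 b b.2
  have hd1 : (⟨_, hn1⟩ : B1) ∉ x := fun hmem => hd' ⟨n1, _, hmem, rfl⟩
  refine ⟨h.sB ^ (n2 + n3 + ks) * ⟨_, hn1⟩, ?_, ?_⟩
  · intro hmem
    rcases (Ideal.IsMaximal.isPrime hx).mem_or_mem hmem with h1 | h1
    · exact hsx ((Ideal.IsMaximal.isPrime hx).mem_of_pow_mem _ h1)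
    · exact hd1 h1
  · rw [Ideal.mem_span_pair]
    refine ⟨h.sB ^ (n1 + n3 + ks + j) * ⟨_, hn2⟩, h.sB ^ (n1 + n2 + j) * ⟨_, hn3⟩, ?_⟩
    apply Subtype.ext
    have e1 : (a : F) * algebraMap R F π + (b : F) * (s₀ : F) = (d' : F) * (t ^ j * (y : F)) :=
      congrArg Subtype.val hab
    have hT := h.pow_mul_pow j
    show s ^ (n1 + n3 + ks + j) * (s ^ n2 * (a : F)) * algebraMap R F π +
        s ^ (n1 + n2 + j) * (s ^ n3 * (b : F)) * (ys : F) =
      s ^ (n2 + n3 + ks) * (s ^ n1 * (d' : F)) * (y : F)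
    rw [es]
    linear_combination (s ^ (n1 + n2 + n3 + ks + j)) * e1 +
      (s ^ (n1 + n2 + n3 + ks) * (d' : F) * (y : F)) * hT

end Maximal

/-! ### Contract shapes (`CoreIface24.TwoChartModel`) -/

/-- In a "DVR in the contract shape" the ideal `(π)` is maximal. -/
theorem isMaximal_span_of_dvr {π : R} (dvrR : ∀ r : R, r ≠ 0 → ∃ (k : ℕ) (v : Rˣ), r = π ^ k * v)
    (hnu : ¬ IsUnit π) : (Ideal.span {π} : Ideal R).IsMaximal := by
  rw [Ideal.isMaximal_iff]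
  refine ⟨fun h1 => hnu (Ideal.span_singleton_eq_top.mp ((Ideal.eq_top_iff_one _).mpr h1)), ?_⟩
  intro J r hJ hr hrJ
  have hr0 : r ≠ 0 := fun h0 => hr (h0 ▸ Ideal.zero_mem _)
  obtain ⟨k, v, rfl⟩ := dvrR r hr0
  rcases Nat.eq_zero_or_pos k with rfl | hk
  · rw [pow_zero, one_mul] at hrJ
    exact (Ideal.eq_top_of_isUnit_mem J hrJ v.isUnit) ▸ Submodule.mem_top
  · exfalso
    apply hr
    obtain ⟨k', rfl⟩ := Nat.exists_eq_succ_of_ne_zero hk.ne'
    rw [pow_succ', mul_assoc]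
    exact Ideal.mul_mem_right _ _ (Ideal.mem_span_singleton_self π)

/-- The overlap structure from the contract fields. -/
theorem overlap_of_contract {t : F} {B0 B1 : Subalgebra R F} (t_ne : t ≠ 0) (t_mem : t ∈ B0)
    (tinv_mem : t⁻¹ ∈ B1) (ov0 : ∀ x ∈ B1, ∃ k : ℕ, t ^ k * x ∈ B0)
    (ov1 : ∀ x ∈ B0, ∃ k : ℕ, t⁻¹ ^ k * x ∈ B1) : Overlap t t⁻¹ B0 B1 :=
  ⟨mul_inv_cancel₀ t_ne, t_mem, tinv_mem, ov0, ov1⟩

/-- **`smooth1` away from `t⁻¹ = 0` follows from `smooth0`.** -/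
theorem smooth1_of_smooth0 (π : R) (t : F) (B0 B1 : Subalgebra R F)
    (hπ : (Ideal.span {π} : Ideal R).IsMaximal) (t_ne : t ≠ 0) (t_mem : t ∈ B0)
    (tinv_mem : t⁻¹ ∈ B1) (ov0 : ∀ x ∈ B1, ∃ k : ℕ, t ^ k * x ∈ B0)
    (ov1 : ∀ x ∈ B0, ∃ k : ℕ, t⁻¹ ^ k * x ∈ B1)
    (int1 : ∀ x ∈ B1, IsIntegral (Algebra.adjoin R {t⁻¹}) x)
    (smooth0 : ∀ x : Ideal B0, x.IsMaximal → algebraMap R B0 π ∈ x →
      ∃ s ∈ x, ∀ y ∈ x, ∃ d : B0, d ∉ x ∧ d * y ∈ Ideal.span {algebraMap R B0 π, s})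
    (x : Ideal B1) (hx : x.IsMaximal) (hπx : algebraMap R B1 π ∈ x)
    (htx : (⟨t⁻¹, tinv_mem⟩ : B1) ∉ x) :
    ∃ s ∈ x, ∀ y ∈ x, ∃ d : B1, d ∉ x ∧ d * y ∈ Ideal.span {algebraMap R B1 π, s} := by
  have h := overlap_of_contract t_ne t_mem tinv_mem ov0 ov1
  exact smooth_of_smooth_pull h x htx int1 π
    (smooth0 (pull h x) (pull_isMaximal h x htx int1 π hπ hπx) (algebraMap_mem_pull h x hπx))

/-- **`smooth0` away from `t = 0` follows from `smooth1`.** -/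
theorem smooth0_of_smooth1 (π : R) (t : F) (B0 B1 : Subalgebra R F)
    (hπ : (Ideal.span {π} : Ideal R).IsMaximal) (t_ne : t ≠ 0) (t_mem : t ∈ B0)
    (tinv_mem : t⁻¹ ∈ B1) (ov0 : ∀ x ∈ B1, ∃ k : ℕ, t ^ k * x ∈ B0)
    (ov1 : ∀ x ∈ B0, ∃ k : ℕ, t⁻¹ ^ k * x ∈ B1)
    (int0 : ∀ x ∈ B0, IsIntegral (Algebra.adjoin R {t}) x)
    (smooth1 : ∀ x : Ideal B1, x.IsMaximal → algebraMap R B1 π ∈ x →
      ∃ s ∈ x, ∀ y ∈ x, ∃ d : B1, d ∉ x ∧ d * y ∈ Ideal.span {algebraMap R B1 π, s})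
    (x : Ideal B0) (hx : x.IsMaximal) (hπx : algebraMap R B0 π ∈ x)
    (htx : (⟨t, t_mem⟩ : B0) ∉ x) :
    ∃ s ∈ x, ∀ y ∈ x, ∃ d : B0, d ∉ x ∧ d * y ∈ Ideal.span {algebraMap R B0 π, s} := by
  have h := (overlap_of_contract t_ne t_mem tinv_mem ov0 ov1).symm
  exact smooth_of_smooth_pull h x htx int0 π
    (smooth1 (pull h x) (pull_isMaximal h x htx int0 π hπ hπx) (algebraMap_mem_pull h x hπx))

/-- **The full `smooth1` from `smooth0` and `smooth1` at the points with `t⁻¹ ∈ x`.** -/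
theorem smooth1_of_smooth0_of_infty (π : R) (t : F) (B0 B1 : Subalgebra R F)
    (hπ : (Ideal.span {π} : Ideal R).IsMaximal) (t_ne : t ≠ 0) (t_mem : t ∈ B0)
    (tinv_mem : t⁻¹ ∈ B1) (ov0 : ∀ x ∈ B1, ∃ k : ℕ, t ^ k * x ∈ B0)
    (ov1 : ∀ x ∈ B0, ∃ k : ℕ, t⁻¹ ^ k * x ∈ B1)
    (int1 : ∀ x ∈ B1, IsIntegral (Algebra.adjoin R {t⁻¹}) x)
    (smooth0 : ∀ x : Ideal B0, x.IsMaximal → algebraMap R B0 π ∈ x →
      ∃ s ∈ x, ∀ y ∈ x, ∃ d : B0, d ∉ x ∧ d * y ∈ Ideal.span {algebraMap R B0 π, s})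
    (smooth_infty : ∀ x : Ideal B1, x.IsMaximal → algebraMap R B1 π ∈ x →
      (⟨t⁻¹, tinv_mem⟩ : B1) ∈ x →
      ∃ s ∈ x, ∀ y ∈ x, ∃ d : B1, d ∉ x ∧ d * y ∈ Ideal.span {algebraMap R B1 π, s}) :
    ∀ x : Ideal B1, x.IsMaximal → algebraMap R B1 π ∈ x →
      ∃ s ∈ x, ∀ y ∈ x, ∃ d : B1, d ∉ x ∧ d * y ∈ Ideal.span {algebraMap R B1 π, s} := by
  intro x hx hπx
  by_cases htx : (⟨t⁻¹, tinv_mem⟩ : B1) ∈ x
  · exact smooth_infty x hx hπx htx
  · exact smooth1_of_smooth0 π t B0 B1 hπ t_ne t_mem tinv_mem ov0 ov1 int1 smooth0 x hx hπx htx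

end Fermat.Agent.RED.PUR.OverlapTransfer18
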