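/-
Program H (S18), chapter RED/PUR (helper20): **PUR-CONCRETE** — the horizontal hypotheses at the
concrete types `O := AK A K`, `E := FK M K`, and the final targets

* `offTarget  : ModelTargets4.OffTarget n e M A cv`   (via `SmoothOffGen21.smoothOff_gen`);
* `hunrOver`, `hunrInf` : the `HUNRCusp` inputs of `CuspConcrete23.overTarget_of_hunr / infTarget_of_hunr`;
* `overTarget : ModelTargets4.OverTarget n e M A cv`, `infTarget : ModelTargets4.InfTarget n e M A`.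
-/
import Mathlib
import Fermat.Agent.RED.PUR.HorizOE20
import Fermat.Agent.RED.PUR.SmoothOffGen21
import Fermat.Agent.RED.CUSP.CuspConcrete23
import Fermat.Agent.RED.BASE.CuspFinite12

set_option autoImplicit false
set_option linter.unusedSectionVars false
set_option linter.unusedVariables false
set_option linter.style.haveILetI false

open HahnSeries ModularCurve IntermediateField
open scoped MatrixGroups

noncomputable section

namespace Fermat.Agent.RED.PUR.PurConcrete20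

open Fermat.Agent.RED.Interface4 Fermat.Agent.RED.PUR.GaussGen8 Fermat.Agent.RED.PUR.KtGauss8
  Fermat.Agent.RED.PUR.G1Package8 Fermat.Agent.RED.ModelIface4 Fermat.Agent.RED.ModelTargets4
  Fermat.Agent.RED.BASE.EtaQuot12 Fermat.Agent.X0 Fermat.Agent.RED.NumInst4
  Fermat.Agent.RED.DESC.NumberFieldDVR27 Fermat.Agent.RED.BASE.Interface12
  Fermat.Agent.RED.DESC.PlaceExtend27 Fermat.Agent.RED.BASE.Hauptmodul12
  Fermat.Agent.RED.CUSP.CuspIface23 Fermat.Agent.RED.PUR.HorizOE20 Fermat.Agent.RED.BASE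

variable {n e : ℕ} [NeZero n] {M : ℕ} [NeZero M] {A : ValuationSubring Qbar}

/-- **The horizontal data at the concrete types**, for every number field `K` containing the finite
cusp values. -/
theorem horizData_of (hb : BaseHyp n e) (hnM : n ∣ M) {ℓ : ℕ} [Fact ℓ.Prime]
    (hℓM : ¬ ℓ ∣ M) (hA : A.LiesOverPrime ℓ) (cv : SL(2, ℤ) → Option Kbar)
    (hcv : MainCusp12.CuspExports n e M cv)
    (S : Finset Kbar) (hS : ∀ (γ : SL(2, ℤ)) (c : Kbar), cv γ = some c → c ∈ S)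
    (K : IntermediateField ℚ Qbar) (hSK : ∀ x ∈ S, x ∈ K)
    (t : ↥(FK M K)) (htq : (t : LaurentSeries K) = tq K n e) :
    HorizData (AK A K) (FK M K) n e M cv t := by
  have hℓ : ℓ.Prime := Fact.out
  have hB := Main12.baseExports hb M hnM
  obtain ⟨h, hU⟩ := hB.unbranched
  obtain ⟨h', hC⟩ := hcv.cuspExp
  obtain ⟨h'', hgen⟩ := hB.isGen
  have hnA : ((n : Qbar))⁻¹ ∈ A := inv_natCast_mem hℓ hA n (fun hd => hℓM (hd.trans hnM))
  refine ⟨h, baseChangeHom M K, hU, hC, fun c hc => hgen.sub_algebraMap_ne_zero c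
    (sub_eq_zero.mpr hc), ?_, baseChangeHom_algebraMap M K,
    Fermat.Agent.RED.CUSP.RankConcrete16.baseChangeHom_eq_tF M K h t htq, exists_place_above M K⟩
  intro γ c hγ
  have hcK : c ∈ K := hSK c (hS γ c hγ)
  have hint : IsIntAway n c := by
    have h1 := hC γ
    rw [hγ] at h1
    obtain ⟨a, lam, V, -, -, -, -, hc, -⟩ := h1
    exact hc
  have hcA : c ∈ A := hint.mem_of_inv_mem A hnA (NeZero.ne n)
  exact ⟨⟨⟨c, hcK⟩, (mem_AK_iff A K _).mpr hcA⟩, rfl⟩

/-- two cusp values in `A_K` are equal or differ by a unit of `A_K`. -/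
theorem isUnit_sub_of_isUnitAway (K : IntermediateField ℚ Qbar) (a c : ↥(AK A K)) {m : ℕ}
    (hm0 : m ≠ 0) (hm : ((m : Qbar))⁻¹ ∈ A)
    (h : IsUnitAway m (algebraMap K Qbar (a : K) - algebraMap K Qbar (c : K))) :
    IsUnit (a - c) := by
  obtain ⟨h1, h2⟩ := h.inv_mem_of_inv_mem A hm hm0
  have hne : ((a : K) - (c : K)) ≠ 0 := by
    intro h0
    apply h.1
    rw [← map_sub, h0, map_zero]
  have hinv : ((a : K) - (c : K))⁻¹ ∈ AK A K := by
    rw [mem_AK_iff]
    have : ((((a : K) - (c : K))⁻¹ : K) : Qbar)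
        = (algebraMap K Qbar (a : K) - algebraMap K Qbar (c : K))⁻¹ := by
      rw [← map_sub, ← map_inv₀]; rfl
    rw [this]
    exact h2
  refine IsUnit.of_mul_eq_one ⟨_, hinv⟩ ?_
  apply Subtype.ext
  show ((a : K) - (c : K)) * ((a : K) - (c : K))⁻¹ = 1
  exact mul_inv_cancel₀ hne

/-- **PUR-concrete (P)**: (LOC) at the non-cusp closed points of the chart `t`. -/
theorem offTarget (hb : BaseHyp n e) (M : ℕ) [NeZero M] (hnM : n ∣ M) (ℓ : ℕ) [Fact ℓ.Prime]
    (hℓM : ¬ ℓ ∣ M) (A : ValuationSubring Qbar) (hA : A.LiesOverPrime ℓ)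
    (cv : SL(2, ℤ) → Option Kbar) (hcv : MainCusp12.CuspExports n e M cv) :
    OffTarget n e M A cv := by
  have hℓ : ℓ.Prime := Fact.out
  have hB := Main12.baseExports hb M hnM
  obtain ⟨K₂, hK₂, hJ⟩ := Fermat.Agent.RED.ModelFinal4.jTarget (n := n) (e := e) hB.genBase
  obtain ⟨S, hS⟩ := CuspFinite12.exists_finset_cuspValues cv hcv.cuspExp
  obtain ⟨K₀, hK₀, hle₀, hSK₀⟩ := exists_numberField K₂ S
  refine ⟨K₀, hK₀, fun K hKfd hle ϖ hϖ t htq => ?_⟩
  have hle2 : K₂ ≤ K := hle₀.trans hle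
  have hD : HorizData (AK A K) (FK M K) n e M cv t :=
    horizData_of hb hnM hℓM hA cv hcv S hS K (fun x hx => hle (hSK₀ x hx)) t htq
  have hdvr : IsDiscreteValuationRing ↥(AK A K) := isDiscreteValuationRing_AK A K hℓ.ne_zero hA
  have hchar : CharP (Res (AK A K)) ℓ := charP_residueField_AK A K hℓ hA
  have hfinres : Finite (Res (AK A K)) := finite_residueField_AK A K hℓ.ne_zero hA
  have hE : FK M K ≤ fracField (AK A K) :=
    Fermat.Agent.RED.PUR.GaussBridge10.FK_le_fracField A K M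
  have ht : ((t : ↥(FK M K)) : LaurentSeries K) ∈ gaussRing (AK A K) := by
    rw [htq]; exact tq_mem_gaussRing (AK A K) n e
  have htr : Transcendental (Res (AK A K))
      (gaussRed (AK A K) ⟨((t : ↥(FK M K)) : LaurentSeries K), ht⟩) := by
    have h1 : (⟨((t : ↥(FK M K)) : LaurentSeries K), ht⟩ : gaussRing (AK A K)) =
        ⟨tq K n e, tq_mem_gaussRing (AK A K) n e⟩ := Subtype.ext htq
    rw [h1]
    exact transcendental_gaussRed_tq (AK A K) n e
  have hjt : jqModC K ∈ Kt (AK A K) ⟨((t : ↥(FK M K)) : LaurentSeries K), ht⟩ := by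
    show jqModC K ∈ IntermediateField.adjoin K {((t : ↥(FK M K)) : LaurentSeries K)}
    rw [htq]
    exact hJ K hKfd hle2
  have htE' : ((t : ↥(FK M K)) : LaurentSeries K) ∈ FK M K := t.2
  obtain ⟨nn, -, hdeg, hirr⟩ := Fermat.Agent.RED.PUR.GaussInst25.exists_degLe_irr_FK A K hϖ ℓ M hℓM
    ⟨((t : ↥(FK M K)) : LaurentSeries K), ht⟩ htE' hjt
  have hn : relfinrank (Kt (AK A K) ⟨((t : ↥(FK M K)) : LaurentSeries K), ht⟩) (FK M K) ≠ 0 :=
    Fermat.Agent.RED.ModelMain4.relfinrank_ne_zero (AK A K) M _ htE' hjt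
  have hfd : FiniteDimensional ↥(IntermediateField.adjoin K {t}) ↥(FK M K) :=
    Fermat.Agent.RED.ModelAsm4.finiteDimensional_adjoin t hn
  have htrK : Transcendental K t :=
    Fermat.Agent.RED.ModelAsm4.transcendental_of_coe t
      (transcendental_t (tG := ⟨((t : ↥(FK M K)) : LaurentSeries K), ht⟩) hϖ htr)
  have hord := Fermat.Agent.RED.PUR.TqOrder26.isCoprime_order_gaussRed (AK A K) n e t ht htq (ℓ : ℤ)
  haveI : Algebra.IsAlgebraic K Qbar := isAlgebraic_Qbar_over K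
  letI : Algebra (Polynomial ↥(AK A K)) ↥(FK M K) :=
    Fermat.Agent.RED.PUR.IntClosBase13.polyAlgebra (A := ↥(AK A K)) t
  haveI : IsScalarTower ↥(AK A K) (Polynomial ↥(AK A K)) ↥(FK M K) :=
    Fermat.Agent.RED.PUR.IntClosBase13.polyAlgebra_isScalarTower (A := ↥(AK A K)) t
  have hX : algebraMap (Polynomial ↥(AK A K)) ↥(FK M K) Polynomial.X = t :=
    Fermat.Agent.RED.PUR.IntClosBase13.polyAlgebra_algebraMap_X (A := ↥(AK A K)) t
  exact Fermat.Agent.RED.PUR.SmoothOffGen21.smoothOff_gen (AK A K) hϖ (FK M K) hE t ht htr hdeg hirr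
    hX ℓ hord htrK (cuspSet A K cv)
    (fun x _ _ hSx => hH_noncusp hD hϖ hX (cuspSet A K cv) (fun a ha => ha) x hSx)

/-- the horizontal bridge at the cusp points over the finite cusp values
(input of `CuspConcrete23.overTarget_of_hunr`). -/
theorem hunrOver (hb : BaseHyp n e) (M : ℕ) [NeZero M] (hnM : n ∣ M) (ℓ : ℕ) [Fact ℓ.Prime]
    (hℓM : ¬ ℓ ∣ M) (A : ValuationSubring Qbar) (hA : A.LiesOverPrime ℓ)
    (cv : SL(2, ℤ) → Option Kbar) (hcv : MainCusp12.CuspExports n e M cv) :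
    EventuallyT n e M A fun K ϖ t =>
      ∀ c ∈ cuspSet A K cv, HUNRCusp (AK A K) (FK M K) ϖ t c := by
  have hℓ : ℓ.Prime := Fact.out
  obtain ⟨S, hS⟩ := CuspFinite12.exists_finset_cuspValues cv hcv.cuspExp
  obtain ⟨K₀, hK₀, -, hSK₀⟩ := exists_numberField (⊥ : IntermediateField ℚ Qbar) S
  refine ⟨K₀, hK₀, fun K hKfd hle ϖ hϖ t htq c hc => ?_⟩
  have hD : HorizData (AK A K) (FK M K) n e M cv t :=
    horizData_of hb hnM hℓM hA cv hcv S hS K (fun x hx => hle (hSK₀ x hx)) t htq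
  have hdvr : IsDiscreteValuationRing ↥(AK A K) := isDiscreteValuationRing_AK A K hℓ.ne_zero hA
  have hnA : ((n : Qbar))⁻¹ ∈ A := inv_natCast_mem hℓ hA n (fun hd => hℓM (hd.trans hnM))
  haveI : Algebra.IsAlgebraic K Qbar := isAlgebraic_Qbar_over K
  refine hUNRCusp hD hϖ c (fun a ha => ?_)
  obtain ⟨γ, hγ⟩ := ha
  obtain ⟨γ', hγ'⟩ := hc
  rcases hcv.separated γ γ' _ _ hγ hγ' with heq | hunit
  · left
    exact Subtype.ext ((algebraMap K Qbar).injective heq)
  · right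
    exact isUnit_sub_of_isUnitAway K a c (NeZero.ne n) hnA hunit

/-- the horizontal bridge at the points `t⁻¹ = 0`
(input of `CuspConcrete23.infTarget_of_hunr`). -/
theorem hunrInf (hb : BaseHyp n e) (M : ℕ) [NeZero M] (hnM : n ∣ M) (ℓ : ℕ) [Fact ℓ.Prime]
    (hℓM : ¬ ℓ ∣ M) (A : ValuationSubring Qbar) (hA : A.LiesOverPrime ℓ)
    (cv : SL(2, ℤ) → Option Kbar) (hcv : MainCusp12.CuspExports n e M cv) :
    EventuallyT n e M A fun K ϖ t => HUNRCusp (AK A K) (FK M K) ϖ t⁻¹ 0 := by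
  have hℓ : ℓ.Prime := Fact.out
  obtain ⟨S, hS⟩ := CuspFinite12.exists_finset_cuspValues cv hcv.cuspExp
  obtain ⟨K₀, hK₀, -, hSK₀⟩ := exists_numberField (⊥ : IntermediateField ℚ Qbar) S
  refine ⟨K₀, hK₀, fun K hKfd hle ϖ hϖ t htq => ?_⟩
  have hD : HorizData (AK A K) (FK M K) n e M cv t :=
    horizData_of hb hnM hℓM hA cv hcv S hS K (fun x hx => hle (hSK₀ x hx)) t htq
  have hdvr : IsDiscreteValuationRing ↥(AK A K) := isDiscreteValuationRing_AK A K hℓ.ne_zero hA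
  haveI : Algebra.IsAlgebraic K Qbar := isAlgebraic_Qbar_over K
  exact hUNRCusp_inv hD hϖ

/-- **CUSP-concrete (C)**: (LOC) at the closed points over the finite cusp values. -/
theorem overTarget (hb : BaseHyp n e) (M : ℕ) [NeZero M] (hnM : n ∣ M) (ℓ : ℕ) [Fact ℓ.Prime]
    (hℓM : ¬ ℓ ∣ M) (A : ValuationSubring Qbar) (hA : A.LiesOverPrime ℓ)
    (cv : SL(2, ℤ) → Option Kbar) (hcv : MainCusp12.CuspExports n e M cv) :
    OverTarget n e M A cv :=
  Fermat.Agent.RED.CUSP.CuspConcrete23.overTarget_of_hunr hb hnM hℓM hA cv hcv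
    (hunrOver hb M hnM ℓ hℓM A hA cv hcv)

/-- **CUSP-concrete at infinity (C∞)**: (LOC) at the closed points `t⁻¹ = 0` of the chart `t⁻¹`. -/
theorem infTarget (hb : BaseHyp n e) (M : ℕ) [NeZero M] (hnM : n ∣ M) (ℓ : ℕ) [Fact ℓ.Prime]
    (hℓM : ¬ ℓ ∣ M) (A : ValuationSubring Qbar) (hA : A.LiesOverPrime ℓ)
    (cv : SL(2, ℤ) → Option Kbar) (hcv : MainCusp12.CuspExports n e M cv) :
    InfTarget n e M A :=
  Fermat.Agent.RED.CUSP.CuspConcrete23.infTarget_of_hunr hb hnM hℓM hA cv hcv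
    (hunrInf hb M hnM ℓ hℓM A hA cv hcv)

end Fermat.Agent.RED.PUR.PurConcrete20
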