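/-
Program H (S18), chapter PUR, leaf (PL-D) (helper22): reducedness of a horizontal fibre from
unramifiedness at the height-one primes.

* `dvd_of_dvd_sq` (absolute form): `B` noetherian integrally closed domain, `g ≠ 0` generating `𝔮 B_𝔮` at
  every height-one prime `𝔮 ∋ g`; then `g ∣ z ^ 2 → g ∣ z`.
* `exists_local_generator`: a height-one prime `𝔭` of a noetherian integrally closed domain is locally
  principal: `d • 𝔭 ⊆ (g)`, `g ∈ 𝔭`, `d ∉ 𝔭`.
* `hred_of_unramified` (relative form): `R0 → B` injective, `𝔭` a height-one prime of `R0` with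
  `𝔭 B_𝔔 = 𝔔 B_𝔔` at every height-one prime `𝔔` of `B` over `𝔭`; then `B_𝔭 / 𝔭 B_𝔭` is reduced, in the
  literal shape of the hypothesis `hred` of `FibreTrace17.traceNondeg_of_reduced`.
* bridge to valuation subrings: the centre of a valuation subring `w ⊇ B` of `F = Frac B`, and the
  hypotheses above from "a uniformiser of `w` comes from `B` (resp. from `𝔭`)".
Mathlib + `Hartogs22`.
-/
import Mathlib
import Fermat.Agent.RED.PUR.Hartogs22

set_option autoImplicit false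

namespace Fermat.Agent.RED.PUR.ReducedFibre22

open Fermat.Agent.RED.PUR.Hartogs22

section Absolute

variable {B : Type*} [CommRing B] [IsDomain B] [IsNoetherianRing B] [IsIntegrallyClosed B]

/-- `z` lies in every height-one prime containing `g`, and `g` generates `𝔮 B_𝔮` there: `g ∣ z`. -/
theorem dvd_of_forall_mem (g : B) (hg : g ≠ 0)
    (h : ∀ 𝔮 : Ideal B, 𝔮.IsPrime → 𝔮.height = 1 → g ∈ 𝔮 → ∀ y ∈ 𝔮, ∃ s, s ∉ 𝔮 ∧ g ∣ s * y)
    (z : B) (hz : ∀ 𝔮 : Ideal B, 𝔮.IsPrime → 𝔮.height = 1 → g ∈ 𝔮 → z ∈ 𝔮) : g ∣ z := by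
  apply dvd_of_forall_height_one hg
  intro 𝔮 h𝔮 hht
  by_cases hg𝔮 : g ∈ 𝔮
  · exact h 𝔮 h𝔮 hht hg𝔮 z (hz 𝔮 h𝔮 hht hg𝔮)
  · exact ⟨g, hg𝔮, Dvd.intro z rfl⟩

/-- **Absolute form**: if `g` generates `𝔮 B_𝔮` at every height-one prime `𝔮 ∋ g`, then `B / g B` is
reduced. -/
theorem dvd_of_dvd_sq (g : B) (hg : g ≠ 0)
    (h : ∀ 𝔮 : Ideal B, 𝔮.IsPrime → 𝔮.height = 1 → g ∈ 𝔮 → ∀ y ∈ 𝔮, ∃ s, s ∉ 𝔮 ∧ g ∣ s * y) :
    ∀ z : B, g ∣ z ^ 2 → g ∣ z := by
  intro z hz
  apply dvd_of_forall_mem g hg h z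
  intro 𝔮 h𝔮 _ hg𝔮
  have : z ^ 2 ∈ 𝔮 := by
    obtain ⟨c, hc⟩ := hz
    rw [hc]
    exact 𝔮.mul_mem_right c hg𝔮
  exact h𝔮.mem_of_pow_mem 2 this

/-- The same for any power. -/
theorem dvd_of_dvd_pow (g : B) (hg : g ≠ 0)
    (h : ∀ 𝔮 : Ideal B, 𝔮.IsPrime → 𝔮.height = 1 → g ∈ 𝔮 → ∀ y ∈ 𝔮, ∃ s, s ∉ 𝔮 ∧ g ∣ s * y) :
    ∀ (z : B) (n : ℕ), g ∣ z ^ n → g ∣ z := by
  intro z n hz
  apply dvd_of_forall_mem g hg h z
  intro 𝔮 h𝔮 _ hg𝔮
  have : z ^ n ∈ 𝔮 := by
    obtain ⟨c, hc⟩ := hz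
    rw [hc]
    exact 𝔮.mul_mem_right c hg𝔮
  exact h𝔮.mem_of_pow_mem n this

end Absolute

section LocalGen

variable {R : Type*} [CommRing R] [IsDomain R] [IsNoetherianRing R] [IsIntegrallyClosed R]

omit [IsDomain R] [IsNoetherianRing R] [IsIntegrallyClosed R] in
/-- A prime with no nonzero prime strictly below it is minimal over every nonzero principal ideal it
contains. -/
theorem mem_minimalPrimes_span_of_lt_eq_bot (𝔭 : Ideal R) [𝔭.IsPrime]
    (hht : ∀ 𝔮 : Ideal R, 𝔮.IsPrime → 𝔮 < 𝔭 → 𝔮 = ⊥) {g : R} (hg : g ∈ 𝔭) (hg0 : g ≠ 0) :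
    𝔭 ∈ (Ideal.span {g}).minimalPrimes := by
  refine ⟨⟨inferInstance, (Ideal.span_singleton_le_iff_mem 𝔭).2 hg⟩, ?_⟩
  rintro 𝔮 ⟨h𝔮, hle⟩ h𝔮𝔭
  by_contra hne
  have hlt : 𝔮 < 𝔭 := lt_of_le_not_ge h𝔮𝔭 hne
  have := hht 𝔮 h𝔮 hlt
  rw [this] at hle
  exact hg0 (by simpa using hle)

/-- A height-one prime of a noetherian integrally closed domain is locally principal. -/
theorem exists_local_generator (𝔭 : Ideal R) [𝔭.IsPrime] (h0 : 𝔭 ≠ ⊥)
    (hht : ∀ 𝔮 : Ideal R, 𝔮.IsPrime → 𝔮 < 𝔭 → 𝔮 = ⊥) :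
    ∃ g ∈ 𝔭, g ≠ 0 ∧ ∃ d, d ∉ 𝔭 ∧ ∀ z ∈ 𝔭, ∃ e, d * z = g * e := by
  obtain ⟨g0, hg0, hg00⟩ := Submodule.exists_mem_ne_zero_of_ne_bot h0
  have hmin := mem_minimalPrimes_span_of_lt_eq_bot 𝔭 hht hg0 hg00
  -- `𝔭` is a colon ideal `(g0 : c)`
  have hcol : (Ideal.span {g0} : Submodule R R).colon {(1 : R)} = Ideal.span {g0} := by
    ext r
    rw [Submodule.mem_colon_singleton, smul_eq_mul, mul_one]
  rw [← hcol] at hmin
  obtain ⟨c, hc⟩ := Submodule.exists_eq_colon_of_mem_minimalPrimes hmin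
  have hP : ∀ r, r ∈ 𝔭 ↔ g0 ∣ r * c := by
    intro r
    rw [hc, Submodule.mem_colon_singleton, smul_eq_mul, Ideal.mem_span_singleton]
  have hcn : ¬ g0 ∣ c := by
    intro hdvd
    have : (1 : R) ∈ 𝔭 := (hP 1).2 (by rwa [one_mul])
    exact (Ideal.IsPrime.ne_top inferInstance) ((Ideal.eq_top_iff_one 𝔭).2 this)
  obtain ⟨y, hy, d, hd, -, hyz⟩ := exists_gen_of_colon hg00 hcn 𝔭 (IsNoetherian.noetherian 𝔭) hP
  refine ⟨y, hy, ?_, d, hd, hyz⟩
  rintro rfl
  obtain ⟨e, he⟩ := hyz g0 hg0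
  rw [zero_mul] at he
  rcases mul_eq_zero.1 he with h | h
  · exact hd (h ▸ 𝔭.zero_mem)
  · exact hg00 h

omit [IsNoetherianRing R] [IsIntegrallyClosed R] in
theorem lt_eq_bot_of_height_eq_one (𝔭 : Ideal R) [𝔭.IsPrime] (h : 𝔭.height = 1) :
    ∀ 𝔮 : Ideal R, 𝔮.IsPrime → 𝔮 < 𝔭 → 𝔮 = ⊥ := by
  intro 𝔮 h𝔮 hlt
  have h2 := Ideal.height_add_one_le_of_lt_of_isPrime hlt
  rw [h] at h2
  have h3 : 𝔮.height = 0 := by
    by_contra h0
    have : 1 ≤ 𝔮.height := Order.one_le_iff_ne_zero.2 h0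
    have h4 : (1 : ℕ∞) + 1 ≤ 1 := le_trans (add_le_add_left this 1) h2
    exact absurd h4 (by decide)
  exact Ideal.height_eq_zero_iff_eq_bot.1 h3

end LocalGen

section Saturated

variable {B : Type*} [CommRing B]

/-- The saturated annihilator `{b | ∃ u ∈ S, u * (b * x) ∈ P}`. -/
def satAnn (P : Ideal B) (S : Submonoid B) (x : B) : Ideal B where
  carrier := {b | ∃ u ∈ S, u * (b * x) ∈ P}
  zero_mem' := ⟨1, S.one_mem, by simp⟩
  add_mem' := by
    rintro b1 b2 ⟨u1, hu1, h1⟩ ⟨u2, hu2, h2⟩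
    refine ⟨u1 * u2, S.mul_mem hu1 hu2, ?_⟩
    have : u1 * u2 * ((b1 + b2) * x) = u2 * (u1 * (b1 * x)) + u1 * (u2 * (b2 * x)) := by ring
    rw [this]
    exact P.add_mem (P.mul_mem_left _ h1) (P.mul_mem_left _ h2)
  smul_mem' := by
    rintro a b ⟨u, hu, h⟩
    refine ⟨u, hu, ?_⟩
    have : u * (a • b * x) = a * (u * (b * x)) := by rw [smul_eq_mul]; ring
    rw [this]
    exact P.mul_mem_left _ h

theorem mem_satAnn {P : Ideal B} {S : Submonoid B} {x b : B} :
    b ∈ satAnn P S x ↔ ∃ u ∈ S, u * (b * x) ∈ P := Iff.rfl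

/-- In a noetherian ring: if no `u ∈ S` moves `z` into `P`, some multiple `c * z` has a PRIME saturated
annihilator. -/
theorem exists_prime_satAnn [IsNoetherianRing B] (P : Ideal B) (S : Submonoid B) (z : B)
    (hz : ∀ u ∈ S, u * z ∉ P) : ∃ c : B, (satAnn P S (c * z)).IsPrime := by
  classical
  let fam : Set (Ideal B) := {J | ∃ c : B, J = satAnn P S (c * z) ∧ J ≠ ⊤}
  have hne : fam.Nonempty := by
    refine ⟨satAnn P S (1 * z), 1, rfl, ?_⟩
    intro htop
    have h1 : (1 : B) ∈ satAnn P S (1 * z) := by rw [htop]; exact Submodule.mem_top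
    obtain ⟨u, hu, h⟩ := h1
    rw [one_mul, one_mul] at h
    exact hz u hu h
  obtain ⟨J, ⟨c, rfl, hJtop⟩, hmax⟩ := set_has_maximal_iff_noetherian.mpr
    (inferInstanceAs (IsNoetherian B B)) fam hne
  refine ⟨c, Ideal.isPrime_iff.mpr ⟨hJtop, ?_⟩⟩
  intro a b hab
  by_contra hcon
  push Not at hcon
  obtain ⟨ha, hb⟩ := hcon
  have hle : satAnn P S (c * z) ≤ satAnn P S (a * c * z) := by
    rintro b' ⟨u, hu, h⟩
    refine ⟨u, hu, ?_⟩
    have : u * (b' * (a * c * z)) = a * (u * (b' * (c * z))) := by ring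
    rw [this]
    exact P.mul_mem_left _ h
  have htop : satAnn P S (a * c * z) ≠ ⊤ := by
    intro htop
    have h1 : (1 : B) ∈ satAnn P S (a * c * z) := by rw [htop]; exact Submodule.mem_top
    obtain ⟨u, hu, h⟩ := h1
    apply ha
    refine ⟨u, hu, ?_⟩
    have : u * (a * (c * z)) = u * (1 * (a * c * z)) := by ring
    rw [this]
    exact h
  have hnlt := hmax (satAnn P S (a * c * z)) ⟨a * c, rfl, htop⟩
  have heq : satAnn P S (c * z) = satAnn P S (a * c * z) := by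
    by_contra hne'
    exact hnlt (lt_of_le_of_ne hle hne')
  apply hb
  rw [heq]
  obtain ⟨u, hu, h⟩ := hab
  refine ⟨u, hu, ?_⟩
  have : u * (b * (a * c * z)) = u * (a * b * (c * z)) := by ring
  rw [this]
  exact h

end Saturated

section Relative

variable {R0 B : Type*} [CommRing R0] [IsDomain R0] [IsNoetherianRing R0] [IsIntegrallyClosed R0]
  [CommRing B] [IsDomain B] [IsNoetherianRing B] [IsIntegrallyClosed B] [Algebra R0 B]

/-- **Relative form**: `𝔭` a height-one prime of `R0`, unramified at every height-one prime `𝔔` of `B`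
over `𝔭` (`𝔭 B_𝔔 = 𝔔 B_𝔔`).  Then `B_𝔭 / 𝔭 B_𝔭` is reduced, in the literal shape of `hred`. -/
theorem hred_of_unramified (hinj : Function.Injective (algebraMap R0 B)) (𝔭 : Ideal R0) [𝔭.IsPrime]
    (h0 : 𝔭 ≠ ⊥) (hht : ∀ 𝔮 : Ideal R0, 𝔮.IsPrime → 𝔮 < 𝔭 → 𝔮 = ⊥)
    (h : ∀ 𝔔 : Ideal B, 𝔔.IsPrime → 𝔔.height = 1 → 𝔔.comap (algebraMap R0 B) = 𝔭 →
      ∀ y ∈ 𝔔, ∃ s, s ∉ 𝔔 ∧ s * y ∈ 𝔭.map (algebraMap R0 B)) :
    ∀ z : B, z ^ 2 ∈ 𝔭.map (algebraMap R0 B) →
      ∃ s : R0, s ∉ 𝔭 ∧ s • z ∈ 𝔭.map (algebraMap R0 B) := by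
  classical
  intro z hz2
  by_contra hcon
  push Not at hcon
  set φ := algebraMap R0 B with hφ
  set P : Ideal B := 𝔭.map φ with hPdef
  let S : Submonoid B := Submonoid.map φ 𝔭.primeCompl
  have hS : ∀ u ∈ S, ∃ s : R0, s ∉ 𝔭 ∧ φ s = u := by
    rintro u ⟨s, hs, rfl⟩
    exact ⟨s, hs, rfl⟩
  have hSmem : ∀ s : R0, s ∉ 𝔭 → φ s ∈ S := fun s hs => ⟨s, hs, rfl⟩
  have hz : ∀ u ∈ S, u * z ∉ P := by
    intro u hu
    obtain ⟨s, hs, rfl⟩ := hS u hu
    have := hcon s hs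
    rwa [Algebra.smul_def] at this
  obtain ⟨c, hprime⟩ := exists_prime_satAnn P S z hz
  set w := c * z with hw
  set 𝔔 := satAnn P S w with h𝔔
  -- (a) `P ≤ 𝔔`
  have hP𝔔 : P ≤ 𝔔 := by
    intro b hb
    exact ⟨1, S.one_mem, by rw [one_mul]; exact P.mul_mem_right _ hb⟩
  -- `S` is disjoint from `𝔔`
  have hdisj : ∀ u ∈ S, u ∉ 𝔔 := by
    rintro u hu ⟨u', hu', h'⟩
    apply hprime.ne_top
    rw [Ideal.eq_top_iff_one]
    refine ⟨u' * u, S.mul_mem hu' hu, ?_⟩
    have : u' * u * (1 * w) = u' * (u * w) := by ring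
    rw [this]
    exact h'
  -- (b) `𝔔` lies over `𝔭`
  have hcomap : 𝔔.comap φ = 𝔭 := by
    ext r
    rw [Ideal.mem_comap]
    constructor
    · intro hr
      by_contra hr𝔭
      exact hdisj (φ r) (hSmem r hr𝔭) hr
    · intro hr
      exact hP𝔔 (Ideal.mem_map_of_mem φ hr)
  -- (c) a uniform multiplier
  have hunif : ∃ u0 ∈ S, ∀ b ∈ 𝔔, u0 * (b * w) ∈ P := by
    obtain ⟨T, hT⟩ := (IsNoetherian.noetherian 𝔔 : 𝔔.FG)
    have hTmem : ∀ t ∈ T, ∃ u ∈ S, u * (t * w) ∈ P := by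
      intro t ht
      have : t ∈ 𝔔 := by rw [← hT]; exact Submodule.subset_span ht
      exact this
    choose! uf huf huf' using hTmem
    refine ⟨∏ t ∈ T, uf t, S.prod_mem (fun t ht => huf t ht), ?_⟩
    intro b hb
    rw [← hT] at hb
    induction hb using Submodule.span_induction with
    | mem t ht =>
      have hdvd : uf t ∣ ∏ t ∈ T, uf t := Finset.dvd_prod_of_mem uf ht
      obtain ⟨k, hk⟩ := hdvd
      rw [hk]
      have : uf t * k * (t * w) = k * (uf t * (t * w)) := by ring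
      rw [this]
      exact P.mul_mem_left _ (huf' t ht)
    | zero => simp
    | add x y _ _ hx hy =>
      have : (∏ t ∈ T, uf t) * ((x + y) * w) =
          (∏ t ∈ T, uf t) * (x * w) + (∏ t ∈ T, uf t) * (y * w) := by ring
      rw [this]
      exact P.add_mem hx hy
    | smul a x _ hx =>
      have : (∏ t ∈ T, uf t) * (a • x * w) = a * ((∏ t ∈ T, uf t) * (x * w)) := by
        rw [smul_eq_mul]; ring
      rw [this]
      exact P.mul_mem_left _ hx
  obtain ⟨u0, hu0, hu0'⟩ := hunif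
  -- (d) `𝔔` is a colon ideal of a principal ideal
  obtain ⟨g, hg, hg0, d, hd, hgd⟩ := exists_local_generator 𝔭 h0 hht
  have hG0 : φ g ≠ 0 := by
    intro h'
    exact hg0 (hinj (by rw [h', map_zero]))
  have hDP : ∀ p ∈ P, φ g ∣ φ d * p := by
    intro p hp
    rw [hPdef] at hp
    induction hp using Submodule.span_induction with
    | mem x hx =>
      obtain ⟨r, hr, rfl⟩ := hx
      obtain ⟨e, he⟩ := hgd r hr
      refine ⟨φ e, ?_⟩
      rw [← map_mul, ← map_mul, he]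
    | zero => simp
    | add x y _ _ hx hy =>
      rw [mul_add]
      exact dvd_add hx hy
    | smul a x _ hx =>
      rw [smul_eq_mul, mul_left_comm]
      exact Dvd.dvd.mul_left hx a
  have hGP : φ g ∈ P := Ideal.mem_map_of_mem φ hg
  have hcolon : ∀ b, b ∈ 𝔔 ↔ φ g ∣ b * (φ d * u0 * w) := by
    intro b
    constructor
    · intro hb
      have h1 := hDP _ (hu0' b hb)
      have : b * (φ d * u0 * w) = φ d * (u0 * (b * w)) := by ring
      rw [this]
      exact h1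
    · rintro ⟨k, hk⟩
      refine ⟨φ d * u0, S.mul_mem (hSmem d hd) hu0, ?_⟩
      have : φ d * u0 * (b * w) = b * (φ d * u0 * w) := by ring
      rw [this, hk]
      exact P.mul_mem_right _ hGP
  have hndvd : ¬ φ g ∣ φ d * u0 * w := by
    intro hdvd
    apply hprime.ne_top
    rw [Ideal.eq_top_iff_one, hcolon, one_mul]
    exact hdvd
  have hheight : 𝔔.height = 1 := height_eq_one_of_colon hG0 hndvd 𝔔 hcolon
  -- (e) the contradiction
  have hz𝔔 : z ∈ 𝔔 := hprime.mem_of_pow_mem 2 (hP𝔔 hz2)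
  have hw𝔔 : w ∈ 𝔔 := 𝔔.mul_mem_left c hz𝔔
  obtain ⟨s, hs, hsw⟩ := h 𝔔 hprime hheight hcomap w hw𝔔
  apply hs
  exact ⟨1, S.one_mem, by rw [one_mul]; exact hsw⟩

end Relative

section Bridge

variable {B : Type*} [CommRing B] [IsDomain B]
variable {F : Type*} [Field F] [Algebra B F] [IsFractionRing B F]

omit [IsDomain B] [IsFractionRing B F] in
/-- The centre on `B` of a valuation subring `w ⊇ B` of `F`. -/
def center (w : ValuationSubring F) (hB : ∀ b : B, algebraMap B F b ∈ w) : Ideal B where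
  carrier := {b | w.valuation (algebraMap B F b) < 1}
  zero_mem' := by
    show w.valuation (algebraMap B F 0) < 1
    rw [map_zero, map_zero]
    exact zero_lt_one
  add_mem' := by
    intro a b ha hb
    show w.valuation (algebraMap B F (a + b)) < 1
    rw [map_add]
    exact lt_of_le_of_lt (Valuation.map_add _ _ _) (max_lt ha hb)
  smul_mem' := by
    intro c b hb
    show w.valuation (algebraMap B F (c • b)) < 1
    rw [smul_eq_mul, map_mul, map_mul]
    have hc : w.valuation (algebraMap B F c) ≤ 1 := (w.valuation_le_one_iff _).2 (hB c)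
    calc w.valuation (algebraMap B F c) * w.valuation (algebraMap B F b)
        ≤ 1 * w.valuation (algebraMap B F b) := mul_le_mul_left hc _
      _ = w.valuation (algebraMap B F b) := one_mul _
      _ < 1 := hb

omit [IsDomain B] [IsFractionRing B F] in
theorem mem_center_iff {w : ValuationSubring F} {hB : ∀ b : B, algebraMap B F b ∈ w} {b : B} :
    b ∈ center w hB ↔ w.valuation (algebraMap B F b) < 1 := Iff.rfl

omit [IsDomain B] [IsFractionRing B F] in
instance center_isPrime (w : ValuationSubring F) (hB : ∀ b : B, algebraMap B F b ∈ w) :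
    (center w hB).IsPrime := by
  refine Ideal.isPrime_iff.mpr ⟨?_, ?_⟩
  · intro htop
    have h1 : (1 : B) ∈ center w hB := by rw [htop]; exact Submodule.mem_top
    rw [mem_center_iff, map_one, map_one] at h1
    exact lt_irrefl _ h1
  · intro a b hab
    rw [mem_center_iff, map_mul, map_mul] at hab
    by_contra hcon
    push Not at hcon
    obtain ⟨ha, hb⟩ := hcon
    rw [mem_center_iff, not_lt] at ha hb
    have ha1 : w.valuation (algebraMap B F a) = 1 :=
      le_antisymm ((w.valuation_le_one_iff _).2 (hB a)) ha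
    have hb1 : w.valuation (algebraMap B F b) = 1 :=
      le_antisymm ((w.valuation_le_one_iff _).2 (hB b)) hb
    rw [ha1, hb1, one_mul] at hab
    exact lt_irrefl _ hab

variable [IsNoetherianRing B] [IsIntegrallyClosed B]

/-- The centre of `B_𝔮` is `𝔮`. -/
theorem center_valuationSubringAt (𝔮 : Ideal B) [𝔮.IsPrime] (h : 𝔮.height = 1) :
    center (valuationSubringAt (K := F) 𝔮 h) (algebraMap_mem_valuationSubringAt 𝔮 h) = 𝔮 := by
  ext b
  rw [mem_center_iff, valuation_algebraMap_lt_one_iff]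

/-- A valuation subring `w ⊇ B` whose centre has height one is the localisation at its centre. -/
theorem eq_valuationSubringAt_center (w : ValuationSubring F)
    (hB : ∀ b : B, algebraMap B F b ∈ w) (h : (center w hB).height = 1) :
    w = valuationSubringAt (center w hB) h :=
  eq_valuationSubringAt_of_center w (center w hB) h hB (fun _ => Iff.rfl)

/-- If `τ ∈ B` is a uniformiser of `w ⊇ B` (`v y < 1 → v y ≤ v τ`), and the centre `𝔮` of `w` has height
one, then `τ` generates `𝔮 B_𝔮`. -/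
theorem exists_mul_dvd_of_uniformizer (w : ValuationSubring F)
    (hB : ∀ b : B, algebraMap B F b ∈ w) (h : (center w hB).height = 1) (τ : B)
    (hτ : ∀ y : F, w.valuation y < 1 → w.valuation y ≤ w.valuation (algebraMap B F τ)) :
    ∀ y ∈ center w hB, ∃ s, s ∉ center w hB ∧ τ ∣ s * y := by
  intro y hy
  have hinj := IsFractionRing.injective B F
  by_cases hτ0 : τ = 0
  · -- then `y = 0`
    have h1 := hτ _ hy
    rw [hτ0, map_zero, map_zero, le_zero_iff, Valuation.zero_iff] at h1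
    have hy0 : y = 0 := hinj (by rw [h1, map_zero])
    refine ⟨1, fun h1' => ?_, by rw [hy0, mul_zero, hτ0]⟩
    exact (center_isPrime w hB).ne_top ((Ideal.eq_top_iff_one _).2 h1')
  have hτF : algebraMap B F τ ≠ 0 := by simpa using hinj.ne hτ0
  have hmem : algebraMap B F y / algebraMap B F τ ∈ w := by
    rw [← w.valuation_le_one_iff, map_div₀]
    have hv0 : w.valuation (algebraMap B F τ) ≠ 0 := (Valuation.ne_zero_iff _).2 hτF
    exact (div_le_one₀ (zero_lt_iff.2 hv0)).2 (hτ _ hy)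
  rw [eq_valuationSubringAt_center w hB h, mem_valuationSubringAt_iff] at hmem
  obtain ⟨a, s, hs, e⟩ := hmem
  refine ⟨s, hs, a, ?_⟩
  apply hinj
  rw [map_mul, map_mul, ← e]
  field_simp

omit [IsNoetherianRing B] [IsIntegrallyClosed B] [IsDomain B] [IsFractionRing B F] in
/-- Uniformiser in the valuation-inequality form, from a generator of the maximal ideal. -/
theorem uniformizer_of_maximalIdeal_eq_span (w : ValuationSubring F) (ϖ : w)
    (hϖ : IsLocalRing.maximalIdeal w = Ideal.span {ϖ}) :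
    ∀ y : F, w.valuation y < 1 → w.valuation y ≤ w.valuation (ϖ : F) := by
  intro y hy
  have hyw : y ∈ w := (w.valuation_le_one_iff y).1 hy.le
  have hmem : (⟨y, hyw⟩ : w) ∈ IsLocalRing.maximalIdeal w := by
    rw [w.valuation_lt_one_iff]
    exact hy
  rw [hϖ, Ideal.mem_span_singleton] at hmem
  obtain ⟨c, hc⟩ := hmem
  have hyc : y = (ϖ : F) * (c : F) := congrArg Subtype.val hc
  rw [hyc, map_mul]
  have hc1 : w.valuation (c : F) ≤ 1 := (w.valuation_le_one_iff _).2 c.2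
  calc w.valuation (ϖ : F) * w.valuation (c : F) ≤ w.valuation (ϖ : F) * 1 :=
        mul_le_mul_right hc1 _
    _ = w.valuation (ϖ : F) := mul_one _

end Bridge

section Final

variable {R0 B : Type*} [CommRing R0] [IsDomain R0] [IsNoetherianRing R0] [IsIntegrallyClosed R0]
  [CommRing B] [IsDomain B] [IsNoetherianRing B] [IsIntegrallyClosed B] [Algebra R0 B]
variable {F : Type*} [Field F] [Algebra B F] [IsFractionRing B F]

/-- **`hred` from valuations.**  `𝔭` a height-one prime of `R0`, `τ ∈ 𝔭`; assume that for every discrete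
valuation subring `w ⊇ B` of `F = Frac B` whose centre lies over `𝔭`, (the image of) `τ` is a
uniformiser of `w`.  Then `B_𝔭 / 𝔭 B_𝔭` is reduced (literal shape of `hred`). -/
theorem hred_of_valuations (hinj : Function.Injective (algebraMap R0 B)) (𝔭 : Ideal R0) [𝔭.IsPrime]
    (h0 : 𝔭 ≠ ⊥) (hht : ∀ 𝔮 : Ideal R0, 𝔮.IsPrime → 𝔮 < 𝔭 → 𝔮 = ⊥) (τ : R0) (hτ𝔭 : τ ∈ 𝔭)
    (hw : ∀ (w : ValuationSubring F) (hB : ∀ b : B, algebraMap B F b ∈ w), w ≠ ⊤ →
      IsDiscreteValuationRing w → (center w hB).comap (algebraMap R0 B) = 𝔭 →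
      ∀ y : F, w.valuation y < 1 →
        w.valuation y ≤ w.valuation (algebraMap B F (algebraMap R0 B τ))) :
    ∀ z : B, z ^ 2 ∈ 𝔭.map (algebraMap R0 B) →
      ∃ s : R0, s ∉ 𝔭 ∧ s • z ∈ 𝔭.map (algebraMap R0 B) := by
  apply hred_of_unramified hinj 𝔭 h0 hht
  intro 𝔔 h𝔔 hht𝔔 hcomap y hy
  set w := valuationSubringAt (K := F) 𝔔 hht𝔔 with hwdef
  have hB : ∀ b : B, algebraMap B F b ∈ w := algebraMap_mem_valuationSubringAt 𝔔 hht𝔔
  have hcen : center w hB = 𝔔 := center_valuationSubringAt 𝔔 hht𝔔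
  have hcen1 : (center w hB).height = 1 := by rw [hcen]; exact hht𝔔
  have hunif := hw w hB (valuationSubringAt_ne_top 𝔔 hht𝔔) inferInstance (by rw [hcen]; exact hcomap)
  have hy' : y ∈ center w hB := by rw [hcen]; exact hy
  obtain ⟨s, hs, hdvd⟩ := exists_mul_dvd_of_uniformizer w hB hcen1 (algebraMap R0 B τ) hunif y hy'
  refine ⟨s, by rwa [hcen] at hs, ?_⟩
  obtain ⟨k, hk⟩ := hdvd
  rw [hk]
  exact Ideal.mul_mem_right _ _ (Ideal.mem_map_of_mem _ hτ𝔭)

end Final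

end Fermat.Agent.RED.PUR.ReducedFibre22
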