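/-
Program H (S18), chapter RED/PUR (helper17): the ABSTRACT VERTICAL BRIDGE, Mathlib only.

Produces the two vertical hypotheses `hB`, `hsep` of `FibreTrace17.traceNondeg_of_separable`
from a "reduction map": `φ : R0 → k0`, `ψ : B → L` compatible ring homomorphisms into fields
`k0 ⊂ L` such that
* every element of `k0` is a fraction of elements of `φ(R0)`          (`k0 = Frac (R0/π)`),
* `ker ψ = π B`                                                       (saturation),
* every `ψ z` is separable over `k0`.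

* `exists_map_eq_C_mul` : clearing denominators of a polynomial over `k0`.
* `isPrime_span_of_ker` : `π B` is prime.
* `exists_simple_root_of_isSeparable` : every `z : B` is modulo `π` a simple root of a polynomial
  over `R0`.
-/
import Mathlib

set_option autoImplicit false

namespace Fermat.Agent.RED.PUR.VertBridge17

open Polynomial

variable {R0 B k0 L : Type*} [CommRing R0] [CommRing B] [Algebra R0 B] [Field k0] [Field L]
  [Algebra k0 L]

/-- Clearing denominators: if every element of the field `k0` is a fraction of elements of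
`φ(R0)`, every polynomial over `k0` is, up to a nonzero constant `φ d`, the image of a polynomial
over `R0`. -/
theorem exists_map_eq_C_mul (φ : R0 →+* k0)
    (hfrac : ∀ c : k0, ∃ a b : R0, φ b ≠ 0 ∧ c * φ b = φ a) (q : k0[X]) :
    ∃ (d : R0) (p : R0[X]), φ d ≠ 0 ∧ p.map φ = C (φ d) * q := by
  induction q using Polynomial.induction_on' with
  | add q1 q2 h1 h2 =>
    obtain ⟨d1, p1, hd1, hp1⟩ := h1
    obtain ⟨d2, p2, hd2, hp2⟩ := h2
    refine ⟨d1 * d2, C d2 * p1 + C d1 * p2, ?_, ?_⟩
    · rw [map_mul]; exact mul_ne_zero hd1 hd2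
    · simp only [Polynomial.map_add, Polynomial.map_mul, Polynomial.map_C, hp1, hp2, map_mul]
      ring
  | monomial n c =>
    obtain ⟨a, b, hb, hab⟩ := hfrac c
    refine ⟨b, monomial n a, hb, ?_⟩
    rw [Polynomial.map_monomial, C_mul_monomial, ← hab, mul_comm]

variable (π : R0) (φ : R0 →+* k0) (ψ : B →+* L)

/-- `π B` is prime as soon as it is the kernel of a ring homomorphism into a field. -/
theorem isPrime_span_of_ker (hker : ∀ z : B, ψ z = 0 ↔ algebraMap R0 B π ∣ z) :
    (Ideal.span {algebraMap R0 B π}).IsPrime := by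
  have h : Ideal.span {algebraMap R0 B π} = RingHom.ker ψ := by
    ext z
    rw [Ideal.mem_span_singleton, RingHom.mem_ker, hker]
  rw [h]
  exact RingHom.ker_isPrime ψ

/-- Compatibility of evaluation with the reduction maps. -/
theorem aeval_map_eq (hcomm : (algebraMap k0 L).comp φ = ψ.comp (algebraMap R0 B))
    (p : R0[X]) (z : B) : aeval (ψ z) (p.map φ) = ψ (aeval z p) := by
  rw [aeval_def, eval₂_map, hcomm, ← hom_eval₂, aeval_def]

/-- **Vertical bridge, `hsep`.**  If `ψ z` is separable over `k0`, then `z` is modulo `π` a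
simple root of a polynomial over `R0`. -/
theorem exists_simple_root_of_isSeparable
    (hcomm : (algebraMap k0 L).comp φ = ψ.comp (algebraMap R0 B))
    (hfrac : ∀ c : k0, ∃ a b : R0, φ b ≠ 0 ∧ c * φ b = φ a)
    (hker : ∀ z : B, ψ z = 0 ↔ algebraMap R0 B π ∣ z)
    (z : B) (hz : IsSeparable k0 (ψ z)) :
    ∃ p : R0[X], algebraMap R0 B π ∣ aeval z p ∧ ¬ algebraMap R0 B π ∣ aeval z (derivative p) := by
  obtain ⟨d, p, hd, hp⟩ := exists_map_eq_C_mul φ hfrac (minpoly k0 (ψ z))
  have hd' : algebraMap k0 L (φ d) ≠ 0 := by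
    rwa [Ne, map_eq_zero]
  refine ⟨p, ?_, ?_⟩
  · rw [← hker, ← aeval_map_eq φ ψ hcomm, hp, map_mul, minpoly.aeval, mul_zero]
  · rw [← hker, ← aeval_map_eq φ ψ hcomm, ← derivative_map, hp, derivative_mul, derivative_C,
      zero_mul, zero_add, map_mul, aeval_C]
    exact mul_ne_zero hd' (hz.aeval_derivative_ne_zero (minpoly.aeval _ _))

/-- **Vertical bridge**, both outputs together: the hypotheses `hB`, `hsep` of
`FibreTrace17.traceNondeg_of_separable`. -/
theorem vertical_bridge
    (hcomm : (algebraMap k0 L).comp φ = ψ.comp (algebraMap R0 B))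
    (hfrac : ∀ c : k0, ∃ a b : R0, φ b ≠ 0 ∧ c * φ b = φ a)
    (hker : ∀ z : B, ψ z = 0 ↔ algebraMap R0 B π ∣ z)
    (hsepL : ∀ z : B, IsSeparable k0 (ψ z)) :
    (Ideal.span {algebraMap R0 B π}).IsPrime ∧
      ∀ z : B, ∃ p : R0[X], algebraMap R0 B π ∣ aeval z p ∧
        ¬ algebraMap R0 B π ∣ aeval z (derivative p) :=
  ⟨isPrime_span_of_ker π ψ hker,
    fun z => exists_simple_root_of_isSeparable π φ ψ hcomm hfrac hker z (hsepL z)⟩

end Fermat.Agent.RED.PUR.VertBridge17
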